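import Mathlib

/-!
P10 / S28, module [G], abstract layer (pure algebra).

Setting: a field `F`, a subring `V` ("Gauss valuation ring") with an element `π ∈ V`, a ring
hom `red : V →+* L` into a field with kernel `π V`, such that every nonzero element of `F` is
`π ^ n * u` with `u` a unit of `V`; an intermediate field `E` of `F` containing `π`.
Put `R := V ∩ E` (as a subring `RE` of `E`).

Results:
* `RE` is integrally closed with fraction field `E`;
* if `b : ι → V` has reductions that are independent over `red R` and `card ι ≥ [F : E]`,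
  then `b` is an `E`-basis of `F`, `V = ⊕ R b i`, and every element of `V` is integral over `R`.
-/

set_option autoImplicit false

namespace Fermat.Agent.S28.FreeBasisAbs

open Polynomial

variable {F L : Type*} [Field F] [Field L]

/-- An abstract Gauss valuation ring: `π ∈ V` generates the kernel of `red`, and every nonzero
element of `F` is a power of `π` times a unit of `V`. -/
structure IsGaussRing (V : Subring F) (π : F) (red : V →+* L) : Prop where
  pi_mem : π ∈ V
  pi_ne_zero : π ≠ 0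
  red_pi : ∀ h : π ∈ V, red ⟨π, h⟩ = 0
  ker : ∀ x : V, red x = 0 → ∃ y : V, (x : F) = π * y
  unit : ∀ x : F, x ≠ 0 → ∃ (n : ℤ) (u : F), u ∈ V ∧ u⁻¹ ∈ V ∧ x = π ^ n * u

section
variable {V : Subring F} {π : F} {red : V →+* L}

theorem IsGaussRing.zpow_mem (h : IsGaussRing V π red) {n : ℤ} (hn : 0 ≤ n) : π ^ n ∈ V := by
  obtain ⟨m, rfl⟩ := Int.eq_ofNat_of_zero_le hn
  rw [zpow_natCast]
  exact pow_mem h.pi_mem m

theorem IsGaussRing.red_ne_zero_of_unit (h : IsGaussRing V π red) {u : F} (hu : u ∈ V)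
    (hu' : u⁻¹ ∈ V) (hu0 : u ≠ 0) : red ⟨u, hu⟩ ≠ 0 := by
  intro h0
  have h1 : red ⟨u, hu⟩ * red ⟨u⁻¹, hu'⟩ = 1 := by
    rw [← map_mul]
    have : (⟨u, hu⟩ : V) * ⟨u⁻¹, hu'⟩ = 1 := by
      apply Subtype.ext
      simp [mul_inv_cancel₀ hu0]
    rw [this, map_one]
  rw [h0, zero_mul] at h1
  exact zero_ne_one h1

theorem IsGaussRing.red_pi_mul (h : IsGaussRing V π red) {x : F} (hx : x ∈ V)
    (hpx : π * x ∈ V) : red ⟨π * x, hpx⟩ = 0 := by
  have : (⟨π * x, hpx⟩ : V) = ⟨π, h.pi_mem⟩ * ⟨x, hx⟩ := rfl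
  rw [this, map_mul, h.red_pi, zero_mul]

theorem IsGaussRing.mem_or_inv_mem (h : IsGaussRing V π red) (x : F) : x ∈ V ∨ x⁻¹ ∈ V := by
  by_cases hx : x = 0
  · left; rw [hx]; exact zero_mem V
  obtain ⟨n, u, hu, hu', rfl⟩ := h.unit x hx
  rcases le_total 0 n with hn | hn
  · left
    exact mul_mem (h.zpow_mem hn) hu
  · right
    rw [mul_inv, ← zpow_neg]
    exact mul_mem (h.zpow_mem (by omega)) hu'

/-- The valuation subring attached to an abstract Gauss ring. -/
def IsGaussRing.valuationSubring (h : IsGaussRing V π red) : ValuationSubring F :=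
  { V with mem_or_inv_mem' := h.mem_or_inv_mem }

theorem IsGaussRing.mem_valuationSubring (h : IsGaussRing V π red) (x : F) :
    x ∈ h.valuationSubring ↔ x ∈ V := Iff.rfl

/-- `V` is integrally closed in `F`. -/
theorem IsGaussRing.mem_of_isIntegral (h : IsGaussRing V π red) {x : F}
    (hx : IsIntegral V x) : x ∈ V := by
  have hx' : IsIntegral h.valuationSubring x := hx
  obtain ⟨y, hy⟩ := IsIntegrallyClosed.isIntegral_iff.mp hx'
  rw [← hy]
  exact y.2

end

section Inter

variable {K₀ : Type*} [Field K₀] [Algebra K₀ F]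
variable {V : Subring F} {π : F} {red : V →+* L} {E : IntermediateField K₀ F}

/-- `R = V ∩ E`, as a subring of `E`. -/
def RE (V : Subring F) (E : IntermediateField K₀ F) : Subring E :=
  V.comap (algebraMap E F)

theorem mem_RE_iff (x : E) : x ∈ RE V E ↔ (x : F) ∈ V := Iff.rfl

instance instIsScalarTowerRE : IsScalarTower (RE V E) E F :=
  IsScalarTower.of_algebraMap_eq fun _ => rfl

theorem algebraMap_RE_apply (x : RE V E) : algebraMap (RE V E) F x = ((x : E) : F) := rfl

/-- Every nonzero element of `E` is a power of `π` times a unit of `R = V ∩ E`. -/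
theorem IsGaussRing.exists_zpow_mul_unit (h : IsGaussRing V π red) (hπE : π ∈ E) {c : F}
    (hc : c ∈ E) (hc0 : c ≠ 0) :
    ∃ (n : ℤ) (u : F), u ∈ V ∧ u⁻¹ ∈ V ∧ u ∈ E ∧ u ≠ 0 ∧ c = π ^ n * u := by
  obtain ⟨n, u, hu, hu', rfl⟩ := h.unit c hc0
  have hu0 : u ≠ 0 := right_ne_zero_of_mul hc0
  have hpn : π ^ n ≠ 0 := zpow_ne_zero n h.pi_ne_zero
  refine ⟨n, u, hu, hu', ?_, hu0, rfl⟩
  have : u = (π ^ n)⁻¹ * (π ^ n * u) := by
    rw [← mul_assoc, inv_mul_cancel₀ hpn, one_mul]
  rw [this]
  exact E.mul_mem (E.inv_mem (_root_.zpow_mem hπE n)) hc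

/-- Scaling lemma: a finite family of elements of `E`, not all zero, can be scaled by a power of
`π` so that all members lie in `V` and one of them has nonzero reduction. -/
theorem IsGaussRing.exists_scaling (h : IsGaussRing V π red) (hπE : π ∈ E) {ι : Type*}
    [Finite ι] (c : ι → F) (hc : ∀ i, c i ∈ E) (hne : ∃ i, c i ≠ 0) :
    ∃ n : ℤ, (∀ i, π ^ n * c i ∈ V) ∧ ∃ (i : ι) (hi : π ^ n * c i ∈ V), red ⟨_, hi⟩ ≠ 0 := by
  classical
  haveI : Fintype ι := Fintype.ofFinite ι
  -- choose the exponents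
  have hex : ∀ i, ∃ (n : ℤ) (u : F), c i ≠ 0 → (u ∈ V ∧ u⁻¹ ∈ V ∧ u ≠ 0 ∧ c i = π ^ n * u) := by
    intro i
    by_cases hi : c i = 0
    · exact ⟨0, 0, fun h' => absurd hi h'⟩
    · obtain ⟨n, u, hu, hu', -, hu0, he⟩ := h.exists_zpow_mul_unit hπE (hc i) hi
      exact ⟨n, u, fun _ => ⟨hu, hu', hu0, he⟩⟩
  choose n u hnu using hex
  set s : Finset ι := Finset.univ.filter (fun i => c i ≠ 0) with hs
  have hsne : s.Nonempty := by
    obtain ⟨i, hi⟩ := hne
    exact ⟨i, by simp [hs, hi]⟩
  obtain ⟨i₀, hi₀s, hmin⟩ := s.exists_min_image n hsne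
  have hi₀ : c i₀ ≠ 0 := by
    have := hi₀s
    simp only [hs, Finset.mem_filter, Finset.mem_univ, true_and] at this
    exact this
  have hkey : ∀ i, π ^ (-n i₀) * c i ∈ V := by
    intro i
    by_cases hi : c i = 0
    · rw [hi, mul_zero]; exact zero_mem V
    · obtain ⟨hu, -, -, he⟩ := hnu i hi
      have hle : n i₀ ≤ n i := hmin i (by simp [hs, hi])
      have : π ^ (-n i₀) * c i = π ^ (n i - n i₀) * u i := by
        rw [he, ← mul_assoc, ← zpow_add₀ h.pi_ne_zero]
        congr 2
        ring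
      rw [this]
      exact mul_mem (h.zpow_mem (by omega)) hu
  refine ⟨-n i₀, hkey, i₀, hkey i₀, ?_⟩
  obtain ⟨hu, hu', hu0, he⟩ := hnu i₀ hi₀
  have h1 : π ^ (-n i₀) * c i₀ = u i₀ := by
    rw [he, ← mul_assoc, ← zpow_add₀ h.pi_ne_zero]
    simp
  have h2 : (⟨π ^ (-n i₀) * c i₀, hkey i₀⟩ : V) = ⟨u i₀, hu⟩ := Subtype.ext h1
  rw [h2]
  exact h.red_ne_zero_of_unit hu hu' hu0

/-- The reductions of the family `b` are linearly independent over the reduction of
`R = V ∩ E`. -/
def RedIndep (red : V →+* L) (E : IntermediateField K₀ F) {ι : Type*} [Fintype ι]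
    (b : ι → V) : Prop :=
  ∀ c : ι → V, (∀ i, (c i : F) ∈ E) → ∑ i, red (c i) * red (b i) = 0 → ∀ i, red (c i) = 0

variable {ι : Type*} [Fintype ι] {b : ι → V}

theorem IsGaussRing.linearIndependent (h : IsGaussRing V π red) (hπE : π ∈ E)
    (hb : RedIndep red E b) : LinearIndependent E (fun i => (b i : F)) := by
  classical
  rw [Fintype.linearIndependent_iff]
  intro g hg
  by_contra hcon
  push Not at hcon
  obtain ⟨i₁, hi₁⟩ := hcon
  have hne : ∃ i, ((g i : E) : F) ≠ 0 := ⟨i₁, fun h0 => hi₁ (Subtype.ext h0)⟩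
  obtain ⟨n, hV, i₀, hi₀, hred⟩ :=
    h.exists_scaling hπE (fun i => ((g i : E) : F)) (fun i => (g i).2) hne
  have hsum : ∑ i, red ⟨_, hV i⟩ * red (b i) = 0 := by
    rw [← map_zero red]
    simp_rw [← map_mul, ← map_sum]
    congr 1
    apply Subtype.ext
    push_cast
    have hg' : ∑ i, ((g i : E) : F) * (b i : F) = 0 := by
      have := hg
      simpa [Algebra.smul_def] using this
    calc ∑ i, π ^ n * ((g i : E) : F) * (b i : F)
        = π ^ n * ∑ i, ((g i : E) : F) * (b i : F) := by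
          rw [Finset.mul_sum]; exact Finset.sum_congr rfl fun i _ => by ring
      _ = 0 := by rw [hg', mul_zero]
  have hE : ∀ i, ((⟨_, hV i⟩ : V) : F) ∈ E := fun i =>
    E.mul_mem (_root_.zpow_mem hπE n) (g i).2
  exact hred (hb (fun i => ⟨_, hV i⟩) hE hsum i₀)

theorem IsGaussRing.span_eq_top (h : IsGaussRing V π red) (hπE : π ∈ E)
    (hb : RedIndep red E b) [FiniteDimensional E F]
    (hcard : Module.finrank E F ≤ Fintype.card ι) :
    Submodule.span E (Set.range fun i => (b i : F)) = ⊤ := by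
  have hli := h.linearIndependent hπE hb
  exact hli.span_eq_top_of_card_eq_finrank'
    (le_antisymm hli.fintype_card_le_finrank hcard)

/-- Every element of `V` is a combination of the `b i` with coefficients in `R = V ∩ E`. -/
theorem IsGaussRing.exists_coeff (h : IsGaussRing V π red) (hπE : π ∈ E)
    (hb : RedIndep red E b) [FiniteDimensional E F]
    (hcard : Module.finrank E F ≤ Fintype.card ι) {v : F} (hv : v ∈ V) :
    ∃ c : ι → F, (∀ i, c i ∈ V ∧ c i ∈ E) ∧ v = ∑ i, c i * (b i : F) := by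
  classical
  have hspan := h.span_eq_top hπE hb hcard
  have hvmem : v ∈ Submodule.span E (Set.range fun i => (b i : F)) := by
    rw [hspan]; exact Submodule.mem_top
  obtain ⟨g, hg⟩ := (Submodule.mem_span_range_iff_exists_fun E).mp hvmem
  have hg' : ∑ i, ((g i : E) : F) * (b i : F) = v := by
    simpa [Algebra.smul_def] using hg
  refine ⟨fun i => ((g i : E) : F), fun i => ⟨?_, (g i).2⟩, hg'.symm⟩
  show ((g i : E) : F) ∈ V
  by_cases hne : ∃ i, ((g i : E) : F) ≠ 0
  · obtain ⟨n, hV, i₀, hi₀, hred⟩ :=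
      h.exists_scaling hπE (fun i => ((g i : E) : F)) (fun i => (g i).2) hne
    rcases le_or_gt n 0 with hn | hn
    · -- `g i = π ^ (-n) * (π ^ n * g i)`
      have hpn : π ^ n ≠ 0 := zpow_ne_zero n h.pi_ne_zero
      have : ((g i : E) : F) = π ^ (-n) * (π ^ n * ((g i : E) : F)) := by
        rw [← mul_assoc, ← zpow_add₀ h.pi_ne_zero]
        simp
      rw [this]
      exact mul_mem (h.zpow_mem (by omega)) (hV i)
    · -- impossible: reduce `π ^ n * v`
      exfalso
      have hpv : π ^ n * v ∈ V := mul_mem (h.zpow_mem hn.le) hv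
      have hred0 : red ⟨_, hpv⟩ = 0 := by
        have h1 : π ^ n * v = π * (π ^ (n - 1) * v) := by
          rw [← mul_assoc, ← zpow_one_add₀ h.pi_ne_zero]
          congr 2
          ring
        have h2 : π ^ (n - 1) * v ∈ V := mul_mem (h.zpow_mem (by omega)) hv
        have h3 : (⟨π ^ n * v, hpv⟩ : V) = ⟨π * (π ^ (n - 1) * v), h1 ▸ hpv⟩ := Subtype.ext h1
        rw [h3]
        exact h.red_pi_mul h2 _
      have hsum : ∑ i, red ⟨_, hV i⟩ * red (b i) = 0 := by
        rw [← hred0]
        simp_rw [← map_mul, ← map_sum]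
        congr 1
        apply Subtype.ext
        push_cast
        calc ∑ i, π ^ n * ((g i : E) : F) * (b i : F)
            = π ^ n * ∑ i, ((g i : E) : F) * (b i : F) := by
              rw [Finset.mul_sum]; exact Finset.sum_congr rfl fun i _ => by ring
          _ = π ^ n * v := by rw [hg']
      have hE : ∀ i, ((⟨_, hV i⟩ : V) : F) ∈ E := fun i =>
        E.mul_mem (_root_.zpow_mem hπE n) (g i).2
      exact hred (hb (fun i => ⟨_, hV i⟩) hE hsum i₀)
  · push Not at hne
    rw [hne i]
    exact zero_mem V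

/-- `V` as a subalgebra over `R = V ∩ E`. -/
def subalgebraRE (V : Subring F) (E : IntermediateField K₀ F) : Subalgebra (RE V E) F :=
  { V.toSubsemiring with
    algebraMap_mem' := fun x => x.2 }

theorem mem_subalgebraRE_iff (x : F) : x ∈ subalgebraRE V E ↔ x ∈ V := Iff.rfl

/-- Every element of `V` is integral over `R = V ∩ E`. -/
theorem IsGaussRing.isIntegral_RE (h : IsGaussRing V π red) (hπE : π ∈ E)
    (hb : RedIndep red E b) [FiniteDimensional E F]
    (hcard : Module.finrank E F ≤ Fintype.card ι) {s : F} (hs : s ∈ V) :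
    IsIntegral (RE V E) s := by
  classical
  refine IsIntegral.of_mem_of_fg (subalgebraRE V E) ?_ s hs
  refine ⟨Finset.univ.image fun i => (b i : F), ?_⟩
  apply le_antisymm
  · rw [Submodule.span_le]
    intro x hx
    simp only [Finset.coe_image, Finset.coe_univ, Set.image_univ, Set.mem_range] at hx
    obtain ⟨i, rfl⟩ := hx
    exact (b i).2
  · intro v hv
    obtain ⟨c, hc, rfl⟩ := h.exists_coeff hπE hb hcard (v := v) hv
    refine Submodule.sum_mem _ fun i _ => ?_
    have hmem : (b i : F) ∈ Submodule.span (RE V E)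
        ((Finset.univ.image fun i => (b i : F) : Finset F) : Set F) :=
      Submodule.subset_span (by simp)
    have := Submodule.smul_mem _ (⟨⟨c i, (hc i).2⟩, (hc i).1⟩ : RE V E) hmem
    exact this

/-- `E` is the fraction field of `R = V ∩ E`. -/
theorem IsGaussRing.isFractionRing_RE (h : IsGaussRing V π red) (hπE : π ∈ E) :
    IsFractionRing (RE V E) E := by
  haveI : FaithfulSMul (RE V E) E := (faithfulSMul_iff_algebraMap_injective _ _).mpr
    Subtype.val_injective
  refine IsFractionRing.of_field (RE V E) E fun z => ?_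
  by_cases hz : z = 0
  · exact ⟨0, 1, by simp [hz]⟩
  have hz' : (z : F) ≠ 0 := fun h0 => hz (Subtype.ext h0)
  obtain ⟨n, u, hu, hu', huE, hu0, he⟩ := h.exists_zpow_mul_unit hπE z.2 hz'
  rcases le_total 0 n with hn | hn
  · -- `z ∈ R`
    have hzV : (z : F) ∈ V := by rw [he]; exact mul_mem (h.zpow_mem hn) hu
    refine ⟨⟨z, hzV⟩, 1, ?_⟩
    rw [map_one, div_one]
    rfl
  · -- `z = u / π ^ (-n)`
    have hpV : π ^ (-n) ∈ V := h.zpow_mem (by omega)
    refine ⟨⟨⟨u, huE⟩, hu⟩, ⟨⟨π ^ (-n), _root_.zpow_mem hπE _⟩, hpV⟩, ?_⟩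
    apply Subtype.ext
    show (z : F) = u / π ^ (-n)
    rw [he, zpow_neg, div_inv_eq_mul, mul_comm]

/-- `R = V ∩ E` is integrally closed. -/
theorem IsGaussRing.isIntegrallyClosed_RE (h : IsGaussRing V π red) (hπE : π ∈ E) :
    IsIntegrallyClosed (RE V E) := by
  haveI := h.isFractionRing_RE (E := E) hπE
  rw [isIntegrallyClosed_iff E]
  intro x hx
  -- `x` is integral over `V`, hence in `V`
  have h1 : IsIntegral (RE V E) ((x : E) : F) := by
    have := hx.map (IsScalarTower.toAlgHom (RE V E) E F)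
    exact this
  have h2 : IsIntegral V ((x : E) : F) := by
    let φ : RE V E →+* V :=
      { toFun := fun r => ⟨((r : E) : F), r.2⟩
        map_one' := rfl
        map_mul' := fun _ _ => rfl
        map_zero' := rfl
        map_add' := fun _ _ => rfl }
    exact IsIntegral.map_of_comp_eq φ (RingHom.id F) (by ext r; rfl) h1
  exact ⟨⟨x, h.mem_of_isIntegral h2⟩, rfl⟩

end Inter

end Fermat.Agent.S28.FreeBasisAbs
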