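import Fermat.Agent.S24.Degree
import Fermat.Agent.S24.CombCount
import Fermat.Prelude.Def_ModularCurve_IgusaScheme

/-!
P10 [E]: the degree of `F = ℚ(j(q^d) : d ∣ N)` over `ℚ(j)` is at most `ψ(N)`.

This is a bridge from the analytic degree computation of P8-ANN (`S24/Degree.lean`, applied with
`L = ℂ`): a `ℚ(j)`-linearly independent family of `F` stays `ℂ(j)`-linearly independent in
`FFL ℂ N ⊆ ℂ((q))` (clear denominators, then apply the `ℚ`-linear functionals `ℂ → ℚ`
coefficientwise).
-/

set_option autoImplicit false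

namespace Fermat.Agent.S28

open ModularCurve ModularCurve.IgusaScheme IntermediateField Polynomial

namespace Char0Deg

section Generic

variable {K F : Type*} [Field K] [Field F] [Algebra K F]

/-- A family which satisfies no nontrivial relation with coefficients in `K[j]` is linearly
independent over `K(j)`. -/
theorem linearIndependent_of_poly {ι : Type*} [Fintype ι] (j : F) (y : ι → F)
    (h : ∀ P : ι → K[X], ∑ i, aeval j (P i) * y i = 0 → ∀ i, P i = 0) :
    LinearIndependent ↥(K⟮j⟯) y := by
  classical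
  rw [Fintype.linearIndependent_iff]
  intro g hg
  have hrs : ∀ i, ∃ n d : K[X], aeval j d ≠ 0 ∧ (g i : F) * aeval j d = aeval j n := by
    intro i
    obtain ⟨r, s, hrs⟩ := (IntermediateField.mem_adjoin_simple_iff K (g i : F)).mp (g i).2
    by_cases hs : aeval j s = 0
    · refine ⟨0, 1, by simp, ?_⟩
      rw [hrs, hs, div_zero, zero_mul, map_zero]
    · exact ⟨r, s, hs, by rw [hrs, div_mul_cancel₀ _ hs]⟩
  choose n d hd hnd using hrs
  have hD : aeval j (∏ k, d k) ≠ 0 := by
    rw [map_prod]
    exact Finset.prod_ne_zero_iff.mpr fun k _ => hd k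
  have hP : ∀ i, (g i : F) * aeval j (∏ k, d k) =
      aeval j (n i * ∏ k ∈ Finset.univ.erase i, d k) := by
    intro i
    rw [← Finset.mul_prod_erase Finset.univ d (Finset.mem_univ i), map_mul, map_mul, ← mul_assoc,
      hnd]
  have hsum : ∑ i, aeval j (n i * ∏ k ∈ Finset.univ.erase i, d k) * y i = 0 := by
    have h1 : ∑ i, aeval j (n i * ∏ k ∈ Finset.univ.erase i, d k) * y i =
        aeval j (∏ k, d k) * ∑ i, g i • y i := by
      rw [Finset.mul_sum]
      refine Finset.sum_congr rfl fun i _ => ?_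
      rw [← hP i, IntermediateField.smul_def, smul_eq_mul]
      ring
    rw [h1, hg, mul_zero]
  have h0 := h _ hsum
  intro i
  have h2 := hP i
  rw [h0 i, map_zero] at h2
  have h3 : (g i : F) = 0 := (mul_eq_zero.mp h2).resolve_right hD
  exact Subtype.ext h3

/-- A family which is linearly independent over `K(j)`, `j` transcendental, satisfies no
nontrivial relation with coefficients in `K[j]`. -/
theorem poly_of_linearIndependent {ι : Type*} [Fintype ι] (j : F) (hj : Transcendental K j)
    (y : ι → F) (hy : LinearIndependent ↥(K⟮j⟯) y) (P : ι → K[X])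
    (hP : ∑ i, aeval j (P i) * y i = 0) : ∀ i, P i = 0 := by
  rw [Fintype.linearIndependent_iff] at hy
  have h := hy (fun i => ⟨aeval j (P i), S24.DegreeAbs.aeval_mem_adjoin_simple j (P i)⟩) (by
    rw [← hP]
    refine Finset.sum_congr rfl fun i _ => ?_
    rw [IntermediateField.smul_def, smul_eq_mul])
  intro i
  have h1 : aeval j (P i) = 0 := congrArg Subtype.val (h i)
  exact (transcendental_iff.mp hj) _ h1

end Generic

section Series

variable (L : Type*) [Field L] [Algebra ℚ L]

/-- Coefficientwise application of a `ℚ`-linear functional `L → ℚ` to a Laurent series. -/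
noncomputable def coordMap (π : L →ₗ[ℚ] ℚ) : LaurentSeries L →+ LaurentSeries ℚ where
  toFun y := y.map π
  map_zero' := by
    ext n
    simp
  map_add' x y := by
    ext n
    simp

theorem coordMap_coeff (π : L →ₗ[ℚ] ℚ) (y : LaurentSeries L) (n : ℤ) :
    (coordMap L π y).coeff n = π (y.coeff n) := rfl

theorem coordMap_algebraMap_mul_coeffEmb (π : L →ₗ[ℚ] ℚ) (c : L) (u : LaurentSeries ℚ) :
    coordMap L π (algebraMap L (LaurentSeries L) c * coeffEmb L u) =
      algebraMap ℚ (LaurentSeries ℚ) (π c) * u := by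
  ext n
  rw [coordMap_coeff, S24.FFLAlg.coeff_algebraMap_mul, S24.FFLAlg.coeff_algebraMap_mul,
    coeffEmb_coeff, mul_comm, ← Algebra.smul_def, map_smul, smul_eq_mul, mul_comm]

/-- Descent of relations: a family of rational Laurent series without nontrivial relation over
`ℚ[j]` has no nontrivial relation over `L[j]` in `L((q))`. -/
theorem poly_coeffEmb {ι : Type*} [Fintype ι] (x : ι → LaurentSeries ℚ)
    (hx : ∀ R : ι → ℚ[X], ∑ i, aeval jq (R i) * x i = 0 → ∀ i, R i = 0)
    (P : ι → L[X]) (hP : ∑ i, aeval (coeffEmb L jq) (P i) * coeffEmb L (x i) = 0) :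
    ∀ i, P i = 0 := by
  have key : ∀ (π : L →ₗ[ℚ] ℚ) (i : ι) (m : ℕ), π ((P i).coeff m) = 0 := by
    intro π
    have hR : ∑ i, aeval jq (∑ m ∈ Finset.range ((P i).natDegree + 1),
        monomial m (π ((P i).coeff m))) * x i = 0 := by
      have h1 := congrArg (coordMap L π) hP
      rw [map_zero, map_sum] at h1
      rw [← h1]
      refine Finset.sum_congr rfl fun i _ => ?_
      have hL : aeval jq (∑ m ∈ Finset.range ((P i).natDegree + 1),
          monomial m (π ((P i).coeff m))) =
          ∑ m ∈ Finset.range ((P i).natDegree + 1),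
            algebraMap ℚ (LaurentSeries ℚ) (π ((P i).coeff m)) * jq ^ m := by
        rw [map_sum]
        refine Finset.sum_congr rfl fun m _ => ?_
        rw [aeval_monomial]
      rw [hL, aeval_eq_sum_range, Finset.sum_mul, Finset.sum_mul, map_sum]
      refine Finset.sum_congr rfl fun m _ => ?_
      rw [Algebra.smul_def, mul_assoc, mul_assoc, ← map_pow, ← map_mul,
        coordMap_algebraMap_mul_coeffEmb]
    have h0 := hx _ hR
    intro i m
    have h2 := congrArg (fun p : ℚ[X] => p.coeff m) (h0 i)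
    simp only [finsetSum_coeff, coeff_monomial, coeff_zero, Finset.sum_ite_eq',
      Finset.mem_range] at h2
    by_cases hm : m < (P i).natDegree + 1
    · rwa [if_pos hm] at h2
    · rw [coeff_eq_zero_of_natDegree_lt (by omega), map_zero]
  intro i
  ext m
  rw [coeff_zero]
  exact (Module.forall_dual_apply_eq_zero_iff ℚ _).mp fun π => key π i m

end Series

section Bridge

variable (N : ℕ) [NeZero N]

theorem coeffEmb_rat (u : LaurentSeries ℚ) : coeffEmb ℚ u = u := by
  ext n
  rw [coeffEmb_coeff]
  rfl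

/-- Polynomials in `j` over `ℚ`, computed in `F` and in `ℚ((q))`. -/
theorem coe_aeval_jFull (p : ℚ[X]) :
    ((aeval (jFull N) p : ↥(modularFunctionFieldFull N)) : LaurentSeries ℚ) = aeval jq p := by
  have h := hom_eval₂ p (algebraMap ℚ ↥(modularFunctionFieldFull N))
    ((modularFunctionFieldFull N).val : ↥(modularFunctionFieldFull N) →+* LaurentSeries ℚ)
    (jFull N)
  rw [Subsingleton.elim (((modularFunctionFieldFull N).val :
    ↥(modularFunctionFieldFull N) →+* LaurentSeries ℚ).comp
      (algebraMap ℚ ↥(modularFunctionFieldFull N))) (algebraMap ℚ (LaurentSeries ℚ))] at h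
  exact h

/-- The `q`-series of `j` is transcendental over `ℚ`. -/
theorem transcendental_jFull : Transcendental ℚ (jFull N) := by
  rw [transcendental_iff]
  intro p hp
  by_contra hp0
  apply S24.FFLAlg.aeval_coeffEmb_jq_ne_zero ℚ hp0
  rw [coeffEmb_rat, ← coe_aeval_jFull N p, hp]
  rfl

variable (L : Type*) [Field L] [Algebra ℚ L]

/-- A `ℚ(j)`-linearly independent family of `F = ℚ(j(q^d) : d ∣ N)` stays `L(j)`-linearly
independent in `FFL L N`. -/
theorem linearIndependent_coeffEmb {ι : Type*} [Fintype ι]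
    (x : ι → ↥(modularFunctionFieldFull N)) (hx : LinearIndependent ↥(ℚ⟮jFull N⟯) x) :
    LinearIndependent ↥(L⟮S24.jL L N⟯) (fun i =>
      (⟨coeffEmb L (x i : LaurentSeries ℚ), coeffEmb_mem_laurentBaseChange L (x i).2⟩ :
        S24.FFL L N)) := by
  apply linearIndependent_of_poly
  intro P hP
  refine poly_coeffEmb L (fun i => (x i : LaurentSeries ℚ)) ?_ P ?_
  · intro R hR
    refine poly_of_linearIndependent (jFull N) (transcendental_jFull N) x hx R ?_
    apply Subtype.val_injective
    rw [ZeroMemClass.coe_zero, ← hR, AddSubmonoidClass.coe_finsetSum]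
    refine Finset.sum_congr rfl fun i _ => ?_
    rw [MulMemClass.coe_mul, coe_aeval_jFull]
  · have h := congrArg (laurentBaseChange L (modularFunctionFieldFull N)).val hP
    rw [map_sum, map_zero] at h
    rw [← h]
    refine Finset.sum_congr rfl fun i _ => ?_
    rw [map_mul, ← aeval_algHom_apply]
    rfl

theorem card_le_finrank_jL [FiniteDimensional ↥(L⟮S24.jL L N⟯) (S24.FFL L N)]
    (s : Finset ↥(modularFunctionFieldFull N))
    (hs : LinearIndependent ↥(ℚ⟮jFull N⟯) (fun i : s => (i : ↥(modularFunctionFieldFull N)))) :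
    s.card ≤ Module.finrank ↥(L⟮S24.jL L N⟯) (S24.FFL L N) := by
  have h := (linearIndependent_coeffEmb N L _ hs).fintype_card_le_finrank
  rwa [Fintype.card_coe] at h

theorem rank_jFull_le :
    Module.rank ↥(ℚ⟮jFull N⟯) ↥(modularFunctionFieldFull N) ≤ (dedekindPsi N : Cardinal) := by
  have : FiniteDimensional ↥(ℂ⟮S24.jL ℂ N⟯) (S24.FFL ℂ N) :=
    S24.finiteDimensional_jL_of_emb N (RingHom.id ℂ)
  have hcard : Module.finrank ↥(ℂ⟮S24.jL ℂ N⟯) (S24.FFL ℂ N) = dedekindPsi N := by
    rw [S24.finrank_jL_of_emb N (RingHom.id ℂ), ← Nat.card_eq_fintype_card, S24.card_XX]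
  refine rank_le fun s hs => ?_
  rw [← hcard]
  exact card_le_finrank_jL N ℂ s hs

end Bridge

end Char0Deg

open Char0Deg

/-- `F = ℚ(j(q^d) : d ∣ N)` is finite over `ℚ(j)`. -/
theorem finiteDimensional_jFull (N : ℕ) [NeZero N] :
    FiniteDimensional ↥(ℚ⟮jFull N⟯) ↥(modularFunctionFieldFull N) :=
  Module.rank_lt_aleph0_iff.mp
    (lt_of_le_of_lt (rank_jFull_le N) Cardinal.natCast_lt_aleph0)

/-- `[ℚ(j(q^d) : d ∣ N) : ℚ(j)] ≤ ψ(N)`. -/
theorem finrank_jFull_le (N : ℕ) [NeZero N] :
    Module.finrank ↥(ℚ⟮jFull N⟯) ↥(modularFunctionFieldFull N) ≤ dedekindPsi N :=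
  Module.finrank_le_of_rank_le (rank_jFull_le N)

end Fermat.Agent.S28
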