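import Mathlib.FieldTheory.Relrank
import Fermat.Prelude.Def_ModularCurve_X0ModL

/-!
P10 / [D] Tower: the field `k(j)` inside `k((q))` and basic facts on the tower
`k(j) ⊆ F_M = k(j(q^d) : d ∣ M)` (`F_M = ModularCurve.modularFunctionFieldFullC k M`) for an
arbitrary field `k` (interface file for `Tower*.lean`). `Kj` lives in `Fermat.Agent.S28`, the
auxiliary lemmas in `Fermat.Agent.S28.Tower`.
-/

set_option autoImplicit false

namespace Fermat.Agent.S28

open ModularCurve IntermediateField

/-- `k(j)` inside `k((q))` -/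
noncomputable abbrev Kj (k : Type*) [Field k] : IntermediateField k (LaurentSeries k) :=
  adjoin k {jqModC k}

namespace Tower
variable (k : Type*) [Field k]

theorem jqModC_mem_Kj : jqModC k ∈ Kj k := mem_adjoin_simple_self k _

theorem Kj_le_full (M : ℕ) [NeZero M] : Kj k ≤ modularFunctionFieldFullC k M := by
  rw [adjoin_le_iff]
  exact Set.singleton_subset_iff.mpr (jqModC_mem_full k M)

theorem divisorExpansionsC_one : divisorExpansionsC k 1 = {jqModC k} := by
  ext x
  constructor
  · rintro ⟨d, hne, hd, rfl⟩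
    rw [Nat.dvd_one] at hd
    subst hd
    rw [qExpand_one_apply]
    rfl
  · rintro rfl
    exact ⟨1, inferInstance, dvd_rfl, (qExpand_one_apply _).symm⟩

theorem full_one : modularFunctionFieldFullC k 1 = Kj k := by
  rw [modularFunctionFieldFullC, divisorExpansionsC_one]

theorem divisorExpansionsC_finite (M : ℕ) [NeZero M] : (divisorExpansionsC k M).Finite := by
  classical
  refine ((Nat.divisors M).finite_toSet.image
    (fun d : ℕ => if h : d = 0 then (0 : LaurentSeries k) else
      haveI : NeZero d := ⟨h⟩; qExpand k d (jqModC k))).subset ?_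
  rintro x ⟨d, hne, hd, rfl⟩
  refine ⟨d, ?_, ?_⟩
  · exact Finset.mem_coe.mpr (Nat.mem_divisors.mpr ⟨hd, NeZero.ne M⟩)
  · simp only [dif_neg (NeZero.ne d)]

theorem divisorExpansionsC_prime (p : ℕ) [Fact p.Prime] :
    divisorExpansionsC k p = {jqModC k, qExpand k p (jqModC k)} := by
  ext x
  constructor
  · rintro ⟨d, hne, hd, rfl⟩
    rcases (Nat.dvd_prime (Fact.out : p.Prime)).mp hd with rfl | rfl
    · left
      exact qExpand_one_apply _
    · right
      rfl
  · rintro (rfl | rfl)
    · exact ⟨1, inferInstance, one_dvd p, (qExpand_one_apply _).symm⟩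
    · exact ⟨p, inferInstance, dvd_rfl, rfl⟩

/-- `F_p = k(j, j(q^p))` -/
theorem full_prime (p : ℕ) [Fact p.Prime] :
    modularFunctionFieldFullC k p = adjoin k {jqModC k, qExpand k p (jqModC k)} := by
  rw [modularFunctionFieldFullC, divisorExpansionsC_prime]

/-- the image of `k(j)` under `q ↦ q^e` is `k(j(q^e))` -/
theorem Kj_map (e : ℕ) [NeZero e] :
    (Kj k).map (qExpandAlgHomC k e) = adjoin k {qExpand k e (jqModC k)} := by
  rw [adjoin_map, Set.image_singleton, qExpandAlgHomC_apply]

theorem Kj_map_le_full (M e : ℕ) [NeZero M] [NeZero e] (he : e ∣ M) :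
    (Kj k).map (qExpandAlgHomC k e) ≤ modularFunctionFieldFullC k M := by
  rw [Kj_map, adjoin_le_iff]
  exact Set.singleton_subset_iff.mpr (jqModCd_mem_full k M he)

/-- `q ↦ q^e` maps `F_M` into `F_{M e}` and `k(j)` into `ι F_M` -/
theorem Kj_map_le_full_map (M e : ℕ) [NeZero M] [NeZero e] :
    (Kj k).map (qExpandAlgHomC k e) ≤ (modularFunctionFieldFullC k M).map (qExpandAlgHomC k e) :=
  IntermediateField.map_mono _ (Kj_le_full k M)

theorem full_dvd_le {M M' : ℕ} [NeZero M] [NeZero M'] (h : M ∣ M') :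
    modularFunctionFieldFullC k M ≤ modularFunctionFieldFullC k M' :=
  full_degeneracyC_le k h

/-- the coefficient of `q^{-1}` of `j(q^e)` vanishes for `e ≥ 2` -/
theorem coeff_qExpand_jqModC_neg_one {e : ℕ} [NeZero e] (he : 2 ≤ e) :
    (qExpand k e (jqModC k)).coeff (-1) = 0 := by
  refine qExpand_coeff_of_not_dvd e _ ?_
  intro h
  have h1 : (e : ℤ) ∣ 1 := (dvd_neg (a := (e : ℤ)) (b := 1)).mp h
  have h2 : (e : ℤ) ≤ 1 := Int.le_of_dvd one_pos h1
  omega

end Tower

end Fermat.Agent.S28
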