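import Mathlib

/-!
P10 [C], root count (pure algebra): the polynomial identity (VIII) of the P10 blueprint has no
solution `R` when `1728 ≠ 0` in `k`.
-/

set_option autoImplicit false

namespace Fermat.Agent.S28

open Polynomial

variable {k : Type*} [Field k]

/-- The identity (VIII) of the blueprint, for a polynomial `R` (monic of degree `p` in the
applications) and a nonzero constant `u`. -/
def PolyCount.Identity (p : ℕ) (R : k[X]) (u : k) : Prop :=
  X ^ (4 * p + 4) * (X - C (1728 : k)) ^ (3 * p + 3) * derivative R ^ 6 =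
    C u * (R ^ 4 * (R - C (1728 : k)) ^ 3 * (X - C (R.eval 0)) ^ 4 * (X - C (R.eval 1728)) ^ 3 *
      ((derivative R).roots.map (fun c => X - C (R.eval c))).prod ^ 6)

theorem PolyCount.identity_iff (p : ℕ) (R : k[X]) (u : k) :
    PolyCount.Identity p R u ↔
      X ^ (4 * p + 4) * (X - C (1728 : k)) ^ (3 * p + 3) * derivative R ^ 6 =
        C u * (R ^ 4 * (R - C (1728 : k)) ^ 3 * (X - C (R.eval 0)) ^ 4 *
          (X - C (R.eval 1728)) ^ 3 *
          ((derivative R).roots.map (fun c => X - C (R.eval c))).prod ^ 6) := Iff.rfl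

/-- `natDegree R' = p - 1` and `R' ≠ 0` for `R` monic of degree `p` with `(p : k) ≠ 0`. -/
theorem PolyCount.natDegree_derivative {p : ℕ} (hpk : (p : k) ≠ 0) {R : k[X]} (hR : R.Monic)
    (hdeg : R.natDegree = p) : (derivative R).natDegree = p - 1 ∧ derivative R ≠ 0 := by
  have hp0 : p ≠ 0 := by
    rintro rfl
    exact hpk Nat.cast_zero
  have hp1 : p - 1 + 1 = p := Nat.sub_add_cancel (Nat.pos_of_ne_zero hp0)
  have hcoeff : (derivative R).coeff (p - 1) ≠ 0 := by
    rw [coeff_derivative]
    have h2 : R.coeff (p - 1 + 1) = 1 := by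
      rw [hp1, ← hdeg]
      exact hR.coeff_natDegree
    have h3 : ((p - 1 : ℕ) : k) + 1 = (p : k) := by
      rw [← Nat.cast_succ, Nat.succ_eq_add_one, hp1]
    rw [h2, one_mul, h3]
    exact hpk
  refine ⟨le_antisymm ?_ (le_natDegree_of_ne_zero hcoeff), fun h0 => hcoeff ?_⟩
  · have := natDegree_derivative_le R
    rwa [hdeg] at this
  · rw [h0, coeff_zero]

/-- `R'` has `p - 1` roots (with multiplicity) over an algebraically closed field. -/
theorem PolyCount.card_roots_derivative [IsAlgClosed k] {p : ℕ} (hpk : (p : k) ≠ 0) {R : k[X]}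
    (hR : R.Monic) (hdeg : R.natDegree = p) : Multiset.card (derivative R).roots = p - 1 := by
  rw [IsAlgClosed.card_roots_eq_natDegree, (PolyCount.natDegree_derivative hpk hR hdeg).1]

/-- `mult_a (R - R(a)) ≤ mult_a (R') + 1` (for `R' ≠ 0`). -/
theorem PolyCount.rootMultiplicity_sub_C_le {R : k[X]} (hR' : derivative R ≠ 0) (a : k) :
    (R - C (R.eval a)).rootMultiplicity a ≤ (derivative R).rootMultiplicity a + 1 := by
  have h1 : derivative (R - C (R.eval a)) = derivative R := by simp
  have h2 := rootMultiplicity_sub_one_le_derivative_rootMultiplicity_of_ne_zero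
    (R - C (R.eval a)) a (by rw [h1]; exact hR')
  rw [h1] at h2
  omega

/-- `R - b ≠ 0` for `R` of positive degree. -/
theorem PolyCount.sub_C_ne_zero {p : ℕ} (hp : 0 < p) {R : k[X]} (hdeg : R.natDegree = p)
    (b : k) : R - C b ≠ 0 := by
  intro h0
  have h1 : (R - C b).natDegree = p := by rw [natDegree_sub_C, hdeg]
  rw [h0, natDegree_zero] at h1
  exact hp.ne' h1.symm

/-- `1 ≤ mult_a (R - R(a))` for `R` of positive degree. -/
theorem PolyCount.one_le_rootMultiplicity_sub_C {p : ℕ} (hp : 0 < p) {R : k[X]}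
    (hdeg : R.natDegree = p) (a : k) : 1 ≤ (R - C (R.eval a)).rootMultiplicity a := by
  rw [Nat.succ_le_iff, rootMultiplicity_pos (PolyCount.sub_C_ne_zero hp hdeg _)]
  simp [IsRoot]

/-- `mult_a (R - b)` is `mult_a (R - R(a))` if `R(a) = b` and `0` otherwise. -/
theorem PolyCount.rootMultiplicity_sub_C_eq [DecidableEq k] (R : k[X]) (a b : k) :
    (R - C b).rootMultiplicity a =
      if R.eval a = b then (R - C (R.eval a)).rootMultiplicity a else 0 := by
  split_ifs with h
  · subst h
    rfl
  · refine rootMultiplicity_eq_zero ?_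
    simp only [IsRoot, eval_sub, eval_C]
    exact fun h0 => h (sub_eq_zero.mp h0)

/-- `mult_a R` is `mult_a (R - R(a))` if `R(a) = 0` and `0` otherwise. -/
theorem PolyCount.rootMultiplicity_eq [DecidableEq k] (R : k[X]) (a : k) :
    R.rootMultiplicity a = if R.eval a = 0 then (R - C (R.eval a)).rootMultiplicity a else 0 := by
  have := PolyCount.rootMultiplicity_sub_C_eq R a 0
  rwa [C_0, sub_zero] at this

/-- Two distinct values are taken at most `card` times in total. -/
theorem PolyCount.count_add_count_le_card {α : Type*} [DecidableEq α] {a b : α} (hab : a ≠ b)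
    (M : Multiset α) : M.count a + M.count b ≤ Multiset.card M := by
  induction M using Multiset.induction_on with
  | empty => simp
  | cons x M ih =>
    rw [Multiset.count_cons, Multiset.count_cons, Multiset.card_cons]
    by_cases h1 : a = x
    · have h2 : b ≠ x := fun h2 => hab (h1.trans h2.symm)
      rw [if_pos h1, if_neg h2]
      omega
    · rw [if_neg h1]
      split_ifs <;> omega

/-- Comparison of the root multiplicities at `b` of the two sides of the identity (VIII). -/
theorem PolyCount.count_eq [DecidableEq k] {p : ℕ} (hp : 0 < p) (hpk : (p : k) ≠ 0) {R : k[X]}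
    (hR : R.Monic) (hdeg : R.natDegree = p) {u : k} (hu : u ≠ 0)
    (h : PolyCount.Identity p R u) (b : k) :
    (if b = 0 then 4 * p + 4 else 0) + (if b = 1728 then 3 * p + 3 else 0) +
        6 * (derivative R).rootMultiplicity b =
      4 * R.rootMultiplicity b + 3 * (R - C (1728 : k)).rootMultiplicity b +
        (if b = R.eval 0 then 4 else 0) + (if b = R.eval 1728 then 3 else 0) +
        6 * Multiset.count b ((derivative R).roots.map (fun c => R.eval c)) := by
  have hR0 : R ≠ 0 := hR.ne_zero
  have hR' : derivative R ≠ 0 := (PolyCount.natDegree_derivative hpk hR hdeg).2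
  have hR1 : R - C (1728 : k) ≠ 0 := PolyCount.sub_C_ne_zero hp hdeg _
  have hprod : ((derivative R).roots.map fun c => X - C (R.eval c)).prod ≠ 0 :=
    Monic.ne_zero (monic_multiset_prod_of_monic _ _ fun c _ => monic_X_sub_C _)
  have hprodroots : ((derivative R).roots.map fun c => X - C (R.eval c)).prod.roots =
      (derivative R).roots.map fun c => R.eval c := by
    have := roots_multiset_prod_X_sub_C ((derivative R).roots.map fun c => R.eval c)
    rwa [Multiset.map_map] at this
  have hL : (X ^ (4 * p + 4) * (X - C (1728 : k)) ^ (3 * p + 3) * derivative R ^ 6).roots =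
      (4 * p + 4) • ({0} : Multiset k) + (3 * p + 3) • ({1728} : Multiset k) +
        6 • (derivative R).roots := by
    rw [roots_mul (mul_ne_zero (mul_ne_zero (pow_ne_zero _ X_ne_zero)
        (pow_ne_zero _ (X_sub_C_ne_zero _))) (pow_ne_zero _ hR')),
      roots_mul (mul_ne_zero (pow_ne_zero _ X_ne_zero) (pow_ne_zero _ (X_sub_C_ne_zero _))),
      roots_pow, roots_pow, roots_pow, roots_X, roots_X_sub_C]
  have hRt : (C u * (R ^ 4 * (R - C (1728 : k)) ^ 3 * (X - C (R.eval 0)) ^ 4 *
      (X - C (R.eval 1728)) ^ 3 *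
      ((derivative R).roots.map fun c => X - C (R.eval c)).prod ^ 6)).roots =
      4 • R.roots + 3 • (R - C (1728 : k)).roots + 4 • ({R.eval 0} : Multiset k) +
        3 • ({R.eval 1728} : Multiset k) + 6 • ((derivative R).roots.map fun c => R.eval c) := by
    have n2 : R ^ 4 * (R - C (1728 : k)) ^ 3 ≠ 0 :=
      mul_ne_zero (pow_ne_zero _ hR0) (pow_ne_zero _ hR1)
    have n3 : R ^ 4 * (R - C (1728 : k)) ^ 3 * (X - C (R.eval 0)) ^ 4 ≠ 0 :=
      mul_ne_zero n2 (pow_ne_zero _ (X_sub_C_ne_zero _))
    have n4 : R ^ 4 * (R - C (1728 : k)) ^ 3 * (X - C (R.eval 0)) ^ 4 *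
        (X - C (R.eval 1728)) ^ 3 ≠ 0 := mul_ne_zero n3 (pow_ne_zero _ (X_sub_C_ne_zero _))
    rw [roots_C_mul _ hu, roots_mul (mul_ne_zero n4 (pow_ne_zero _ hprod)), roots_mul n4,
      roots_mul n3, roots_mul n2, roots_pow, roots_pow, roots_pow, roots_pow, roots_pow,
      roots_X_sub_C, roots_X_sub_C, hprodroots]
  have hcount := congrArg (fun P : k[X] => P.roots.count b) h
  simp only [hL, hRt, Multiset.count_add, Multiset.count_nsmul, Multiset.count_singleton,
    count_roots, mul_ite, mul_one, mul_zero] at hcount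
  exact hcount

/-- Root count, case `1728 ≠ 0` in `k`: the identity (VIII) is impossible. -/
theorem PolyCount.false_of_identity [IsAlgClosed k] {p : ℕ} (hp : p.Prime) (hpk : (p : k) ≠ 0)
    (h1728 : (1728 : k) ≠ 0) {R : k[X]} (hR : R.Monic) (hdeg : R.natDegree = p) {u : k}
    (hu : u ≠ 0) (h : PolyCount.Identity p R u) : False := by
  classical
  have hp2 := hp.two_le
  have hR' : derivative R ≠ 0 := (PolyCount.natDegree_derivative hpk hR hdeg).2
  have hZ := PolyCount.card_roots_derivative hpk hR hdeg
  have E0 := PolyCount.count_eq hp.pos hpk hR hdeg hu h 0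
  have E1 := PolyCount.count_eq hp.pos hpk hR hdeg hu h 1728
  have hD := PolyCount.count_add_count_le_card (Ne.symm h1728)
    ((derivative R).roots.map fun c => R.eval c)
  rw [Multiset.card_map, hZ] at hD
  have hA0 := PolyCount.one_le_rootMultiplicity_sub_C hp.pos hdeg (0 : k)
  have hA1 := PolyCount.one_le_rootMultiplicity_sub_C hp.pos hdeg (1728 : k)
  have hB0 := PolyCount.rootMultiplicity_sub_C_le hR' (0 : k)
  have hB1 := PolyCount.rootMultiplicity_sub_C_le hR' (1728 : k)
  rw [PolyCount.rootMultiplicity_eq R 0, PolyCount.rootMultiplicity_sub_C_eq R 0 1728] at E0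
  rw [PolyCount.rootMultiplicity_eq R 1728, PolyCount.rootMultiplicity_sub_C_eq R 1728 1728] at E1
  have h01 : (0 : k) ≠ 1728 := Ne.symm h1728
  have e1 : ((0 : k) = R.eval 0) ↔ (R.eval 0 = 0) := eq_comm
  have e2 : ((0 : k) = R.eval 1728) ↔ (R.eval 1728 = 0) := eq_comm
  have e3 : ((1728 : k) = R.eval 0) ↔ (R.eval 0 = 1728) := eq_comm
  have e4 : ((1728 : k) = R.eval 1728) ↔ (R.eval 1728 = 1728) := eq_comm
  simp only [if_true, if_neg h01, if_neg h1728, e1, e2, e3, e4] at E0 E1
  by_cases c1 : R.eval 0 = 0
  · have c2 : R.eval 0 ≠ 1728 := fun c2 => h1728 (c2.symm.trans c1)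
    by_cases c3 : R.eval 1728 = 0
    · have c4 : R.eval 1728 ≠ 1728 := fun c4 => h1728 (c4.symm.trans c3)
      simp only [if_pos c1, if_neg c2, if_pos c3, if_neg c4] at E0 E1
      omega
    · by_cases c4 : R.eval 1728 = 1728
      · simp only [if_pos c1, if_neg c2, if_neg c3, if_pos c4] at E0 E1
        omega
      · simp only [if_pos c1, if_neg c2, if_neg c3, if_neg c4] at E0 E1
        omega
  · by_cases c2 : R.eval 0 = 1728
    · by_cases c3 : R.eval 1728 = 0
      · have c4 : R.eval 1728 ≠ 1728 := fun c4 => h1728 (c4.symm.trans c3)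
        simp only [if_neg c1, if_pos c2, if_pos c3, if_neg c4] at E0 E1
        omega
      · by_cases c4 : R.eval 1728 = 1728
        · simp only [if_neg c1, if_pos c2, if_neg c3, if_pos c4] at E0 E1
          omega
        · simp only [if_neg c1, if_pos c2, if_neg c3, if_neg c4] at E0 E1
          omega
    · by_cases c3 : R.eval 1728 = 0
      · have c4 : R.eval 1728 ≠ 1728 := fun c4 => h1728 (c4.symm.trans c3)
        simp only [if_neg c1, if_neg c2, if_pos c3, if_neg c4] at E0 E1
        omega
      · by_cases c4 : R.eval 1728 = 1728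
        · simp only [if_neg c1, if_neg c2, if_neg c3, if_pos c4] at E0 E1
          omega
        · simp only [if_neg c1, if_neg c2, if_neg c3, if_neg c4] at E0 E1
          omega

end Fermat.Agent.S28
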