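import Mathlib
import Fermat.Agent.S28.PolyCount

/-!
P10 [C], the abstract algebra of the base case: from the relations (IV), (V_b), (VI), (III) of
the blueprint (in any field `A ⊇ k` containing an element `J` transcendental over `k`) to the
polynomial identity (VIII) `PolyCount.Identity p R u`.
-/

set_option autoImplicit false

namespace Fermat.Agent.S28

open Polynomial

namespace BaseAlg

/-- exchanging a finite product with a multiset product -/
theorem prod_range_multiset_prod {κ M : Type*} [CommMonoid M] (n : ℕ) (Z : Multiset κ)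
    (f : ℕ → κ → M) :
    ∏ b ∈ Finset.range n, (Z.map (f b)).prod =
      (Z.map (fun c => ∏ b ∈ Finset.range n, f b c)).prod := by
  induction Z using Multiset.induction_on with
  | empty => simp
  | cons c Z ih =>
    simp only [Multiset.map_cons, Multiset.prod_cons]
    rw [Finset.prod_mul_distrib, ih]

variable {k A : Type*} [Field k] [Field A] [Algebra k A]

/-- (IV) evaluated at a constant: `∏_b (x_b - c) = (-1)^(p+1) (J - R(c))`. -/
theorem prod_sub_const {p : ℕ} {R : k[X]} (J : A) (x : ℕ → A)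
    (hIV : R.map (algebraMap k A) - C J = ∏ b ∈ Finset.range p, (X - C (x b))) (c : k) :
    ∏ b ∈ Finset.range p, (x b - algebraMap k A c) =
      (-1) ^ (p + 1) * (J - algebraMap k A (R.eval c)) := by
  have h := congrArg (Polynomial.eval (algebraMap k A c)) hIV
  rw [eval_sub, eval_map, eval_C, eval₂_at_apply, eval_prod] at h
  simp only [eval_sub, eval_X, eval_C] at h
  have h2 : ∏ b ∈ Finset.range p, (algebraMap k A c - x b) =
      (-1) ^ p * ∏ b ∈ Finset.range p, (x b - algebraMap k A c) := by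
    rw [← Finset.card_range p, ← Finset.prod_const, Finset.card_range, ← Finset.prod_mul_distrib]
    refine Finset.prod_congr rfl fun b _ => ?_
    ring
  rw [h2] at h
  have h3 : ((-1 : A) ^ p) * (-1) ^ p = 1 := by
    rw [← mul_pow]
    norm_num
  calc ∏ b ∈ Finset.range p, (x b - algebraMap k A c)
      = ((-1 : A) ^ p * (-1) ^ p) * ∏ b ∈ Finset.range p, (x b - algebraMap k A c) := by
        rw [h3, one_mul]
    _ = (-1) ^ p * ((-1) ^ p * ∏ b ∈ Finset.range p, (x b - algebraMap k A c)) := by ring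
    _ = (-1) ^ p * (algebraMap k A (R.eval c) - J) := by rw [← h]
    _ = (-1) ^ (p + 1) * (J - algebraMap k A (R.eval c)) := by ring

/-- the leading coefficient of `R'` is `p` -/
theorem leadingCoeff_derivative {p : ℕ} (hpk : (p : k) ≠ 0) {R : k[X]} (hR : R.Monic)
    (hdeg : R.natDegree = p) : (derivative R).leadingCoeff = (p : k) := by
  have hp0 : p ≠ 0 := by
    rintro rfl
    exact hpk Nat.cast_zero
  have hp1 : p - 1 + 1 = p := Nat.sub_add_cancel (Nat.pos_of_ne_zero hp0)
  rw [leadingCoeff, (PolyCount.natDegree_derivative hpk hR hdeg).1, coeff_derivative]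
  have h2 : R.coeff (p - 1 + 1) = 1 := by
    rw [hp1, ← hdeg]
    exact hR.coeff_natDegree
  have h3 : ((p - 1 : ℕ) : k) + 1 = (p : k) := by
    rw [← Nat.cast_succ, Nat.succ_eq_add_one, hp1]
  rw [h2, one_mul, h3]

/-- `R'(y) = p ∏_{c ∈ Z} (y - c)` for `y` in an extension field. -/
theorem aeval_derivative_eq [IsAlgClosed k] {p : ℕ} (hpk : (p : k) ≠ 0) {R : k[X]}
    (hR : R.Monic) (hdeg : R.natDegree = p) (y : A) :
    aeval y (derivative R) = algebraMap k A p *
      ((derivative R).roots.map (fun c => y - algebraMap k A c)).prod := by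
  have h := (IsAlgClosed.splits (derivative R)).eq_prod_roots
  rw [leadingCoeff_derivative hpk hR hdeg] at h
  conv_lhs => rw [h]
  rw [map_mul, aeval_C, map_multiset_prod, Multiset.map_map]
  congr 2
  refine Multiset.map_congr rfl fun c _ => ?_
  simp

/-- `∏_b R'(x_b) = p^p ((-1)^(p+1))^(p-1) ∏_{c ∈ Z} (J - R(c))`. -/
theorem prod_aeval_derivative [IsAlgClosed k] {p : ℕ} (hpk : (p : k) ≠ 0) {R : k[X]}
    (hR : R.Monic) (hdeg : R.natDegree = p) (J : A) (x : ℕ → A)
    (hIV : R.map (algebraMap k A) - C J = ∏ b ∈ Finset.range p, (X - C (x b))) :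
    ∏ b ∈ Finset.range p, aeval (x b) (derivative R) =
      algebraMap k A p ^ p * ((-1) ^ (p + 1)) ^ (p - 1) *
        ((derivative R).roots.map (fun c => J - algebraMap k A (R.eval c))).prod := by
  have h1 : ∀ b ∈ Finset.range p, aeval (x b) (derivative R) = algebraMap k A p *
      ((derivative R).roots.map (fun c => x b - algebraMap k A c)).prod :=
    fun b _ => aeval_derivative_eq hpk hR hdeg (x b)
  rw [Finset.prod_congr rfl h1, Finset.prod_mul_distrib, Finset.prod_const, Finset.card_range,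
    prod_range_multiset_prod]
  have h2 : (derivative R).roots.map (fun c => ∏ b ∈ Finset.range p, (x b - algebraMap k A c)) =
      (derivative R).roots.map
        (fun c => (-1 : A) ^ (p + 1) * (J - algebraMap k A (R.eval c))) :=
    Multiset.map_congr rfl fun c _ => prod_sub_const J x hIV c
  rw [h2, Multiset.prod_map_mul, Multiset.map_const', Multiset.prod_replicate,
    PolyCount.card_roots_derivative hpk hR hdeg]
  ring

/-- the constant `u = (-1)^(p+1) ε p^6` of the identity (VIII) is nonzero -/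
theorem const_ne_zero {p : ℕ} (hpk : (p : k) ≠ 0) {ε : k} (hε : ε ≠ 0) :
    (-1 : k) ^ (p + 1) * ε * (p : k) ^ 6 ≠ 0 :=
  mul_ne_zero (mul_ne_zero (pow_ne_zero _ (neg_ne_zero.mpr one_ne_zero)) hε) (pow_ne_zero _ hpk)

set_option linter.unusedVariables false in
/-- **From the relations to the identity (VIII).** -/
theorem identity_of_relations [IsAlgClosed k] {p : ℕ} (hpk : (p : k) ≠ 0) {R : k[X]}
    (hR : R.Monic) (hdeg : R.natDegree = p) (J : A) (hJ : Transcendental k J) (x d : ℕ → A)
    (D D' : A) (hD : D ≠ 0) (ε : k) (hε : ε ≠ 0)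
    (hIV : R.map (algebraMap k A) - C J = ∏ b ∈ Finset.range p, (X - C (x b)))
    (hV : ∀ b < p, aeval (x b) (derivative R) ^ 6 * x b ^ 4 * (x b - algebraMap k A 1728) ^ 3 *
      d b = algebraMap k A p ^ 6 * J ^ 4 * (J - algebraMap k A 1728) ^ 3 * D)
    (hVI : (∏ b ∈ Finset.range p, d b) * D' = algebraMap k A ε * D ^ (p + 1))
    (hIII : aeval J (derivative R) ^ 6 * J ^ 4 * (J - algebraMap k A 1728) ^ 3 * D =
      algebraMap k A p ^ 6 * aeval J R ^ 4 * (aeval J R - algebraMap k A 1728) ^ 3 * D') :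
    PolyCount.Identity p R ((-1) ^ (p + 1) * ε * (p : k) ^ 6) := by
  have hap : algebraMap k A p ≠ 0 := (map_ne_zero (algebraMap k A)).mpr hpk
  -- abbreviations
  set ap : A := algebraMap k A p with hapdef
  set s : A := (-1) ^ (p + 1) with hsdef
  set P : A := ((derivative R).roots.map (fun c => J - algebraMap k A (R.eval c))).prod
    with hPdef
  set Q0 : A := J - algebraMap k A (R.eval 0) with hQ0def
  set Q1 : A := J - algebraMap k A (R.eval 1728) with hQ1def
  set Pd : A := ∏ b ∈ Finset.range p, d b with hPdd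
  have hss : s * s = 1 := by
    rw [hsdef, ← mul_pow]
    norm_num
  -- the three products
  have h0 : ∏ b ∈ Finset.range p, x b = s * Q0 := by
    have h := prod_sub_const J x hIV 0
    simpa using h
  have h1 : ∏ b ∈ Finset.range p, (x b - algebraMap k A 1728) = s * Q1 :=
    prod_sub_const J x hIV 1728
  have h2 : ∏ b ∈ Finset.range p, aeval (x b) (derivative R) = ap ^ p * s ^ (p - 1) * P :=
    prod_aeval_derivative hpk hR hdeg J x hIV
  -- product of the relations (V_b)
  have hVprod : (∏ b ∈ Finset.range p, aeval (x b) (derivative R)) ^ 6 *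
      (∏ b ∈ Finset.range p, x b) ^ 4 *
      (∏ b ∈ Finset.range p, (x b - algebraMap k A 1728)) ^ 3 * Pd =
      ap ^ (6 * p) * J ^ (4 * p) * (J - algebraMap k A 1728) ^ (3 * p) * D ^ p := by
    have h := Finset.prod_congr rfl (fun b hb => hV b (Finset.mem_range.mp hb))
    rw [Finset.prod_const, Finset.card_range] at h
    simp only [Finset.prod_mul_distrib, Finset.prod_pow] at h
    rw [h, mul_pow, mul_pow, mul_pow, ← pow_mul, ← pow_mul, ← pow_mul]
  rw [h0, h1, h2] at hVprod
  clear_value s ap P Q0 Q1 Pd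
  -- signs
  have hs : s ^ (6 * (p - 1) + 7) = s := by
    have h2' : s ^ 2 = 1 := by rw [pow_two, hss]
    calc s ^ (6 * (p - 1) + 7) = (s ^ 2) ^ (3 * (p - 1) + 3) * s := by ring
      _ = s := by rw [h2', one_pow, one_mul]
  have E1 : ap ^ (6 * p) * s * (P ^ 6 * Q0 ^ 4 * Q1 ^ 3) * Pd =
      ap ^ (6 * p) * (J ^ (4 * p) * (J - algebraMap k A 1728) ^ (3 * p)) * D ^ p := by
    linear_combination hVprod - (ap ^ (6 * p) * (P ^ 6 * Q0 ^ 4 * Q1 ^ 3) * Pd) * hs
  -- the identity in `A`
  have key : J ^ (4 * p + 4) * (J - algebraMap k A 1728) ^ (3 * p + 3) *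
      aeval J (derivative R) ^ 6 =
      (s * algebraMap k A ε * ap ^ 6) * (aeval J R ^ 4 * (aeval J R - algebraMap k A 1728) ^ 3 *
        Q0 ^ 4 * Q1 ^ 3 * P ^ 6) := by
    have hne : ap ^ (6 * p) * D ^ (p + 1) ≠ 0 := mul_ne_zero (pow_ne_zero _ hap) (pow_ne_zero _ hD)
    apply mul_left_cancel₀ hne
    linear_combination (ap ^ (6 * p) * D ^ p *
        (J ^ (4 * p) * (J - algebraMap k A 1728) ^ (3 * p))) * hIII +
      (s * ap ^ 6 * (aeval J R ^ 4 * (aeval J R - algebraMap k A 1728) ^ 3) *
        (P ^ 6 * Q0 ^ 4 * Q1 ^ 3) * ap ^ (6 * p)) * hVI -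
      (ap ^ 6 * (aeval J R ^ 4 * (aeval J R - algebraMap k A 1728) ^ 3) * D') * E1
  -- transcendence
  rw [PolyCount.identity_iff]
  apply (transcendental_iff_injective.mp hJ)
  simp only [map_mul, map_pow, map_sub, aeval_X, aeval_C, map_multiset_prod, Multiset.map_map,
    Function.comp_def, map_neg, map_one, map_natCast]
  rw [key, hsdef, hapdef, hPdef, hQ0def, hQ1def]
  simp only [map_natCast]

end BaseAlg

end Fermat.Agent.S28
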