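import Mathlib
import Fermat.Prelude.Def_ModularCurve_X0ModL
import Fermat.Agent.S24.LaurentRot

/-!
P10 / S28, module [B]: formal consequences of the modular equation at a prime `p`

  `Φ(X, j(t^p)) = (X - j(t^{p²})) ∏_{b<p} (X - j(ω^b t))`   in `k((t))[X]`,

valid for any `Φ ∈ k[Y][X]` satisfying this identity:

* `modEq_eval₂_eq_zero`, `modEq_eval₂_qExpand_eq_zero`: `Φ(j(q^{dp}), j(q^d)) = 0`;
* `modEq_isIntegral`: `j(q^{dp})` is integral over `k[j(q^d)]`;
* `modEq_map_subst`: the identity transported by the substitution `t ↦ ξ u^a`.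
-/

set_option autoImplicit false

namespace Fermat.Agent.S28

open Polynomial ModularCurve
open Fermat.Agent.S24 (laurentRot laurentRot_coeff laurentRot_mul)

namespace ModEqCor

variable {R : Type*} [CommRing R]

theorem algebraMap_laurentSeries_eq_C (r : R) :
    algebraMap R (LaurentSeries R) r = HahnSeries.C r := by
  have h1 : algebraMap R (PowerSeries R) r = PowerSeries.C r := by
    simp
  rw [HahnSeries.algebraMap_apply', h1, HahnSeries.ofPowerSeries_C]

theorem aeval_toRingHom_C (x : LaurentSeries R) (r : R) :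
    (Polynomial.aeval x).toRingHom (C r) = (HahnSeries.C r : LaurentSeries R) := by
  show Polynomial.aeval x (C r) = _
  rw [aeval_C, algebraMap_laurentSeries_eq_C]

theorem aeval_toRingHom_X (x : LaurentSeries R) :
    (Polynomial.aeval (R := R) x).toRingHom X = x := aeval_X x

/-- A ring endomorphism of Laurent series fixing the constants intertwines the evaluation
homomorphisms. -/
theorem comp_aeval_toRingHom (σ : LaurentSeries R →+* LaurentSeries R)
    (hσ : ∀ r : R, σ (HahnSeries.C r) = HahnSeries.C r) (x : LaurentSeries R) :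
    σ.comp (Polynomial.aeval (R := R) x).toRingHom =
      (Polynomial.aeval (R := R) (σ x)).toRingHom := by
  apply Polynomial.ringHom_ext
  · intro r
    rw [RingHom.comp_apply, aeval_toRingHom_C, hσ, aeval_toRingHom_C]
  · rw [RingHom.comp_apply, aeval_toRingHom_X x, aeval_toRingHom_X (σ x)]

theorem rot_C (ζ : Rˣ) (r : R) :
    laurentRot ζ (HahnSeries.C r : LaurentSeries R) = HahnSeries.C r := by
  ext n
  rw [laurentRot_coeff]
  show ((ζ ^ n : Rˣ) : R) * (HahnSeries.single (0 : ℤ) r).coeff n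
    = (HahnSeries.single (0 : ℤ) r).coeff n
  rcases eq_or_ne n 0 with rfl | hn
  · simp
  · rw [HahnSeries.coeff_single_of_ne hn, mul_zero]

/-- `t ↦ ξ t` after `t ↦ t^n` is `t ↦ t^n` after `t ↦ ξ^n t`. -/
theorem rot_qExpand (ξ : Rˣ) (n : ℕ) [NeZero n] (x : LaurentSeries R) :
    laurentRot ξ (qExpand R n x) = qExpand R n (laurentRot (ξ ^ n) x) := by
  ext m
  rw [laurentRot_coeff]
  by_cases hm : (n : ℤ) ∣ m
  · obtain ⟨c, rfl⟩ := hm
    rw [qExpand_coeff_mul, qExpand_coeff_mul, laurentRot_coeff, zpow_mul, zpow_natCast]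
  · rw [qExpand_coeff_of_not_dvd n _ hm, qExpand_coeff_of_not_dvd n _ hm, mul_zero]

end ModEqCor

section Corollaries

variable (k : Type*) [Field k] (p : ℕ) [NeZero p] (ω : kˣ) {Φ : Polynomial (Polynomial k)}

/-- The modular equation transported by the substitution `t ↦ ξ u^a` (with `ξ^p = ζ`):
`Φ(X, j(ζ u^{ap})) = (X - j(ζ^p u^{ap²})) ∏_{b<p} (X - j(ξ ω^b u^a))`. -/
theorem modEq_map_subst
    (hΦ : Φ.map (Polynomial.aeval (qExpand k p (jqModC k))).toRingHom =
      (X - C (qExpand k (p * p) (jqModC k))) *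
        ∏ b ∈ Finset.range p, (X - C (laurentRot (ω ^ b) (jqModC k))))
    (ζ ξ : kˣ) (hξ : ξ ^ p = ζ) (a : ℕ) [NeZero a] :
    Φ.map (Polynomial.aeval (qExpand k (a * p) (laurentRot ζ (jqModC k)))).toRingHom =
      (X - C (qExpand k (a * (p * p)) (laurentRot (ζ ^ p) (jqModC k)))) *
        ∏ b ∈ Finset.range p, (X - C (qExpand k a (laurentRot (ξ * ω ^ b) (jqModC k)))) := by
  set σ : LaurentSeries k →+* LaurentSeries k := (qExpand k a).comp (laurentRot ξ) with hσdef
  have hσC : ∀ r : k, σ (HahnSeries.C r) = HahnSeries.C r := by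
    intro r
    rw [hσdef, RingHom.comp_apply, ModEqCor.rot_C, qExpand_C]
  have h1 : σ (qExpand k p (jqModC k)) = qExpand k (a * p) (laurentRot ζ (jqModC k)) := by
    rw [hσdef, RingHom.comp_apply, ModEqCor.rot_qExpand, qExpand_qExpand, hξ]
  have h2 : σ (qExpand k (p * p) (jqModC k))
      = qExpand k (a * (p * p)) (laurentRot (ζ ^ p) (jqModC k)) := by
    rw [hσdef, RingHom.comp_apply, ModEqCor.rot_qExpand, qExpand_qExpand, pow_mul, hξ]
  have h3 : ∀ b : ℕ, σ (laurentRot (ω ^ b) (jqModC k))
      = qExpand k a (laurentRot (ξ * ω ^ b) (jqModC k)) := by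
    intro b
    rw [hσdef, RingHom.comp_apply, laurentRot_mul]
  have h := congrArg (Polynomial.map σ) hΦ
  rw [Polynomial.map_map, ModEqCor.comp_aeval_toRingHom σ hσC, h1] at h
  rw [h, Polynomial.map_mul, Polynomial.map_prod, Polynomial.map_sub, Polynomial.map_X,
    Polynomial.map_C, h2]
  congr 1
  refine Finset.prod_congr rfl fun b _ => ?_
  rw [Polynomial.map_sub, Polynomial.map_X, Polynomial.map_C, h3]

/-- `Φ(j(q^p), j(q)) = 0`. -/
theorem modEq_eval₂_eq_zero
    (hΦ : Φ.map (Polynomial.aeval (qExpand k p (jqModC k))).toRingHom =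
      (X - C (qExpand k (p * p) (jqModC k))) *
        ∏ b ∈ Finset.range p, (X - C (laurentRot (ω ^ b) (jqModC k)))) :
    Φ.eval₂ (Polynomial.aeval (jqModC k)).toRingHom (qExpand k p (jqModC k)) = 0 := by
  have h0 : (Φ.map (Polynomial.aeval (qExpand k p (jqModC k))).toRingHom).eval
      (qExpand k (p * p) (jqModC k)) = 0 := by
    rw [hΦ, Polynomial.eval_mul, Polynomial.eval_sub, Polynomial.eval_X, Polynomial.eval_C,
      sub_self, zero_mul]
  rw [Polynomial.eval_map] at h0
  apply qExpand_injective (R := k) p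
  rw [map_zero, Polynomial.hom_eval₂,
    ModEqCor.comp_aeval_toRingHom (qExpand k p) (fun r => qExpand_C p r), qExpand_qExpand]
  exact h0

/-- `Φ(j(q^{dp}), j(q^d)) = 0`. -/
theorem modEq_eval₂_qExpand_eq_zero
    (hΦ : Φ.map (Polynomial.aeval (qExpand k p (jqModC k))).toRingHom =
      (X - C (qExpand k (p * p) (jqModC k))) *
        ∏ b ∈ Finset.range p, (X - C (laurentRot (ω ^ b) (jqModC k))))
    (d : ℕ) [NeZero d] :
    Φ.eval₂ (Polynomial.aeval (qExpand k d (jqModC k))).toRingHom
      (qExpand k (d * p) (jqModC k)) = 0 := by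
  have h := congrArg (qExpand k d) (modEq_eval₂_eq_zero k p ω hΦ)
  rw [map_zero, Polynomial.hom_eval₂,
    ModEqCor.comp_aeval_toRingHom (qExpand k d) (fun r => qExpand_C d r), qExpand_qExpand] at h
  exact h

/-- `j(q^{dp})` is integral over `k[j(q^d)]`. -/
theorem modEq_isIntegral (hm : Φ.Monic)
    (hΦ : Φ.map (Polynomial.aeval (qExpand k p (jqModC k))).toRingHom =
      (X - C (qExpand k (p * p) (jqModC k))) *
        ∏ b ∈ Finset.range p, (X - C (laurentRot (ω ^ b) (jqModC k))))
    (d : ℕ) [NeZero d] :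
    IsIntegral (Algebra.adjoin k {qExpand k d (jqModC k)}) (qExpand k (d * p) (jqModC k)) := by
  set x := qExpand k d (jqModC k) with hx
  let g : Algebra.adjoin k {x} := ⟨x, Algebra.subset_adjoin (Set.mem_singleton x)⟩
  refine ⟨Φ.map (Polynomial.aeval g).toRingHom, hm.map _, ?_⟩
  rw [Polynomial.eval₂_map]
  have hcomp : (algebraMap (Algebra.adjoin k {x}) (LaurentSeries k)).comp
      (Polynomial.aeval g).toRingHom = (Polynomial.aeval (R := k) x).toRingHom := by
    apply Polynomial.ringHom_ext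
    · intro r
      rw [RingHom.comp_apply]
      show algebraMap (Algebra.adjoin k {x}) (LaurentSeries k) (Polynomial.aeval g (C r))
        = Polynomial.aeval x (C r)
      rw [aeval_C, aeval_C]
      rfl
    · rw [RingHom.comp_apply]
      show algebraMap (Algebra.adjoin k {x}) (LaurentSeries k) (Polynomial.aeval g X)
        = Polynomial.aeval x X
      rw [aeval_X, aeval_X]
      rfl
  rw [hcomp]
  exact modEq_eval₂_qExpand_eq_zero k p ω hΦ d

end Corollaries

end Fermat.Agent.S28
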