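import Mathlib
import Fermat.Prelude.Def_ModularCurve_X0ModL
import Fermat.Agent.S24.LaurentRot
import Fermat.Agent.S24.LaurentOrder
import Fermat.Agent.S24.LaurentDeriv

/-!
P10 [B], part 2: descent and transfer of the modular equation.

If the modular equation `Φ(X, j(t^p)) = (X - j(t^{p²})) ∏_b (X - j(ζ^b t))` holds in `ℂ((t))[X]`
for some monic `Φ ∈ ℂ[Y][X]`, then `Φ` has coefficients in `ℤ[ζ]` (leading term induction), and
the identity can be transported to every field `k` with a primitive `p`-th root of unity.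
-/

set_option autoImplicit false

namespace Fermat.Agent.S28

open Polynomial ModularCurve Fermat.Agent.S24

namespace ModEqDescent

section Compat

variable {R S : Type*} [CommRing R] [CommRing S]

theorem coeffMap_laurentRot (f : R →+* S) (u : Rˣ) (x : LaurentSeries R) :
    coeffMap f (laurentRot u x) = laurentRot (Units.map (f : R →* S) u) (coeffMap f x) := by
  ext n
  rw [coeffMap_coeff, laurentRot_coeff, laurentRot_coeff, coeffMap_coeff, map_mul, ← map_zpow]
  rfl

theorem coeffMap_algebraMap_eq (f : R →+* S) (r : R) :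
    coeffMap f (algebraMap R (LaurentSeries R) r) = algebraMap S (LaurentSeries S) (f r) := by
  rw [LaurentDeriv.algebraMap_eq_C, LaurentDeriv.algebraMap_eq_C]
  exact coeffMap_single f 0 r

theorem coeffMap_aeval (f : R →+* S) (x : LaurentSeries R) (P : Polynomial R) :
    coeffMap f (Polynomial.aeval x P) = Polynomial.aeval (coeffMap f x) (P.map f) := by
  rw [Polynomial.aeval_def, Polynomial.aeval_def, Polynomial.hom_eval₂, Polynomial.eval₂_map]
  congr 1
  exact RingHom.ext fun r => coeffMap_algebraMap_eq f r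

/-- The right hand side of the modular equation over a ring `R` with a unit `u`. -/
noncomputable def rhs (R : Type*) [CommRing R] (p : ℕ) [NeZero p] (u : Rˣ) :
    Polynomial (LaurentSeries R) :=
  (X - C (qExpand R (p * p) (jqModC R))) *
    ∏ b ∈ Finset.range p, (X - C (laurentRot (u ^ b) (jqModC R)))

theorem map_rhs (f : R →+* S) (p : ℕ) [NeZero p] (u : Rˣ) :
    (rhs R p u).map (coeffMap f) = rhs S p (Units.map (f : R →* S) u) := by
  simp only [rhs, Polynomial.map_mul, Polynomial.map_sub, Polynomial.map_X, Polynomial.map_C,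
    Polynomial.map_prod, coeffMap_qExpand, coeffMap_jqModC, coeffMap_laurentRot, map_pow]

theorem map_map_aeval (f : R →+* S) (x : LaurentSeries R) (Φ : Polynomial (Polynomial R)) :
    (Φ.map (Polynomial.aeval x).toRingHom).map (coeffMap f) =
      (Φ.map (Polynomial.mapRingHom f)).map (Polynomial.aeval (coeffMap f x)).toRingHom := by
  rw [Polynomial.map_map, Polynomial.map_map]
  congr 1
  exact RingHom.ext fun P => coeffMap_aeval f x P

end Compat

section Lead

variable {B K : Type*} [CommRing B] [Field K]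

theorem coeff_algebraMap_mul' (a : K) (y : LaurentSeries K) (m : ℤ) :
    (algebraMap K (LaurentSeries K) a * y).coeff m = a * y.coeff m := by
  rw [LaurentDeriv.algebraMap_eq_C, HahnSeries.C_mul_eq_smul, HahnSeries.coeff_smul, smul_eq_mul]

theorem leadingCoeff_pow' (x : LaurentSeries K) (n : ℕ) :
    (x ^ n).leadingCoeff = x.leadingCoeff ^ n := by
  induction n with
  | zero => simp
  | succ n ih => rw [pow_succ, HahnSeries.leadingCoeff_mul, ih, pow_succ]

/-- Leading term induction: a polynomial `P` over `K` such that `P(x)` has coefficients in the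
image of `ψ : B → K`, where `x` has coefficients in the image of `ψ`, a pole and leading
coefficient `1`, has coefficients in the image of `ψ`. -/
theorem mem_lifts_of_aeval_mem (ψ : B →+* K) (x : LaurentSeries K)
    (hx : x ∈ (coeffMap ψ).range) (hord : x.order < 0) (hlead : x.leadingCoeff = 1) :
    ∀ (n : ℕ) (P : Polynomial K), P.natDegree = n →
      Polynomial.aeval x P ∈ (coeffMap ψ).range → P ∈ Polynomial.lifts ψ := by
  intro n
  induction n using Nat.strong_induction_on with
  | _ n ih =>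
    intro P hn hP
    rcases eq_or_ne P 0 with rfl | hP0
    · exact Subsemiring.zero_mem _
    have ha0 : P.leadingCoeff ≠ 0 := leadingCoeff_ne_zero.mpr hP0
    -- the coefficient of `P(x)` at `n * order x` is the leading coefficient of `P`
    have hkey : (Polynomial.aeval x P).coeff (n • x.order) = P.leadingCoeff := by
      rw [Polynomial.aeval_eq_sum_range, HahnSeries.coeff_sum, hn]
      rw [Finset.sum_eq_single n]
      · rw [Algebra.smul_def, coeff_algebraMap_mul', ← HahnSeries.order_pow, ← HahnSeries.leadingCoeff_eq,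
          leadingCoeff_pow', hlead, one_pow, mul_one, ← hn]
        rfl
      · intro i hi hin
        have hi' : i < n := lt_of_le_of_ne (Nat.lt_succ_iff.mp (Finset.mem_range.mp hi)) hin
        rw [Algebra.smul_def, coeff_algebraMap_mul', HahnSeries.coeff_eq_zero_of_lt_order, mul_zero]
        rw [HahnSeries.order_pow, nsmul_eq_mul, nsmul_eq_mul]
        have : ((i : ℤ)) < n := by exact_mod_cast hi'
        nlinarith
      · intro hn'
        exact absurd (Finset.mem_range.mpr (Nat.lt_succ_self n)) hn'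
    obtain ⟨y, hy⟩ := hP
    obtain ⟨a', ha'⟩ : ∃ a' : B, ψ a' = P.leadingCoeff := by
      refine ⟨y.coeff (n • x.order), ?_⟩
      rw [← hkey, ← hy]
      rfl
    -- subtract the leading term
    set P₁ := P - C P.leadingCoeff * X ^ n with hP₁
    have hlift : C P.leadingCoeff * X ^ n ∈ Polynomial.lifts ψ := by
      rw [Polynomial.mem_lifts]
      exact ⟨C a' * X ^ n, by rw [Polynomial.map_mul, Polynomial.map_C, Polynomial.map_pow,
        Polynomial.map_X, ha']⟩
    have hdeg : P₁.degree < P.degree := by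
      apply Polynomial.degree_sub_lt_left
      · rw [Polynomial.degree_C_mul_X_pow n ha0, Polynomial.degree_eq_natDegree hP0, hn]
      · exact hP0
      · rw [Polynomial.leadingCoeff_mul, Polynomial.leadingCoeff_C, Polynomial.leadingCoeff_X_pow,
          mul_one]
    have hP₁mem : Polynomial.aeval x P₁ ∈ (coeffMap ψ).range := by
      rw [hP₁, map_sub, map_mul, map_pow, Polynomial.aeval_X, Polynomial.aeval_C]
      refine Subring.sub_mem _ ⟨y, hy⟩ (Subring.mul_mem _ ?_ (Subring.pow_mem _ hx n))
      exact ⟨algebraMap B (LaurentSeries B) a', by rw [coeffMap_algebraMap_eq, ha']⟩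
    have hP₁lift : P₁ ∈ Polynomial.lifts ψ := by
      rcases eq_or_ne P₁ 0 with h0 | h0
      · rw [h0]; exact Subsemiring.zero_mem _
      · refine ih P₁.natDegree ?_ P₁ rfl hP₁mem
        rw [← hn]
        exact Polynomial.natDegree_lt_natDegree h0 hdeg
    have : P = P₁ + C P.leadingCoeff * X ^ n := by rw [hP₁]; ring
    rw [this]
    exact Subsemiring.add_mem _ hP₁lift hlift

end Lead

section Order

theorem order_jqModC_complex : (jqModC ℂ).order = -1 := by
  have h : jqModC ℂ = coeffMap (algebraMap ℚ ℂ) jq := by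
    rw [← jqModC_rat, coeffMap_jqModC]
  rw [h, order_coeffMap _ (algebraMap ℚ ℂ).injective, order_jq]

theorem order_qExpand_jqModC_complex (p : ℕ) [NeZero p] :
    (qExpand ℂ p (jqModC ℂ)).order = -(p : ℤ) := by
  rw [order_qExpand, order_jqModC_complex, mul_neg, mul_one]

theorem leadingCoeff_qExpand_jqModC_complex (p : ℕ) [NeZero p] :
    (qExpand ℂ p (jqModC ℂ)).leadingCoeff = 1 := by
  rw [HahnSeries.leadingCoeff_eq, order_qExpand_jqModC_complex,
    show (-(p : ℤ)) = (p : ℤ) * (-1) by ring, qExpand_coeff_mul]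
  have h : jqModC ℂ = coeffMap (algebraMap ℚ ℂ) jq := by
    rw [← jqModC_rat, coeffMap_jqModC]
  rw [h, coeffMap_coeff, coeff_jq_neg_one, map_one]

end Order

/-- Internal form of the transfer theorem, with the right hand side packaged as `rhs`. -/
theorem transfer_aux (p : ℕ) [NeZero p] (hp : p.Prime) (ζ : ℂˣ) (hζ : IsPrimitiveRoot ζ p)
    (Φ : Polynomial (Polynomial ℂ)) (hΦm : Φ.Monic) (hΦd : Φ.natDegree = p + 1)
    (hΦ : Φ.map (Polynomial.aeval (qExpand ℂ p (jqModC ℂ))).toRingHom = rhs ℂ p ζ)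
    {k : Type*} [Field k] (ω : kˣ) (hω : IsPrimitiveRoot ω p) :
    ∃ Ψ : Polynomial (Polynomial k), Ψ.Monic ∧ Ψ.natDegree = p + 1 ∧
      Ψ.map (Polynomial.aeval (qExpand k p (jqModC k))).toRingHom = rhs k p ω := by
  classical
  have hζ' : IsPrimitiveRoot (ζ : ℂ) p := IsPrimitiveRoot.coe_units_iff.mpr hζ
  have hω' : IsPrimitiveRoot (ω : k) p := IsPrimitiveRoot.coe_units_iff.mpr hω
  have hint : IsIntegral ℤ (ζ : ℂ) := hζ'.isIntegral hp.pos
  -- the ring `B = ℤ[ζ]`
  let B : Subalgebra ℤ ℂ := Algebra.adjoin ℤ {(ζ : ℂ)}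
  let ψ : ↥B →+* ℂ := B.val.toRingHom
  have hψinj : Function.Injective ψ := Subtype.val_injective
  let g : ↥B := ⟨(ζ : ℂ), Algebra.self_mem_adjoin_singleton ℤ _⟩
  have hg : g ^ p = 1 := Subtype.ext (by
    show (ζ : ℂ) ^ p = 1
    exact hζ'.pow_eq_one)
  let u : (↥B)ˣ := Units.ofPowEqOne g p hg hp.ne_zero
  have hu : Units.map (ψ : ↥B →* ℂ) u = ζ := Units.ext rfl
  -- the homomorphism `B → k`, `ζ ↦ ω`
  let pb := Algebra.adjoin.powerBasis' hint
  have hgen : pb.gen = g := Algebra.adjoin.powerBasis'_gen hint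
  have hmin : minpoly ℤ pb.gen = cyclotomic p ℤ := by
    rw [hgen, Polynomial.cyclotomic_eq_minpoly hζ' hp.pos]
    exact (minpoly.algebraMap_eq (A := ℤ) (B := ↥B) (B' := ℂ) Subtype.val_injective g).symm
  have hroot : Polynomial.aeval (ω : k) (minpoly ℤ pb.gen) = 0 := by
    rw [hmin, Polynomial.aeval_def, Polynomial.eval₂_eq_eval_map, Polynomial.map_cyclotomic]
    exact hω'.isRoot_cyclotomic hp.pos
  let φ : ↥B →+* k := (pb.lift (ω : k) hroot).toRingHom
  have hφ : φ g = ω := by
    rw [← hgen]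
    exact pb.lift_gen _ hroot
  have hφu : Units.map (φ : ↥B →* k) u = ω := Units.ext hφ
  -- the series over `B`
  have hxB : coeffMap ψ (qExpand ↥B p (jqModC ↥B)) = qExpand ℂ p (jqModC ℂ) := by
    rw [coeffMap_qExpand, coeffMap_jqModC]
  have hxk : coeffMap φ (qExpand ↥B p (jqModC ↥B)) = qExpand k p (jqModC k) := by
    rw [coeffMap_qExpand, coeffMap_jqModC]
  have hrhsC : (rhs ↥B p u).map (coeffMap ψ) = rhs ℂ p ζ := by rw [map_rhs, hu]
  have hrhsk : (rhs ↥B p u).map (coeffMap φ) = rhs k p ω := by rw [map_rhs, hφu]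
  -- Step 1: the coefficients of `Φ` lift to `B[Y]`
  have hcoeff : ∀ i, Φ.coeff i ∈ Polynomial.lifts ψ := by
    intro i
    refine mem_lifts_of_aeval_mem ψ (qExpand ℂ p (jqModC ℂ)) ⟨_, hxB⟩ ?_
      (leadingCoeff_qExpand_jqModC_complex p) _ (Φ.coeff i) rfl ?_
    · rw [order_qExpand_jqModC_complex]
      have : (0 : ℤ) < p := by exact_mod_cast hp.pos
      omega
    · have h1 : Polynomial.aeval (qExpand ℂ p (jqModC ℂ)) (Φ.coeff i)
          = (Φ.map (Polynomial.aeval (qExpand ℂ p (jqModC ℂ))).toRingHom).coeff i := by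
        rw [Polynomial.coeff_map]
        rfl
      rw [h1, hΦ, ← hrhsC, Polynomial.coeff_map]
      exact ⟨_, rfl⟩
  -- Step 2: lift `Φ`
  have hl : Φ ∈ Polynomial.lifts (Polynomial.mapRingHom ψ) := by
    rw [Polynomial.lifts_iff_coeff_lifts]
    intro i
    obtain ⟨q, hq⟩ := (Polynomial.mem_lifts _).mp (hcoeff i)
    exact ⟨q, hq⟩
  obtain ⟨ΦB, hΦB, hdeg, hmon⟩ := Polynomial.lifts_and_natDegree_eq_and_monic hl hΦm
  -- Step 3: the identity over `B`
  have hB : ΦB.map (Polynomial.aeval (qExpand ↥B p (jqModC ↥B))).toRingHom = rhs ↥B p u := by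
    apply Polynomial.map_injective (coeffMap ψ) (coeffMap_injective ψ hψinj)
    rw [map_map_aeval, hxB, hrhsC, ← hΦ]
    congr 1
  -- Step 4: transport to `k`
  refine ⟨ΦB.map (Polynomial.mapRingHom φ), hmon.map _, ?_, ?_⟩
  · rw [hmon.natDegree_map, hdeg, hΦd]
  · rw [← hxk, ← map_map_aeval, hB, hrhsk]

end ModEqDescent

/-- **Descent and transfer of the modular equation.**  If the modular equation at the prime `p`
holds over `ℂ` (for a primitive `p`-th root of unity `ζ`), then it holds over every field `k`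
containing a primitive `p`-th root of unity `ω`. -/
theorem ModEqDescent.transfer (p : ℕ) [NeZero p] (hp : p.Prime) (ζ : ℂˣ)
    (hζ : IsPrimitiveRoot ζ p)
    (Φ : Polynomial (Polynomial ℂ)) (hΦm : Φ.Monic) (hΦd : Φ.natDegree = p + 1)
    (hΦ : Φ.map (Polynomial.aeval (qExpand ℂ p (jqModC ℂ))).toRingHom =
        (X - C (qExpand ℂ (p * p) (jqModC ℂ))) *
          ∏ b ∈ Finset.range p, (X - C (laurentRot (ζ ^ b) (jqModC ℂ))))
    {k : Type*} [Field k] (ω : kˣ) (hω : IsPrimitiveRoot ω p) :
    ∃ Ψ : Polynomial (Polynomial k), Ψ.Monic ∧ Ψ.natDegree = p + 1 ∧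
      Ψ.map (Polynomial.aeval (qExpand k p (jqModC k))).toRingHom =
        (X - C (qExpand k (p * p) (jqModC k))) *
          ∏ b ∈ Finset.range p, (X - C (laurentRot (ω ^ b) (jqModC k))) :=
  ModEqDescent.transfer_aux p hp ζ hζ Φ hΦm hΦd hΦ ω hω

end Fermat.Agent.S28
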