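import Mathlib
import Fermat.Prelude.Def_ModularCurve_X0ModL
import Fermat.Agent.S24.LaurentRot
import Fermat.Agent.S24.LaurentOrder
import Fermat.Agent.S28.ModEqDescent
import Fermat.Agent.S28.ModEqCor

/-!
P10 [C], step (IV) of the base case: if `j(q^p) = R(j(q))` for a polynomial `R` over a field `k`
containing a primitive `p`-th root of unity `ω`, then in `k((t))[X]`
`R(X) - j(t^p) = ∏_{b<p} (X - j(ω^b t))`.

Also: an element of `k(j)` (`j` transcendental) which is integral over `k[j]` lies in `k[j]`.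
-/

set_option autoImplicit false

namespace Fermat.Agent.S28.BaseCaseIV

open HahnSeries ModularCurve Polynomial
open Fermat.Agent.S24 (laurentRot laurentRot_coeff laurentRot_one laurent_order_eq_of_coeff)

variable {k : Type*} [Field k]

/-! ### Leading terms of `P(x)` for a series `x` with a pole and leading coefficient `1` -/

theorem coeff_aeval_natDegree (x : LaurentSeries k) (hord : x.order < 0)
    (hlead : x.leadingCoeff = 1) (P : Polynomial k) :
    (aeval x P).coeff (P.natDegree • x.order) = P.leadingCoeff := by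
  rw [aeval_eq_sum_range, HahnSeries.coeff_sum, Finset.sum_eq_single P.natDegree]
  · rw [Algebra.smul_def, ModEqDescent.coeff_algebraMap_mul', ← HahnSeries.order_pow,
      ← HahnSeries.leadingCoeff_eq, ModEqDescent.leadingCoeff_pow', hlead, one_pow, mul_one]
    rfl
  · intro i hi hin
    have hi' : i < P.natDegree :=
      lt_of_le_of_ne (Nat.lt_succ_iff.mp (Finset.mem_range.mp hi)) hin
    rw [Algebra.smul_def, ModEqDescent.coeff_algebraMap_mul',
      HahnSeries.coeff_eq_zero_of_lt_order, mul_zero]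
    rw [HahnSeries.order_pow, nsmul_eq_mul, nsmul_eq_mul]
    have : ((i : ℤ)) < P.natDegree := by exact_mod_cast hi'
    nlinarith
  · intro hn'
    exact absurd (Finset.mem_range.mpr (Nat.lt_succ_self _)) hn'

theorem coeff_aeval_of_lt (x : LaurentSeries k) (hord : x.order < 0) (P : Polynomial k)
    {m : ℤ} (hm : m < P.natDegree • x.order) : (aeval x P).coeff m = 0 := by
  rw [aeval_eq_sum_range, HahnSeries.coeff_sum]
  apply Finset.sum_eq_zero
  intro i hi
  have hi' : i ≤ P.natDegree := Nat.lt_succ_iff.mp (Finset.mem_range.mp hi)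
  rw [Algebra.smul_def, ModEqDescent.coeff_algebraMap_mul',
    HahnSeries.coeff_eq_zero_of_lt_order, mul_zero]
  rw [HahnSeries.order_pow, nsmul_eq_mul]
  rw [nsmul_eq_mul] at hm
  have : ((i : ℤ)) ≤ P.natDegree := by exact_mod_cast hi'
  nlinarith

theorem order_jqModC : (jqModC k).order = -1 :=
  laurent_order_eq_of_coeff (by rw [coeff_jqModC_neg_one]; exact one_ne_zero)
    (fun _ hm => coeff_jqModC_of_lt k hm)

theorem leadingCoeff_jqModC : (jqModC k).leadingCoeff = 1 := by
  rw [HahnSeries.leadingCoeff_eq, order_jqModC, coeff_jqModC_neg_one]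

theorem coeff_qExpand_jqModC_neg (p : ℕ) [NeZero p] :
    (qExpand k p (jqModC k)).coeff (-(p : ℤ)) = 1 := by
  rw [show (-(p : ℤ)) = (p : ℤ) * (-1) by ring, qExpand_coeff_mul, coeff_jqModC_neg_one]

theorem coeff_qExpand_jqModC_of_lt (p : ℕ) [NeZero p] {m : ℤ} (hm : m < -(p : ℤ)) :
    (qExpand k p (jqModC k)).coeff m = 0 := by
  by_cases hdvd : (p : ℤ) ∣ m
  · obtain ⟨c, rfl⟩ := hdvd
    rw [qExpand_coeff_mul]
    apply coeff_jqModC_of_lt
    have hp : (0 : ℤ) < p := by exact_mod_cast Nat.pos_of_ne_zero (NeZero.ne p)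
    nlinarith
  · exact qExpand_coeff_of_not_dvd p _ hdvd

/-- If `j(q^p) = R(j(q))` then `R` is monic of degree `p`. -/
theorem monic_natDegree_of_aeval_eq {p : ℕ} [NeZero p] {R : Polynomial k}
    (hR : aeval (jqModC k) R = qExpand k p (jqModC k)) : R.Monic ∧ R.natDegree = p := by
  have h1 := coeff_aeval_natDegree (jqModC k) (by rw [order_jqModC]; norm_num)
    leadingCoeff_jqModC R
  rw [hR, order_jqModC, nsmul_eq_mul, mul_neg, mul_one] at h1
  have hR0 : R ≠ 0 := by
    rintro rfl
    rw [map_zero] at hR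
    have := coeff_qExpand_jqModC_neg (k := k) p
    rw [← hR, HahnSeries.coeff_zero] at this
    exact zero_ne_one this
  have hlc : R.leadingCoeff ≠ 0 := leadingCoeff_ne_zero.mpr hR0
  -- `-deg R ≥ -p`
  have hle : (p : ℤ) ≥ R.natDegree := by
    by_contra hlt
    rw [ge_iff_le, not_le] at hlt
    rw [coeff_qExpand_jqModC_of_lt p (by omega)] at h1
    exact hlc h1.symm
  -- `-p ≥ -deg R`
  have hge : (R.natDegree : ℤ) ≥ p := by
    by_contra hlt
    rw [ge_iff_le, not_le] at hlt
    have h2 := coeff_aeval_of_lt (jqModC k) (by rw [order_jqModC]; norm_num) R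
      (m := -(p : ℤ)) (by rw [order_jqModC, nsmul_eq_mul, mul_neg, mul_one]; omega)
    rw [hR, coeff_qExpand_jqModC_neg] at h2
    exact one_ne_zero h2
  have hdeg : R.natDegree = p := by exact_mod_cast le_antisymm hle hge
  refine ⟨?_, hdeg⟩
  rw [hdeg, coeff_qExpand_jqModC_neg] at h1
  exact h1.symm

/-! ### The conjugates `j(ω^b t)` -/

/-- Rotations commute with polynomial evaluation. -/
theorem laurentRot_aeval (ζ : kˣ) (x : LaurentSeries k) (R : Polynomial k) :
    laurentRot ζ (aeval x R) = aeval (laurentRot ζ x) R :=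
  congrArg (fun φ : Polynomial k →+* LaurentSeries k => φ R)
    (ModEqCor.comp_aeval_toRingHom (laurentRot ζ) (ModEqCor.rot_C ζ) x)

theorem aeval_laurentRot_eq {p : ℕ} [NeZero p] {ω : kˣ} (hω : ω ^ p = 1) {R : Polynomial k}
    (hR : aeval (jqModC k) R = qExpand k p (jqModC k)) (b : ℕ) :
    aeval (laurentRot (ω ^ b) (jqModC k)) R = qExpand k p (jqModC k) := by
  have h := congrArg (laurentRot (ω ^ b)) hR
  rw [ModEqCor.rot_qExpand, ← pow_mul, mul_comm, pow_mul, hω, one_pow, laurentRot_one,
    laurentRot_aeval] at h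
  exact h

theorem laurentRot_jqModC_coeff_neg_one (ζ : kˣ) :
    (laurentRot ζ (jqModC k)).coeff (-1) = ((ζ⁻¹ : kˣ) : k) := by
  rw [laurentRot_coeff, coeff_jqModC_neg_one, mul_one, zpow_neg_one]

theorem laurentRot_pow_injOn {p : ℕ} {ω : kˣ} (hω : IsPrimitiveRoot ω p) :
    Set.InjOn (fun b : ℕ => laurentRot (ω ^ b) (jqModC k)) (Set.Iio p) := by
  intro b hb c hc hbc
  have h := congrArg (fun x : LaurentSeries k => x.coeff (-1)) hbc
  simp only [laurentRot_jqModC_coeff_neg_one] at h
  have h2 : (ω ^ b)⁻¹ = (ω ^ c)⁻¹ := Units.ext h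
  exact hω.pow_inj hb hc (inv_injective h2)

/-- **Step (IV).** If `j(q^p) = R(j(q))` then `R(X) - j(t^p) = ∏_{b<p} (X - j(ω^b t))`. -/
theorem map_sub_C_eq_prod {p : ℕ} [NeZero p] {ω : kˣ} (hω : IsPrimitiveRoot ω p)
    {R : Polynomial k} (hR : aeval (jqModC k) R = qExpand k p (jqModC k)) :
    R.map (algebraMap k (LaurentSeries k)) - Polynomial.C (qExpand k p (jqModC k)) =
      ∏ b ∈ Finset.range p, (X - Polynomial.C (laurentRot (ω ^ b) (jqModC k))) := by
  obtain ⟨hmonic, hdeg⟩ := monic_natDegree_of_aeval_eq hR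
  have hp : 0 < p := Nat.pos_of_ne_zero (NeZero.ne p)
  set Q : Polynomial (LaurentSeries k) :=
    R.map (algebraMap k (LaurentSeries k)) - Polynomial.C (qExpand k p (jqModC k)) with hQ
  have hmapmonic : (R.map (algebraMap k (LaurentSeries k))).Monic := hmonic.map _
  have hmapdeg : (R.map (algebraMap k (LaurentSeries k))).natDegree = p := by
    rw [hmonic.natDegree_map, hdeg]
  have hQmonic : Q.Monic := by
    apply hmapmonic.sub_of_left
    refine lt_of_le_of_lt degree_C_le ?_
    rw [degree_eq_natDegree hmapmonic.ne_zero, hmapdeg]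
    exact_mod_cast hp
  have hQdeg : Q.natDegree = p := by rw [hQ, natDegree_sub_C, hmapdeg]
  have hroot : ∀ b : ℕ, (X - Polynomial.C (laurentRot (ω ^ b) (jqModC k))) ∣ Q := by
    intro b
    rw [dvd_iff_isRoot, IsRoot, hQ, eval_sub, eval_C, eval_map_algebraMap,
      aeval_laurentRot_eq hω.pow_eq_one hR b, sub_self]
  have hdvd : (∏ b ∈ Finset.range p, (X - Polynomial.C (laurentRot (ω ^ b) (jqModC k)))) ∣ Q := by
    apply Finset.prod_dvd_of_coprime
    · intro b hb c hc hbc
      apply isCoprime_X_sub_C_of_isUnit_sub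
      rw [isUnit_iff_ne_zero, sub_ne_zero]
      intro heq
      exact hbc (laurentRot_pow_injOn hω (by simpa using hb) (by simpa using hc) heq)
    · intro b _
      exact hroot b
  have hprodmonic : (∏ b ∈ Finset.range p,
      (X - Polynomial.C (laurentRot (ω ^ b) (jqModC k)))).Monic :=
    monic_prod_of_monic _ _ fun b _ => monic_X_sub_C _
  refine eq_of_monic_of_dvd_of_natDegree_le hprodmonic hQmonic hdvd ?_
  rw [hQdeg, natDegree_finsetProd_X_sub_C_eq_card, Finset.card_range]

/-! ### Integrality over `k[j]` -/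

open scoped IntermediateField.algebraAdjoinAdjoin in
/-- An element of `k(j)` (`j` transcendental over `k`) which is integral over `k[j]` is a
polynomial in `j`. -/
theorem exists_eq_aeval_of_mem_adjoin_of_isIntegral {L : Type*} [Field L] [Algebra k L] {j y : L}
    (hj : Transcendental k j) (hy : y ∈ IntermediateField.adjoin k {j})
    (hint : IsIntegral (Algebra.adjoin k {j}) y) : ∃ R : Polynomial k, y = aeval j R := by
  have hinj : Function.Injective (aeval j : Polynomial k →ₐ[k] L) :=
    transcendental_iff_injective.mp hj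
  have hrange : Algebra.adjoin k {j} = (aeval j : Polynomial k →ₐ[k] L).range :=
    Algebra.adjoin_singleton_eq_range_aeval k j
  let e : Polynomial k ≃ₐ[k] ↥(Algebra.adjoin k {j}) :=
    (AlgEquiv.ofInjective (aeval j : Polynomial k →ₐ[k] L) hinj).trans
      (Subalgebra.equivOfEq _ _ hrange.symm)
  have : IsIntegrallyClosed ↥(Algebra.adjoin k {j}) := IsIntegrallyClosed.of_equiv e.toRingEquiv
  have hint' : IsIntegral (Algebra.adjoin k {j})
      (⟨y, hy⟩ : IntermediateField.adjoin k {j}) := by
    refine (isIntegral_algebraMap_iff (B := L)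
      (algebraMap (IntermediateField.adjoin k {j}) L).injective).mp ?_
    exact hint
  obtain ⟨a, ha⟩ := IsIntegrallyClosed.isIntegral_iff.mp hint'
  have hay : (a : L) = y := congrArg Subtype.val ha
  have hmem : y ∈ (aeval j : Polynomial k →ₐ[k] L).range := by
    rw [← hrange, ← hay]
    exact a.2
  obtain ⟨R, hR⟩ := hmem
  exact ⟨R, hR.symm⟩

end Fermat.Agent.S28.BaseCaseIV
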