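import Fermat.Prelude.Def_ModularCurve_X0ModL
import Fermat.Agent.S24.LaurentDeriv
import Fermat.Agent.S24.LaurentRot

/-!
P10 [A], definitions: the formal `q`-series `Δ`, `E₄`, `E₆` over an arbitrary commutative ring
(coefficients mapped from `ℤ`; the `j`-series over `R` is the Prelude's `ModularCurve.jqModC R`),
and the derivation `θ = q · d/dq` of `R((q))`, with their basic API.
-/

set_option autoImplicit false

namespace Fermat.Agent.S28

open HahnSeries Fermat.Agent.S24 ModularCurve

/-- `E₆ = 1 - 504 ∑ σ₅(n) qⁿ` as an integral power series. -/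
noncomputable def eisenstein6 : PowerSeries ℤ :=
  PowerSeries.mk fun n => if n = 0 then 1 else -504 * ∑ d ∈ n.divisors, (d : ℤ) ^ 5

section Defs

variable (R : Type*) [CommRing R]

/-- The series `Δ = q ∏ (1 - qⁿ)²⁴` over a commutative ring `R`. -/
noncomputable def deltaS : LaurentSeries R :=
  single (1 : ℤ) (1 : R) * ofPowerSeries ℤ R (dedekindEtaUnit.map (Int.castRingHom R))

/-- The series `E₄` over `R`. -/
noncomputable def e4S : LaurentSeries R :=
  ofPowerSeries ℤ R (eisenstein4.map (Int.castRingHom R))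

/-- The series `E₆` over `R`. -/
noncomputable def e6S : LaurentSeries R :=
  ofPowerSeries ℤ R (eisenstein6.map (Int.castRingHom R))

/-- The derivation `θ = q · d/dq` of `R((q))`. -/
noncomputable def theta : Derivation R (LaurentSeries R) (LaurentSeries R) where
  toFun f := single (1 : ℤ) (1 : R) * LaurentDeriv.lsDer R f
  map_add' f g := by rw [map_add, mul_add]
  map_smul' r f := by
    rw [RingHom.id_apply, Algebra.smul_def, LaurentDeriv.algebraMap_eq_C,
      LaurentDeriv.lsDer_apply, LaurentDeriv.lsD_C_mul, ← LaurentDeriv.lsDer_apply,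
      ← C_mul_eq_smul]
    ring
  map_one_eq_zero' := by
    show single (1 : ℤ) (1 : R) * LaurentDeriv.lsDer R 1 = 0
    rw [Derivation.map_one_eq_zero, mul_zero]
  leibniz' f g := by
    show single (1 : ℤ) (1 : R) * LaurentDeriv.lsDer R (f * g) =
      f • (single (1 : ℤ) (1 : R) * LaurentDeriv.lsDer R g) +
        g • (single (1 : ℤ) (1 : R) * LaurentDeriv.lsDer R f)
    rw [Derivation.leibniz]
    simp only [smul_eq_mul]
    ring

end Defs

section Theta

variable {R : Type*} [CommRing R]

theorem theta_apply (f : LaurentSeries R) :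
    theta R f = single (1 : ℤ) (1 : R) * LaurentDeriv.lsDer R f := rfl

/-- `θ` multiplies the `n`-th coefficient by `n`. -/
theorem theta_coeff (f : LaurentSeries R) (n : ℤ) : (theta R f).coeff n = (n : R) * f.coeff n := by
  rw [theta_apply, coeff_single_mul, one_mul, LaurentDeriv.lsDer_coeff]
  simp

/-- `θ` commutes with coefficient maps. -/
theorem coeffMap_theta {S : Type*} [CommRing S] (φ : R →+* S) (f : LaurentSeries R) :
    coeffMap φ (theta R f) = theta S (coeffMap φ f) := by
  ext n
  rw [coeffMap_coeff, theta_coeff, theta_coeff, coeffMap_coeff, map_mul, map_intCast]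

/-- `θ (f(qⁿ)) = n · (θ f)(qⁿ)`. -/
theorem theta_qExpand (N : ℕ) [NeZero N] (f : LaurentSeries R) :
    theta R (qExpand R N f) = C (N : R) * qExpand R N (theta R f) := by
  ext n
  rw [theta_coeff, C_mul_eq_smul, coeff_smul, smul_eq_mul]
  by_cases hn : (N : ℤ) ∣ n
  · obtain ⟨m, rfl⟩ := hn
    rw [qExpand_coeff_mul, qExpand_coeff_mul, theta_coeff]
    push_cast
    ring
  · rw [qExpand_coeff_of_not_dvd N _ hn, qExpand_coeff_of_not_dvd N _ hn, mul_zero, mul_zero]

/-- `θ` commutes with the rotation `q ↦ ζ q`. -/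
theorem theta_laurentRot (ζ : Rˣ) (f : LaurentSeries R) :
    theta R (laurentRot ζ f) = laurentRot ζ (theta R f) := by
  ext n
  rw [theta_coeff, laurentRot_coeff, laurentRot_coeff, theta_coeff]
  ring

/-- Chain rule for polynomials: `θ (P(f)) = P'(f) · θ f`. -/
theorem theta_aeval (P : Polynomial R) (f : LaurentSeries R) :
    theta R (Polynomial.aeval f P) = Polynomial.aeval f (Polynomial.derivative P) * theta R f := by
  rw [Derivation.map_aeval, smul_eq_mul]

theorem theta_C (c : R) : theta R (C c) = 0 := by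
  rw [theta_apply, LaurentDeriv.lsDer_C, mul_zero]

end Theta

section CoeffMap

variable {R S : Type*} [CommRing R] [CommRing S]

theorem map_map_intCast (φ : R →+* S) (p : PowerSeries ℤ) :
    (p.map (Int.castRingHom R)).map φ = p.map (Int.castRingHom S) := by
  ext n
  simp

theorem coeffMap_deltaS (φ : R →+* S) : coeffMap φ (deltaS R) = deltaS S := by
  rw [deltaS, deltaS, map_mul, coeffMap_single, map_one, coeffMap_ofPowerSeries,
    map_map_intCast]

theorem coeffMap_e4S (φ : R →+* S) : coeffMap φ (e4S R) = e4S S := by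
  rw [e4S, e4S, coeffMap_ofPowerSeries, map_map_intCast]

theorem coeffMap_e6S (φ : R →+* S) : coeffMap φ (e6S R) = e6S S := by
  rw [e6S, e6S, coeffMap_ofPowerSeries, map_map_intCast]

variable (R)

theorem deltaS_eq_etaProd : deltaS R = single (1 : ℤ) (1 : R) *
    ofPowerSeries ℤ R (etaProd.map (Int.castRingHom R)) ^ 24 := by
  rw [deltaS, dedekindEtaUnit, map_pow, map_pow]

theorem coeff_deltaS_one : (deltaS R).coeff (1 : ℤ) = 1 := by
  rw [deltaS, coeff_single_mul, one_mul, sub_self,
    show (0 : ℤ) = ((0 : ℕ) : ℤ) from rfl, ofPowerSeries_apply_coeff, PowerSeries.coeff_map,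
    PowerSeries.coeff_zero_eq_constantCoeff, constantCoeff_dedekindEtaUnit]
  simp

theorem coeff_deltaS_of_lt {k : ℤ} (hk : k < 1) : (deltaS R).coeff k = 0 := by
  rw [deltaS, coeff_single_mul, one_mul]
  exact ofPowerSeries_coeff_of_neg _ (by omega)

theorem deltaS_ne_zero [Nontrivial R] : deltaS R ≠ 0 := fun h => by
  have := coeff_deltaS_one R
  rw [h] at this
  simp at this

/-- `j · Δ = E₄³` (the definition of `j`). -/
theorem jqModC_mul_deltaS : jqModC R * deltaS R = e4S R ^ 3 := by
  have h1 : (single (-1 : ℤ) (1 : R) : LaurentSeries R) * single (1 : ℤ) (1 : R) = 1 := by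
    rw [single_mul_single]
    simp
  have h2 : ofPowerSeries ℤ R (jNum.map (Int.castRingHom R)) *
      ofPowerSeries ℤ R (dedekindEtaUnit.map (Int.castRingHom R))
        = ofPowerSeries ℤ R (eisenstein4.map (Int.castRingHom R)) ^ 3 := by
    rw [← map_mul, ← map_mul, ← map_pow, ← map_pow, jNum, mul_assoc,
      mul_comm dedekindEtaUnitInv, dedekindEtaUnit_mul_inv, mul_one]
  calc jqModC R * deltaS R = (single (-1 : ℤ) (1 : R) * single (1 : ℤ) (1 : R)) *
        (ofPowerSeries ℤ R (jNum.map (Int.castRingHom R)) *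
          ofPowerSeries ℤ R (dedekindEtaUnit.map (Int.castRingHom R))) := by
        rw [jqModC, deltaS]; ring
    _ = e4S R ^ 3 := by rw [h1, h2, one_mul, e4S]

/-- `E₄ = 1` when `240 = 0` in `R` (characteristic `2`, `3`, `5`). -/
theorem e4S_eq_one (h : (240 : R) = 0) : e4S R = 1 := by
  have : eisenstein4.map (Int.castRingHom R) = 1 := by
    ext n
    rw [PowerSeries.coeff_map, eisenstein4, PowerSeries.coeff_mk, PowerSeries.coeff_one]
    split_ifs
    · simp
    · rw [map_mul]
      have h240 : (Int.castRingHom R) 240 = 0 := by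
        rw [eq_intCast]
        push_cast
        exact h
      rw [h240, zero_mul]
  rw [e4S, this, map_one]

/-- `j · Δ = 1` when `240 = 0` in `R`. -/
theorem jqModC_mul_deltaS_eq_one (h : (240 : R) = 0) : jqModC R * deltaS R = 1 := by
  rw [jqModC_mul_deltaS, e4S_eq_one R h, one_pow]

end CoeffMap

end Fermat.Agent.S28
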