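import Mathlib
import Fermat.Agent.S28.FormalDefs

/-!
P10 [C], the endgame of the base case in characteristic `2` and `3`: over a field `k` with
`1728 = 0` and a prime `p` with `(p : k) ≠ 0`, the `q`-series of `j` satisfies
`j(q^p) ≠ j(q)^p`.

If `j(q^p) = j(q)^p` then, writing `j = q⁻¹ h`, `h(q^p) = h(q)^p` forces `h = 1`, so `j = q⁻¹`
and (as `j Δ = E₄³ = 1`) `∏ (1 - qⁿ)^24 = 1`, which is false: `∏ (1 - qⁿ) = 1 - q + ⋯`.
-/

set_option autoImplicit false

namespace Fermat.Agent.S28

open HahnSeries ModularCurve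
open scoped PowerSeries.WithPiTopology

namespace Endgame

/-! ### The coefficient of `q` in `∏ (1 - qⁿ)` -/

/-- A finite product of factors `1 - X^(n+1)` with `n ≥ 1` is `≡ 1` modulo `X²`. -/
theorem prod_eq (s : Finset ℕ) (hs : 0 ∉ s) :
    ∃ w : PowerSeries ℤ,
      ∏ n ∈ s, ((1 : PowerSeries ℤ) - PowerSeries.X ^ (n + 1)) = 1 + PowerSeries.X ^ 2 * w := by
  induction s using Finset.induction_on with
  | empty => exact ⟨0, by simp⟩
  | insert a s ha ih =>
    obtain ⟨w, hw⟩ := ih (fun h => hs (Finset.mem_insert_of_mem h))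
    have ha0 : a ≠ 0 := fun h => hs (h ▸ Finset.mem_insert_self a s)
    obtain ⟨b, rfl⟩ : ∃ b, a = b + 1 := ⟨a - 1, by omega⟩
    refine ⟨w - PowerSeries.X ^ b - PowerSeries.X ^ (b + 2) * w, ?_⟩
    rw [Finset.prod_insert ha, hw]
    ring

/-- `∏ (1 - qⁿ) = 1 - q + ⋯`. -/
theorem coeff_one_etaProd : PowerSeries.coeff 1 etaProd = -1 := by
  have hprod := (PowerSeries.WithPiTopology.multipliable_one_sub_X_pow ℤ).hasProd
  have h1 : Filter.Tendsto (fun s : Finset ℕ => PowerSeries.coeff 1
      (∏ n ∈ s, ((1 : PowerSeries ℤ) - PowerSeries.X ^ (n + 1)))) Filter.atTop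
      (nhds (PowerSeries.coeff 1 etaProd)) :=
    ((PowerSeries.WithPiTopology.continuous_coeff ℤ 1).tendsto _).comp hprod
  have h2 : ∀ᶠ s : Finset ℕ in Filter.atTop, PowerSeries.coeff 1
      (∏ n ∈ s, ((1 : PowerSeries ℤ) - PowerSeries.X ^ (n + 1))) = -1 := by
    refine Filter.eventually_atTop.mpr ⟨{0}, fun s hs => ?_⟩
    have h0 : 0 ∈ s := hs (Finset.mem_singleton_self 0)
    obtain ⟨w, hw⟩ := prod_eq (s.erase 0) (Finset.notMem_erase 0 s)
    rw [← Finset.mul_prod_erase s _ h0, hw]
    have h3 : ((1 : PowerSeries ℤ) - PowerSeries.X ^ (0 + 1)) * (1 + PowerSeries.X ^ 2 * w) =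
        1 - PowerSeries.X + PowerSeries.X ^ 2 * (w - PowerSeries.X * w) := by ring
    rw [h3]
    simp [PowerSeries.coeff_X_pow_mul', PowerSeries.coeff_one, PowerSeries.coeff_X]
  exact tendsto_nhds_unique h1 (tendsto_const_nhds.congr' (Filter.EventuallyEq.symm h2))

/-! ### Powers of a power series `≡ 1` modulo `X^s` -/

/-- If `h ≡ 1` modulo `X^s` (`s ≥ 1`) then the coefficient of `X^s` in `h^m` is `m` times
that of `h`. -/
theorem coeff_pow_of_X_pow_dvd_sub_one {R : Type*} [CommRing R] (h : PowerSeries R) {s : ℕ}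
    (hs : 1 ≤ s) (hdvd : PowerSeries.X ^ s ∣ h - 1) (m : ℕ) :
    PowerSeries.coeff s (h ^ m) = (m : R) * PowerSeries.coeff s h := by
  obtain ⟨w, hw⟩ := hdvd
  have hh : h = 1 + PowerSeries.X ^ s * w := by rw [← hw]; ring
  obtain ⟨c, hc⟩ := sq_dvd_add_pow_sub_sub (PowerSeries.X ^ s * w) (1 : PowerSeries R) m
  have hpow : h ^ m = 1 + PowerSeries.X ^ s * (w * (m : PowerSeries R)) +
      PowerSeries.X ^ (2 * s) * (w ^ 2 * c) := by
    have h3 : h ^ m = ((1 + PowerSeries.X ^ s * w) ^ m -
        1 ^ (m - 1) * (PowerSeries.X ^ s * w) * (m : PowerSeries R) - 1 ^ m) +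
        (1 + PowerSeries.X ^ s * (w * (m : PowerSeries R))) := by
      rw [hh]; ring
    rw [h3, hc]
    ring
  have hs0 : s ≠ 0 := by omega
  have h2s : ¬ 2 * s ≤ s := by omega
  have hcm : PowerSeries.coeff 0 (w * (m : PowerSeries R)) = PowerSeries.coeff 0 w * (m : R) := by
    rw [PowerSeries.coeff_zero_eq_constantCoeff, map_mul, map_natCast]
  rw [hpow, map_add, map_add, PowerSeries.coeff_one, if_neg hs0, PowerSeries.coeff_X_pow_mul',
    if_pos le_rfl, PowerSeries.coeff_X_pow_mul', if_neg h2s, Nat.sub_self, hcm, hh, map_add,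
    PowerSeries.coeff_one, if_neg hs0, PowerSeries.coeff_X_pow_mul', if_pos le_rfl, Nat.sub_self]
  show 0 + PowerSeries.coeff 0 w * (m : R) + 0 = (m : R) * (0 + PowerSeries.coeff 0 w)
  ring

/-! ### `∏ (1 - qⁿ)^24 ≠ 1` in characteristic `2` and `3` -/

/-- In a domain with `2 = 0`, `x ^ 2 = 1` implies `x = 1`. -/
theorem eq_one_of_sq_eq_one {D : Type*} [CommRing D] [IsDomain D] (h2 : (2 : D) = 0) {x : D}
    (hx : x ^ 2 = 1) : x = 1 := by
  have h : (x - 1) ^ 2 = 0 := by linear_combination hx + (1 - x) * h2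
  exact sub_eq_zero.mp ((pow_eq_zero_iff two_ne_zero).mp h)

/-- In a domain with `3 = 0`, `x ^ 3 = 1` implies `x = 1`. -/
theorem eq_one_of_cube_eq_one {D : Type*} [CommRing D] [IsDomain D] (h3 : (3 : D) = 0) {x : D}
    (hx : x ^ 3 = 1) : x = 1 := by
  have h : (x - 1) ^ 3 = 0 := by linear_combination hx - (x ^ 2 - x) * h3
  exact sub_eq_zero.mp ((pow_eq_zero_iff three_ne_zero).mp h)

theorem coeff_zero_etaProd_map (k : Type*) [CommRing k] :
    PowerSeries.coeff 0 (etaProd.map (Int.castRingHom k)) = 1 := by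
  rw [PowerSeries.coeff_map, PowerSeries.coeff_zero_eq_constantCoeff, constantCoeff_etaProd,
    map_one]

theorem coeff_one_etaProd_map (k : Type*) [CommRing k] :
    PowerSeries.coeff 1 (etaProd.map (Int.castRingHom k)) = -1 := by
  rw [PowerSeries.coeff_map, coeff_one_etaProd]
  simp

/-- If `∏ (1 - qⁿ)^m = 1` over `k` then `m = 0` in `k`. -/
theorem natCast_eq_zero_of_etaProd_pow_eq_one (k : Type*) [CommRing k] (m : ℕ)
    (h : (etaProd.map (Int.castRingHom k)) ^ m = 1) : (m : k) = 0 := by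
  have hdvd : PowerSeries.X ^ 1 ∣ etaProd.map (Int.castRingHom k) - 1 := by
    rw [PowerSeries.X_pow_dvd_iff]
    intro i hi
    obtain rfl : i = 0 := by omega
    rw [map_sub, coeff_zero_etaProd_map, PowerSeries.coeff_one, if_pos rfl, sub_self]
  have h1 := coeff_pow_of_X_pow_dvd_sub_one (etaProd.map (Int.castRingHom k)) le_rfl hdvd m
  rw [h, PowerSeries.coeff_one, if_neg one_ne_zero, coeff_one_etaProd_map] at h1
  linear_combination h1

/-- `1728 = 0` in a field means characteristic `2` or `3`. -/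
theorem two_or_three_eq_zero {k : Type*} [Field k] (h1728 : (1728 : k) = 0) :
    (2 : k) = 0 ∨ (3 : k) = 0 := by
  have h23 : (2 : k) ^ 6 * (3 : k) ^ 3 = 0 := by
    have e : (2 : k) ^ 6 * (3 : k) ^ 3 = 1728 := by norm_num
    rw [e, h1728]
  rcases mul_eq_zero.mp h23 with h | h
  · exact Or.inl (pow_eq_zero_iff (by norm_num) |>.mp h)
  · exact Or.inr (pow_eq_zero_iff (by norm_num) |>.mp h)

/-- `∏ (1 - qⁿ)^24 ≠ 1` over a field of characteristic `2` or `3`. -/
theorem etaProd_map_pow_ne_one {k : Type*} [Field k] (h1728 : (1728 : k) = 0) :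
    (etaProd.map (Int.castRingHom k)) ^ 24 ≠ 1 := by
  intro h
  rcases two_or_three_eq_zero h1728 with h2 | h3
  · have h2' : (2 : PowerSeries k) = 0 := by
      rw [← map_ofNat (PowerSeries.C (R := k)) 2, h2, map_zero]
    have e : (etaProd.map (Int.castRingHom k)) ^ 24 =
        ((((etaProd.map (Int.castRingHom k)) ^ 3) ^ 2) ^ 2) ^ 2 := by ring
    rw [e] at h
    have h3 := eq_one_of_sq_eq_one h2' (eq_one_of_sq_eq_one h2' (eq_one_of_sq_eq_one h2' h))
    have h4 := natCast_eq_zero_of_etaProd_pow_eq_one k 3 h3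
    have : (1 : k) = 0 := by
      push_cast at h4
      linear_combination h4 - h2
    exact one_ne_zero this
  · have h3' : (3 : PowerSeries k) = 0 := by
      rw [← map_ofNat (PowerSeries.C (R := k)) 3, h3, map_zero]
    have e : (etaProd.map (Int.castRingHom k)) ^ 24 =
        ((etaProd.map (Int.castRingHom k)) ^ 8) ^ 3 := by ring
    rw [e] at h
    have h8 := eq_one_of_cube_eq_one h3' h
    have h4 := natCast_eq_zero_of_etaProd_pow_eq_one k 8 h8
    have : (1 : k) = 0 := by
      push_cast at h4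
      linear_combination 3 * h3 - h4
    exact one_ne_zero this

end Endgame

/-- **Endgame of the base case in characteristic `2` and `3`**: over a field `k` with
`1728 = 0` and for a prime `p` with `(p : k) ≠ 0`, `j(q^p) ≠ j(q)^p`. -/
theorem qExpand_jqModC_ne_pow (k : Type*) [Field k] (p : ℕ) [Fact p.Prime] (hpk : (p : k) ≠ 0)
    (h1728 : (1728 : k) = 0) : qExpand k p (jqModC k) ≠ jqModC k ^ p := by
  intro E
  have hp : p.Prime := Fact.out
  set h : PowerSeries k := jNum.map (Int.castRingHom k) with hh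
  have hJ : jqModC k = single (-1 : ℤ) 1 * ofPowerSeries ℤ k h := rfl
  have h0 : PowerSeries.coeff 0 h = 1 := by
    rw [hh, PowerSeries.coeff_map, PowerSeries.coeff_zero_eq_constantCoeff, constantCoeff_jNum,
      map_one]
  -- comparison of the coefficients of `h(q^p)` and `h(q)^p`
  have key : ∀ n : ℕ, (qExpand k p (ofPowerSeries ℤ k h)).coeff (n : ℤ) =
      PowerSeries.coeff n (h ^ p) := by
    intro n
    have E' : (qExpand k p (jqModC k)).coeff ((n : ℤ) - p) =
        (jqModC k ^ p).coeff ((n : ℤ) - p) := by rw [E]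
    rw [jqModC_pow, hJ, map_mul, qExpand_single, coeff_single_mul, coeff_single_mul, one_mul,
      one_mul] at E'
    have e1 : (n : ℤ) - p - (p : ℤ) * -1 = n := by ring
    have e2 : (n : ℤ) - p - -(p : ℤ) = n := by ring
    rw [e1, e2, ofPowerSeries_apply_coeff] at E'
    exact E'
  have key1 : ∀ n : ℕ, ¬ p ∣ n → PowerSeries.coeff n (h ^ p) = 0 := by
    intro n hn
    rw [← key n]
    exact qExpand_coeff_of_not_dvd p _ (by rwa [Int.natCast_dvd_natCast])
  have key2 : ∀ m : ℕ, PowerSeries.coeff (p * m) (h ^ p) = PowerSeries.coeff m h := by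
    intro m
    rw [← key (p * m)]
    push_cast
    rw [qExpand_coeff_mul, ofPowerSeries_apply_coeff]
  -- `h = 1`
  have hcoeff : ∀ s : ℕ, 1 ≤ s → PowerSeries.coeff s h = 0 := by
    intro s
    induction s using Nat.strong_induction_on with
    | _ s ih =>
      intro hs
      have hdvd : PowerSeries.X ^ s ∣ h - 1 := by
        rw [PowerSeries.X_pow_dvd_iff]
        intro m hm
        rcases Nat.eq_zero_or_pos m with rfl | hm0
        · rw [map_sub, h0, PowerSeries.coeff_one, if_pos rfl, sub_self]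
        · rw [map_sub, ih m hm hm0, PowerSeries.coeff_one, if_neg hm0.ne', sub_zero]
      have h1 := Endgame.coeff_pow_of_X_pow_dvd_sub_one h hs hdvd p
      have h2 : PowerSeries.coeff s (h ^ p) = 0 := by
        by_cases hps : p ∣ s
        · obtain ⟨m, rfl⟩ := hps
          rw [key2]
          have hm0 : 1 ≤ m := by
            rcases Nat.eq_zero_or_pos m with rfl | hm0
            · simp at hs
            · exact hm0
          have hm : m < p * m := by nlinarith [hp.two_le]
          exact ih m hm hm0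
        · exact key1 s hps
      rw [h2] at h1
      exact (mul_eq_zero.mp h1.symm).resolve_left hpk
  have hone : h = 1 := by
    ext n
    rw [PowerSeries.coeff_one]
    split_ifs with hn
    · rw [hn]; exact h0
    · exact hcoeff n (Nat.pos_of_ne_zero hn)
  -- hence `Δ = q`, i.e. `∏ (1 - qⁿ)^24 = 1`
  have h240 : (240 : k) = 0 := by
    rcases Endgame.two_or_three_eq_zero h1728 with h2 | h3
    · linear_combination 120 * h2
    · linear_combination 80 * h3
  have hΔ := jqModC_mul_deltaS_eq_one k h240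
  rw [hJ, hone, map_one (ofPowerSeries ℤ k), mul_one, deltaS_eq_etaProd, ← mul_assoc,
    single_mul_single] at hΔ
  have e0 : (-1 : ℤ) + 1 = 0 := by norm_num
  rw [e0, mul_one] at hΔ
  have e1 : (single (0 : ℤ) (1 : k) : LaurentSeries k) = 1 := rfl
  rw [e1, one_mul, ← map_pow] at hΔ
  have hη : (etaProd.map (Int.castRingHom k)) ^ 24 = 1 := by
    apply HahnSeries.ofPowerSeries_injective (Γ := ℤ) (R := k)
    rw [hΔ, map_one]
  exact Endgame.etaProd_map_pow_ne_one h1728 hη

end Fermat.Agent.S28
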