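import Mathlib
import Fermat.Agent.S28.FormalDefs

/-!
P10 [C] (S28, Igusa): the eta-product identity (VI) of the blueprint.

For a prime `p` and a primitive `p`-th root of unity `ω` in a field `k`, with
`Δ(u) = u ∏ (1 - uⁿ)²⁴`:

  `∏_{b<p} Δ(ω^b t) · Δ(t^{p²}) = ε · Δ(t^p)^{p+1}`,  `ε = ω^{p(p-1)/2} = ±1`.

Exports (namespace `Fermat.Agent.S28`): `etaK`, `DeltaK`, `DeltaK_eq_deltaS`, `DeltaK_ne_zero`,
`prod_rescale_etaK`, `eps_sq_eq_one`, `prod_laurentRot_DeltaK`, `prod_laurentRot_deltaS`.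
Auxiliary lemmas live in `Fermat.Agent.S28.EtaProd`.
-/

set_option autoImplicit false

namespace Fermat.Agent.S28

open ModularCurve Fermat.Agent.S24

open scoped PowerSeries.WithPiTopology

/-- `etaProd = ∏ (1 - qⁿ)` with coefficients in `k`, as a power series. -/
noncomputable def etaK (k : Type*) [CommRing k] : PowerSeries k :=
  PowerSeries.map (Int.castRingHom k) etaProd

/-- `Δ = q ∏ (1 - qⁿ)²⁴` with coefficients in `k`, as a Laurent series (`= deltaS k`, see
`DeltaK_eq_deltaS`). -/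
noncomputable def DeltaK (k : Type*) [CommRing k] : LaurentSeries k :=
  HahnSeries.single (1 : ℤ) (1 : k) * HahnSeries.ofPowerSeries ℤ k (etaK k ^ 24)

namespace EtaProd

/-- A finite product of elements congruent to `1` modulo `a` is congruent to `1`. -/
theorem aux_dvd_prod_sub_one {R ι : Type*} [CommRing R] (a : R) (s : Finset ι) (f : ι → R)
    (h : ∀ i ∈ s, a ∣ f i - 1) : a ∣ ∏ i ∈ s, f i - 1 := by
  rw [← Ideal.Quotient.eq_zero_iff_dvd, map_sub, map_prod, map_one, sub_eq_zero]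
  refine Finset.prod_eq_one fun i hi => ?_
  have := (Ideal.Quotient.eq_zero_iff_dvd a (f i - 1)).mpr (h i hi)
  rwa [map_sub, map_one, sub_eq_zero] at this

/-- The finite partial products of `∏ (1 - Xⁿ)`. -/
noncomputable def etaPart (R : Type*) [CommRing R] (N : ℕ) : PowerSeries R :=
  ∏ n ∈ Finset.range N, (1 - PowerSeries.X ^ (n + 1))

theorem etaProd_sub_etaPart_dvd (N : ℕ) :
    (PowerSeries.X : PowerSeries ℤ) ^ (N + 1) ∣ etaProd - etaPart ℤ N := by
  rw [PowerSeries.X_pow_dvd_iff]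
  intro d hd
  have hprod := (PowerSeries.WithPiTopology.multipliable_one_sub_X_pow ℤ).hasProd
  have h1 := (PowerSeries.WithPiTopology.tendsto_iff_coeff_tendsto ℤ _ _ _).mp hprod d
  rw [nhds_discrete, Filter.tendsto_pure] at h1
  obtain ⟨s₀, hs₀⟩ := Filter.eventually_atTop.mp h1
  have h2 := hs₀ (s₀ ∪ Finset.range N) Finset.subset_union_left
  have h3 : (PowerSeries.X : PowerSeries ℤ) ^ (N + 1) ∣
      ∏ n ∈ s₀ ∪ Finset.range N, (1 - PowerSeries.X ^ (n + 1)) - etaPart ℤ N := by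
    rw [← Finset.prod_sdiff (Finset.subset_union_right (s₁ := s₀) (s₂ := Finset.range N))]
    have h4 : (PowerSeries.X : PowerSeries ℤ) ^ (N + 1) ∣
        ∏ n ∈ (s₀ ∪ Finset.range N) \ Finset.range N, (1 - PowerSeries.X ^ (n + 1)) - 1 := by
      refine aux_dvd_prod_sub_one _ _ _ fun n hn => ?_
      have hn' : N ≤ n := by
        rw [Finset.mem_sdiff, Finset.mem_range] at hn
        omega
      rw [sub_sub_cancel_left, dvd_neg]
      exact pow_dvd_pow _ (by omega)
    have h6 := Dvd.dvd.mul_right h4 (etaPart ℤ N)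
    rwa [sub_mul, one_mul] at h6
  have h5 := (PowerSeries.X_pow_dvd_iff.mp h3) d hd
  rw [map_sub, sub_eq_zero] at h5 ⊢
  rw [← h5]
  exact h2.symm

theorem map_etaPart {R S : Type*} [CommRing R] [CommRing S] (φ : R →+* S) (N : ℕ) :
    PowerSeries.map φ (etaPart R N) = etaPart S N := by
  simp [etaPart, map_prod]

theorem etaK_sub_etaPart_dvd (k : Type*) [CommRing k] (N : ℕ) :
    (PowerSeries.X : PowerSeries k) ^ (N + 1) ∣ etaK k - etaPart k N := by
  have h := map_dvd (PowerSeries.map (Int.castRingHom k)) (etaProd_sub_etaPart_dvd N)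
  rwa [map_pow, PowerSeries.map_X, map_sub, map_etaPart] at h

theorem etaK_sub_etaPart_dvd' (k : Type*) [CommRing k] {M N : ℕ} (h : M ≤ N + 1) :
    (PowerSeries.X : PowerSeries k) ^ M ∣ etaK k - etaPart k N :=
  (pow_dvd_pow _ h).trans (etaK_sub_etaPart_dvd k N)

theorem aux_dvd_rescale {k : Type*} [CommRing k] (a : k) {M : ℕ} {f : PowerSeries k}
    (h : PowerSeries.X ^ M ∣ f) : PowerSeries.X ^ M ∣ PowerSeries.rescale a f := by
  rw [PowerSeries.X_pow_dvd_iff] at h ⊢
  intro m hm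
  rw [PowerSeries.coeff_rescale, h m hm, mul_zero]

theorem aux_dvd_expand {k : Type*} [CommRing k] (p : ℕ) (hp : p ≠ 0) {M : ℕ} {f : PowerSeries k}
    (h : PowerSeries.X ^ M ∣ f) : PowerSeries.X ^ M ∣ PowerSeries.expand p hp f := by
  rw [PowerSeries.X_pow_dvd_iff] at h ⊢
  intro m hm
  rw [PowerSeries.coeff_expand]
  split_ifs with hd
  · exact h _ (lt_of_le_of_lt (Nat.div_le_self m p) hm)
  · rfl


/-- `∏_{b<p} (1 - ζ^b T) = 1 - T^p` for a primitive `p`-th root of unity `ζ`. -/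
theorem prod_one_sub_pow_mul {k : Type*} [Field k] {p : ℕ} (hp : 0 < p) {ζ : k}
    (hζ : IsPrimitiveRoot ζ p) (T : PowerSeries k) :
    ∏ b ∈ Finset.range p, (1 - PowerSeries.C (ζ ^ b) * T) = 1 - T ^ p := by
  classical
  have hζ' : IsPrimitiveRoot (PowerSeries.C ζ : PowerSeries k) p :=
    hζ.map_of_injective (PowerSeries.C_injective)
  have h := hζ'.pow_sub_pow_eq_prod_sub_mul (1 : PowerSeries k) T hp
  rw [one_pow] at h
  rw [h]
  have himg : Polynomial.nthRootsFinset p (1 : PowerSeries k) =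
      (Finset.range p).image (fun b => (PowerSeries.C ζ : PowerSeries k) ^ b) := by
    symm
    apply Finset.eq_of_subset_of_card_le
    · intro x hx
      obtain ⟨b, -, rfl⟩ := Finset.mem_image.mp hx
      rw [Polynomial.mem_nthRootsFinset hp, ← pow_mul, mul_comm, pow_mul, hζ'.pow_eq_one, one_pow]
    · rw [hζ'.card_nthRootsFinset, Finset.card_image_of_injOn, Finset.card_range]
      intro a ha b hb hab
      exact hζ'.pow_inj (Finset.mem_range.mp ha) (Finset.mem_range.mp hb) hab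
  rw [himg, Finset.prod_image]
  · refine Finset.prod_congr rfl fun b _ => ?_
    rw [map_pow]
  · intro a ha b hb hab
    exact hζ'.pow_inj (Finset.mem_range.mp ha) (Finset.mem_range.mp hb) hab

/-- The local factor: `∏_{b<p} (1 - (ω^b X)^m)`. -/
theorem prod_rescale_factor {k : Type*} [Field k] {p : ℕ} (hp : p.Prime) {ω : k}
    (hω : IsPrimitiveRoot ω p) (m : ℕ) :
    ∏ b ∈ Finset.range p, PowerSeries.rescale (ω ^ b) ((1 : PowerSeries k) - PowerSeries.X ^ m) =
      if p ∣ m then (1 - PowerSeries.X ^ m) ^ p else 1 - PowerSeries.X ^ (p * m) := by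
  have h1 : ∀ b : ℕ, PowerSeries.rescale (ω ^ b) ((1 : PowerSeries k) - PowerSeries.X ^ m) =
      1 - PowerSeries.C ((ω ^ m) ^ b) * PowerSeries.X ^ m := by
    intro b
    rw [map_sub, map_one, map_pow, PowerSeries.rescale_X, mul_pow, ← map_pow, ← pow_mul,
      ← pow_mul, mul_comm b m]
  simp_rw [h1]
  split_ifs with hd
  · obtain ⟨c, rfl⟩ := hd
    have : ω ^ (p * c) = 1 := by rw [pow_mul, hω.pow_eq_one, one_pow]
    simp [this]
  · have hcop : m.Coprime p := ((Nat.Prime.coprime_iff_not_dvd hp).mpr hd).symm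
    rw [prod_one_sub_pow_mul hp.pos (hω.pow_of_coprime m hcop), ← pow_mul, mul_comm m p]

theorem rescale_etaPart {k : Type*} [Field k] {p : ℕ} (hp : p.Prime) {ω : k}
    (hω : IsPrimitiveRoot ω p) (L : ℕ) :
    ∏ b ∈ Finset.range p, PowerSeries.rescale (ω ^ b) (etaPart k L) =
      ∏ n ∈ Finset.range L, if p ∣ n + 1 then ((1 : PowerSeries k) - PowerSeries.X ^ (n + 1)) ^ p
        else 1 - PowerSeries.X ^ (p * (n + 1)) := by
  simp_rw [etaPart, map_prod]
  rw [Finset.prod_comm]
  exact Finset.prod_congr rfl fun n _ => prod_rescale_factor hp hω (n + 1)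

theorem expand_etaPart {k : Type*} [CommRing k] (p : ℕ) (hp : p ≠ 0) (L : ℕ) :
    PowerSeries.expand p hp (etaPart k L) =
      ∏ n ∈ Finset.range L, ((1 : PowerSeries k) - PowerSeries.X ^ (p * (n + 1))) := by
  simp_rw [etaPart, map_prod, map_sub, map_one, map_pow, PowerSeries.expand_X, ← pow_mul]

/-- The finite combinatorial identity. -/
theorem finite_identity {A : Type*} [CommRing A] (x : A) {p : ℕ} (hp : p.Prime) (N : ℕ) :
    (∏ n ∈ Finset.range (p * N), if p ∣ n + 1 then ((1 : A) - x ^ (n + 1)) ^ p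
        else 1 - x ^ (p * (n + 1))) * ∏ n ∈ Finset.range N, (1 - x ^ (p ^ 2 * (n + 1))) =
      (∏ n ∈ Finset.range (p * N), (1 - x ^ (p * (n + 1)))) *
        (∏ n ∈ Finset.range N, (1 - x ^ (p * (n + 1)))) ^ p := by
  induction N with
  | zero => simp
  | succ N ih =>
    obtain ⟨r, rfl⟩ : ∃ r, p = r + 1 := ⟨p - 1, (Nat.succ_pred_eq_of_pos hp.pos).symm⟩
    have hsplit : ∀ f : ℕ → A, ∏ n ∈ Finset.range ((r + 1) * (N + 1)), f n =
        (∏ n ∈ Finset.range ((r + 1) * N), f n) *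
          ((∏ i ∈ Finset.range r, f ((r + 1) * N + i)) * f ((r + 1) * N + r)) := by
      intro f
      rw [mul_add, mul_one, Finset.prod_range_add, Finset.prod_range_succ]
    rw [hsplit, hsplit, Finset.prod_range_succ, Finset.prod_range_succ]
    have hmid : ∀ i ∈ Finset.range r,
        (if (r + 1) ∣ (r + 1) * N + i + 1 then ((1 : A) - x ^ ((r + 1) * N + i + 1)) ^ (r + 1)
          else 1 - x ^ ((r + 1) * ((r + 1) * N + i + 1))) =
        1 - x ^ ((r + 1) * ((r + 1) * N + i + 1)) := by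
      intro i hi
      rw [if_neg]
      rw [Finset.mem_range] at hi
      rw [add_assoc, Nat.dvd_add_right (dvd_mul_right _ _)]
      exact Nat.not_dvd_of_pos_of_lt (Nat.succ_pos _) (by omega)
    rw [Finset.prod_congr rfl hmid]
    have hlast : (r + 1) ∣ (r + 1) * N + r + 1 := ⟨N + 1, by ring⟩
    rw [if_pos hlast]
    have e1 : (r + 1) * N + r + 1 = (r + 1) * (N + 1) := by ring
    have e2 : (r + 1) ^ 2 * (N + 1) = (r + 1) * ((r + 1) * (N + 1)) := by ring
    rw [e2, e1]
    have key : ∀ a b c d m u v : A, a * b = c * d ^ (r + 1) →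
        a * (m * u ^ (r + 1)) * (b * v) = c * (m * v) * (d * u) ^ (r + 1) := by
      intro a b c d m u v h
      linear_combination (m * u ^ (r + 1) * v) * h
    exact key _ _ _ _ _ _ _ ih

end EtaProd

/-- (VI), power series core: `∏_{b<p} F(ω^b t) · F(t^{p²}) = F(t^p)^{p+1}` for `F = etaProd`. -/
theorem prod_rescale_etaK {k : Type*} [Field k] {p : ℕ} (hp : p.Prime) {ω : k}
    (hω : IsPrimitiveRoot ω p) :
    (∏ b ∈ Finset.range p, PowerSeries.rescale (ω ^ b) (etaK k)) *
        PowerSeries.expand (p ^ 2) (pow_ne_zero 2 hp.ne_zero) (etaK k)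
      = (PowerSeries.expand p hp.ne_zero (etaK k)) ^ (p + 1) := by
  have key : ∀ M : ℕ, (PowerSeries.X : PowerSeries k) ^ M ∣
      (∏ b ∈ Finset.range p, PowerSeries.rescale (ω ^ b) (etaK k)) *
        PowerSeries.expand (p ^ 2) (pow_ne_zero 2 hp.ne_zero) (etaK k)
      - (PowerSeries.expand p hp.ne_zero (etaK k)) ^ (p + 1) := by
    intro M
    rw [← Ideal.Quotient.eq_zero_iff_dvd, map_sub, sub_eq_zero]
    have hcong : ∀ f g : PowerSeries k, (PowerSeries.X : PowerSeries k) ^ M ∣ f - g →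
        Ideal.Quotient.mk (Ideal.span {(PowerSeries.X : PowerSeries k) ^ M}) f =
          Ideal.Quotient.mk (Ideal.span {(PowerSeries.X : PowerSeries k) ^ M}) g := by
      intro f g h
      rw [← sub_eq_zero, ← map_sub]
      exact (Ideal.Quotient.eq_zero_iff_dvd _ _).mpr h
    have hM : M ≤ p * M + 1 := Nat.le_succ_of_le (Nat.le_mul_of_pos_left M hp.pos)
    have h1 : ∀ b : ℕ,
        Ideal.Quotient.mk (Ideal.span {(PowerSeries.X : PowerSeries k) ^ M})
          (PowerSeries.rescale (ω ^ b) (etaK k)) =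
        Ideal.Quotient.mk (Ideal.span {(PowerSeries.X : PowerSeries k) ^ M})
          (PowerSeries.rescale (ω ^ b) (EtaProd.etaPart k (p * M))) := by
      intro b
      refine hcong _ _ ?_
      rw [← map_sub]
      exact EtaProd.aux_dvd_rescale _ (EtaProd.etaK_sub_etaPart_dvd' k hM)
    have h2 : Ideal.Quotient.mk (Ideal.span {(PowerSeries.X : PowerSeries k) ^ M})
          (PowerSeries.expand (p ^ 2) (pow_ne_zero 2 hp.ne_zero) (etaK k)) =
        Ideal.Quotient.mk (Ideal.span {(PowerSeries.X : PowerSeries k) ^ M})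
          (PowerSeries.expand (p ^ 2) (pow_ne_zero 2 hp.ne_zero) (EtaProd.etaPart k M)) := by
      refine hcong _ _ ?_
      rw [← map_sub]
      exact EtaProd.aux_dvd_expand _ _ (EtaProd.etaK_sub_etaPart_dvd' k (Nat.le_succ M))
    have h3 : Ideal.Quotient.mk (Ideal.span {(PowerSeries.X : PowerSeries k) ^ M})
          (PowerSeries.expand p hp.ne_zero (etaK k)) =
        Ideal.Quotient.mk (Ideal.span {(PowerSeries.X : PowerSeries k) ^ M})
          (PowerSeries.expand p hp.ne_zero (EtaProd.etaPart k (p * M))) := by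
      refine hcong _ _ ?_
      rw [← map_sub]
      exact EtaProd.aux_dvd_expand _ _ (EtaProd.etaK_sub_etaPart_dvd' k hM)
    have h4 : Ideal.Quotient.mk (Ideal.span {(PowerSeries.X : PowerSeries k) ^ M})
          (PowerSeries.expand p hp.ne_zero (etaK k)) =
        Ideal.Quotient.mk (Ideal.span {(PowerSeries.X : PowerSeries k) ^ M})
          (PowerSeries.expand p hp.ne_zero (EtaProd.etaPart k M)) := by
      refine hcong _ _ ?_
      rw [← map_sub]
      exact EtaProd.aux_dvd_expand _ _ (EtaProd.etaK_sub_etaPart_dvd' k (Nat.le_succ M))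
    have hfin : (∏ b ∈ Finset.range p, PowerSeries.rescale (ω ^ b) (EtaProd.etaPart k (p * M))) *
        PowerSeries.expand (p ^ 2) (pow_ne_zero 2 hp.ne_zero) (EtaProd.etaPart k M) =
        PowerSeries.expand p hp.ne_zero (EtaProd.etaPart k (p * M)) *
          (PowerSeries.expand p hp.ne_zero (EtaProd.etaPart k M)) ^ p := by
      rw [EtaProd.rescale_etaPart hp hω, EtaProd.expand_etaPart, EtaProd.expand_etaPart,
        EtaProd.expand_etaPart, EtaProd.finite_identity PowerSeries.X hp M]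
    rw [map_mul, map_prod, map_pow, Finset.prod_congr rfl (fun b _ => h1 b), h2,
      pow_succ' (Ideal.Quotient.mk (Ideal.span {(PowerSeries.X : PowerSeries k) ^ M})
        (PowerSeries.expand p hp.ne_zero (etaK k))) p]
    nth_rewrite 1 [h3]
    rw [h4, ← map_prod, ← map_mul, hfin, map_mul, map_pow]
  rw [← sub_eq_zero]
  ext d
  exact PowerSeries.X_pow_dvd_iff.mp (key (d + 1)) d (Nat.lt_succ_self d)

/-- The sign `ε = ω^{p(p-1)/2}` is `±1`. -/
theorem eps_sq_eq_one {k : Type*} [Field k] {p : ℕ} (hp : p.Prime) {ω : k}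
    (hω : IsPrimitiveRoot ω p) : (ω ^ (p * (p - 1) / 2)) ^ 2 = 1 := by
  have _ := hp
  rw [← pow_mul, Nat.div_mul_cancel (Nat.even_mul_pred_self p).two_dvd, pow_mul, hω.pow_eq_one,
    one_pow]

namespace EtaProd

theorem laurentRot_ofPowerSeries {k : Type*} [CommRing k] (ζ : kˣ) (f : PowerSeries k) :
    laurentRot ζ (HahnSeries.ofPowerSeries ℤ k f) =
      HahnSeries.ofPowerSeries ℤ k (PowerSeries.rescale (ζ : k) f) := by
  ext n
  rw [laurentRot_coeff, PowerSeries.coeff_coe, PowerSeries.coeff_coe]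
  split_ifs with h
  · rw [mul_zero]
  · rw [PowerSeries.coeff_rescale]
    lift n to ℕ using (not_lt.mp h)
    simp

theorem qExpand_ofPowerSeries {k : Type*} [CommRing k] (N : ℕ) [NeZero N] (f : PowerSeries k) :
    qExpand k N (HahnSeries.ofPowerSeries ℤ k f) =
      HahnSeries.ofPowerSeries ℤ k (PowerSeries.expand N (NeZero.ne N) f) := by
  ext n
  have hN : 0 < N := Nat.pos_of_ne_zero (NeZero.ne N)
  by_cases hd : (N : ℤ) ∣ n
  · obtain ⟨m, rfl⟩ := hd
    rw [qExpand_coeff_mul, PowerSeries.coeff_coe, PowerSeries.coeff_coe]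
    rcases lt_or_ge m 0 with hm | hm
    · have : (N : ℤ) * m < 0 := mul_neg_of_pos_of_neg (by exact_mod_cast hN) hm
      rw [if_pos hm, if_pos this]
    · have : ¬ (N : ℤ) * m < 0 := not_lt.mpr (mul_nonneg (by exact_mod_cast hN.le) hm)
      rw [if_neg (not_lt.mpr hm), if_neg this]
      lift m to ℕ using hm
      rw [PowerSeries.coeff_expand]
      have e : ((N : ℤ) * (m : ℤ)).natAbs = N * m := by
        rw [← Nat.cast_mul, Int.natAbs_natCast]
      rw [e, if_pos (dvd_mul_right N m), Nat.mul_div_cancel_left m hN, Int.natAbs_natCast]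
  · rw [qExpand_coeff_of_not_dvd _ _ hd, PowerSeries.coeff_coe]
    split_ifs with h
    · rfl
    · rw [PowerSeries.coeff_expand, if_neg]
      intro hdvd
      exact hd (Int.natCast_dvd.mpr hdvd)

theorem laurentRot_single_one {k : Type*} [CommRing k] (ζ : kˣ) :
    laurentRot ζ (HahnSeries.single (1 : ℤ) (1 : k)) =
      HahnSeries.C (ζ : k) * HahnSeries.single (1 : ℤ) (1 : k) := by
  ext n
  rw [laurentRot_coeff, HahnSeries.C_mul_eq_smul, HahnSeries.coeff_smul, HahnSeries.coeff_single]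
  split_ifs with h
  · subst h
    simp
  · simp

end EtaProd

/-- (VI): `∏_{b<p} Δ(ω^b t) · Δ(t^{p²}) = ε · Δ(t^p)^{p+1}`, `ε = ω^{p(p-1)/2}`. -/
theorem prod_laurentRot_DeltaK {k : Type*} [Field k] {p : ℕ} [NeZero p] (hp : p.Prime) (ω : kˣ)
    (hω : IsPrimitiveRoot (ω : k) p) :
    (∏ b ∈ Finset.range p, laurentRot (ω ^ b) (DeltaK k)) * qExpand k (p ^ 2) (DeltaK k)
      = HahnSeries.C ((ω : k) ^ (p * (p - 1) / 2)) * (qExpand k p (DeltaK k)) ^ (p + 1) := by
  have hrot : ∀ b : ℕ, laurentRot (ω ^ b) (DeltaK k) =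
      HahnSeries.C ((ω : k) ^ b) * HahnSeries.single (1 : ℤ) (1 : k) *
        HahnSeries.ofPowerSeries ℤ k (PowerSeries.rescale ((ω : k) ^ b) (etaK k)) ^ 24 := by
    intro b
    rw [DeltaK, map_mul, EtaProd.laurentRot_single_one, map_pow, map_pow,
      EtaProd.laurentRot_ofPowerSeries, Units.val_pow_eq_pow_val]
  have hexp : ∀ (N : ℕ) [NeZero N], qExpand k N (DeltaK k) =
      HahnSeries.single (1 : ℤ) (1 : k) ^ N *
        HahnSeries.ofPowerSeries ℤ k (PowerSeries.expand N (NeZero.ne N) (etaK k)) ^ 24 := by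
    intro N _
    rw [DeltaK, map_mul, qExpand_single, map_pow, map_pow, EtaProd.qExpand_ofPowerSeries,
      HahnSeries.single_pow, one_pow, mul_one, nsmul_eq_mul, mul_one]
  have hmain := congrArg (HahnSeries.ofPowerSeries ℤ k) (prod_rescale_etaK hp hω)
  rw [map_mul, map_prod, map_pow] at hmain
  rw [Finset.prod_congr rfl (fun b _ => hrot b), hexp (p ^ 2), hexp p, Finset.prod_mul_distrib,
    Finset.prod_mul_distrib, Finset.prod_pow, Finset.prod_const, Finset.card_range, ← map_prod,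
    Finset.prod_pow_eq_pow_sum, Finset.sum_range_id]
  have h24 : (∏ x ∈ Finset.range p,
        HahnSeries.ofPowerSeries ℤ k (PowerSeries.rescale ((ω : k) ^ x) (etaK k))) ^ 24 *
      HahnSeries.ofPowerSeries ℤ k
        (PowerSeries.expand (p ^ 2) (pow_ne_zero 2 hp.ne_zero) (etaK k)) ^ 24 =
      (HahnSeries.ofPowerSeries ℤ k (PowerSeries.expand p hp.ne_zero (etaK k)) ^ (p + 1)) ^ 24 := by
    rw [← mul_pow, hmain]
  linear_combination (HahnSeries.C ((ω : k) ^ (p * (p - 1) / 2)) *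
    HahnSeries.single (1 : ℤ) (1 : k) ^ p * HahnSeries.single (1 : ℤ) (1 : k) ^ (p ^ 2)) * h24

/-- Bridge to the shared vocabulary: `DeltaK k` is `deltaS k` (`FormalDefs.lean`). -/
theorem DeltaK_eq_deltaS (k : Type*) [CommRing k] : DeltaK k = deltaS k := by
  rw [DeltaK, etaK, deltaS_eq_etaProd, map_pow]

theorem DeltaK_ne_zero (k : Type*) [Field k] : DeltaK k ≠ 0 := by
  rw [DeltaK_eq_deltaS]
  exact deltaS_ne_zero k

/-- (VI) for `deltaS`: `∏_{b<p} Δ(ω^b t) · Δ(t^{p²}) = ε · Δ(t^p)^{p+1}`, `ε = ω^{p(p-1)/2}`. -/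
theorem prod_laurentRot_deltaS {k : Type*} [Field k] {p : ℕ} [NeZero p] (hp : p.Prime) (ω : kˣ)
    (hω : IsPrimitiveRoot (ω : k) p) :
    (∏ b ∈ Finset.range p, laurentRot (ω ^ b) (deltaS k)) * qExpand k (p ^ 2) (deltaS k)
      = HahnSeries.C ((ω : k) ^ (p * (p - 1) / 2)) * (qExpand k p (deltaS k)) ^ (p + 1) := by
  simpa only [DeltaK_eq_deltaS] using prod_laurentRot_DeltaK hp ω hω

end Fermat.Agent.S28
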