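import Fermat.Agent.S28.ModEqAn
import Fermat.Agent.S28.ModEqDescent

/-!
P10 / S28, module [B]: the modular equation at a prime `p`, formal form, over any field `k`
containing a primitive `p`-th root of unity `ω`:

  `Φ(X, j(t^p)) = (X - j(t^{p²})) ∏_{b<p} (X - j(ω^b t))`   in `k((t))[X]`

for some `Φ ∈ k[Y][X]`, monic of degree `p + 1` in `X`.  (Analytic identity over `ℂ`:
`ModEqAn.lean`; descent to `ℤ[ζ]` and transfer to `k`: `ModEqDescent.lean`; formal corollaries:
`ModEqCor.lean`.)
-/

set_option autoImplicit false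

namespace Fermat.Agent.S28

open Polynomial ModularCurve Fermat.Agent.S24

/-- **The modular equation at a prime `p`** over a field `k` with a primitive `p`-th root of
unity `ω`. -/
theorem exists_modEq (k : Type*) [Field k] (p : ℕ) [Fact p.Prime] (ω : kˣ)
    (hω : IsPrimitiveRoot ω p) :
    ∃ Φ : Polynomial (Polynomial k), Φ.Monic ∧ Φ.natDegree = p + 1 ∧
      Φ.map (Polynomial.aeval (qExpand k p (jqModC k))).toRingHom =
        (X - C (qExpand k (p * p) (jqModC k))) *
          ∏ b ∈ Finset.range p, (X - C (laurentRot (ω ^ b) (jqModC k))) := by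
  obtain ⟨ζ, Φ, hζ, hm, hd, hΦ⟩ := exists_modEq_complex_formal p Fact.out
  exact ModEqDescent.transfer p Fact.out ζ hζ Φ hm hd hΦ ω hω

end Fermat.Agent.S28
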