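import Fermat.Agent.S28.PolyCount

/-!
P10 [C], root count (pure algebra), case `1728 = 0` in `k` (characteristic `2` or `3`): the
polynomial identity (VIII) of the P10 blueprint forces `R = X ^ p`.
-/

set_option autoImplicit false

namespace Fermat.Agent.S28

open Polynomial

variable {k : Type*} [Field k]

/-- Root count, case `1728 = 0` in `k`: the identity (VIII) forces `R = X ^ p`. -/
theorem PolyCount.eq_X_pow_of_identity [IsAlgClosed k] {p : ℕ} (hp : p.Prime)
    (hpk : (p : k) ≠ 0) (h1728 : (1728 : k) = 0) {R : k[X]} (hR : R.Monic)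
    (hdeg : R.natDegree = p) {u : k} (hu : u ≠ 0) (h : PolyCount.Identity p R u) :
    R = X ^ p := by
  classical
  have hp2 := hp.two_le
  have hR' : derivative R ≠ 0 := (PolyCount.natDegree_derivative hpk hR hdeg).2
  have hZ := PolyCount.card_roots_derivative hpk hR hdeg
  have E0 := PolyCount.count_eq hp.pos hpk hR hdeg hu h 0
  have hD := Multiset.count_le_card (0 : k) ((derivative R).roots.map fun c => R.eval c)
  rw [Multiset.card_map, hZ] at hD
  have hA0 := PolyCount.one_le_rootMultiplicity_sub_C hp.pos hdeg (0 : k)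
  have hB0 := PolyCount.rootMultiplicity_sub_C_le hR' (0 : k)
  have e1 : ((0 : k) = R.eval 0) ↔ (R.eval 0 = 0) := eq_comm
  rw [h1728, C_0, sub_zero, PolyCount.rootMultiplicity_eq R 0] at E0
  simp only [if_true, e1] at E0
  have hle : p ≤ (R - C (R.eval 0)).rootMultiplicity 0 ∧ R.eval 0 = 0 := by
    by_cases c1 : R.eval 0 = 0
    · simp only [if_pos c1] at E0
      exact ⟨by omega, c1⟩
    · simp only [if_neg c1] at E0
      omega
  have hdvd : X ^ p ∣ R := by
    have h1 := pow_rootMultiplicity_dvd (R - C (R.eval 0)) 0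
    have h2 := hle.1
    rw [hle.2, C_0, sub_zero] at h1 h2
    rw [sub_zero] at h1
    exact (pow_dvd_pow X h2).trans h1
  exact eq_of_monic_of_dvd_of_natDegree_le (monic_X_pow p) hR hdvd (by simp [hdeg])

end Fermat.Agent.S28
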