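import Fermat.Agent.S28.FormalId
import Fermat.Agent.S28.EtaProd
import Fermat.Agent.S28.Endgame
import Fermat.Agent.S28.BaseAlg
import Fermat.Agent.S28.BaseCaseIV
import Fermat.Agent.S28.ModEq
import Fermat.Agent.S28.PolyCountB
import Fermat.Agent.S28.TowerDefs

/-!
P10 (S28, Igusa), module [C]: the base case.

For an algebraically closed field `k` and a prime `p` invertible in `k`, the series `j(q ^ p)` is
not a rational function of `j(q)` over `k`:

* `not_exists_aeval_jqModC`: `j(q ^ p)` is not a polynomial in `j(q)`;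
* `baseCase`: `j(q ^ p) ∉ k(j(q))`.

Proof (Kronecker style, all characteristics): from `j(q ^ p) = R(j(q))`, apply `θ = q d/dq` and
the identity `(θ j) ^ 6 = j ^ 4 (j - 1728) ^ 3 Δ`, take the product over the conjugates
`j(ω ^ b q)` and use `∏_b Δ(ω ^ b q) · Δ(q ^ (p ^ 2)) = ± Δ(q ^ p) ^ (p + 1)` to get a polynomial
identity for `R`, which is impossible by a root count (`PolyCount`), except when `1728 = 0`, where
it forces `R = X ^ p`, excluded by `Endgame`.
-/

set_option autoImplicit false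

namespace Fermat.Agent.S28

open HahnSeries ModularCurve Polynomial
open Fermat.Agent.S24 (laurentRot)

namespace BaseCase

variable {k : Type*} [Field k]

/-- `q ↦ q ^ a` commutes with polynomial evaluation. -/
theorem qExpand_aeval (a : ℕ) [NeZero a] (f : LaurentSeries k) (R : Polynomial k) :
    qExpand k a (aeval f R) = aeval (qExpand k a f) R := by
  have h := Polynomial.aeval_algHom_apply (qExpandAlgHomC k a) f R
  rw [qExpandAlgHomC_apply, qExpandAlgHomC_apply] at h
  exact h.symm

/-- Series in `q ^ p` are fixed by the rotation by a `p`-th root of unity. -/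
theorem rot_qExpand_of_pow_eq_one {p : ℕ} [NeZero p] {ζ : kˣ} (hζ : ζ ^ p = 1)
    (f : LaurentSeries k) : laurentRot ζ (qExpand k p f) = qExpand k p f := by
  rw [ModEqCor.rot_qExpand, hζ, Fermat.Agent.S24.laurentRot_one]

theorem aeval_jqModC_ne_zero {P : Polynomial k} (hP : P ≠ 0) : aeval (jqModC k) P ≠ 0 := by
  intro h
  have h1 := BaseCaseIV.coeff_aeval_natDegree (jqModC k)
    (by rw [BaseCaseIV.order_jqModC]; norm_num) BaseCaseIV.leadingCoeff_jqModC P
  rw [h, HahnSeries.coeff_zero] at h1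
  exact leadingCoeff_ne_zero.mpr hP h1.symm

/-- `j(q)` is transcendental over `k`. -/
theorem transcendental_jqModC : Transcendental k (jqModC k) := by
  rintro ⟨P, hP, h⟩
  exact aeval_jqModC_ne_zero hP h

/-- `j(q ^ p)` is transcendental over `k`. -/
theorem transcendental_qExpand_jqModC (p : ℕ) [NeZero p] :
    Transcendental k (qExpand k p (jqModC k)) := by
  rintro ⟨P, hP, h⟩
  rw [← qExpand_aeval] at h
  exact aeval_jqModC_ne_zero hP (qExpand_injective (R := k) p (by rw [h, map_zero]))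

/-- (II): `R'(j) · θ j = p · (θ j)(q ^ p)`. -/
theorem relII {p : ℕ} [NeZero p] {R : Polynomial k}
    (hR : aeval (jqModC k) R = qExpand k p (jqModC k)) :
    aeval (jqModC k) (derivative R) * theta k (jqModC k) =
      HahnSeries.C (p : k) * qExpand k p (theta k (jqModC k)) := by
  rw [← theta_aeval, hR, theta_qExpand]

/-- (III): `R'(j) ^ 6 j ^ 4 (j - 1728) ^ 3 Δ = p ^ 6 R(j) ^ 4 (R(j) - 1728) ^ 3 Δ(q ^ p)`. -/
theorem relIII {p : ℕ} [NeZero p] {R : Polynomial k}
    (hR : aeval (jqModC k) R = qExpand k p (jqModC k)) :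
    aeval (jqModC k) (derivative R) ^ 6 * jqModC k ^ 4 *
        (jqModC k - HahnSeries.C (1728 : k)) ^ 3 * deltaS k =
      HahnSeries.C (p : k) ^ 6 * aeval (jqModC k) R ^ 4 *
        (aeval (jqModC k) R - HahnSeries.C (1728 : k)) ^ 3 * qExpand k p (deltaS k) := by
  have h2 := congrArg (· ^ 6) (relII hR)
  simp only [mul_pow] at h2
  have h3 : qExpand k p (theta k (jqModC k)) ^ 6 =
      qExpand k p (jqModC k) ^ 4 * (qExpand k p (jqModC k) - HahnSeries.C (1728 : k)) ^ 3 *
        qExpand k p (deltaS k) := by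
    rw [← map_pow, theta_jqModC_pow_six, map_mul, map_mul, map_pow, map_pow, map_sub,
      qExpand_C]
  rw [theta_jqModC_pow_six, h3] at h2
  rw [hR]
  linear_combination h2

/-- (III'): (III) with `q` replaced by `q ^ p`. -/
theorem relIII_qExpand {p : ℕ} [NeZero p] {R : Polynomial k}
    (hR : aeval (jqModC k) R = qExpand k p (jqModC k)) :
    aeval (qExpand k p (jqModC k)) (derivative R) ^ 6 * qExpand k p (jqModC k) ^ 4 *
        (qExpand k p (jqModC k) - HahnSeries.C (1728 : k)) ^ 3 * qExpand k p (deltaS k) =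
      HahnSeries.C (p : k) ^ 6 * aeval (qExpand k p (jqModC k)) R ^ 4 *
        (aeval (qExpand k p (jqModC k)) R - HahnSeries.C (1728 : k)) ^ 3 *
          qExpand k (p ^ 2) (deltaS k) := by
  have h := congrArg (qExpand k p) (relIII hR)
  simp only [map_mul, map_pow, map_sub, qExpand_C, qExpand_aeval, qExpand_qExpand] at h
  rw [qExpand_congr (sq p).symm] at h
  exact h

/-- (V): (III) with `q` replaced by `ζ q`, `ζ ^ p = 1`. -/
theorem relV {p : ℕ} [NeZero p] {R : Polynomial k}
    (hR : aeval (jqModC k) R = qExpand k p (jqModC k)) {ζ : kˣ} (hζ : ζ ^ p = 1) :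
    aeval (laurentRot ζ (jqModC k)) (derivative R) ^ 6 * laurentRot ζ (jqModC k) ^ 4 *
        (laurentRot ζ (jqModC k) - HahnSeries.C (1728 : k)) ^ 3 * laurentRot ζ (deltaS k) =
      HahnSeries.C (p : k) ^ 6 * qExpand k p (jqModC k) ^ 4 *
        (qExpand k p (jqModC k) - HahnSeries.C (1728 : k)) ^ 3 * qExpand k p (deltaS k) := by
  have hRζ : aeval (laurentRot ζ (jqModC k)) R = qExpand k p (jqModC k) := by
    rw [← BaseCaseIV.laurentRot_aeval, hR, rot_qExpand_of_pow_eq_one hζ]
  have h := congrArg (laurentRot ζ) (relIII hR)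
  simp only [map_mul, map_pow, map_sub, ModEqCor.rot_C, BaseCaseIV.laurentRot_aeval] at h
  rw [hRζ, rot_qExpand_of_pow_eq_one hζ] at h
  exact h

/-- A primitive `p`-th root of unity in an algebraically closed field in which `p ≠ 0`, as a
unit. -/
theorem exists_primitiveRoot_unit [IsAlgClosed k] {p : ℕ} (hp0 : p ≠ 0) (hp : (p : k) ≠ 0) :
    ∃ ω : kˣ, IsPrimitiveRoot ω p ∧ IsPrimitiveRoot (ω : k) p := by
  have : NeZero (p : k) := ⟨hp⟩
  obtain ⟨ω₀, hω₀⟩ := HasEnoughRootsOfUnity.exists_primitiveRoot k p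
  have hne : ω₀ ≠ 0 := hω₀.ne_zero hp0
  refine ⟨Units.mk0 ω₀ hne, ?_, ?_⟩
  · rw [← IsPrimitiveRoot.coe_units_iff]
    exact hω₀
  · exact hω₀

end BaseCase

/-- `j(q ^ p)` is not a polynomial in `j(q)` (`k` algebraically closed, `p` a prime invertible
in `k`). -/
theorem not_exists_aeval_jqModC (k : Type*) [Field k] [IsAlgClosed k] (p : ℕ) [Fact p.Prime]
    (hp : (p : k) ≠ 0) :
    ¬ ∃ R : Polynomial k, qExpand k p (jqModC k) = Polynomial.aeval (jqModC k) R := by
  rintro ⟨R, hR'⟩
  have hR : aeval (jqModC k) R = qExpand k p (jqModC k) := hR'.symm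
  have hprime : p.Prime := Fact.out
  obtain ⟨ω, hω, hωk⟩ := BaseCase.exists_primitiveRoot_unit (k := k) hprime.ne_zero hp
  obtain ⟨hmonic, hdeg⟩ := BaseCaseIV.monic_natDegree_of_aeval_eq hR
  have hJ : Transcendental k (qExpand k p (jqModC k)) :=
    BaseCase.transcendental_qExpand_jqModC p
  have hD : qExpand k p (deltaS k) ≠ 0 := fun h =>
    deltaS_ne_zero k (qExpand_injective (R := k) p (by rw [h, map_zero]))
  have hε : (ω : k) ^ (p * (p - 1) / 2) ≠ 0 := pow_ne_zero _ ω.ne_zero
  have hid := BaseAlg.identity_of_relations (A := LaurentSeries k) hp hmonic hdeg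
    (qExpand k p (jqModC k)) hJ
    (fun b => laurentRot (ω ^ b) (jqModC k)) (fun b => laurentRot (ω ^ b) (deltaS k))
    (qExpand k p (deltaS k)) (qExpand k (p ^ 2) (deltaS k)) hD ((ω : k) ^ (p * (p - 1) / 2)) hε
    (BaseCaseIV.map_sub_C_eq_prod hω hR)
    (fun b _ => by
      have hζ : (ω ^ b) ^ p = 1 := by rw [← pow_mul, mul_comm, pow_mul, hω.pow_eq_one, one_pow]
      simp only [ModEqCor.algebraMap_laurentSeries_eq_C]
      exact BaseCase.relV hR hζ)
    (by
      simp only [ModEqCor.algebraMap_laurentSeries_eq_C]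
      exact prod_laurentRot_deltaS hprime ω hωk)
    (by
      simp only [ModEqCor.algebraMap_laurentSeries_eq_C]
      exact BaseCase.relIII_qExpand hR)
  have hu : (-1 : k) ^ (p + 1) * (ω : k) ^ (p * (p - 1) / 2) * (p : k) ^ 6 ≠ 0 :=
    mul_ne_zero (mul_ne_zero (pow_ne_zero _ (neg_ne_zero.mpr one_ne_zero)) hε) (pow_ne_zero _ hp)
  by_cases h1728 : (1728 : k) = 0
  · have hX := PolyCount.eq_X_pow_of_identity hprime hp h1728 hmonic hdeg hu hid
    rw [hX, map_pow, aeval_X] at hR
    exact qExpand_jqModC_ne_pow k p hp h1728 hR.symm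
  · exact PolyCount.false_of_identity hprime hp h1728 hmonic hdeg hu hid


/-- **Base case**: `j(q ^ p) ∉ k(j(q))` for `k` algebraically closed and `p` a prime invertible
in `k`. -/
theorem jp_not_mem_Kj (k : Type*) [Field k] [IsAlgClosed k] (p : ℕ) [Fact p.Prime]
    (hp : (p : k) ≠ 0) : qExpand k p (jqModC k) ∉ Kj k := by
  intro hmem
  have hprime : p.Prime := Fact.out
  obtain ⟨ω, hω, -⟩ := BaseCase.exists_primitiveRoot_unit (k := k) hprime.ne_zero hp
  obtain ⟨Φ, hm, -, hΦ⟩ := exists_modEq k p ω hω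
  have hint := modEq_isIntegral k p ω hm hΦ 1
  rw [qExpand_one_apply, qExpand_congr (one_mul p)] at hint
  obtain ⟨R, hR⟩ := BaseCaseIV.exists_eq_aeval_of_mem_adjoin_of_isIntegral
    BaseCase.transcendental_jqModC hmem hint
  exact not_exists_aeval_jqModC k p hp ⟨R, hR⟩

end Fermat.Agent.S28
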