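import Fermat.Agent.S28.TowerAux
import Fermat.Agent.S28.BaseCase

/-!
P10 / [D] Tower, D1: for `k` algebraically closed and a prime `p ≠ char k`,
`[k(j)(j(q^p)) : k(j)] = p + 1` (the modular equation is irreducible over `k(j)`).
-/

set_option autoImplicit false

namespace Fermat.Agent.S28

open ModularCurve IntermediateField Polynomial

section Main
variable (k : Type*) [Field k] [IsAlgClosed k]

/-- D1: the minimal polynomial of `j(q^p)` over `k(j)` has degree `p + 1` -/
theorem natDegree_minpoly_jp (p : ℕ) [Fact p.Prime] (hp : (p : k) ≠ 0) :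
    (minpoly (Kj k) (qExpand k p (jqModC k))).natDegree = p + 1 :=
  natDegree_minpoly_jp_of_not_mem k (Kj k) p hp (Tower.jqModC_mem_Kj k) (jp_not_mem_Kj k p hp)

open Tower in
/-- D1: `[F_p : k(j)] = p + 1` -/
theorem relfinrank_Kj_full_prime (p : ℕ) [Fact p.Prime] (hp : (p : k) ≠ 0) :
    (Kj k).relfinrank (modularFunctionFieldFullC k p) = p + 1 := by
  have hint : IsIntegral (Kj k) (qExpand k p (jqModC k)) := isIntegral_qExpand_jqModC p hp
  rw [relfinrank_adjoin_simple (Kj k) _ (qExpand k p (jqModC k)) hint ?_,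
    natDegree_minpoly_jp k p hp]
  rw [adjoin_adjoin_left, full_prime]
  rfl

end Main

end Fermat.Agent.S28
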