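import Fermat.Agent.S28.TowerDefs
import Fermat.Agent.S28.ModEq

/-!
P10 / [D] Tower, part 1 (independent of the base case [C]):
* generic lemmas on `relfinrank` of simple / finitely generated extensions (namespace `Tower`);
* `natDegree_minpoly_jp_of_not_mem`: over any intermediate field `F ∋ j` of `k((q))` not
  containing `j(q^p)`, the minimal polynomial of `j(q^p)` has degree `p + 1`;
* `Tower.isIntegral_qExpand_jqModC`, `relfinrank_full_pos`: `F_M` is finite over `k(j)`.
-/

set_option autoImplicit false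

namespace Fermat.Agent.S28

open ModularCurve IntermediateField Polynomial
open Fermat.Agent.S24 (laurentRot)

namespace Tower

/-- degree of a simple extension inside an ambient field, in terms of `relfinrank` -/
theorem relfinrank_adjoin_simple {K L : Type*} [Field K] [Field L] [Algebra K L]
    (A B : IntermediateField K L) (x : L) (hx : IsIntegral A x)
    (hB : B = (adjoin A {x}).restrictScalars K) :
    A.relfinrank B = (minpoly A x).natDegree := by
  subst hB
  have hle : A ≤ (adjoin A {x}).restrictScalars K := by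
    intro a ha
    exact (adjoin A {x}).algebraMap_mem ⟨a, ha⟩
  rw [relfinrank_eq_finrank_of_le hle]
  have h1 : extendScalars hle = adjoin A {x} := by
    apply restrictScalars_injective K
    rfl
  rw [h1, adjoin.finrank hx]

/-- finiteness of a finitely generated algebraic extension inside an ambient field, in terms of
`relfinrank` -/
theorem relfinrank_adjoin_pos {K L : Type*} [Field K] [Field L] [Algebra K L]
    (A B : IntermediateField K L) (S : Set L) (hS : S.Finite) (hint : ∀ x ∈ S, IsIntegral A x)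
    (hB : B = (adjoin A S).restrictScalars K) :
    0 < A.relfinrank B := by
  subst hB
  have hle : A ≤ (adjoin A S).restrictScalars K := by
    intro a ha
    exact (adjoin A S).algebraMap_mem ⟨a, ha⟩
  rw [relfinrank_eq_finrank_of_le hle]
  have h1 : extendScalars hle = adjoin A S := by
    apply restrictScalars_injective K
    rfl
  rw [h1]
  have : Finite S := hS
  have := finiteDimensional_adjoin (K := A) hint
  exact Module.finrank_pos

section General
variable {k : Type*} [Field k]

/-- a rotation by a `p`-th root of unity fixes the series in `q^p` -/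
theorem rot_qExpand_fixed (p : ℕ) [NeZero p] (ω : kˣ) (hω : ω ^ p = 1) (f : LaurentSeries k) :
    laurentRot ω (qExpand k p f) = qExpand k p f := by
  ext n
  rw [Fermat.Agent.S24.laurentRot_coeff]
  by_cases hn : (p : ℤ) ∣ n
  · obtain ⟨m, rfl⟩ := hn
    rw [zpow_mul, zpow_natCast, hω, one_zpow, Units.val_one, one_mul]
  · rw [qExpand_coeff_of_not_dvd p f hn, mul_zero]

theorem rot_comp_qExpand (p : ℕ) [NeZero p] (ω : kˣ) (hω : ω ^ p = 1) :
    (laurentRot ω).comp (qExpand k p) = qExpand k p :=
  RingHom.ext fun f => rot_qExpand_fixed p ω hω f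

theorem qExpand_comp_aeval (p : ℕ) [NeZero p] (x : LaurentSeries k) :
    (qExpand k p).comp (Polynomial.aeval x : Polynomial k →ₐ[k] LaurentSeries k).toRingHom =
      (Polynomial.aeval (qExpand k p x) : Polynomial k →ₐ[k] LaurentSeries k).toRingHom := by
  refine Polynomial.ringHom_ext (fun a => ?_) ?_
  · simp only [RingHom.comp_apply, AlgHom.toRingHom_eq_coe, RingHom.coe_coe, aeval_C]
    exact (qExpandAlgHomC k p).commutes a
  · simp only [RingHom.comp_apply, AlgHom.toRingHom_eq_coe, RingHom.coe_coe, aeval_X]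

theorem algebraMap_comp_aeval (F : IntermediateField k (LaurentSeries k)) (x : F) :
    (algebraMap F (LaurentSeries k)).comp (Polynomial.aeval x : Polynomial k →ₐ[k] F).toRingHom =
      (Polynomial.aeval (x : LaurentSeries k) : Polynomial k →ₐ[k] LaurentSeries k).toRingHom := by
  refine Polynomial.ringHom_ext (fun a => ?_) ?_
  · simp only [RingHom.comp_apply, AlgHom.toRingHom_eq_coe, RingHom.coe_coe, aeval_C]
    rfl
  · simp only [RingHom.comp_apply, AlgHom.toRingHom_eq_coe, RingHom.coe_coe, aeval_X]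
    rfl

/-- the conjugates `j(ω^b q)` are pairwise distinct -/
theorem rot_pow_j_injOn {p : ℕ} {ω : kˣ} (hω : IsPrimitiveRoot ω p) :
    Set.InjOn (fun b : ℕ => laurentRot (ω ^ b) (jqModC k)) (Finset.range p : Set ℕ) := by
  intro b hb c hc h
  have h1 := congrArg (fun x : LaurentSeries k => x.coeff (-1)) h
  simp only [Fermat.Agent.S24.laurentRot_coeff, coeff_jqModC_neg_one, mul_one] at h1
  have h2 : (ω ^ b) ^ (-1 : ℤ) = (ω ^ c) ^ (-1 : ℤ) := Units.ext h1
  rw [zpow_neg_one, zpow_neg_one, inv_inj] at h2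
  exact hω.pow_inj (Finset.mem_range.mp hb) (Finset.mem_range.mp hc) h2

theorem rot_j_ne_qExpand {e : ℕ} [NeZero e] (he : 2 ≤ e) (ζ : kˣ) :
    laurentRot ζ (jqModC k) ≠ qExpand k e (jqModC k) := by
  intro h
  have h1 := congrArg (fun x : LaurentSeries k => x.coeff (-1)) h
  simp only [Fermat.Agent.S24.laurentRot_coeff, coeff_jqModC_neg_one, mul_one,
    coeff_qExpand_jqModC_neg_one k he] at h1
  exact Units.ne_zero _ h1

/-- a nonzero divisor of a product of distinct linear factors: its roots -/
theorem roots_of_dvd_prod {L : Type*} [Field L] [DecidableEq L] {m : L[X]} {T : Finset L}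
    (hdvd : m ∣ ∏ y ∈ T, (X - C y)) :
    m.roots.toFinset ⊆ T ∧ m.roots.toFinset.card = m.natDegree := by
  have hQ0 : (∏ y ∈ T, (X - C y) : L[X]) ≠ 0 :=
    (Polynomial.monic_prod_of_monic _ _ fun y _ => Polynomial.monic_X_sub_C y).ne_zero
  have hQs : (∏ y ∈ T, (X - C y) : L[X]).Splits :=
    Polynomial.Splits.prod fun y _ => Polynomial.Splits.X_sub_C y
  have hms : m.Splits := Polynomial.Splits.of_dvd hQs hQ0 hdvd
  have hle : m.roots ≤ T.val := by
    have := Polynomial.roots.le_of_dvd hQ0 hdvd
    rwa [Polynomial.roots_prod_X_sub_C] at this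
  have hnodup : m.roots.Nodup := Multiset.nodup_of_le hle T.nodup
  refine ⟨fun y hy => ?_, ?_⟩
  · exact Multiset.mem_of_le hle (Multiset.mem_toFinset.mp hy)
  · rw [Multiset.toFinset_card_of_nodup hnodup, ← hms.natDegree_eq_card_roots]

end General

end Tower

open Tower in
/-- D1, general form: over any intermediate field `F ∋ j` not containing `j(q^p)`, the minimal
polynomial of `j(q^p)` has degree `p + 1`. -/
theorem natDegree_minpoly_jp_of_not_mem (k : Type*) [Field k] [IsAlgClosed k]
    (F : IntermediateField k (LaurentSeries k)) (p : ℕ) [Fact p.Prime] (hp : (p : k) ≠ 0)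
    (hj : jqModC k ∈ F) (h : qExpand k p (jqModC k) ∉ F) :
    (minpoly F (qExpand k p (jqModC k))).natDegree = p + 1 := by
  classical
  have : NeZero (p : k) := ⟨hp⟩
  have hp0 : p ≠ 0 := (Fact.out : p.Prime).ne_zero
  obtain ⟨ω₀, hω₀⟩ := HasEnoughRootsOfUnity.exists_primitiveRoot k p
  obtain ⟨ω, rfl⟩ := hω₀.isUnit hp0
  have hω : IsPrimitiveRoot ω p := IsPrimitiveRoot.coe_units_iff.mp hω₀
  have hωp : ω ^ p = 1 := hω.pow_eq_one
  obtain ⟨Φ, hΦm, hΦd, hΦ⟩ := exists_modEq k p ω hω
  have hι : Function.Injective (qExpand k p) := qExpand_injective p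
  -- the set of roots
  have hxinj : Set.InjOn (fun b : ℕ => laurentRot (ω ^ b) (jqModC k)) (Finset.range p : Set ℕ) :=
    rot_pow_j_injOn hω
  have hιjp : qExpand k p (qExpand k p (jqModC k)) = qExpand k (p * p) (jqModC k) :=
    qExpand_qExpand p p (jqModC k)
  have hpp : 2 ≤ p * p := by
    have := (Fact.out : p.Prime).two_le
    nlinarith
  have hnotin : qExpand k (p * p) (jqModC k) ∉
      (Finset.range p).image (fun b : ℕ => laurentRot (ω ^ b) (jqModC k)) := by
    intro hmem
    obtain ⟨b, -, hb⟩ := Finset.mem_image.mp hmem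
    exact rot_j_ne_qExpand hpp (ω ^ b) hb
  obtain ⟨T, hTdef⟩ : ∃ T : Finset (LaurentSeries k), T = insert (qExpand k (p * p) (jqModC k))
      ((Finset.range p).image (fun b : ℕ => laurentRot (ω ^ b) (jqModC k))) := ⟨_, rfl⟩
  have hT : T.card = p + 1 := by
    rw [hTdef, Finset.card_insert_of_notMem hnotin, Finset.card_image_of_injOn hxinj,
      Finset.card_range]
  have hQ : Φ.map (Polynomial.aeval (qExpand k p (jqModC k))).toRingHom =
      ∏ y ∈ T, (X - C y) := by
    rw [hΦ, hTdef, Finset.prod_insert hnotin, Finset.prod_image hxinj]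
  -- `Φ` over `F`
  have hΦF_monic : (Φ.map (Polynomial.aeval (⟨jqModC k, hj⟩ : F)).toRingHom).Monic := hΦm.map _
  have hΦF_deg : (Φ.map (Polynomial.aeval (⟨jqModC k, hj⟩ : F)).toRingHom).natDegree = p + 1 := by
    rw [hΦm.natDegree_map, hΦd]
  have hΦF_L : (Φ.map (Polynomial.aeval (⟨jqModC k, hj⟩ : F)).toRingHom).map
      (algebraMap F (LaurentSeries k)) = Φ.map (Polynomial.aeval (jqModC k)).toRingHom := by
    rw [Polynomial.map_map, algebraMap_comp_aeval]
  have hΦ_ι : (Φ.map (Polynomial.aeval (jqModC k)).toRingHom).map (qExpand k p) =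
      ∏ y ∈ T, (X - C y) := by
    rw [Polynomial.map_map, qExpand_comp_aeval, hQ]
  have hmemT : qExpand k (p * p) (jqModC k) ∈ T := by
    rw [hTdef]
    exact Finset.mem_insert_self _ _
  have hroot : Polynomial.aeval (qExpand k p (jqModC k))
      (Φ.map (Polynomial.aeval (⟨jqModC k, hj⟩ : F)).toRingHom) = 0 := by
    rw [← Polynomial.eval_map_algebraMap, hΦF_L]
    apply hι
    rw [map_zero, ← Polynomial.eval_map_apply, hΦ_ι, Polynomial.eval_prod, hιjp]
    exact Finset.prod_eq_zero hmemT (by simp)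
  have hint : IsIntegral F (qExpand k p (jqModC k)) := ⟨_, hΦF_monic, hroot⟩
  have hm_dvd := minpoly.dvd F (qExpand k p (jqModC k)) hroot
  have hm_monic := minpoly.monic hint
  obtain ⟨m, hmdef⟩ : ∃ m : F[X], m = minpoly F (qExpand k p (jqModC k)) := ⟨_, rfl⟩
  rw [← hmdef] at hm_dvd hm_monic ⊢
  obtain ⟨m₁, hm₁def⟩ : ∃ m₁ : (LaurentSeries k)[X],
      m₁ = (m.map (algebraMap F (LaurentSeries k))).map (qExpand k p) := ⟨_, rfl⟩
  have hm₁_monic : m₁.Monic := by
    rw [hm₁def]
    exact (hm_monic.map _).map _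
  have hm₁_deg : m₁.natDegree = m.natDegree := by
    rw [hm₁def, (hm_monic.map _).natDegree_map, hm_monic.natDegree_map]
  have hm₁_dvd : m₁ ∣ ∏ y ∈ T, (X - C y) := by
    rw [← hΦ_ι, ← hΦF_L, hm₁def]
    exact Polynomial.map_dvd _ (Polynomial.map_dvd _ hm_dvd)
  obtain ⟨hsub, hcard⟩ := roots_of_dvd_prod hm₁_dvd
  have hmemR : ∀ y, y ∈ m₁.roots.toFinset ↔ m₁.IsRoot y := by
    intro y
    rw [Multiset.mem_toFinset, Polynomial.mem_roots hm₁_monic.ne_zero]
  -- `ι j_p` is a root
  have h1 : qExpand k (p * p) (jqModC k) ∈ m₁.roots.toFinset := by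
    rw [hmemR, Polynomial.IsRoot.def, hm₁def, ← hιjp, Polynomial.eval_map_apply,
      Polynomial.eval_map_algebraMap, hmdef, minpoly.aeval, map_zero]
  -- stability under the rotation
  have hσ : ∀ y, y ∈ m₁.roots.toFinset → laurentRot ω y ∈ m₁.roots.toFinset := by
    intro y hy
    rw [hmemR] at hy ⊢
    have hfix : m₁.map (laurentRot ω) = m₁ := by
      rw [hm₁def, Polynomial.map_map, rot_comp_qExpand p ω hωp]
    rw [Polynomial.IsRoot.def, ← hfix, Polynomial.eval_map_apply, hy.eq_zero, map_zero]
  -- the degree is at least two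
  have hdeg_ne_one : m.natDegree ≠ 1 := by
    intro h1'
    rw [hmdef, minpoly.natDegree_eq_one_iff] at h1'
    obtain ⟨a, ha⟩ := h1'
    exact h (ha ▸ a.2)
  have hdeg_pos : 0 < m.natDegree := by
    rw [hmdef]
    exact minpoly.natDegree_pos hint
  have h2 : 1 < m₁.roots.toFinset.card := by
    rw [hcard, hm₁_deg]
    omega
  obtain ⟨y, hyR, hyne⟩ := Finset.exists_mem_ne h2 (qExpand k (p * p) (jqModC k))
  have hyT := hsub hyR
  rw [hTdef, Finset.mem_insert] at hyT
  rcases hyT with hy | hy
  · exact absurd hy hyne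
  obtain ⟨b, hb, rfl⟩ := Finset.mem_image.mp hy
  have hall : ∀ n : ℕ, laurentRot (ω ^ (b + n)) (jqModC k) ∈ m₁.roots.toFinset := by
    intro n
    induction n with
    | zero => exact hyR
    | succ n ih =>
      have h3 := hσ _ ih
      rwa [← Fermat.Agent.S24.laurentRot_mul, ← pow_succ'] at h3
  have hTR : T ⊆ m₁.roots.toFinset := by
    intro y hy
    rw [hTdef] at hy
    rcases Finset.mem_insert.mp hy with rfl | hy
    · exact h1
    · obtain ⟨c, hc, rfl⟩ := Finset.mem_image.mp hy
      have hb' : b < p := Finset.mem_range.mp hb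
      have h4 : ω ^ c = ω ^ (b + (c + p - b)) := by
        rw [show b + (c + p - b) = c + p by omega, pow_add, hωp, mul_one]
      show laurentRot (ω ^ c) (jqModC k) ∈ _
      rw [h4]
      exact hall _
  have hle : p + 1 ≤ m.natDegree := by
    rw [← hT, ← hm₁_deg, ← hcard]
    exact Finset.card_le_card hTR
  have hge : m.natDegree ≤ p + 1 := by
    rw [← hΦF_deg]
    exact Polynomial.natDegree_le_of_dvd hm_dvd hΦF_monic.ne_zero
  exact le_antisymm hge hle

namespace Tower

section Integral
variable {k : Type*} [Field k]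

/-- `Φ(j(q^p), j) = 0` for any `Φ` satisfying the modular equation -/
theorem modEq_root (p : ℕ) [Fact p.Prime] (ω : kˣ) (Φ : Polynomial (Polynomial k))
    (hΦ : Φ.map (Polynomial.aeval (qExpand k p (jqModC k))).toRingHom =
        (X - C (qExpand k (p * p) (jqModC k))) *
          ∏ b ∈ Finset.range p, (X - C (laurentRot (ω ^ b) (jqModC k)))) :
    Φ.eval₂ (Polynomial.aeval (jqModC k)).toRingHom (qExpand k p (jqModC k)) = 0 := by
  apply qExpand_injective (R := k) p
  rw [map_zero, Polynomial.hom_eval₂, qExpand_comp_aeval, Polynomial.eval₂_eq_eval_map, hΦ,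
    qExpand_qExpand, Polynomial.eval_mul, Polynomial.eval_sub, Polynomial.eval_X,
    Polynomial.eval_C, sub_self, zero_mul]

/-- `Φ(j(q^{dp}), j(q^d)) = 0` -/
theorem modEq_root_qExpand (p : ℕ) [Fact p.Prime] (ω : kˣ) (Φ : Polynomial (Polynomial k))
    (hΦ : Φ.map (Polynomial.aeval (qExpand k p (jqModC k))).toRingHom =
        (X - C (qExpand k (p * p) (jqModC k))) *
          ∏ b ∈ Finset.range p, (X - C (laurentRot (ω ^ b) (jqModC k))))
    (d : ℕ) [NeZero d] :
    Φ.eval₂ (Polynomial.aeval (qExpand k d (jqModC k))).toRingHom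
      (qExpand k (d * p) (jqModC k)) = 0 := by
  have h := congrArg (qExpand k d) (modEq_root p ω Φ hΦ)
  rwa [map_zero, Polynomial.hom_eval₂, qExpand_comp_aeval, qExpand_qExpand] at h

/-- `j(q^d)` is integral over `k(j)` when `char k ∤ d` -/
theorem isIntegral_qExpand_jqModC [IsAlgClosed k] :
    ∀ (d : ℕ) [NeZero d], (d : k) ≠ 0 → IsIntegral (Kj k) (qExpand k d (jqModC k)) := by
  intro d
  induction d using Nat.strong_induction_on with
  | _ d ih =>
    intro hne hd
    rcases eq_or_ne d 1 with rfl | hd1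
    · rw [qExpand_one_apply]
      exact isIntegral_algebraMap (x := (⟨jqModC k, jqModC_mem_Kj k⟩ : Kj k))
    have hpr : d.minFac.Prime := Nat.minFac_prime hd1
    have : Fact d.minFac.Prime := ⟨hpr⟩
    obtain ⟨d', hd'⟩ : ∃ d', d = d' * d.minFac := ⟨d / d.minFac,
      (Nat.div_mul_cancel (Nat.minFac_dvd d)).symm⟩
    have hd'0 : d' ≠ 0 := by
      rintro rfl
      rw [zero_mul] at hd'
      exact NeZero.ne d hd'
    have : NeZero d' := ⟨hd'0⟩
    have hd'lt : d' < d := by
      have h2 := hpr.two_le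
      nlinarith [Nat.pos_of_ne_zero hd'0]
    have hcast : (d : k) = (d' : k) * (d.minFac : k) := by
      conv_lhs => rw [hd']
      push_cast
      rfl
    have hd'k : (d' : k) ≠ 0 := fun h0 => hd (by rw [hcast, h0, zero_mul])
    have hpk : (d.minFac : k) ≠ 0 := fun h0 => hd (by rw [hcast, h0, mul_zero])
    have ih' : IsIntegral (Kj k) (qExpand k d' (jqModC k)) := ih d' hd'lt hd'k
    -- the modular equation at the prime `minFac d`
    have : NeZero (d.minFac : k) := ⟨hpk⟩
    obtain ⟨ω₀, hω₀⟩ := HasEnoughRootsOfUnity.exists_primitiveRoot k d.minFac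
    obtain ⟨ω, rfl⟩ := hω₀.isUnit hpr.ne_zero
    have hω : IsPrimitiveRoot ω d.minFac := IsPrimitiveRoot.coe_units_iff.mp hω₀
    obtain ⟨Φ, hΦm, -, hΦ⟩ := exists_modEq k d.minFac ω hω
    have hroot := modEq_root_qExpand d.minFac ω Φ hΦ d'
    rw [qExpand_congr (R := k) hd' (jqModC k)]
    -- integrality over `k(j)(j(q^{d'}))`
    have : Algebra.IsIntegral (Kj k) (adjoin (Kj k) {qExpand k d' (jqModC k)}) :=
      (isAlgebraic_adjoin_simple ih').isIntegral
    refine isIntegral_trans (A := adjoin (Kj k) {qExpand k d' (jqModC k)}) _ ?_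
    let φ : Polynomial k →+* adjoin (Kj k) {qExpand k d' (jqModC k)} :=
      Polynomial.eval₂RingHom
        ((algebraMap (Kj k) (adjoin (Kj k) {qExpand k d' (jqModC k)})).comp
          (algebraMap k (Kj k)))
        ⟨qExpand k d' (jqModC k), mem_adjoin_simple_self _ _⟩
    have hφ : (algebraMap (adjoin (Kj k) {qExpand k d' (jqModC k)}) (LaurentSeries k)).comp φ =
        (Polynomial.aeval (qExpand k d' (jqModC k)) :
          Polynomial k →ₐ[k] LaurentSeries k).toRingHom := by
      refine Polynomial.ringHom_ext (fun a => ?_) ?_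
      · simp only [φ, RingHom.comp_apply, Polynomial.coe_eval₂RingHom, Polynomial.eval₂_C,
          AlgHom.toRingHom_eq_coe, RingHom.coe_coe, aeval_C]
        rfl
      · simp only [φ, RingHom.comp_apply, Polynomial.coe_eval₂RingHom, Polynomial.eval₂_X,
          AlgHom.toRingHom_eq_coe, RingHom.coe_coe, aeval_X]
        rfl
    refine ⟨Φ.map φ, hΦm.map φ, ?_⟩
    rw [Polynomial.eval₂_map, hφ]
    exact hroot

end Integral

end Tower

section Main
variable (k : Type*) [Field k] [IsAlgClosed k]

open Tower in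
/-- `F_M` is finite over `k(j)` -/
theorem relfinrank_full_pos (M : ℕ) [NeZero M] (hM : (M : k) ≠ 0) :
    0 < (Kj k).relfinrank (modularFunctionFieldFullC k M) := by
  refine relfinrank_adjoin_pos (Kj k) _ (divisorExpansionsC k M) (divisorExpansionsC_finite k M)
    ?_ ?_
  · rintro x ⟨d, hne, hd, rfl⟩
    have := hne
    refine isIntegral_qExpand_jqModC d ?_
    intro h0
    obtain ⟨c, rfl⟩ := hd
    exact hM (by push_cast; rw [h0, zero_mul])
  · rw [adjoin_adjoin_left, modularFunctionFieldFullC]
    congr 1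
    have hmem : jqModC k ∈ divisorExpansionsC k M :=
      ⟨1, inferInstance, one_dvd M, (qExpand_one_apply _).symm⟩
    exact (Set.union_eq_self_of_subset_left (Set.singleton_subset_iff.mpr hmem)).symm

end Main

end Fermat.Agent.S28
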