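import Mathlib
import Fermat.Prelude.Def_ModularCurve_X0ModL
import Fermat.Agent.S24.LaurentRot
import Fermat.Agent.S28.TowerDefs
import Fermat.Agent.S28.TowerAux
import Fermat.Agent.S28.BaseCase

/-!
P10 / [D] Tower, step D1': `[k(j, j(q^p)) : k(j(q^p))] = p + 1` for a prime `p ≠ char k`.
-/

set_option autoImplicit false

namespace Fermat.Agent.S28

open ModularCurve IntermediateField Polynomial
open Fermat.Agent.S24 (laurentRot)

namespace TowerD1p

/-- rotation by a `p`-th root of unity fixes the series in `q^p` -/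
theorem laurentRot_qExpand {k : Type*} [Field k] (p : ℕ) [NeZero p] (ω : kˣ) (hω : ω ^ p = 1)
    (f : LaurentSeries k) : laurentRot ω (qExpand k p f) = qExpand k p f := by
  ext n
  rw [Fermat.Agent.S24.laurentRot_coeff]
  by_cases hn : (p : ℤ) ∣ n
  · obtain ⟨m, rfl⟩ := hn
    have h1 : ω ^ ((p : ℤ) * m) = 1 := by
      rw [zpow_mul, zpow_natCast, hω, one_zpow]
    rw [h1, Units.val_one, one_mul]
  · rw [qExpand_coeff_of_not_dvd p f hn, mul_zero]

theorem laurentRot_one {k : Type*} [Field k] (x : LaurentSeries k) :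
    laurentRot (1 : kˣ) x = x := by
  ext n
  rw [Fermat.Agent.S24.laurentRot_coeff, one_zpow, Units.val_one, one_mul]

/-- the coefficient of `q^{-1}` of `j(ζ q)` is `ζ⁻¹` -/
theorem coeff_laurentRot_jqModC {k : Type*} [Field k] (ζ : kˣ) :
    (laurentRot ζ (jqModC k)).coeff (-1) = ((ζ⁻¹ : kˣ) : k) := by
  rw [Fermat.Agent.S24.laurentRot_coeff, coeff_jqModC_neg_one, mul_one, zpow_neg_one]

/-- the conjugates `j(ω^b q)`, `b < p`, are pairwise distinct -/
theorem laurentRot_pow_jqModC_inj {k : Type*} [Field k] {p : ℕ} {ω : kˣ}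
    (hω : IsPrimitiveRoot ω p) {b b' : ℕ} (hb : b < p) (hb' : b' < p)
    (h : laurentRot (ω ^ b) (jqModC k) = laurentRot (ω ^ b') (jqModC k)) : b = b' := by
  have h1 := congrArg (fun z : LaurentSeries k => z.coeff (-1)) h
  simp only [coeff_laurentRot_jqModC] at h1
  have h2 : (ω ^ b)⁻¹ = (ω ^ b')⁻¹ := Units.ext h1
  exact hω.pow_inj hb hb' (inv_injective h2)

/-- `j(q^e)`, `e ≥ 2`, is not of the form `j(ζ q)` -/
theorem qExpand_jqModC_ne_laurentRot {k : Type*} [Field k] {e : ℕ} [NeZero e] (he : 2 ≤ e)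
    (ζ : kˣ) : qExpand k e (jqModC k) ≠ laurentRot ζ (jqModC k) := by
  intro h
  have h1 := congrArg (fun z : LaurentSeries k => z.coeff (-1)) h
  simp only [coeff_laurentRot_jqModC, Tower.coeff_qExpand_jqModC_neg_one k he] at h1
  exact Units.ne_zero _ h1.symm

/-- rotation by a `p`-th root of unity fixes `ι F` pointwise (`ι : q ↦ q^p`) -/
theorem laurentRot_algebraMap_map {k : Type*} [Field k] (p : ℕ) [NeZero p] (ζ : kˣ)
    (hζ : ζ ^ p = 1) (F : IntermediateField k (LaurentSeries k))
    (g : ↥(F.map (qExpandAlgHomC k p))) :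
    laurentRot ζ (algebraMap ↥(F.map (qExpandAlgHomC k p)) (LaurentSeries k) g) =
      algebraMap ↥(F.map (qExpandAlgHomC k p)) (LaurentSeries k) g := by
  obtain ⟨y, _, hy⟩ := (IntermediateField.mem_map _).mp g.2
  have hg : algebraMap ↥(F.map (qExpandAlgHomC k p)) (LaurentSeries k) g = qExpand k p y :=
    hy.symm
  rw [hg]
  exact laurentRot_qExpand p ζ hζ y

/-- images of `x` under ring endomorphisms fixing the base field are roots of the minimal
polynomial -/
theorem isRoot_map_minpoly {G L : Type*} [Field G] [Field L] [Algebra G L] (x : L)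
    (σ : L →+* L) (hσ : ∀ g : G, σ (algebraMap G L g) = algebraMap G L g) :
    ((minpoly G x).map (algebraMap G L)).IsRoot (σ x) := by
  have hcomp : σ.comp (algebraMap G L) = algebraMap G L := RingHom.ext hσ
  rw [IsRoot.def, eval_map, ← hcomp, ← hom_eval₂]
  have h0 : eval₂ (algebraMap G L) x (minpoly G x) = 0 := minpoly.aeval G x
  rw [h0, map_zero]

/-- a finite set of roots of the minimal polynomial has at most `deg` elements -/
theorem card_le_natDegree_minpoly {G L : Type*} [Field G] [Field L] [Algebra G L] (x : L)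
    (hx : IsIntegral G x) (Z : Finset L)
    (hZ : ∀ y ∈ Z, ((minpoly G x).map (algebraMap G L)).IsRoot y) :
    Z.card ≤ (minpoly G x).natDegree := by
  have hmonic : (minpoly G x).Monic := minpoly.monic hx
  have hne : (minpoly G x).map (algebraMap G L) ≠ 0 := (hmonic.map _).ne_zero
  have hsub : Z.val ⊆ ((minpoly G x).map (algebraMap G L)).roots := by
    intro y hy
    exact (mem_roots hne).mpr (hZ y (Finset.mem_val.mp hy))
  have h1 := card_le_degree_of_subset_roots hsub
  rwa [hmonic.natDegree_map] at h1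

/-- an integral element with `p` pairwise distinct images under ring endomorphisms fixing the
base field has degree at least `p` -/
theorem le_natDegree_minpoly {G L : Type*} [Field G] [Field L] [Algebra G L] (x : L)
    (hx : IsIntegral G x) (p : ℕ) (σ : ℕ → L →+* L)
    (hσ : ∀ b < p, ∀ g : G, σ b (algebraMap G L g) = algebraMap G L g)
    (hinj : ∀ b < p, ∀ b' < p, σ b x = σ b' x → b = b') :
    p ≤ (minpoly G x).natDegree := by
  classical
  have hcard : ((Finset.range p).image fun b => σ b x).card = p := by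
    rw [Finset.card_image_of_injOn, Finset.card_range]
    intro b hb b' hb' h
    exact hinj b (Finset.mem_range.mp hb) b' (Finset.mem_range.mp hb') h
  rw [← hcard]
  refine card_le_natDegree_minpoly x hx _ fun y hy => ?_
  obtain ⟨b, hb, rfl⟩ := Finset.mem_image.mp hy
  exact isRoot_map_minpoly x (σ b) (hσ b (Finset.mem_range.mp hb))

/-- `[K(x, a) : K(a)] = deg minpoly_{K(a)}(x)` -/
theorem relfinrank_adjoin_pair {K L : Type*} [Field K] [Field L] [Algebra K L] (a x : L)
    (hx : IsIntegral ↥(adjoin K {a}) x) :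
    (adjoin K {a}).relfinrank (adjoin K {x, a}) =
      (minpoly ↥(adjoin K {a}) x).natDegree := by
  have h : adjoin K {a} ≤ adjoin K {x, a} :=
    IntermediateField.adjoin.mono K _ _ (by simp)
  rw [relfinrank_eq_finrank_of_le h]
  have heq : extendScalars h = (↥(adjoin K {a}))⟮x⟯ := by
    apply IntermediateField.restrictScalars_injective K
    rw [IntermediateField.extendScalars_restrictScalars, adjoin_adjoin_left]
    congr 1
    exact Set.pair_comm x a
  rw [heq]
  exact adjoin.finrank hx

end TowerD1p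

/-- D1': `[k(j, j(q^p)) : k(j(q^p))] = p + 1` for a prime `p` invertible in `k`. -/
theorem relfinrank_Kjp_full_prime (k : Type*) [Field k] [IsAlgClosed k] (p : ℕ) [Fact p.Prime]
    (hp : (p : k) ≠ 0) :
    ((Kj k).map (qExpandAlgHomC k p)).relfinrank (modularFunctionFieldFullC k p) = p + 1 := by
  classical
  have : NeZero (p : k) := ⟨hp⟩
  have hp0 : p ≠ 0 := (Fact.out : p.Prime).ne_zero
  have hppos : 0 < p := Nat.pos_of_ne_zero hp0
  obtain ⟨ω₀, hω₀⟩ := HasEnoughRootsOfUnity.exists_primitiveRoot k p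
  obtain ⟨ω, rfl⟩ := hω₀.isUnit hp0
  have hω : IsPrimitiveRoot ω p := IsPrimitiveRoot.coe_units_iff.mp hω₀
  have hωp : ω ^ p = 1 := hω.pow_eq_one
  obtain ⟨Φ, hΦm, hΦd, hΦ⟩ := exists_modEq k p ω hω
  have hKmap := Tower.Kj_map k p
  rw [Tower.Kj_map, Tower.full_prime]
  -- rotations by `p`-th roots of unity fix `k(j(q^p))` pointwise
  have hfix : ∀ ζ : kˣ, ζ ^ p = 1 → ∀ g : ↥(adjoin k {qExpand k p (jqModC k)}),
      laurentRot ζ (algebraMap ↥(adjoin k {qExpand k p (jqModC k)}) (LaurentSeries k) g) =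
        algebraMap ↥(adjoin k {qExpand k p (jqModC k)}) (LaurentSeries k) g := by
    intro ζ hζ g
    have hg : algebraMap ↥(adjoin k {qExpand k p (jqModC k)}) (LaurentSeries k) g ∈
        (Kj k).map (qExpandAlgHomC k p) := by
      rw [hKmap]
      exact g.2
    obtain ⟨y, _, hy⟩ := (IntermediateField.mem_map _).mp hg
    have hy' : qExpand k p y =
        algebraMap ↥(adjoin k {qExpand k p (jqModC k)}) (LaurentSeries k) g := hy
    rw [← hy']
    exact TowerD1p.laurentRot_qExpand p ζ hζ y
  -- `Φ` over `k(j(q^p))`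
  obtain ⟨x₀, hx₀⟩ : ∃ x₀ : ↥(adjoin k {qExpand k p (jqModC k)}),
      (x₀ : LaurentSeries k) = qExpand k p (jqModC k) :=
    ⟨⟨_, mem_adjoin_simple_self k _⟩, rfl⟩
  obtain ⟨Φ', hΦ'def⟩ : ∃ Φ' : Polynomial ↥(adjoin k {qExpand k p (jqModC k)}),
      Φ' = Φ.map (Polynomial.aeval x₀).toRingHom := ⟨_, rfl⟩
  have hΦ'm : Φ'.Monic := by
    rw [hΦ'def]
    exact hΦm.map _
  have hΦ'd : Φ'.natDegree = p + 1 := by
    rw [hΦ'def, hΦm.natDegree_map, hΦd]
  have hΦ'L : Φ'.map (algebraMap ↥(adjoin k {qExpand k p (jqModC k)}) (LaurentSeries k)) =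
      (X - C (qExpand k (p * p) (jqModC k))) *
        ∏ b ∈ Finset.range p, (X - C (laurentRot (ω ^ b) (jqModC k))) := by
    rw [hΦ'def, Polynomial.map_map, Tower.algebraMap_comp_aeval, hx₀, hΦ]
  -- `j` is a root
  have hroot : Polynomial.aeval (jqModC k) Φ' = 0 := by
    rw [← Polynomial.eval_map_algebraMap, hΦ'L, Polynomial.eval_mul, Polynomial.eval_prod]
    refine mul_eq_zero_of_right _ (Finset.prod_eq_zero (Finset.mem_range.mpr hppos) ?_)
    rw [pow_zero, TowerD1p.laurentRot_one]
    simp
  have hint : IsIntegral ↥(adjoin k {qExpand k p (jqModC k)}) (jqModC k) :=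
    ⟨Φ', hΦ'm, hroot⟩
  have hm_dvd := minpoly.dvd ↥(adjoin k {qExpand k p (jqModC k)}) (jqModC k) hroot
  have hm_monic := minpoly.monic hint
  rw [TowerD1p.relfinrank_adjoin_pair (qExpand k p (jqModC k)) (jqModC k) hint]
  have hge : (minpoly ↥(adjoin k {qExpand k p (jqModC k)}) (jqModC k)).natDegree ≤ p + 1 := by
    rw [← hΦ'd]
    exact Polynomial.natDegree_le_of_dvd hm_dvd hΦ'm.ne_zero
  have hle : p ≤ (minpoly ↥(adjoin k {qExpand k p (jqModC k)}) (jqModC k)).natDegree := by
    refine TowerD1p.le_natDegree_minpoly (jqModC k) hint p (fun b => laurentRot (ω ^ b)) ?_ ?_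
    · intro b _ g
      refine hfix (ω ^ b) ?_ g
      rw [← pow_mul, mul_comm, pow_mul, hωp, one_pow]
    · intro b hb b' hb' h
      exact TowerD1p.laurentRot_pow_jqModC_inj hω hb hb' h
  have hne : (minpoly ↥(adjoin k {qExpand k p (jqModC k)}) (jqModC k)).natDegree ≠ p := by
    intro hdeg
    obtain ⟨q, hq⟩ := hm_dvd
    have hq_monic : q.Monic := hm_monic.of_mul_monic_left (hq ▸ hΦ'm)
    have hq_deg : q.natDegree = 1 := by
      have h1 := congrArg Polynomial.natDegree hq
      rw [hm_monic.natDegree_mul hq_monic, hΦ'd, hdeg] at h1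
      omega
    have hq_eq : q = X + C (q.coeff 0) := hq_monic.eq_X_add_C hq_deg
    -- `j(q^{p^2})` is a root of `Φ'`
    have hroot2 : (Φ'.map (algebraMap ↥(adjoin k {qExpand k p (jqModC k)})
        (LaurentSeries k))).eval (qExpand k (p * p) (jqModC k)) = 0 := by
      rw [hΦ'L, Polynomial.eval_mul]
      refine mul_eq_zero_of_left ?_ _
      simp
    rw [hq, Polynomial.map_mul, Polynomial.eval_mul] at hroot2
    have hpp : 2 ≤ p * p := by
      have := (Fact.out : p.Prime).two_le
      nlinarith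
    rcases mul_eq_zero.mp hroot2 with h0 | h0
    · -- `p + 1` distinct roots of the minimal polynomial
      have hnotin : qExpand k (p * p) (jqModC k) ∉
          (Finset.range p).image (fun b : ℕ => laurentRot (ω ^ b) (jqModC k)) := by
        intro hmem
        obtain ⟨b, -, hb⟩ := Finset.mem_image.mp hmem
        exact TowerD1p.qExpand_jqModC_ne_laurentRot hpp (ω ^ b) hb.symm
      have hcard : (insert (qExpand k (p * p) (jqModC k))
          ((Finset.range p).image (fun b : ℕ => laurentRot (ω ^ b) (jqModC k)))).card = p + 1 := by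
        rw [Finset.card_insert_of_notMem hnotin, Finset.card_image_of_injOn, Finset.card_range]
        intro b hb b' hb' h
        exact TowerD1p.laurentRot_pow_jqModC_inj hω (Finset.mem_range.mp hb)
          (Finset.mem_range.mp hb') h
      have h1 : (insert (qExpand k (p * p) (jqModC k))
          ((Finset.range p).image (fun b : ℕ => laurentRot (ω ^ b) (jqModC k)))).card ≤
          (minpoly ↥(adjoin k {qExpand k p (jqModC k)}) (jqModC k)).natDegree := by
        refine TowerD1p.card_le_natDegree_minpoly (jqModC k) hint _ ?_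
        intro y hy
        rcases Finset.mem_insert.mp hy with rfl | hy
        · exact h0
        · obtain ⟨b, hb, rfl⟩ := Finset.mem_image.mp hy
          refine TowerD1p.isRoot_map_minpoly (jqModC k) (laurentRot (ω ^ b)) (hfix (ω ^ b) ?_)
          rw [← pow_mul, mul_comm, pow_mul, hωp, one_pow]
      rw [hcard, hdeg] at h1
      omega
    · -- `j(q^{p^2}) ∈ k(j(q^p))`, hence `j(q^p) ∈ k(j)`
      rw [hq_eq, Polynomial.map_add, Polynomial.map_X, Polynomial.map_C, Polynomial.eval_add,
        Polynomial.eval_X, Polynomial.eval_C] at h0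
      have hmem : qExpand k (p * p) (jqModC k) ∈ (Kj k).map (qExpandAlgHomC k p) := by
        rw [hKmap, eq_neg_of_add_eq_zero_left h0]
        exact neg_mem (q.coeff 0).2
      obtain ⟨y, hyK, hy⟩ := (IntermediateField.mem_map _).mp hmem
      have hy' : qExpand k p y = qExpand k p (qExpand k p (jqModC k)) := by
        rw [qExpand_qExpand]
        exact hy
      have hyeq : y = qExpand k p (jqModC k) := qExpand_injective p hy'
      exact jp_not_mem_Kj k p hp (hyeq ▸ hyK)
  omega

end Fermat.Agent.S28
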