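import Mathlib
import Fermat.Prelude.Def_ModularCurve_X0ModL
import Fermat.Agent.S24.LaurentRot
import Fermat.Agent.S28.TowerDefs
import Fermat.Agent.S28.TowerAux
import Fermat.Agent.S28.Tower
import Fermat.Agent.S28.TowerD1p

/-!
P10 / [D] Tower, step D2: `[F_{Mp} : k(j)] ≥ p · [F_M : k(j)]` for a prime `p ≠ char k`.
-/

set_option autoImplicit false

namespace Fermat.Agent.S28

open ModularCurve IntermediateField Polynomial
open Fermat.Agent.S24 (laurentRot)

namespace TowerD2

/-- rotation by a `p`-th root of unity fixes the series in `q^p` -/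
theorem laurentRot_qExpand {k : Type*} [Field k] (p : ℕ) [NeZero p] (ω : kˣ) (hω : ω ^ p = 1)
    (f : LaurentSeries k) : laurentRot ω (qExpand k p f) = qExpand k p f := by
  ext n
  rw [Fermat.Agent.S24.laurentRot_coeff]
  by_cases hn : (p : ℤ) ∣ n
  · obtain ⟨m, rfl⟩ := hn
    have h1 : ω ^ ((p : ℤ) * m) = 1 := by
      rw [zpow_mul, zpow_natCast, hω, one_zpow]
    rw [h1, Units.val_one, one_mul]
  · rw [qExpand_coeff_of_not_dvd p f hn, mul_zero]

/-- the coefficient of `q^{-1}` of `j(ζ q)` is `ζ⁻¹` -/
theorem coeff_laurentRot_jqModC {k : Type*} [Field k] (ζ : kˣ) :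
    (laurentRot ζ (jqModC k)).coeff (-1) = ((ζ⁻¹ : kˣ) : k) := by
  rw [Fermat.Agent.S24.laurentRot_coeff, coeff_jqModC_neg_one, mul_one, zpow_neg_one]

/-- an integral element with `p` pairwise distinct images under ring endomorphisms fixing the
base field has degree at least `p` -/
theorem le_natDegree_minpoly {G L : Type*} [Field G] [Field L] [Algebra G L] (x : L)
    (hx : IsIntegral G x) (p : ℕ) (σ : ℕ → L →+* L)
    (hσ : ∀ b < p, ∀ g : G, σ b (algebraMap G L g) = algebraMap G L g)
    (hinj : ∀ b < p, ∀ b' < p, σ b x = σ b' x → b = b') :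
    p ≤ (minpoly G x).natDegree := by
  classical
  have hmonic : (minpoly G x).Monic := minpoly.monic hx
  have hne : (minpoly G x).map (algebraMap G L) ≠ 0 := (hmonic.map _).ne_zero
  have hroot : ∀ b < p, ((minpoly G x).map (algebraMap G L)).IsRoot (σ b x) := by
    intro b hb
    have hcomp : (σ b).comp (algebraMap G L) = algebraMap G L := RingHom.ext (hσ b hb)
    rw [IsRoot.def, eval_map, ← hcomp, ← hom_eval₂]
    have h0 : eval₂ (algebraMap G L) x (minpoly G x) = 0 := minpoly.aeval G x
    rw [h0, map_zero]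
  have hsub : ((Finset.range p).image fun b => σ b x).val ⊆
      ((minpoly G x).map (algebraMap G L)).roots := by
    intro y hy
    rw [Finset.mem_val, Finset.mem_image] at hy
    obtain ⟨b, hb, rfl⟩ := hy
    exact (mem_roots hne).mpr (hroot b (Finset.mem_range.mp hb))
  have hcard : ((Finset.range p).image fun b => σ b x).card = p := by
    rw [Finset.card_image_of_injOn, Finset.card_range]
    intro b hb b' hb' h
    exact hinj b (Finset.mem_range.mp hb) b' (Finset.mem_range.mp hb') h
  have h1 := card_le_degree_of_subset_roots hsub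
  rw [hcard, hmonic.natDegree_map] at h1
  exact h1

end TowerD2

section Tower
variable (k : Type*) [Field k] [IsAlgClosed k]

/-- D2: `[F_{Mp} : k(j)] ≥ p [F_M : k(j)]` -/
theorem mul_relfinrank_full_le (M p : ℕ) [NeZero M] [Fact p.Prime] (hM : (M : k) ≠ 0)
    (hp : (p : k) ≠ 0) :
    p * (Kj k).relfinrank (modularFunctionFieldFullC k M) ≤
      (Kj k).relfinrank (modularFunctionFieldFullC k (M * p)) := by
  have hA_Fp : Kj k ≤ modularFunctionFieldFullC k p := Tower.Kj_le_full k p
  have hFp_FMp : modularFunctionFieldFullC k p ≤ modularFunctionFieldFullC k (M * p) :=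
    Tower.full_dvd_le k (Dvd.intro_left M rfl)
  have hA'_Fp : (Kj k).map (qExpandAlgHomC k p) ≤ modularFunctionFieldFullC k p :=
    Tower.Kj_map_le_full k p p dvd_rfl
  have hA'_G : (Kj k).map (qExpandAlgHomC k p) ≤
      (modularFunctionFieldFullC k M).map (qExpandAlgHomC k p) :=
    Tower.Kj_map_le_full_map k M p
  have hG_FMp : (modularFunctionFieldFullC k M).map (qExpandAlgHomC k p) ≤
      modularFunctionFieldFullC k (M * p) := full_degeneracyC_map_le k M p
  have e1 := relfinrank_mul_relfinrank hA_Fp hFp_FMp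
  have e2 := relfinrank_mul_relfinrank hA'_Fp hFp_FMp
  have e3 := relfinrank_mul_relfinrank hA'_G hG_FMp
  have e4 : ((Kj k).map (qExpandAlgHomC k p)).relfinrank
      ((modularFunctionFieldFullC k M).map (qExpandAlgHomC k p)) =
      (Kj k).relfinrank (modularFunctionFieldFullC k M) :=
    relfinrank_map_map (Kj k) (modularFunctionFieldFullC k M) (qExpandAlgHomC k p)
  have d1 := relfinrank_Kj_full_prime k p hp
  have d1' := relfinrank_Kjp_full_prime k p hp
  have hpos : 0 < (Kj k).relfinrank (modularFunctionFieldFullC k (M * p)) :=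
    relfinrank_full_pos k (M * p) (by push_cast; exact mul_ne_zero hM hp)
  -- the degree of `F_{Mp}` over `k(j)` is `[F_M : k(j)] · [F_{Mp} : ι F_M]`
  have hdeg : (Kj k).relfinrank (modularFunctionFieldFullC k (M * p)) =
      (Kj k).relfinrank (modularFunctionFieldFullC k M) *
        ((modularFunctionFieldFullC k M).map (qExpandAlgHomC k p)).relfinrank
          (modularFunctionFieldFullC k (M * p)) := by
    rw [← e1, d1, ← e4, e3, ← e2, d1']
  have hGpos : 0 < ((modularFunctionFieldFullC k M).map (qExpandAlgHomC k p)).relfinrank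
      (modularFunctionFieldFullC k (M * p)) := by
    rw [hdeg] at hpos
    exact Nat.pos_of_mul_pos_left hpos
  -- main step: `[F_{Mp} : ι F_M] ≥ p`
  have hmain : p ≤ ((modularFunctionFieldFullC k M).map (qExpandAlgHomC k p)).relfinrank
      (modularFunctionFieldFullC k (M * p)) := by
    have : NeZero (p : k) := ⟨hp⟩
    obtain ⟨ω₀, hω₀⟩ := HasEnoughRootsOfUnity.exists_primitiveRoot k p
    have hpne : p ≠ 0 := (Fact.out : p.Prime).ne_zero
    obtain ⟨ω, rfl⟩ := hω₀.isUnit hpne
    have hω : IsPrimitiveRoot ω p := IsPrimitiveRoot.coe_units_iff.mp hω₀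
    rw [relfinrank_eq_finrank_of_le hG_FMp] at hGpos ⊢
    have hfin : FiniteDimensional ↥((modularFunctionFieldFullC k M).map (qExpandAlgHomC k p))
        ↥(extendScalars hG_FMp) := FiniteDimensional.of_finrank_pos hGpos
    have hjmem : jqModC k ∈ extendScalars hG_FMp :=
      (mem_extendScalars hG_FMp).mpr (jqModC_mem_full k (M * p))
    have hint : IsIntegral ↥((modularFunctionFieldFullC k M).map (qExpandAlgHomC k p))
        (jqModC k) := by
      have h1 : IsIntegral ↥((modularFunctionFieldFullC k M).map (qExpandAlgHomC k p))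
          (⟨jqModC k, hjmem⟩ : ↥(extendScalars hG_FMp)) := IsIntegral.of_finite _ _
      exact IntermediateField.isIntegral_iff.mp h1
    have hle : (↥((modularFunctionFieldFullC k M).map (qExpandAlgHomC k p)))⟮jqModC k⟯ ≤
        extendScalars hG_FMp := by
      rw [adjoin_simple_le_iff]
      exact hjmem
    have h2 := finrank_le_of_le_right hle
    rw [adjoin.finrank hint] at h2
    refine le_trans ?_ h2
    refine TowerD2.le_natDegree_minpoly (jqModC k) hint p (fun b => laurentRot (ω ^ b)) ?_ ?_
    · intro b _ g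
      obtain ⟨y, _, hy⟩ := (IntermediateField.mem_map _).mp g.2
      have hg : algebraMap ↥((modularFunctionFieldFullC k M).map (qExpandAlgHomC k p))
          (LaurentSeries k) g = qExpand k p y := hy.symm
      rw [hg]
      refine TowerD2.laurentRot_qExpand p (ω ^ b) ?_ y
      rw [← pow_mul, mul_comm, pow_mul, hω.pow_eq_one, one_pow]
    · intro b hb b' hb' h
      have h1 := congrArg (fun z : LaurentSeries k => z.coeff (-1)) h
      simp only [TowerD2.coeff_laurentRot_jqModC] at h1
      have h2 : (ω ^ b)⁻¹ = (ω ^ b')⁻¹ := Units.ext h1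
      exact hω.pow_inj hb hb' (inv_injective h2)
  rw [hdeg, mul_comm]
  exact Nat.mul_le_mul_left _ hmain

end Tower

end Fermat.Agent.S28
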