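import Mathlib
import Fermat.Prelude.Def_ModularCurve_X0ModL
import Fermat.Agent.S24.LaurentRot
import Fermat.Agent.S28.TowerDefs
import Fermat.Agent.S28.ModEq
import Fermat.Agent.S28.TowerAux
import Fermat.Agent.S28.BaseCase

/-!
P10 / [D] D3: the coprime step of the tower. For `k` algebraically closed and a prime `p ∤ M`
(both invertible in `k`), `j(q^p)` does not lie in `F_M = k(j(q^d) : d ∣ M)`.
-/

set_option autoImplicit false

namespace Fermat.Agent.S28

open ModularCurve IntermediateField Polynomial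
open Fermat.Agent.S24 (laurentRot)

namespace TowerD3

section Basic

variable {k : Type*} [Field k]

/-- A total version of `qExpand` (the identity for `a = 0`). -/
noncomputable def qE (a : ℕ) : LaurentSeries k →+* LaurentSeries k :=
  if h : a = 0 then RingHom.id _ else @qExpand k _ a ⟨h⟩

theorem qE_eq (a : ℕ) [NeZero a] : (qE a : LaurentSeries k →+* LaurentSeries k) = qExpand k a :=
  dif_neg (NeZero.ne a)

theorem qE_apply (a : ℕ) [NeZero a] (f : LaurentSeries k) : qE a f = qExpand k a f := by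
  rw [qE_eq]

theorem qE_one (f : LaurentSeries k) : qE 1 f = f := by
  rw [qE_apply, qExpand_one_apply]

theorem qE_coeff_mul {a : ℕ} (ha : a ≠ 0) (f : LaurentSeries k) (n : ℤ) :
    (qE a f).coeff ((a : ℤ) * n) = f.coeff n := by
  have : NeZero a := ⟨ha⟩
  rw [qE_apply, qExpand_coeff_mul]

theorem qE_coeff_of_not_dvd {a : ℕ} (ha : a ≠ 0) (f : LaurentSeries k) {n : ℤ}
    (hn : ¬ (a : ℤ) ∣ n) : (qE a f).coeff n = 0 := by
  have : NeZero a := ⟨ha⟩
  rw [qE_apply, qExpand_coeff_of_not_dvd a f hn]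

theorem qE_injective {a : ℕ} (ha : a ≠ 0) :
    Function.Injective (qE a : LaurentSeries k →+* LaurentSeries k) := by
  have : NeZero a := ⟨ha⟩
  rw [qE_eq]
  exact qExpand_injective a

theorem qE_qE {a b : ℕ} (ha : a ≠ 0) (hb : b ≠ 0) (f : LaurentSeries k) :
    qE a (qE b f) = qE (a * b) f := by
  have : NeZero a := ⟨ha⟩
  have : NeZero b := ⟨hb⟩
  have : NeZero (a * b) := ⟨Nat.mul_ne_zero ha hb⟩
  rw [qE_apply, qE_apply, qE_apply, qExpand_qExpand]

theorem qE_algebraMap (a : ℕ) (c : k) :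
    qE a (algebraMap k (LaurentSeries k) c) = algebraMap k (LaurentSeries k) c := by
  by_cases ha : a = 0
  · subst ha
    simp [qE]
  · have : NeZero a := ⟨ha⟩
    rw [qE_apply, algebraMap_laurentSeries_eq_single, qExpand_single, mul_zero]

theorem rot_algebraMap (ζ : kˣ) (c : k) :
    laurentRot ζ (algebraMap k (LaurentSeries k) c) = algebraMap k (LaurentSeries k) c := by
  rw [algebraMap_laurentSeries_eq_single]
  ext n
  rw [Fermat.Agent.S24.laurentRot_coeff]
  by_cases hn : n = 0
  · subst hn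
    simp
  · rw [HahnSeries.coeff_single_of_ne hn, mul_zero]

theorem rot_qE (ζ : kˣ) {n : ℕ} (hn : n ≠ 0) (f : LaurentSeries k) :
    laurentRot ζ (qE n f) = qE n (laurentRot (ζ ^ n) f) := by
  ext m
  rw [Fermat.Agent.S24.laurentRot_coeff]
  by_cases hm : (n : ℤ) ∣ m
  · obtain ⟨c, rfl⟩ := hm
    rw [qE_coeff_mul hn, qE_coeff_mul hn, Fermat.Agent.S24.laurentRot_coeff, zpow_mul,
      zpow_natCast]
  · rw [qE_coeff_of_not_dvd hn _ hm, qE_coeff_of_not_dvd hn _ hm, mul_zero]

/-- `j(ζ u^a)` -/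
noncomputable def J (ζ : kˣ) (a : ℕ) : LaurentSeries k := qE a (laurentRot ζ (jqModC k))

theorem J_one (a : ℕ) : J (1 : kˣ) a = qE a (jqModC k) := by
  rw [J, Fermat.Agent.S24.laurentRot_one]

/-- The substitution `q ↦ ξ u^a`. -/
noncomputable def sub (ξ : kˣ) (a : ℕ) : LaurentSeries k →+* LaurentSeries k :=
  (qE a).comp (laurentRot ξ)

theorem sub_algebraMap (ξ : kˣ) (a : ℕ) (c : k) :
    sub ξ a (algebraMap k (LaurentSeries k) c) = algebraMap k (LaurentSeries k) c := by
  rw [sub, RingHom.comp_apply, rot_algebraMap, qE_algebraMap]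

theorem sub_qE (ξ : kˣ) {a n : ℕ} (ha : a ≠ 0) (hn : n ≠ 0) :
    sub ξ a (qE n (jqModC k)) = J (ξ ^ n) (a * n) := by
  rw [sub, RingHom.comp_apply, rot_qE ξ hn, qE_qE ha hn, J]

theorem sub_rot (ξ ω : kˣ) (a : ℕ) :
    sub ξ a (laurentRot ω (jqModC k)) = J (ξ * ω) a := by
  rw [sub, RingHom.comp_apply, ← Fermat.Agent.S24.laurentRot_mul, J]

/-- evaluation of the inner variable, along a ring homomorphism -/
noncomputable def evR {B : Type*} [CommRing B] (g : k →+* B) (y : B) : Polynomial k →+* B :=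
  Polynomial.eval₂RingHom g y

theorem comp_evR {B B' : Type*} [CommRing B] [CommRing B'] (h : B →+* B') (g : k →+* B) (y : B) :
    h.comp (evR g y) = evR (h.comp g) (h y) := by
  refine Polynomial.ringHom_ext (fun c => ?_) ?_
  · simp [evR]
  · simp [evR]

theorem aeval_toRingHom (y : LaurentSeries k) :
    (Polynomial.aeval y : Polynomial k →ₐ[k] LaurentSeries k).toRingHom =
      evR (algebraMap k (LaurentSeries k)) y := by
  refine Polynomial.ringHom_ext (fun c => ?_) ?_
  · simp [evR]
  · simp [evR]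

theorem sub_comp_algebraMap (ξ : kˣ) (a : ℕ) :
    (sub ξ a).comp (algebraMap k (LaurentSeries k)) = algebraMap k (LaurentSeries k) :=
  RingHom.ext fun c => sub_algebraMap ξ a c

theorem qE_comp_algebraMap (a : ℕ) :
    (qE a).comp (algebraMap k (LaurentSeries k)) = algebraMap k (LaurentSeries k) :=
  RingHom.ext fun c => qE_algebraMap a c

/-- The formal modular equation at `p'` (shape of the export of `ModEq.lean`, with `qE`). -/
def ModEqAt (p' : ℕ) (ω : kˣ) (Φ : Polynomial (Polynomial k)) : Prop :=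
  Φ.Monic ∧ Φ.natDegree = p' + 1 ∧
    Φ.map (evR (algebraMap k (LaurentSeries k)) (qE p' (jqModC k))) =
      (X - C (qE (p' * p') (jqModC k))) *
        ∏ b ∈ Finset.range p', (X - C (laurentRot (ω ^ b) (jqModC k)))

variable {p' : ℕ} {ω : kˣ} {Φ : Polynomial (Polynomial k)}

/-- The "children" of `j(ξ^p' u^(a p'))` under the modular equation. -/
theorem ModEqAt.children (h : ModEqAt p' ω Φ) (hp' : p' ≠ 0) (ξ : kˣ) {a : ℕ} (ha : a ≠ 0) :
    Φ.map (evR (algebraMap k (LaurentSeries k)) (J (ξ ^ p') (a * p'))) =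
      (X - C (J (ξ ^ (p' * p')) (a * (p' * p')))) *
        ∏ b ∈ Finset.range p', (X - C (J (ξ * ω ^ b) a)) := by
  have h1 := congrArg (Polynomial.map (sub ξ a)) h.2.2
  rw [Polynomial.map_map, comp_evR, sub_comp_algebraMap, sub_qE ξ ha hp', Polynomial.map_mul,
    Polynomial.map_sub, Polynomial.map_X, Polynomial.map_C,
    sub_qE ξ ha (Nat.mul_ne_zero hp' hp'), Polynomial.map_prod] at h1
  rw [h1]
  congr 1
  refine Finset.prod_congr rfl fun b _ => ?_
  rw [Polynomial.map_sub, Polynomial.map_X, Polynomial.map_C, sub_rot]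

/-- `Φ(j(q^(d p')), j(q^d)) = 0`. -/
theorem ModEqAt.eval_eq_zero (h : ModEqAt p' ω Φ) (hp' : p' ≠ 0) {d : ℕ} (hd : d ≠ 0) :
    (Φ.map (evR (algebraMap k (LaurentSeries k)) (qE d (jqModC k)))).eval
      (qE (d * p') (jqModC k)) = 0 := by
  have h0 : (Φ.map (evR (algebraMap k (LaurentSeries k)) (jqModC k))).eval
      (qE p' (jqModC k)) = 0 := by
    apply qE_injective hp'
    rw [map_zero, ← Polynomial.eval₂_hom, ← Polynomial.eval_map, Polynomial.map_map, comp_evR,
      qE_comp_algebraMap, qE_qE hp' hp', h.2.2]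
    simp
  have h1 := congrArg (qE d) h0
  rw [map_zero, ← Polynomial.eval₂_hom, ← Polynomial.eval_map, Polynomial.map_map, comp_evR,
    qE_comp_algebraMap, qE_qE hd hp'] at h1
  exact h1

end Basic


section Embedding

variable {k : Type*} [Field k]

/-- The algebraic closure of `k((u))`, seen as an algebra over `k((q))` via `q ↦ u ^ E`. -/
def Om (k : Type*) [Field k] (_E : ℕ) : Type _ := AlgebraicClosure (LaurentSeries k)

noncomputable instance instFieldOm (E : ℕ) : Field (Om k E) :=
  inferInstanceAs (Field (AlgebraicClosure (LaurentSeries k)))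

instance instIsAlgClosedOm (E : ℕ) : IsAlgClosed (Om k E) :=
  inferInstanceAs (IsAlgClosed (AlgebraicClosure (LaurentSeries k)))

/-- The plain inclusion `k((u)) → Ω`. -/
noncomputable def iota (E : ℕ) : LaurentSeries k →+* Om k E :=
  algebraMap (LaurentSeries k) (AlgebraicClosure (LaurentSeries k))

theorem iota_injective (E : ℕ) : Function.Injective (iota (k := k) E) :=
  RingHom.injective (algebraMap (LaurentSeries k) (AlgebraicClosure (LaurentSeries k)))

noncomputable instance instAlgebraOm (E : ℕ) : Algebra (LaurentSeries k) (Om k E) :=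
  ((iota E).comp (qE E)).toAlgebra

theorem algebraMap_Om (E : ℕ) (x : LaurentSeries k) :
    algebraMap (LaurentSeries k) (Om k E) x = iota E (qE E x) := rfl

theorem algebraMap_Kj_Om (E : ℕ) (c : Kj k) :
    algebraMap (Kj k) (Om k E) c = iota E (qE E (c : LaurentSeries k)) := rfl

/-- The generators `j(q^d)`, `d ∣ M`, are integral over `k(j)`. -/
theorem isIntegral_qE (M : ℕ)
    (hB : ∀ p' : ℕ, p'.Prime → p' ∣ M →
      ∃ (ω : kˣ) (Φ : Polynomial (Polynomial k)), ModEqAt p' ω Φ) :
    ∀ d : ℕ, d ≠ 0 → d ∣ M → IsIntegral (Kj k) (qE d (jqModC k)) := by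
  intro d
  induction d using Nat.strong_induction_on with
  | _ d ih =>
    intro hd0 hdM
    by_cases hd1 : d = 1
    · subst hd1
      rw [qE_one]
      exact isIntegral_algebraMap (x := (⟨jqModC k, Tower.jqModC_mem_Kj k⟩ : Kj k))
    · have hp' : (d.minFac).Prime := Nat.minFac_prime hd1
      obtain ⟨d', hd'⟩ : d.minFac ∣ d := Nat.minFac_dvd d
      have hfac : d' * d.minFac = d := (hd'.trans (mul_comm _ _)).symm
      have hd'0 : d' ≠ 0 := by
        rintro rfl
        exact hd0 (by rw [← hfac, zero_mul])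
      have hd'lt : d' < d := by
        calc d' = d' * 1 := (mul_one _).symm
          _ < d' * d.minFac := Nat.mul_lt_mul_of_pos_left hp'.one_lt (Nat.pos_of_ne_zero hd'0)
          _ = d := hfac
      have hd'M : d' ∣ M := Dvd.dvd.trans ⟨d.minFac, hfac.symm⟩ hdM
      have hy := ih d' hd'lt hd'0 hd'M
      obtain ⟨ω, Φ, hΦ⟩ := hB d.minFac hp' (Dvd.dvd.trans (Nat.minFac_dvd d) hdM)
      have hroot := hΦ.eval_eq_zero hp'.ne_zero hd'0
      rw [hfac] at hroot
      -- integrality over the integral closure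
      let A := integralClosure (Kj k) (LaurentSeries k)
      have hyA : qE d' (jqModC k) ∈ A := hy
      refine isIntegral_trans (A := A) _ ?_
      refine ⟨Φ.map (evR (algebraMap k A) ⟨qE d' (jqModC k), hyA⟩), hΦ.1.map _, ?_⟩
      rw [← Polynomial.eval_map, Polynomial.map_map, comp_evR]
      exact hroot


/-- `J ζ a` lies in the image of `q ↦ q^p` when `p ∣ a`. -/
theorem J_mem_range {p : ℕ} (hp : p ≠ 0) (ζ : kˣ) {a : ℕ} (ha : a ≠ 0) (hpa : p ∣ a) :
    ∃ w : LaurentSeries k, qE p w = J ζ a := by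
  obtain ⟨c, rfl⟩ := hpa
  have hc : c ≠ 0 := by
    rintro rfl
    exact ha (mul_zero p)
  exact ⟨qE c (laurentRot ζ (jqModC k)), by rw [qE_qE hp hc, J]⟩

/-- `j(u^M)` is not a series in `u^p` when `p ∤ M`. -/
theorem qE_jqModC_not_mem_range {p M : ℕ} (hp : p ≠ 0) (hM : M ≠ 0) (hpM : ¬ p ∣ M)
    (w : LaurentSeries k) : qE p w ≠ qE M (jqModC k) := by
  intro h
  have h1 : (qE p w).coeff ((M : ℤ) * (-1)) = (qE M (jqModC k)).coeff ((M : ℤ) * (-1)) := by
    rw [h]
  rw [qE_coeff_mul hM, coeff_jqModC_neg_one, qE_coeff_of_not_dvd hp] at h1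
  · exact zero_ne_one h1
  · rw [mul_neg_one, Int.dvd_neg, Int.natCast_dvd_natCast]
    exact hpM

variable [IsAlgClosed k]

/-- D3, core form: if `p ∤ M` then `j(q^p) ∉ k(j(q^d) : d ∣ M)`, given the modular equations at
the primes dividing `M * p` and the irreducibility (D1) at `p`. -/
theorem core (M p : ℕ) (hM : M ≠ 0) (hp : p.Prime) (hpM : ¬ p ∣ M)
    (hB : ∀ p' : ℕ, p'.Prime → p' ∣ M * p →
      ∃ (ω : kˣ) (Φ : Polynomial (Polynomial k)), ModEqAt p' ω Φ)
    (hD1 : (minpoly (Kj k) (qE p (jqModC k))).natDegree = p + 1) :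
    qE p (jqModC k) ∉ IntermediateField.adjoin k (divisorExpansionsC k M) := by
  intro hxk
  have hp0 : p ≠ 0 := hp.ne_zero
  have hE : M * p ≠ 0 := Nat.mul_ne_zero hM hp0
  set S : Set (LaurentSeries k) := divisorExpansionsC k M with hS
  -- membership of the generators
  have hgen : ∀ d : ℕ, d ≠ 0 → d ∣ M → qE d (jqModC k) ∈ S := by
    intro d hd0 hdM
    have : NeZero d := ⟨hd0⟩
    rw [qE_apply]
    exact mem_divisorExpansionsC k M hdM
  -- integrality of the generators over `k(j)`
  have hK : ∀ s ∈ S, IsIntegral (Kj k) s ∧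
      ((minpoly (Kj k) s).map (algebraMap (Kj k) (Om k (M * p)))).Splits := by
    rintro s ⟨d, hne, hdM, rfl⟩
    refine ⟨?_, IsAlgClosed.splits _⟩
    rw [← qE_apply]
    exact isIntegral_qE M (fun p' hp' hp'M => hB p' hp' (Dvd.dvd.mul_right hp'M p)) d
      (NeZero.ne d) hdM
  have hx : qE p (jqModC k) ∈ IntermediateField.adjoin (Kj k) S := by
    have hle : IntermediateField.adjoin k S ≤
        (IntermediateField.adjoin (Kj k) S).restrictScalars k :=
      IntermediateField.adjoin_le_iff.mpr (IntermediateField.subset_adjoin (Kj k) S)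
    exact hle hxk
  -- the modular equation at `p`
  obtain ⟨ω, Φ, hΦ⟩ := hB p hp (Dvd.intro_left M rfl)
  -- the minimal polynomial of `j(q^p)` over `k(j)`
  let jK : Kj k := ⟨jqModC k, Tower.jqModC_mem_Kj k⟩
  set P : Polynomial (Kj k) := Φ.map (evR (algebraMap k (Kj k)) jK) with hP
  have hPmonic : P.Monic := hΦ.1.map _
  have hPdeg : P.natDegree = p + 1 := by rw [hP, hΦ.1.natDegree_map, hΦ.2.1]
  have hProot : Polynomial.aeval (qE p (jqModC k)) P = 0 := by
    have h1 := hΦ.eval_eq_zero hp0 (one_ne_zero (α := ℕ))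
    rw [qE_one, one_mul] at h1
    rw [Polynomial.aeval_def, ← Polynomial.eval_map, hP, Polynomial.map_map, comp_evR]
    exact h1
  have hmin : minpoly (Kj k) (qE p (jqModC k)) = P := by
    have hint : IsIntegral (Kj k) (qE p (jqModC k)) := ⟨P, hPmonic, hProot⟩
    exact (Polynomial.eq_of_monic_of_dvd_of_natDegree_le (minpoly.monic hint) hPmonic
      (minpoly.dvd _ _ hProot) (by rw [hPdeg, hD1])).symm
  -- the conjugate `j(u^M)`
  have hy : Polynomial.aeval (iota (M * p) (qE M (jqModC k))) (minpoly (Kj k) (qE p (jqModC k)))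
      = 0 := by
    rw [hmin, Polynomial.aeval_def, ← Polynomial.eval_map, hP, Polynomial.map_map, comp_evR]
    have h2 := hΦ.children hp0 (1 : kˣ) hM
    rw [one_pow, one_pow, J_one] at h2
    have h3 : (algebraMap (Kj k) (Om k (M * p))).comp (algebraMap k (Kj k)) =
        (iota (M * p)).comp (algebraMap k (LaurentSeries k)) := by
      refine RingHom.ext fun c => ?_
      show iota (M * p) (qE (M * p) (algebraMap k (LaurentSeries k) c)) = _
      rw [qE_algebraMap]
      rfl
    have h4 : algebraMap (Kj k) (Om k (M * p)) jK = iota (M * p) (qE (M * p) (jqModC k)) := rfl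
    rw [h3, h4, ← comp_evR, ← Polynomial.map_map, h2, Polynomial.eval_map,
      Polynomial.eval₂_mul, Polynomial.eval₂_finsetProd]
    refine mul_eq_zero_of_right _ (Finset.prod_eq_zero (Finset.mem_range.mpr hp.pos) ?_)
    rw [pow_zero, mul_one, J_one]
    simp
  set A' := IntermediateField.adjoin (Kj k) S with hA'
  obtain ⟨φ, hφ⟩ := IntermediateField.exists_algHom_adjoin_of_splits_of_aeval hK hx hy
  have hSA : ∀ s ∈ S, s ∈ A' := fun s hs => IntermediateField.subset_adjoin (Kj k) S hs
  -- constants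
  have hconst : ∀ (c : k) (h : algebraMap k (LaurentSeries k) c ∈ A'),
      φ ⟨algebraMap k (LaurentSeries k) c, h⟩ =
        iota (M * p) (algebraMap k (LaurentSeries k) c) := by
    intro c h
    have h1 : (⟨algebraMap k (LaurentSeries k) c, h⟩ : A') =
        algebraMap (Kj k) A' (algebraMap k (Kj k) c) := rfl
    rw [h1, φ.commutes]
    show iota (M * p) (qE (M * p) (algebraMap k (LaurentSeries k) c)) = _
    rw [qE_algebraMap]
  -- transport of polynomial identities along `φ`
  have htrans : ∀ (Ψ : Polynomial (Polynomial k)) (u v : A'),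
      (Ψ.map (evR (algebraMap k (LaurentSeries k)) (u : LaurentSeries k))).eval
        (v : LaurentSeries k) = 0 →
      (Ψ.map (evR ((iota (M * p)).comp (algebraMap k (LaurentSeries k))) (φ u))).eval (φ v)
        = 0 := by
    intro Ψ u v h
    let gA : k →+* A' := (algebraMap (Kj k) A').comp (algebraMap k (Kj k))
    have hval : (algebraMap A' (LaurentSeries k)).comp gA = algebraMap k (LaurentSeries k) :=
      RingHom.ext fun c => rfl
    have h1 : (Ψ.map (evR gA u)).eval v = 0 := by
      apply (algebraMap A' (LaurentSeries k)).injective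
      rw [map_zero, ← Polynomial.eval₂_hom, ← Polynomial.eval_map, Polynomial.map_map,
        comp_evR, hval]
      exact h
    have h2 := congrArg (φ : A' →+* Om k (M * p)) h1
    rw [map_zero, ← Polynomial.eval₂_hom, ← Polynomial.eval_map, Polynomial.map_map,
      comp_evR] at h2
    have hcomp : (φ : A' →+* Om k (M * p)).comp gA =
        (iota (M * p)).comp (algebraMap k (LaurentSeries k)) :=
      RingHom.ext fun c => hconst c _
    rw [hcomp] at h2
    exact h2
  -- the images of the generators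
  have hclaim : ∀ d : ℕ, d ≠ 0 → d ∣ M → ∃ (ζ : kˣ) (a : ℕ), a ≠ 0 ∧ M * p ∣ a * d ∧
      ∀ h : qE d (jqModC k) ∈ A', φ ⟨qE d (jqModC k), h⟩ = iota (M * p) (J ζ a) := by
    intro d
    induction d using Nat.strong_induction_on with
    | _ d ih =>
      intro hd0 hdM
      by_cases hd1 : d = 1
      · subst hd1
        refine ⟨1, M * p, hE, by rw [mul_one], fun h => ?_⟩
        have h1 : (⟨qE 1 (jqModC k), h⟩ : A') = algebraMap (Kj k) A' jK :=
          Subtype.ext (qE_one _)
        rw [h1, φ.commutes, J_one]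
        rfl
      · have hp' : (d.minFac).Prime := Nat.minFac_prime hd1
        obtain ⟨d', hd'⟩ : d.minFac ∣ d := Nat.minFac_dvd d
        have hfac : d' * d.minFac = d := (hd'.trans (mul_comm _ _)).symm
        have hd'0 : d' ≠ 0 := by
          rintro rfl
          exact hd0 (by rw [← hfac, zero_mul])
        have hd'lt : d' < d := by
          calc d' = d' * 1 := (mul_one _).symm
            _ < d' * d.minFac :=
              Nat.mul_lt_mul_of_pos_left hp'.one_lt (Nat.pos_of_ne_zero hd'0)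
            _ = d := hfac
        have hd'M : d' ∣ M := Dvd.dvd.trans ⟨d.minFac, hfac.symm⟩ hdM
        obtain ⟨ζ, a, ha0, hadiv, hφd'⟩ := ih d' hd'lt hd'0 hd'M
        have hqM : d.minFac ∣ M * p :=
          Dvd.dvd.mul_right (Dvd.dvd.trans (Nat.minFac_dvd d) hdM) p
        generalize d.minFac = q at hp' hfac hqM
        -- `q ∣ a`
        have hqa : q ∣ a := by
          obtain ⟨m, hm⟩ := hdM
          have h1 : d' * (q * (m * p)) ∣ d' * a := by
            have h2 : M * p = d' * (q * (m * p)) := by rw [hm, ← hfac]; ring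
            rw [← h2, mul_comm d' a]
            exact hadiv
          exact Dvd.dvd.trans (Dvd.intro _ rfl)
            ((Nat.mul_dvd_mul_iff_left (Nat.pos_of_ne_zero hd'0)).mp h1)
        obtain ⟨a', rfl⟩ := hqa
        have ha'0 : a' ≠ 0 := by
          rintro rfl
          exact ha0 (mul_zero q)
        obtain ⟨ω', Φ', hΦ'⟩ := hB q hp' hqM
        obtain ⟨ξ0, hξ0⟩ := IsAlgClosed.exists_pow_nat_eq (ζ : k) hp'.pos
        have hξ0ne : ξ0 ≠ 0 := by
          rintro rfl
          rw [zero_pow hp'.ne_zero] at hξ0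
          exact ζ.ne_zero hξ0.symm
        have hξ : (Units.mk0 ξ0 hξ0ne) ^ q = ζ := Units.ext (by simpa using hξ0)
        generalize Units.mk0 ξ0 hξ0ne = ξ at hξ
        -- the root relation
        have hroot := hΦ'.eval_eq_zero hp'.ne_zero hd'0
        rw [hfac] at hroot
        have hmd' : qE d' (jqModC k) ∈ A' := hSA _ (hgen d' hd'0 hd'M)
        have hmd : qE d (jqModC k) ∈ A' := hSA _ (hgen d hd0 hdM)
        have h5 := htrans Φ' ⟨_, hmd'⟩ ⟨_, hmd⟩ hroot
        rw [hφd' hmd', ← comp_evR, ← Polynomial.map_map] at h5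
        have h6 := hΦ'.children hp'.ne_zero ξ ha'0
        rw [hξ, mul_comm a' q] at h6
        rw [h6, Polynomial.eval_map, Polynomial.eval₂_mul, Polynomial.eval₂_finsetProd] at h5
        rcases mul_eq_zero.mp h5 with h7 | h7
        · refine ⟨ξ ^ (q * q), a' * (q * q), ?_, ?_, fun h => ?_⟩
          · exact Nat.mul_ne_zero ha'0 (Nat.mul_ne_zero hp'.ne_zero hp'.ne_zero)
          · have h8 : a' * (q * q) * d = q * a' * d' * (q * q) := by rw [← hfac]; ring
            rw [h8]
            exact Dvd.dvd.mul_right hadiv _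
          · rw [Polynomial.eval₂_sub, Polynomial.eval₂_X, Polynomial.eval₂_C, sub_eq_zero] at h7
            exact h7
        · obtain ⟨b, -, h8⟩ := Finset.prod_eq_zero_iff.mp h7
          refine ⟨ξ * ω' ^ b, a', ha'0, ?_, fun h => ?_⟩
          · have h9 : a' * d = q * a' * d' := by rw [← hfac]; ring
            rw [h9]
            exact hadiv
          · rw [Polynomial.eval₂_sub, Polynomial.eval₂_X, Polynomial.eval₂_C, sub_eq_zero] at h8
            exact h8
  -- all of `k(S)` is mapped into the image of `k((u^p))`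
  let T : Subfield (Om k (M * p)) := ((iota (M * p)).comp (qE p)).fieldRange
  have hfin : ∀ z (hz : z ∈ IntermediateField.adjoin k S), ∃ hz' : z ∈ A', φ ⟨z, hz'⟩ ∈ T := by
    intro z hz
    induction hz using IntermediateField.adjoin_induction with
    | mem s hs =>
      obtain ⟨d, hne, hdM, rfl⟩ := hs
      obtain ⟨ζ, a, ha0, hadiv, hφd⟩ := hclaim d (NeZero.ne d) hdM
      have hmem : qE d (jqModC k) ∈ A' := hSA _ (hgen d (NeZero.ne d) hdM)
      have hpa : p ∣ a := by
        obtain ⟨m, hm⟩ := hdM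
        have h1 : d * (m * p) ∣ d * a := by
          have h2 : M * p = d * (m * p) := by rw [hm]; ring
          rw [← h2, mul_comm d a]
          exact hadiv
        exact Dvd.dvd.trans (Dvd.intro_left _ rfl)
          ((Nat.mul_dvd_mul_iff_left (Nat.pos_of_ne_zero (NeZero.ne d))).mp h1)
      obtain ⟨w, hw⟩ := J_mem_range hp0 ζ ha0 hpa
      have h3 := hφd hmem
      rw [← hw] at h3
      have hmem' : qExpand k d (jqModC k) ∈ A' := by rw [← qE_apply]; exact hmem
      refine ⟨hmem', w, ?_⟩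
      rw [RingHom.comp_apply, ← h3]
      congr 1
      exact Subtype.ext (qE_apply d _)
    | algebraMap c =>
      have hmem : algebraMap k (LaurentSeries k) c ∈ A' :=
        (algebraMap (Kj k) A' (algebraMap k (Kj k) c)).2
      refine ⟨hmem, algebraMap k (LaurentSeries k) c, ?_⟩
      rw [RingHom.comp_apply, qE_algebraMap, hconst c hmem]
    | add x y hx hy ihx ihy =>
      obtain ⟨hx', hx''⟩ := ihx
      obtain ⟨hy', hy''⟩ := ihy
      refine ⟨add_mem hx' hy', ?_⟩
      have h1 : (⟨x + y, add_mem hx' hy'⟩ : A') = ⟨x, hx'⟩ + ⟨y, hy'⟩ := rfl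
      rw [h1, map_add]
      exact T.add_mem hx'' hy''
    | inv x hx ihx =>
      obtain ⟨hx', hx''⟩ := ihx
      refine ⟨inv_mem hx', ?_⟩
      have h1 : (⟨x⁻¹, inv_mem hx'⟩ : A') = (⟨x, hx'⟩ : A')⁻¹ := rfl
      rw [h1, map_inv₀]
      exact T.inv_mem hx''
    | mul x y hx hy ihx ihy =>
      obtain ⟨hx', hx''⟩ := ihx
      obtain ⟨hy', hy''⟩ := ihy
      refine ⟨mul_mem hx' hy', ?_⟩
      have h1 : (⟨x * y, mul_mem hx' hy'⟩ : A') = ⟨x, hx'⟩ * ⟨y, hy'⟩ := rfl
      rw [h1, map_mul]
      exact T.mul_mem hx'' hy''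
  obtain ⟨hx', w, hw⟩ := hfin _ hxk
  rw [RingHom.comp_apply, hφ] at hw
  exact qE_jqModC_not_mem_range hp0 hM hpM w (iota_injective _ hw)

end Embedding


section Bridge

variable (k : Type*) [Field k] [IsAlgClosed k]

/-- The modular equation of `ModEq.lean`, in the shape used here. -/
theorem exists_modEqAt (p' : ℕ) (hp' : p'.Prime) (hp'k : (p' : k) ≠ 0) :
    ∃ (ω : kˣ) (Φ : Polynomial (Polynomial k)), ModEqAt p' ω Φ := by
  have : Fact p'.Prime := ⟨hp'⟩
  have : NeZero (p' : k) := ⟨hp'k⟩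
  have : NeZero (p' * p') := ⟨Nat.mul_ne_zero hp'.ne_zero hp'.ne_zero⟩
  obtain ⟨ζ, hζ⟩ := HasEnoughRootsOfUnity.exists_primitiveRoot k p'
  have hζ0 : ζ ≠ 0 := hζ.ne_zero hp'.ne_zero
  have hω : IsPrimitiveRoot (Units.mk0 ζ hζ0) p' := IsPrimitiveRoot.coe_units_iff.mp hζ
  obtain ⟨Φ, hm, hd, hΦ⟩ := exists_modEq k p' (Units.mk0 ζ hζ0) hω
  refine ⟨Units.mk0 ζ hζ0, Φ, hm, hd, ?_⟩
  rw [qE_apply, qE_apply, ← aeval_toRingHom]
  exact hΦ

end Bridge

/-- An element of degree `n + 1` over `A` lying in a finite extension `B` of `A`. -/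
theorem succ_le_relfinrank {k : Type*} [Field k] {A B : IntermediateField k (LaurentSeries k)}
    (h2 : A ≤ B) {x : LaurentSeries k} (hx : x ∈ B) {n : ℕ}
    (hdeg : (minpoly A x).natDegree = n + 1) (hpos : 0 < A.relfinrank B) :
    n + 1 ≤ A.relfinrank B := by
  rw [IntermediateField.relfinrank_eq_finrank_of_le h2] at hpos ⊢
  have : FiniteDimensional A (extendScalars h2) := FiniteDimensional.of_finrank_pos hpos
  have : Module.Free A (extendScalars h2) := Module.Free.of_divisionRing _ _
  have h3 := minpoly.natDegree_le (A := A) (⟨x, hx⟩ : extendScalars h2)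
  rw [IntermediateField.minpoly_eq] at h3
  rw [← hdeg]
  exact h3

end TowerD3

section Final

variable (k : Type*) [Field k] [IsAlgClosed k]

/-- D3 core: `j(q^p) ∉ F_M` for `p ∤ M`. -/
theorem qExpand_jqModC_not_mem_full (M p : ℕ) [NeZero M] [Fact p.Prime] (hM : (M : k) ≠ 0)
    (hp : (p : k) ≠ 0) (hpM : ¬ p ∣ M) :
    qExpand k p (jqModC k) ∉ modularFunctionFieldFullC k M := by
  have hpr : p.Prime := Fact.out
  have h := TowerD3.core (k := k) M p (NeZero.ne M) hpr hpM ?_ ?_
  · rw [TowerD3.qE_apply] at h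
    exact h
  · intro p' hp' hdvd
    refine TowerD3.exists_modEqAt k p' hp' ?_
    rcases (Nat.Prime.dvd_mul hp').mp hdvd with h1 | h1
    · obtain ⟨c, rfl⟩ := h1
      intro h0
      apply hM
      rw [Nat.cast_mul, h0, zero_mul]
    · rw [(Nat.prime_dvd_prime_iff_eq hp' hpr).mp h1]
      exact hp
  · rw [TowerD3.qE_apply]
    exact natDegree_minpoly_jp_of_not_mem k (Kj k) p hp (Tower.jqModC_mem_Kj k)
      (jp_not_mem_Kj k p hp)

/-- D3: `[F_{M p} : k(j)] ≥ (p + 1) [F_M : k(j)]` for `p ∤ M`. -/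
theorem succ_mul_relfinrank_full_le (M p : ℕ) [NeZero M] [Fact p.Prime] (hM : (M : k) ≠ 0)
    (hp : (p : k) ≠ 0) (hpM : ¬ p ∣ M) :
    (p + 1) * (Kj k).relfinrank (modularFunctionFieldFullC k M) ≤
      (Kj k).relfinrank (modularFunctionFieldFullC k (M * p)) := by
  have hpr : p.Prime := Fact.out
  have hMp : ((M * p : ℕ) : k) ≠ 0 := by
    rw [Nat.cast_mul]
    exact mul_ne_zero hM hp
  have hpos := relfinrank_full_pos k (M * p) hMp
  have h1 : Kj k ≤ modularFunctionFieldFullC k M := Tower.Kj_le_full k M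
  have h2 : modularFunctionFieldFullC k M ≤ modularFunctionFieldFullC k (M * p) :=
    Tower.full_dvd_le k (Dvd.intro p rfl)
  have htower := IntermediateField.relfinrank_mul_relfinrank h1 h2
  rw [← htower] at hpos ⊢
  have hpos2 : 0 < (modularFunctionFieldFullC k M).relfinrank
      (modularFunctionFieldFullC k (M * p)) := Nat.pos_of_mul_pos_left hpos
  rw [mul_comm]
  refine Nat.mul_le_mul_left _ ?_
  have hnot := qExpand_jqModC_not_mem_full k M p hM hp hpM
  have hdeg := natDegree_minpoly_jp_of_not_mem k (modularFunctionFieldFullC k M) p hp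
    (jqModC_mem_full k M) hnot
  have hjp : qExpand k p (jqModC k) ∈ modularFunctionFieldFullC k (M * p) :=
    jqModCd_mem_full k (M * p) (Dvd.intro_left M rfl)
  exact TowerD3.succ_le_relfinrank h2 hjp hdeg hpos2

end Final

end Fermat.Agent.S28
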