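import Mathlib
import Fermat.Prelude.Def_ModularCurve_X0ModL
import Fermat.Agent.S24.CombIndex
import Fermat.Agent.S28.TowerDefs
import Fermat.Agent.S28.TowerD2
import Fermat.Agent.S28.TowerD3

/-!
P10 / [D] Tower, final part: the degree theorem `[F_N : k(j)] ≥ ψ(N)` over an algebraically
closed field `k` with `char k ∤ N` (induction on `N` from D2 and D3), and its descent to an
arbitrary field `k₀` in the form consumed by [G]: there are `ψ(N)` monomials in the series
`j(q^d)`, `d ∣ N`, which are linearly independent over `k₀(j)`.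
-/

set_option autoImplicit false

namespace Fermat.Agent.S28

open ModularCurve IntermediateField

namespace TowerKT

/-- KT without the `NeZero` instance, by induction on the prime factorisation. -/
theorem psi_le_aux (k : Type*) [Field k] [IsAlgClosed k] (N : ℕ) :
    N ≠ 0 → (N : k) ≠ 0 → dedekindPsi N ≤ (Kj k).relfinrank (modularFunctionFieldFullC k N) := by
  induction N using induction_on_primes with
  | zero => intro h; exact absurd rfl h
  | one =>
    intro _ _
    rw [dedekindPsi_one, Tower.full_one, relfinrank_self]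
  | prime_mul p M hp ih =>
    intro hN hNk
    have hM : M ≠ 0 := fun h => hN (by rw [h, mul_zero])
    have hMk : (M : k) ≠ 0 := fun h => hNk (by rw [Nat.cast_mul, h, mul_zero])
    have hpk : (p : k) ≠ 0 := fun h => hNk (by rw [Nat.cast_mul, h, zero_mul])
    have : NeZero M := ⟨hM⟩
    have : Fact p.Prime := ⟨hp⟩
    have ih' := ih hM hMk
    rw [mul_comm p M]
    by_cases hpM : p ∣ M
    · rw [Fermat.Agent.S24.ci_psi_mul_of_dvd hp hM hpM]
      exact (Nat.mul_le_mul_left p ih').trans (mul_relfinrank_full_le k M p hMk hpk)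
    · rw [Fermat.Agent.S24.ci_psi_mul_of_not_dvd hp hM hpM]
      exact (Nat.mul_le_mul_left (p + 1) ih').trans (succ_mul_relfinrank_full_le k M p hMk hpk hpM)

section Descent
variable {k₀ K : Type*} [Field k₀] [Field K]

/-- the coefficient map sends `k₀(j)` into `K(j)` -/
theorem coeffMap_mem_Kj (f : k₀ →+* K) {x : LaurentSeries k₀} (hx : x ∈ Kj k₀) : coeffMap f x ∈ Kj K := by
  let T : IntermediateField k₀ (LaurentSeries k₀) :=
    Subfield.toIntermediateField ((Kj K).toSubfield.comap (coeffMap f)) (by
      intro c
      show coeffMap f (algebraMap k₀ (LaurentSeries k₀) c) ∈ Kj K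
      rw [algebraMap_laurentSeries_eq_single, coeffMap_single,
        ← algebraMap_laurentSeries_eq_single]
      exact (Kj K).algebraMap_mem (f c))
  have h : Kj k₀ ≤ T := by
    rw [adjoin_le_iff]
    rintro _ rfl
    show coeffMap f (jqModC k₀) ∈ Kj K
    rw [coeffMap_jqModC]
    exact Tower.jqModC_mem_Kj K
  exact h hx

/-- the coefficient map sends the generators of `F_N` onto the generators of `F_N` -/
theorem coeffMap_image_divisorExpansionsC (f : k₀ →+* K) (N : ℕ) :
    coeffMap f '' divisorExpansionsC k₀ N = divisorExpansionsC K N := by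
  ext x
  constructor
  · rintro ⟨_, ⟨d, hd, hdN, rfl⟩, rfl⟩
    haveI := hd
    exact ⟨d, hd, hdN, by rw [coeffMap_qExpand, coeffMap_jqModC]⟩
  · rintro ⟨d, hd, hdN, rfl⟩
    haveI := hd
    exact ⟨_, ⟨d, hd, hdN, rfl⟩, by rw [coeffMap_qExpand, coeffMap_jqModC]⟩

/-- transfer of a finite family spanning the monomials: if the monomials in the `j(q^d)`,
`d ∣ N`, over `k₀` lie in the `k₀(j)`-span of a finite family of cardinality `r`, then
`[F_N(K) : K(j)] ≤ r`. -/
theorem relfinrank_le_card_of_span (f : k₀ →+* K) {ι : Type*} [Fintype ι] (N : ℕ) [NeZero N]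
    (v : ι → LaurentSeries k₀)
    (hv : ∀ m ∈ Submonoid.closure (divisorExpansionsC k₀ N),
      m ∈ Submodule.span ↥(Kj k₀) (Set.range v)) :
    (Kj K).relfinrank (modularFunctionFieldFullC K N) ≤ Fintype.card ι := by
  classical
  let W : Submodule ↥(Kj K) (LaurentSeries K) :=
    Submodule.span ↥(Kj K) (Set.range fun i => coeffMap f (v i))
  -- step 1: the coefficient map sends the span of `v` into `W`
  have h1 : ∀ x ∈ Submodule.span ↥(Kj k₀) (Set.range v), coeffMap f x ∈ W := by
    intro x hx
    induction hx using Submodule.span_induction with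
    | mem x hx =>
      obtain ⟨i, rfl⟩ := hx
      exact Submodule.subset_span ⟨i, rfl⟩
    | zero =>
      rw [map_zero]
      exact W.zero_mem
    | add x y _ _ hx hy =>
      rw [map_add]
      exact W.add_mem hx hy
    | smul c x _ hx =>
      have h : coeffMap f (c • x) =
          (⟨coeffMap f (c : LaurentSeries k₀), coeffMap_mem_Kj f c.2⟩ : ↥(Kj K)) •
            coeffMap f x := by
        rw [show c • x = (c : LaurentSeries k₀) * x from rfl, map_mul]
        rfl
      rw [h]
      exact W.smul_mem _ hx
  -- step 2: the monomials over `K` lie in `W`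
  have h2 : ∀ m ∈ Submonoid.closure (divisorExpansionsC K N), m ∈ W := by
    intro m hm
    rw [← coeffMap_image_divisorExpansionsC f N] at hm
    have hm' : m ∈ (Submonoid.closure (divisorExpansionsC k₀ N)).map
        ((coeffMap f : LaurentSeries k₀ →+* LaurentSeries K) :
          LaurentSeries k₀ →* LaurentSeries K) := by
      rw [MonoidHom.map_mclosure]
      exact hm
    obtain ⟨m₀, hm₀, rfl⟩ := hm'
    exact h1 m₀ (hv m₀ hm₀)
  -- step 3: the algebra generated by the generators lies in `W`
  have h3 : Subalgebra.toSubmodule (Algebra.adjoin ↥(Kj K) (divisorExpansionsC K N)) ≤ W := by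
    rw [Algebra.adjoin_eq_span]
    exact Submodule.span_le.mpr h2
  haveI hWfin : FiniteDimensional ↥(Kj K) ↥W :=
    FiniteDimensional.span_of_finite _ (Set.finite_range _)
  -- step 4: the generators are algebraic over `K(j)`, so the field they generate is this algebra
  have h4 : ∀ x ∈ divisorExpansionsC K N, IsAlgebraic ↥(Kj K) x := by
    intro x hx
    have hfg : (Subalgebra.toSubmodule
        (Algebra.adjoin ↥(Kj K) (divisorExpansionsC K N))).FG := by
      haveI := Submodule.finiteDimensional_of_le h3
      exact Module.Finite.iff_fg.mp inferInstance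
    exact (IsIntegral.of_mem_of_fg _ hfg x (Algebra.subset_adjoin hx)).isAlgebraic
  have h5 := adjoin_toSubalgebra_of_isAlgebraic h4
  -- step 5: `F_N ⊆ W`
  have h6 : ∀ x ∈ modularFunctionFieldFullC K N, x ∈ W := by
    let T : IntermediateField K (LaurentSeries K) :=
      Subfield.toIntermediateField (adjoin ↥(Kj K) (divisorExpansionsC K N)).toSubfield (by
        intro c
        exact (adjoin ↥(Kj K) (divisorExpansionsC K N)).algebraMap_mem
          ⟨algebraMap K (LaurentSeries K) c, (Kj K).algebraMap_mem c⟩)
    have hle : modularFunctionFieldFullC K N ≤ T := by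
      rw [modularFunctionFieldFullC, adjoin_le_iff]
      intro y hy
      exact subset_adjoin ↥(Kj K) (divisorExpansionsC K N) hy
    intro x hx
    have hx' : x ∈ adjoin ↥(Kj K) (divisorExpansionsC K N) := hle hx
    have hx'' : x ∈ (adjoin ↥(Kj K) (divisorExpansionsC K N)).toSubalgebra := hx'
    rw [h5] at hx''
    exact h3 hx''
  -- step 6: dimension count
  rw [relfinrank_eq_finrank_of_le (Tower.Kj_le_full K N)]
  let g : ↥(extendScalars (Tower.Kj_le_full K N)) →ₗ[↥(Kj K)] ↥W :=
    { toFun := fun x => ⟨x.1, h6 x.1 x.2⟩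
      map_add' := fun x y => rfl
      map_smul' := fun c x => rfl }
  have hg : Function.Injective g := by
    intro x y hxy
    exact Subtype.ext (congrArg (fun z : ↥W => (z : LaurentSeries K)) hxy)
  calc Module.finrank ↥(Kj K) ↥(extendScalars (Tower.Kj_le_full K N))
      ≤ Module.finrank ↥(Kj K) ↥W := LinearMap.finrank_le_finrank_of_injective hg
    _ ≤ Fintype.card ι := finrank_range_le_card _

end Descent

end TowerKT

/-- KT: `[F_N : k(j)] ≥ ψ(N)` for `k` algebraically closed, `char k ∤ N` -/
theorem dedekindPsi_le_relfinrank_full (k : Type*) [Field k] [IsAlgClosed k] (N : ℕ) [NeZero N]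
    (hN : (N : k) ≠ 0) :
    dedekindPsi N ≤ (Kj k).relfinrank (modularFunctionFieldFullC k N) :=
  TowerKT.psi_le_aux k N (NeZero.ne N) hN

/-- DESCENT = final export of [D]: over any field `k₀` with `char k₀ ∤ N` there are `ψ(N)`
monomials in the `j(q^d)`, `d ∣ N` (elements of the multiplicative monoid generated by
`divisorExpansionsC k₀ N`), which are linearly independent over `k₀(j)`. -/
theorem exists_linearIndependent_monomials (k₀ : Type*) [Field k₀] (N : ℕ) [NeZero N]
    (hN : (N : k₀) ≠ 0) :
    ∃ b : Fin (dedekindPsi N) → LaurentSeries k₀,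
      (∀ i, b i ∈ Submonoid.closure (divisorExpansionsC k₀ N)) ∧
        LinearIndependent ↥(Kj k₀) b := by
  classical
  obtain ⟨B, hB, hspan, hli⟩ := exists_linearIndependent ↥(Kj k₀)
    (Submonoid.closure (divisorExpansionsC k₀ N) : Set (LaurentSeries k₀))
  by_cases hemb : Nonempty (Fin (dedekindPsi N) ↪ B)
  · obtain ⟨e⟩ := hemb
    exact ⟨fun i => (e i : LaurentSeries k₀), fun i => hB (e i).2, hli.comp e e.injective⟩
  · exfalso
    have hfin : Finite B := by
      by_contra hinf
      rw [not_finite_iff_infinite] at hinf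
      exact hemb ⟨(Fin.valEmbedding).trans (Infinite.natEmbedding B)⟩
    haveI := Fintype.ofFinite B
    have hcard : Fintype.card B < dedekindPsi N := by
      by_contra hge
      rw [not_lt] at hge
      exact hemb (Function.Embedding.nonempty_of_card_le (by simpa using hge))
    have hNK : (N : AlgebraicClosure k₀) ≠ 0 := by
      intro h
      apply hN
      have h0 : algebraMap k₀ (AlgebraicClosure k₀) (N : k₀) = 0 := by
        rw [map_natCast]
        exact h
      exact (map_eq_zero_iff _ (algebraMap k₀ (AlgebraicClosure k₀)).injective).mp h0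
    have h1 := dedekindPsi_le_relfinrank_full (AlgebraicClosure k₀) N hNK
    have h2 := TowerKT.relfinrank_le_card_of_span (algebraMap k₀ (AlgebraicClosure k₀)) N
      (fun b : B => (b : LaurentSeries k₀)) (by
        intro m hm
        rw [Subtype.range_coe, hspan]
        exact Submodule.subset_span hm)
    omega

/-- the case `k₀ = ZMod ℓ`, `ℓ ∤ N`, consumed by [G] -/
theorem exists_linearIndependent_monomials_zmod (N : ℕ) [NeZero N] (ℓ : ℕ) [Fact ℓ.Prime]
    (hℓN : ¬ ℓ ∣ N) :
    ∃ b : Fin (dedekindPsi N) → LaurentSeries (ZMod ℓ),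
      (∀ i, b i ∈ Submonoid.closure (divisorExpansionsC (ZMod ℓ) N)) ∧
        LinearIndependent ↥(IntermediateField.adjoin (ZMod ℓ) {jqModC (ZMod ℓ)}) b :=
  exists_linearIndependent_monomials (ZMod ℓ) N
    (fun h => hℓN ((ZMod.natCast_eq_zero_iff N ℓ).mp h))

end Fermat.Agent.S28
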