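import Fermat.Agent.S28.GaussVal
import Fermat.Agent.S28.TowerDefs
import Fermat.Agent.S28.Char0Deg

/-!
P10 [G] (a): the reduction of an element of `V ∩ ℚ(j)` lies in `𝔽_ℓ(j̄)`.

Every nonzero polynomial over `ℚ` is `ℓ ^ n` times a polynomial over `ℤ_(ℓ)` with nonzero
reduction (`exists_scaling`); hence every nonzero element of `ℚ(j)` is `ℓ ^ n` times a unit `u`
of the Gauss valuation ring `gaussV N ℓ` with `u ∈ ℚ(j)` and `red u ∈ 𝔽_ℓ(j̄)`.
-/

set_option autoImplicit false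

namespace Fermat.Agent.S28

open ModularCurve ModularCurve.IgusaScheme IntermediateField Polynomial

namespace FreeBasisRed

variable (ℓ : ℕ) [Fact ℓ.Prime]

/-- A rational number of nonnegative `ℓ`-adic valuation lies in `ℤ_(ℓ)`. -/
theorem mem_ratLocalizedAt_of_padicValRat_nonneg {c : ℚ} (h : 0 ≤ padicValRat ℓ c) :
    c ∈ GaloisRep.ratLocalizedAt ℓ := by
  show c.den.Coprime ℓ
  by_contra hcop
  have hp : ℓ.Prime := Fact.out
  have hdvd : ℓ ∣ c.den := by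
    by_contra hnd
    exact hcop ((Nat.Prime.coprime_iff_not_dvd hp).mpr hnd).symm
  have hnum : ¬ (ℓ : ℤ) ∣ c.num := by
    intro hn
    have h1 : ℓ ∣ c.num.natAbs := Int.natCast_dvd.mp hn
    have h2 : ℓ ∣ Nat.gcd c.num.natAbs c.den := Nat.dvd_gcd h1 hdvd
    rw [c.reduced] at h2
    exact hp.one_lt.ne' (Nat.dvd_one.mp h2)
  have h1 : padicValInt ℓ c.num = 0 := padicValInt.eq_zero_of_not_dvd hnum
  have h2 : 1 ≤ padicValNat ℓ c.den := one_le_padicValNat_of_dvd c.den_pos.ne' hdvd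
  rw [padicValRat_def, h1] at h
  omega

/-- A nonzero element of `ℤ_(ℓ)` of `ℓ`-adic valuation `0` has nonzero reduction. -/
theorem resZ_ne_zero_of_padicValRat_eq_zero (a : ↥(GaloisRep.ratLocalizedAt ℓ))
    (ha : (a : ℚ) ≠ 0) (h : padicValRat ℓ (a : ℚ) = 0) : resZ ℓ a ≠ 0 := by
  have hp : ℓ.Prime := Fact.out
  intro h0
  rw [resZ_apply, Rat.cast_def, div_eq_zero_iff] at h0
  rcases h0 with h0 | h0
  · rw [ZMod.intCast_zmod_eq_zero_iff_dvd] at h0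
    have hden : ¬ ℓ ∣ (a : ℚ).den := by
      intro hd
      have hc : (a : ℚ).den.Coprime ℓ := a.2
      exact hp.one_lt.ne' (Nat.Coprime.eq_one_of_dvd hc.symm hd)
    have h2 : padicValNat ℓ (a : ℚ).den = 0 := padicValNat.eq_zero_of_not_dvd hden
    rw [padicValRat_def, h2, Nat.cast_zero, sub_zero, Int.natCast_eq_zero,
      padicValInt.eq_zero_iff] at h
    rcases h with h | h | h
    · exact hp.one_lt.ne' h
    · exact ha (Rat.num_eq_zero.mp h)
    · exact h h0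
  · exact GaussRing.den_ne_zero ℓ a h0

/-- Every nonzero polynomial over `ℚ` is `ℓ ^ n` times a polynomial over `ℤ_(ℓ)` with nonzero
reduction mod `ℓ`. -/
theorem exists_scaling (b : ℚ[X]) (hb : b ≠ 0) :
    ∃ (n : ℤ) (b' : (↥(GaloisRep.ratLocalizedAt ℓ))[X]), b'.map (resZ ℓ) ≠ 0 ∧
      b = C ((ℓ : ℚ) ^ n) * b'.map (GaloisRep.ratLocalizedAt ℓ).subtype := by
  have hp : ℓ.Prime := Fact.out
  have hℓ : (ℓ : ℚ) ≠ 0 := Nat.cast_ne_zero.mpr hp.ne_zero
  obtain ⟨i₀, hi₀, hmin⟩ := Finset.exists_min_image b.support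
    (fun i => padicValRat ℓ (b.coeff i)) (nonempty_support_iff.mpr hb)
  set n : ℤ := padicValRat ℓ (b.coeff i₀) with hn
  have hval : ∀ i, b.coeff i ≠ 0 →
      padicValRat ℓ ((ℓ : ℚ) ^ (-n) * b.coeff i) = padicValRat ℓ (b.coeff i) - n := by
    intro i hi
    rw [padicValRat.mul (zpow_ne_zero _ hℓ) hi, padicValRat.zpow, padicValRat.self hp.one_lt]
    ring
  have hcoeff : ∀ i, (C ((ℓ : ℚ) ^ (-n)) * b).coeff i ∈ GaloisRep.ratLocalizedAt ℓ := by
    intro i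
    rw [coeff_C_mul]
    by_cases hi : b.coeff i = 0
    · rw [hi, mul_zero]
      exact zero_mem _
    · apply mem_ratLocalizedAt_of_padicValRat_nonneg
      rw [hval i hi]
      have h3 : padicValRat ℓ (b.coeff i₀) ≤ padicValRat ℓ (b.coeff i) :=
        hmin i (mem_support_iff.mpr hi)
      omega
  have hsub : (↑(C ((ℓ : ℚ) ^ (-n)) * b).coeffs : Set ℚ) ⊆ GaloisRep.ratLocalizedAt ℓ := by
    intro c hc
    obtain ⟨i, -, rfl⟩ := mem_coeffs_iff.mp (Finset.mem_coe.mp hc)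
    exact hcoeff i
  refine ⟨n, (C ((ℓ : ℚ) ^ (-n)) * b).toSubring (GaloisRep.ratLocalizedAt ℓ) hsub, ?_, ?_⟩
  · intro h0
    have h1 := congrArg (fun p => p.coeff i₀) h0
    simp only [coeff_map, coeff_zero] at h1
    have hi₀' : b.coeff i₀ ≠ 0 := mem_support_iff.mp hi₀
    refine resZ_ne_zero_of_padicValRat_eq_zero ℓ _ ?_ ?_ h1
    · rw [coeff_toSubring, coeff_C_mul]
      exact mul_ne_zero (zpow_ne_zero _ hℓ) hi₀'
    · rw [coeff_toSubring, coeff_C_mul, hval i₀ hi₀', hn, sub_self]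
  · rw [map_toSubring, ← mul_assoc, ← C_mul, ← zpow_add₀ hℓ, add_neg_cancel, zpow_zero, C_1,
      one_mul]

section Transcendence

variable (k : Type*) [Field k]

/-- The coefficient of `q ^ (-deg P)` in `P(j)` is the leading coefficient of `P`. -/
theorem coeff_aeval_jqModC (P : k[X]) :
    (aeval (jqModC k) P).coeff (-(P.natDegree : ℤ)) = P.leadingCoeff := by
  rw [aeval_eq_sum_range, HahnSeries.coeff_sum]
  rw [Finset.sum_eq_single P.natDegree]
  · rw [Algebra.smul_def, S24.FFLAlg.coeff_algebraMap_mul, coeff_jqModC_pow_self, mul_one]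
    rfl
  · intro i hi hin
    have hi' : i < P.natDegree := by
      have := Finset.mem_range.mp hi
      omega
    rw [Algebra.smul_def, S24.FFLAlg.coeff_algebraMap_mul,
      coeff_jqModC_pow_of_lt k (by omega : -(P.natDegree : ℤ) < -(i : ℤ)), mul_zero]
  · intro h
    exact absurd (Finset.mem_range.mpr (Nat.lt_succ_self _)) h

/-- `j` is transcendental over `k`. -/
theorem aeval_jqModC_ne_zero {P : k[X]} (hP : P ≠ 0) : aeval (jqModC k) P ≠ 0 := by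
  intro h
  have h1 := coeff_aeval_jqModC k P
  rw [h, HahnSeries.coeff_zero] at h1
  exact hP (leadingCoeff_eq_zero.mp h1.symm)

end Transcendence

section Main

variable (N : ℕ) [NeZero N]

/-- `j` as an element of the Gauss valuation ring. -/
noncomputable def jV : ↥(gaussV N ℓ) := ⟨jFull N, jFull_mem_gaussV N ℓ⟩

/-- The reduction of a polynomial in `j` over `ℤ_(ℓ)` is the reduced polynomial in `j̄`. -/
theorem gaussRed_aeval (a : (↥(GaloisRep.ratLocalizedAt ℓ))[X]) :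
    gaussRed N ℓ (aeval (jV ℓ N) a) = aeval (jqModC (ZMod ℓ)) (a.map (resZ ℓ)) := by
  have hcomp : (gaussRed N ℓ).comp (algebraMap ↥(GaloisRep.ratLocalizedAt ℓ) ↥(gaussV N ℓ)) =
      (algebraMap (ZMod ℓ) (LaurentSeries (ZMod ℓ))).comp (resZ ℓ) := by
    ext a : 1
    rw [RingHom.comp_apply, gaussRed_algebraMap, RingHom.comp_apply,
      algebraMap_laurentSeries_eq_single]
    rfl
  rw [aeval_def, hom_eval₂, aeval_def, eval₂_map, hcomp]
  congr 1
  exact gaussRed_jFull N ℓ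

/-- Polynomials in `j` over `ℤ_(ℓ)`, computed in `F` over `ℚ`. -/
theorem coe_aeval_jV (a : (↥(GaloisRep.ratLocalizedAt ℓ))[X]) :
    ((aeval (jV ℓ N) a : ↥(gaussV N ℓ)) : ↥(modularFunctionFieldFull N)) =
      aeval (jFull N) (a.map (GaloisRep.ratLocalizedAt ℓ).subtype) := by
  rw [aeval_subalgebra_coe, aeval_def, aeval_def, eval₂_map]
  rfl

/-- Every nonzero polynomial in `j` over `ℚ` is `ℓ ^ n` times a polynomial in `j` over `ℤ_(ℓ)`
with nonzero reduction. -/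
theorem exists_zpow_mul_aeval (b : ℚ[X]) (hb : b ≠ 0) :
    ∃ (n : ℤ) (b' : (↥(GaloisRep.ratLocalizedAt ℓ))[X]), b'.map (resZ ℓ) ≠ 0 ∧
      aeval (jFull N) b = (ℓ : ↥(modularFunctionFieldFull N)) ^ n *
        ((aeval (jV ℓ N) b' : ↥(gaussV N ℓ)) : ↥(modularFunctionFieldFull N)) := by
  obtain ⟨n, b', hb', hbb'⟩ := exists_scaling ℓ b hb
  refine ⟨n, b', hb', ?_⟩
  rw [coe_aeval_jV]
  conv_lhs => rw [hbb']
  rw [map_mul, aeval_C, map_zpow₀, map_natCast]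

/-- The reduction of a polynomial in `j` lies in `𝔽_ℓ(j̄)`. -/
theorem gaussRed_aeval_mem_Kj (a : (↥(GaloisRep.ratLocalizedAt ℓ))[X]) :
    gaussRed N ℓ (aeval (jV ℓ N) a) ∈ Kj (ZMod ℓ) := by
  rw [gaussRed_aeval]
  exact S24.DegreeAbs.aeval_mem_adjoin_simple _ _

theorem gaussRed_aeval_ne_zero {a : (↥(GaloisRep.ratLocalizedAt ℓ))[X]}
    (ha : a.map (resZ ℓ) ≠ 0) : gaussRed N ℓ (aeval (jV ℓ N) a) ≠ 0 := by
  rw [gaussRed_aeval]
  exact aeval_jqModC_ne_zero (ZMod ℓ) ha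

/-- Every nonzero element of `ℚ(j)` is `ℓ ^ n` times a unit `u` of the Gauss valuation ring
which lies in `ℚ(j)` and whose reduction lies in `𝔽_ℓ(j̄)`. -/
theorem exists_zpow_mul_unit_of_mem_adjoin {c : ↥(modularFunctionFieldFull N)}
    (hcE : c ∈ ℚ⟮jFull N⟯) (hc0 : c ≠ 0) :
    ∃ (n : ℤ) (u : ↥(modularFunctionFieldFull N)) (hu : u ∈ gaussV N ℓ),
      u ∈ ℚ⟮jFull N⟯ ∧ gaussRed N ℓ ⟨u, hu⟩ ≠ 0 ∧ gaussRed N ℓ ⟨u, hu⟩ ∈ Kj (ZMod ℓ) ∧
        u⁻¹ ∈ gaussV N ℓ ∧ c = (ℓ : ↥(modularFunctionFieldFull N)) ^ n * u := by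
  have hp : ℓ.Prime := Fact.out
  have hℓF : (ℓ : ↥(modularFunctionFieldFull N)) ≠ 0 := Nat.cast_ne_zero.mpr hp.ne_zero
  obtain ⟨r, s, hrs⟩ := (IntermediateField.mem_adjoin_simple_iff ℚ c).mp hcE
  have hr : r ≠ 0 := by
    rintro rfl
    rw [map_zero, zero_div] at hrs
    exact hc0 hrs
  have hs : s ≠ 0 := by
    rintro rfl
    rw [map_zero, div_zero] at hrs
    exact hc0 hrs
  obtain ⟨m, r', hr', hrr'⟩ := exists_zpow_mul_aeval ℓ N r hr
  obtain ⟨n, s', hs', hss'⟩ := exists_zpow_mul_aeval ℓ N s hs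
  set A : ↥(gaussV N ℓ) := aeval (jV ℓ N) r' with hA
  set B : ↥(gaussV N ℓ) := aeval (jV ℓ N) s' with hB
  have hredA : gaussRed N ℓ A ≠ 0 := gaussRed_aeval_ne_zero ℓ N hr'
  have hredB : gaussRed N ℓ B ≠ 0 := gaussRed_aeval_ne_zero ℓ N hs'
  have hB0 : (B : ↥(modularFunctionFieldFull N)) ≠ 0 := by
    intro h0
    apply hredB
    have : B = 0 := Subtype.ext h0
    rw [this, map_zero]
  have hBinv : (B : ↥(modularFunctionFieldFull N))⁻¹ ∈ gaussV N ℓ :=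
    inv_mem_gaussV N ℓ B.2 hredB
  have hAinv : (A : ↥(modularFunctionFieldFull N))⁻¹ ∈ gaussV N ℓ :=
    inv_mem_gaussV N ℓ A.2 hredA
  have hBB : (⟨(B : ↥(modularFunctionFieldFull N))⁻¹, hBinv⟩ : ↥(gaussV N ℓ)) * B = 1 :=
    Subtype.ext (inv_mul_cancel₀ hB0)
  have hredBinv : gaussRed N ℓ ⟨(B : ↥(modularFunctionFieldFull N))⁻¹, hBinv⟩ =
      (gaussRed N ℓ B)⁻¹ := by
    have h1 := congrArg (gaussRed N ℓ) hBB
    rw [map_mul, map_one] at h1
    exact eq_inv_of_mul_eq_one_left h1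
  have hu : (A : ↥(modularFunctionFieldFull N)) * (B : ↥(modularFunctionFieldFull N))⁻¹ ∈
      gaussV N ℓ := mul_mem A.2 hBinv
  have hured : gaussRed N ℓ ⟨(A : ↥(modularFunctionFieldFull N)) *
      (B : ↥(modularFunctionFieldFull N))⁻¹, hu⟩ = gaussRed N ℓ A * (gaussRed N ℓ B)⁻¹ := by
    rw [← hredBinv, ← map_mul]
    rfl
  refine ⟨m - n, (A : ↥(modularFunctionFieldFull N)) * (B : ↥(modularFunctionFieldFull N))⁻¹,
    hu, ?_, ?_, ?_, ?_, ?_⟩
  · refine mul_mem ?_ (inv_mem ?_)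
    · rw [hA, coe_aeval_jV]
      exact S24.DegreeAbs.aeval_mem_adjoin_simple _ _
    · rw [hB, coe_aeval_jV]
      exact S24.DegreeAbs.aeval_mem_adjoin_simple _ _
  · rw [hured]
    exact mul_ne_zero hredA (inv_ne_zero hredB)
  · rw [hured]
    exact mul_mem (gaussRed_aeval_mem_Kj ℓ N r') (inv_mem (gaussRed_aeval_mem_Kj ℓ N s'))
  · rw [mul_inv, inv_inv]
    exact mul_mem hAinv B.2
  · rw [hrs, hrr', hss', zpow_sub₀ hℓF]
    field_simp

end Main

end FreeBasisRed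

open FreeBasisRed in
/-- **[G] (a)**: the reduction of an element of `V ∩ ℚ(j)` lies in `𝔽_ℓ(j̄)`. -/
theorem gaussRed_mem_Kj (N : ℕ) [NeZero N] (ℓ : ℕ) [Fact ℓ.Prime]
    {c : ↥(modularFunctionFieldFull N)} (hc : c ∈ gaussV N ℓ) (hcE : c ∈ ℚ⟮jFull N⟯) :
    gaussRed N ℓ ⟨c, hc⟩ ∈ Kj (ZMod ℓ) := by
  by_cases hc0 : c = 0
  · subst hc0
    have h0 : (⟨0, hc⟩ : ↥(gaussV N ℓ)) = 0 := rfl
    rw [h0, map_zero]
    exact zero_mem _
  · obtain ⟨n, u, hu, -, hu0, huK, -, hcu⟩ := exists_zpow_mul_unit_of_mem_adjoin ℓ N hcE hc0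
    have hn : 0 ≤ n := (mem_gaussV_iff_of_eq_zpow_mul N ℓ hu hu0 hcu).mp hc
    obtain ⟨k, rfl⟩ := Int.eq_ofNat_of_zero_le hn
    have h1 : (⟨c, hc⟩ : ↥(gaussV N ℓ)) = (ℓ : ↥(gaussV N ℓ)) ^ k * ⟨u, hu⟩ := by
      apply Subtype.ext
      show c = _
      rw [Subalgebra.coe_mul, Subalgebra.coe_pow, hcu, zpow_natCast]
      rfl
    rw [h1, map_mul, map_pow, gaussRed_natCast_self]
    exact mul_mem (pow_mem (zero_mem _) k) huK

end Fermat.Agent.S28
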