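import Fermat.Agent.S28.FormalDefs
import Fermat.Agent.S24.LaurentOrder

/-!
P10 (S28, Igusa): shared formal infrastructure on Laurent series `k((q))`.

* orders of the series `j = jqModC k`, `Δ = deltaS k`, `E₄ = e4S k`;
* the substitution `Sub ζ a : f(q) ↦ f(ζ t ^ a)`;
* a few more facts on the derivation `theta k = q d/dq` (`FormalDefs.lean`);
* series fixed by the rotation by a primitive `p`-th root of unity are series in `q ^ p`;
* leading terms of `j(ζ t ^ a)`; transcendence of `j` over `k`.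

Private helpers live in the namespace `Fermat.Agent.S28.Subst`.
-/

set_option autoImplicit false

namespace Fermat.Agent.S28

open HahnSeries ModularCurve
open Fermat.Agent.S24 (laurentRot)

/-! ### Orders of `j`, `Δ`, `E₄` -/

section Series

variable (k : Type*) [CommRing k]

/-- The S24 series `coeffEmb L jq` is the Prelude's `jqModC L`. -/
theorem coeffEmb_jq (L : Type*) [Field L] [Algebra ℚ L] : coeffEmb L jq = jqModC L := by
  rw [coeffEmb, ← jqModC_rat, coeffMap_jqModC]

theorem coeff_e4S_zero : (e4S k).coeff 0 = 1 := by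
  have h := HahnSeries.ofPowerSeries_apply_coeff (Γ := ℤ)
    (eisenstein4.map (Int.castRingHom k)) 0
  rw [Nat.cast_zero] at h
  rw [e4S, h, PowerSeries.coeff_map, PowerSeries.coeff_zero_eq_constantCoeff,
    constantCoeff_eisenstein4, map_one]

theorem coeff_e4S_of_neg {n : ℤ} (hn : n < 0) : (e4S k).coeff n = 0 :=
  ofPowerSeries_coeff_of_neg _ hn

theorem order_deltaS [Nontrivial k] : (deltaS k).order = 1 :=
  Fermat.Agent.S24.laurent_order_eq_of_coeff
    (by rw [coeff_deltaS_one]; exact one_ne_zero) (fun _ hm => coeff_deltaS_of_lt k hm)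

theorem order_jqModC [Nontrivial k] : (jqModC k).order = -1 :=
  Fermat.Agent.S24.laurent_order_eq_of_coeff
    (by rw [coeff_jqModC_neg_one]; exact one_ne_zero) (fun _ hm => coeff_jqModC_of_lt k hm)

theorem order_e4S [Nontrivial k] : (e4S k).order = 0 :=
  Fermat.Agent.S24.laurent_order_eq_of_coeff
    (by rw [coeff_e4S_zero]; exact one_ne_zero) (fun _ hm => coeff_e4S_of_neg k hm)

end Series

/-! ### Substitution `f(q) ↦ f(ζ t ^ a)` -/

section Sub

variable {k : Type*} [CommRing k]

/-- The substitution `f(q) ↦ f(ζ t ^ a)`. -/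
noncomputable def Sub (ζ : kˣ) (a : ℕ) [NeZero a] : LaurentSeries k →+* LaurentSeries k :=
  (qExpand k a).comp (laurentRot ζ)

theorem Sub_apply (ζ : kˣ) (a : ℕ) [NeZero a] (f : LaurentSeries k) :
    Sub ζ a f = qExpand k a (laurentRot ζ f) := rfl

theorem Sub_coeff_mul (ζ : kˣ) (a : ℕ) [NeZero a] (f : LaurentSeries k) (n : ℤ) :
    (Sub ζ a f).coeff ((a : ℤ) * n) = ((ζ ^ n : kˣ) : k) * f.coeff n := by
  rw [Sub_apply, qExpand_coeff_mul, Fermat.Agent.S24.laurentRot_coeff]

theorem Sub_coeff_of_not_dvd (ζ : kˣ) (a : ℕ) [NeZero a] (f : LaurentSeries k) {m : ℤ}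
    (hm : ¬ (a : ℤ) ∣ m) : (Sub ζ a f).coeff m = 0 :=
  qExpand_coeff_of_not_dvd a _ hm

theorem Sub_injective (ζ : kˣ) (a : ℕ) [NeZero a] : Function.Injective (Sub (k := k) ζ a) :=
  (qExpand_injective a).comp (Fermat.Agent.S24.laurentRot_injective ζ)

/-- Rotation after `q ↦ q ^ a` is `q ↦ q ^ a` after rotation by `ξ ^ a`. -/
theorem laurentRot_qExpand (ξ : kˣ) (a : ℕ) [NeZero a] (f : LaurentSeries k) :
    laurentRot ξ (qExpand k a f) = qExpand k a (laurentRot (ξ ^ a) f) := by
  ext m
  rw [Fermat.Agent.S24.laurentRot_coeff]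
  by_cases hm : (a : ℤ) ∣ m
  · obtain ⟨n, rfl⟩ := hm
    rw [qExpand_coeff_mul, qExpand_coeff_mul, Fermat.Agent.S24.laurentRot_coeff, zpow_mul,
      zpow_natCast]
  · rw [qExpand_coeff_of_not_dvd a _ hm, qExpand_coeff_of_not_dvd a _ hm, mul_zero]

/-- Composition law: `(f(ζ t ^ a))(t := ξ u ^ a') = f(ζ ξ ^ a u ^ (a a'))`. -/
theorem Sub_Sub (ξ ζ : kˣ) (a a' : ℕ) [NeZero a] [NeZero a'] (f : LaurentSeries k) :
    Sub ξ a' (Sub ζ a f) = Sub (ζ * ξ ^ a) (a * a') f := by
  rw [Sub_apply, Sub_apply, Sub_apply, laurentRot_qExpand, qExpand_qExpand,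
    ← Fermat.Agent.S24.laurentRot_mul, mul_comm (ξ ^ a) ζ]
  exact qExpand_congr (mul_comm a' a) _

theorem Sub_one_left (a : ℕ) [NeZero a] (f : LaurentSeries k) :
    Sub (1 : kˣ) a f = qExpand k a f := by
  rw [Sub_apply, Fermat.Agent.S24.laurentRot_one]

theorem Sub_one_right (ζ : kˣ) (f : LaurentSeries k) : Sub ζ 1 f = laurentRot ζ f := by
  rw [Sub_apply, qExpand_one_apply]

theorem Subst.laurentRot_single (ζ : kˣ) (n : ℤ) (c : k) :
    laurentRot ζ (HahnSeries.single n c) = HahnSeries.single n (((ζ ^ n : kˣ) : k) * c) := by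
  ext m
  rw [Fermat.Agent.S24.laurentRot_coeff]
  rcases eq_or_ne m n with rfl | hm
  · rw [HahnSeries.coeff_single_same, HahnSeries.coeff_single_same]
  · rw [HahnSeries.coeff_single_of_ne hm, HahnSeries.coeff_single_of_ne hm, mul_zero]

theorem Subst.laurentRot_C (ζ : kˣ) (c : k) :
    laurentRot ζ (HahnSeries.C c : LaurentSeries k) = HahnSeries.C c := by
  rw [HahnSeries.C_apply, Subst.laurentRot_single, zpow_zero, Units.val_one, one_mul]

theorem Sub_single (ζ : kˣ) (a : ℕ) [NeZero a] (n : ℤ) (c : k) :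
    Sub ζ a (HahnSeries.single n c) =
      HahnSeries.single ((a : ℤ) * n) (((ζ ^ n : kˣ) : k) * c) := by
  rw [Sub_apply, Subst.laurentRot_single, qExpand_single]

theorem Sub_C (ζ : kˣ) (a : ℕ) [NeZero a] (c : k) :
    Sub ζ a (HahnSeries.C c : LaurentSeries k) = HahnSeries.C c := by
  rw [Sub_apply, Subst.laurentRot_C, qExpand_C]

theorem order_Sub (ζ : kˣ) (a : ℕ) [NeZero a] (f : LaurentSeries k) :
    (Sub ζ a f).order = (a : ℤ) * f.order := by
  rw [Sub_apply, Fermat.Agent.S24.order_qExpand, Fermat.Agent.S24.order_laurentRot]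

theorem Subst.coeffMap_laurentRot {k' : Type*} [CommRing k'] (φ : k →+* k') (ζ : kˣ)
    (f : LaurentSeries k) :
    coeffMap φ (laurentRot ζ f) = laurentRot (Units.map (φ : k →* k') ζ) (coeffMap φ f) := by
  ext n
  rw [coeffMap_coeff, Fermat.Agent.S24.laurentRot_coeff, Fermat.Agent.S24.laurentRot_coeff,
    coeffMap_coeff, map_mul, ← map_zpow, Units.coe_map]
  rfl

theorem coeffMap_Sub {k' : Type*} [CommRing k'] (φ : k →+* k') (ζ : kˣ) (a : ℕ) [NeZero a]
    (f : LaurentSeries k) :
    coeffMap φ (Sub ζ a f) = Sub (Units.map (φ : k →* k') ζ) a (coeffMap φ f) := by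
  rw [Sub_apply, Sub_apply, coeffMap_qExpand, Subst.coeffMap_laurentRot]

/-- The substitution as a `k`-algebra homomorphism. -/
noncomputable def SubA (ζ : kˣ) (a : ℕ) [NeZero a] : LaurentSeries k →ₐ[k] LaurentSeries k :=
  { Sub ζ a with
    commutes' := fun c => by
      show Sub ζ a (algebraMap k (LaurentSeries k) c) = algebraMap k (LaurentSeries k) c
      rw [Fermat.Agent.S24.LaurentDeriv.algebraMap_eq_C, Sub_C] }

theorem SubA_apply (ζ : kˣ) (a : ℕ) [NeZero a] (f : LaurentSeries k) : SubA ζ a f = Sub ζ a f :=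
  rfl

theorem Sub_aeval (ζ : kˣ) (a : ℕ) [NeZero a] (f : LaurentSeries k) (R : Polynomial k) :
    Sub ζ a (Polynomial.aeval f R) = Polynomial.aeval (Sub ζ a f) R := by
  rw [← SubA_apply, ← SubA_apply, Polynomial.aeval_algHom_apply]

theorem laurentRot_aeval (ζ : kˣ) (f : LaurentSeries k) (R : Polynomial k) :
    laurentRot ζ (Polynomial.aeval f R) = Polynomial.aeval (laurentRot ζ f) R := by
  rw [← Sub_one_right, ← Sub_one_right, Sub_aeval]

theorem qExpand_aeval (a : ℕ) [NeZero a] (f : LaurentSeries k) (R : Polynomial k) :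
    qExpand k a (Polynomial.aeval f R) = Polynomial.aeval (qExpand k a f) R := by
  rw [← Sub_one_left, ← Sub_one_left, Sub_aeval]

end Sub

/-! ### More on the derivation `θ = q d/dq` -/

section Theta

variable {k : Type*} [CommRing k]

theorem theta_single (n : ℤ) (c : k) :
    theta k (HahnSeries.single n c) = HahnSeries.single n ((n : k) * c) := by
  ext m
  rw [theta_coeff]
  rcases eq_or_ne m n with rfl | hm
  · rw [HahnSeries.coeff_single_same, HahnSeries.coeff_single_same]
  · rw [HahnSeries.coeff_single_of_ne hm, HahnSeries.coeff_single_of_ne hm, mul_zero]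

/-- `θ (f(ζ t ^ a)) = a · (θ f)(ζ t ^ a)`. -/
theorem theta_Sub (ζ : kˣ) (a : ℕ) [NeZero a] (f : LaurentSeries k) :
    theta k (Sub ζ a f) = HahnSeries.C (a : k) * Sub ζ a (theta k f) := by
  rw [Sub_apply, Sub_apply, theta_qExpand, theta_laurentRot]

theorem theta_jqModC_coeff_neg_one : (theta k (jqModC k)).coeff (-1) = -1 := by
  rw [theta_coeff, coeff_jqModC_neg_one, mul_one, Int.cast_neg, Int.cast_one]

/-- `θ j ≠ 0` in every characteristic (its coefficient at `q⁻¹` is `-1`). -/
theorem theta_jqModC_ne_zero [Nontrivial k] : theta k (jqModC k) ≠ 0 := by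
  intro h
  have h1 := theta_jqModC_coeff_neg_one (k := k)
  rw [h, HahnSeries.coeff_zero] at h1
  exact one_ne_zero (neg_eq_zero.mp h1.symm)

end Theta

/-! ### Series in `q ^ p` and rotation by a primitive `p`-th root of unity -/

section Fixed

variable {k : Type*} [CommRing k]

theorem Subst.qContract_bddBelow (p : ℕ) [NeZero p] (f : LaurentSeries k) :
    BddBelow (Function.support fun n : ℤ => f.coeff ((p : ℤ) * n)) := by
  refine ⟨min f.order 0, fun n hn => ?_⟩
  rw [Function.mem_support] at hn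
  have h1 : f.order ≤ (p : ℤ) * n := HahnSeries.order_le_of_coeff_ne_zero hn
  have hp : (1 : ℤ) ≤ p := by exact_mod_cast Nat.pos_of_ne_zero (NeZero.ne p)
  rcases le_or_gt 0 n with h0 | h0
  · exact (min_le_right _ _).trans h0
  · refine (min_le_left _ _).trans (h1.trans ?_)
    nlinarith

/-- `∑ aₙ qⁿ ↦ ∑ a_{pn} qⁿ`, a left inverse of `qExpand k p`. -/
noncomputable def qContract (p : ℕ) [NeZero p] (f : LaurentSeries k) : LaurentSeries k :=
  HahnSeries.ofSuppBddBelow (fun n : ℤ => f.coeff ((p : ℤ) * n)) (Subst.qContract_bddBelow p f)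

theorem qContract_coeff (p : ℕ) [NeZero p] (f : LaurentSeries k) (n : ℤ) :
    (qContract p f).coeff n = f.coeff ((p : ℤ) * n) := rfl

theorem qContract_qExpand (p : ℕ) [NeZero p] (f : LaurentSeries k) :
    qContract p (qExpand k p f) = f := by
  ext n
  rw [qContract_coeff, qExpand_coeff_mul]

theorem qExpand_qContract (p : ℕ) [NeZero p] {f : LaurentSeries k}
    (hf : ∀ n : ℤ, ¬ (p : ℤ) ∣ n → f.coeff n = 0) : qExpand k p (qContract p f) = f := by
  ext m
  by_cases hm : (p : ℤ) ∣ m
  · obtain ⟨n, rfl⟩ := hm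
    rw [qExpand_coeff_mul, qContract_coeff]
  · rw [qExpand_coeff_of_not_dvd p _ hm, hf m hm]

theorem mem_range_qExpand_iff (p : ℕ) [NeZero p] (f : LaurentSeries k) :
    f ∈ Set.range (qExpand k p) ↔ ∀ n : ℤ, ¬ (p : ℤ) ∣ n → f.coeff n = 0 := by
  constructor
  · rintro ⟨g, rfl⟩ n hn
    exact qExpand_coeff_of_not_dvd p g hn
  · intro hf
    exact ⟨qContract p f, qExpand_qContract p hf⟩

/-- Series in `q ^ p` are fixed by the rotation by a `p`-th root of unity. -/
theorem laurentRot_qExpand_of_pow_eq_one {p : ℕ} [NeZero p] {ω : kˣ} (hω : ω ^ p = 1)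
    (f : LaurentSeries k) : laurentRot ω (qExpand k p f) = qExpand k p f := by
  rw [laurentRot_qExpand, hω, Fermat.Agent.S24.laurentRot_one]

/-- A series is fixed by the rotation by a primitive `p`-th root of unity iff it is a series in
`q ^ p`. -/
theorem laurentRot_eq_self_iff [IsDomain k] {p : ℕ} [NeZero p] {ω : kˣ}
    (hω : IsPrimitiveRoot ω p) (f : LaurentSeries k) :
    laurentRot ω f = f ↔ f ∈ Set.range (qExpand k p) := by
  constructor
  · intro h
    rw [mem_range_qExpand_iff]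
    intro n hn
    by_contra hc
    exact hn ((hω.zpow_eq_one_iff_dvd n).mp
      (Fermat.Agent.S24.zpow_eq_one_of_laurentRot_eq ω f h hc))
  · rintro ⟨g, rfl⟩
    exact laurentRot_qExpand_of_pow_eq_one hω.pow_eq_one g

end Fixed

/-! ### Leading terms of `j(ζ t ^ a)` -/

section Leading

variable {k : Type*} [CommRing k]

theorem Sub_jqModC_coeff (ζ : kˣ) (a : ℕ) [NeZero a] :
    (Sub ζ a (jqModC k)).coeff (-(a : ℤ)) = ((ζ⁻¹ : kˣ) : k) := by
  have h : -(a : ℤ) = (a : ℤ) * (-1) := by ring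
  rw [h, Sub_coeff_mul, coeff_jqModC_neg_one, mul_one, zpow_neg_one]

theorem Sub_jqModC_coeff_of_lt (ζ : kˣ) (a : ℕ) [NeZero a] {m : ℤ} (hm : m < -(a : ℤ)) :
    (Sub ζ a (jqModC k)).coeff m = 0 := by
  by_cases hd : (a : ℤ) ∣ m
  · obtain ⟨n, rfl⟩ := hd
    have ha : (0 : ℤ) < a := by exact_mod_cast Nat.pos_of_ne_zero (NeZero.ne a)
    have hn : n < -1 := by nlinarith
    rw [Sub_coeff_mul, coeff_jqModC_of_lt k hn, mul_zero]
  · exact Sub_coeff_of_not_dvd ζ a _ hd

theorem order_Sub_jqModC [Nontrivial k] (ζ : kˣ) (a : ℕ) [NeZero a] :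
    (Sub ζ a (jqModC k)).order = -(a : ℤ) := by
  rw [order_Sub, order_jqModC, mul_neg, mul_one]

theorem laurentRot_jqModC_coeff_neg_one (ζ : kˣ) :
    (laurentRot ζ (jqModC k)).coeff (-1) = ((ζ⁻¹ : kˣ) : k) := by
  rw [Fermat.Agent.S24.laurentRot_coeff, coeff_jqModC_neg_one, mul_one, zpow_neg_one]

/-- `j(ζ t ^ a)` determines `a` and `ζ`. -/
theorem Sub_jqModC_inj [Nontrivial k] {ζ ζ' : kˣ} {a a' : ℕ} [NeZero a] [NeZero a']
    (h : Sub ζ a (jqModC k) = Sub ζ' a' (jqModC k)) : a = a' ∧ ζ = ζ' := by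
  have h1 := congrArg HahnSeries.order h
  rw [order_Sub_jqModC, order_Sub_jqModC, neg_inj, Nat.cast_inj] at h1
  subst h1
  refine ⟨rfl, ?_⟩
  have h2 := congrArg (fun x : LaurentSeries k => x.coeff (-(a : ℤ))) h
  simp only [Sub_jqModC_coeff] at h2
  exact inv_injective (Units.ext h2)

/-- The series `j(ω ^ b t)`, `b < p`, are pairwise distinct (`ω` a primitive `p`-th root of
unity). -/
theorem laurentRot_pow_jqModC_injOn {p : ℕ} {ω : kˣ} (hω : IsPrimitiveRoot ω p) :
    Set.InjOn (fun b : ℕ => laurentRot (ω ^ b) (jqModC k)) (Set.Iio p) := by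
  intro b hb b' hb' h
  have h2 := congrArg (fun x : LaurentSeries k => x.coeff (-1)) h
  simp only [laurentRot_jqModC_coeff_neg_one] at h2
  exact hω.pow_inj hb hb' (inv_injective (Units.ext h2))

/-- `j(ζ t) ≠ j(t ^ n)` for `n ≥ 2`. -/
theorem laurentRot_jqModC_ne_qExpand [Nontrivial k] (ζ : kˣ) {n : ℕ} [NeZero n] (hn : n ≠ 1) :
    laurentRot ζ (jqModC k) ≠ qExpand k n (jqModC k) := by
  intro h
  rw [← Sub_one_right, ← Sub_one_left] at h
  exact hn (Sub_jqModC_inj h).1.symm

end Leading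

/-! ### Transcendence of `j` -/

section Transcendence

variable (k : Type*) [Field k]

theorem Subst.coeff_C_mul_aux (c : k) (y : LaurentSeries k) (m : ℤ) :
    (algebraMap k (LaurentSeries k) c * y).coeff m = c * y.coeff m := by
  rw [algebraMap_laurentSeries_eq_single, HahnSeries.coeff_single_mul, sub_zero]

/-- The coefficient of `q ^ (-deg P)` in `P(j)` is the leading coefficient of `P`. -/
theorem coeff_aeval_jqModC (P : Polynomial k) :
    (Polynomial.aeval (jqModC k) P).coeff (-(P.natDegree : ℤ)) = P.leadingCoeff := by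
  rw [Polynomial.aeval_eq_sum_range, HahnSeries.coeff_sum]
  rw [Finset.sum_eq_single P.natDegree]
  · rw [Algebra.smul_def, Subst.coeff_C_mul_aux, coeff_jqModC_pow_self, mul_one]
    rfl
  · intro i hi hin
    have hi' : i < P.natDegree := by
      have := Finset.mem_range.mp hi
      omega
    rw [Algebra.smul_def, Subst.coeff_C_mul_aux,
      coeff_jqModC_pow_of_lt k (by omega : -(P.natDegree : ℤ) < -(i : ℤ)), mul_zero]
  · intro h
    exact absurd (Finset.mem_range.mpr (Nat.lt_succ_self _)) h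

theorem coeff_aeval_jqModC_of_lt (P : Polynomial k) {m : ℤ} (hm : m < -(P.natDegree : ℤ)) :
    (Polynomial.aeval (jqModC k) P).coeff m = 0 := by
  rw [Polynomial.aeval_eq_sum_range, HahnSeries.coeff_sum]
  refine Finset.sum_eq_zero fun i hi => ?_
  have hi' : i ≤ P.natDegree := by
    have := Finset.mem_range.mp hi
    omega
  rw [Algebra.smul_def, Subst.coeff_C_mul_aux,
    coeff_jqModC_pow_of_lt k (by omega : m < -(i : ℤ)), mul_zero]

variable {k} in
theorem aeval_jqModC_ne_zero {P : Polynomial k} (hP : P ≠ 0) :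
    Polynomial.aeval (jqModC k) P ≠ 0 := by
  intro h
  have := coeff_aeval_jqModC k P
  rw [h, HahnSeries.coeff_zero] at this
  exact hP (Polynomial.leadingCoeff_eq_zero.mp this.symm)

variable {k} in
theorem order_aeval_jqModC {P : Polynomial k} (hP : P ≠ 0) :
    (Polynomial.aeval (jqModC k) P).order = -(P.natDegree : ℤ) :=
  Fermat.Agent.S24.laurent_order_eq_of_coeff
    (by rw [coeff_aeval_jqModC]; exact Polynomial.leadingCoeff_ne_zero.mpr hP)
    (fun _ hm => coeff_aeval_jqModC_of_lt k P hm)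

theorem aeval_jqModC_injective :
    Function.Injective (Polynomial.aeval (jqModC k) : Polynomial k → LaurentSeries k) := by
  rw [injective_iff_map_eq_zero]
  intro P hP
  by_contra h
  exact aeval_jqModC_ne_zero h hP

theorem transcendental_jqModC : Transcendental k (jqModC k) :=
  transcendental_iff_injective.mpr (aeval_jqModC_injective k)

theorem transcendental_Sub_jqModC (ζ : kˣ) (a : ℕ) [NeZero a] :
    Transcendental k (Sub ζ a (jqModC k)) := by
  rw [transcendental_iff_injective, injective_iff_map_eq_zero]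
  intro P hP
  rw [← Sub_aeval] at hP
  exact (injective_iff_map_eq_zero _).mp (aeval_jqModC_injective k) P
    (Sub_injective ζ a (hP.trans (map_zero _).symm))

variable {k} in
/-- If `j(q ^ p) = R(j(q))` then `R` is monic of degree `p`. -/
theorem monic_natDegree_of_aeval_jqModC_eq (p : ℕ) [NeZero p] {R : Polynomial k}
    (h : Polynomial.aeval (jqModC k) R = qExpand k p (jqModC k)) :
    R.Monic ∧ R.natDegree = p := by
  have hne : qExpand k p (jqModC k) ≠ 0 := by
    intro h0
    exact jqModC_ne_zero_of_nontrivial k (qExpand_injective p (h0.trans (map_zero _).symm))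
  have hR : R ≠ 0 := by
    rintro rfl
    rw [map_zero] at h
    exact hne h.symm
  have hdeg : R.natDegree = p := by
    have h1 := order_aeval_jqModC hR
    rw [h, Fermat.Agent.S24.order_qExpand, order_jqModC, mul_neg, mul_one, neg_inj] at h1
    exact_mod_cast h1.symm
  refine ⟨?_, hdeg⟩
  have h2 := coeff_aeval_jqModC k R
  rw [h, hdeg] at h2
  have h3 : -(p : ℤ) = (p : ℤ) * (-1) := by ring
  rw [h3, qExpand_coeff_mul, coeff_jqModC_neg_one] at h2
  exact h2.symm

end Transcendence

end Fermat.Agent.S28
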