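import Fermat.Agent.S28.GaussRing
import Fermat.Agent.S28.FreeBasisAbs

/-!
P10 [F] part (B): the `ℓ`-adic Gauss valuation ring `gaussV N ℓ = gaussO ℓ ∩ F` of the function
field `F = modularFunctionFieldFull N ⊂ ℚ((q))`, its reduction map
`gaussRed N ℓ : gaussV N ℓ →+* 𝔽_ℓ((q))`, and the properties (V1)–(V3) of the blueprint.
-/

set_option autoImplicit false
set_option linter.unusedSectionVars false
set_option linter.style.haveILetI false

namespace Fermat.Agent.S28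

open ModularCurve ModularCurve.IgusaScheme

variable (N : ℕ) [NeZero N] (ℓ : ℕ) [Fact ℓ.Prime]

theorem GaussVal.coe_algebraMap (a : ↥(GaloisRep.ratLocalizedAt ℓ)) :
    ((algebraMap ↥(GaloisRep.ratLocalizedAt ℓ) ↥(modularFunctionFieldFull N) a :
      ↥(modularFunctionFieldFull N)) : LaurentSeries ℚ) =
      coeffMap (GaloisRep.ratLocalizedAt ℓ).subtype (HahnSeries.C a) := by
  exact DFunLike.congr_fun (ratLocalizedAt_ringHom_ext ℓ
    ((algebraMap ↥(modularFunctionFieldFull N) (LaurentSeries ℚ)).comp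
      (algebraMap ↥(GaloisRep.ratLocalizedAt ℓ) ↥(modularFunctionFieldFull N)))
    ((coeffMap (GaloisRep.ratLocalizedAt ℓ).subtype).comp HahnSeries.C)) a

/-- The Gauss valuation ring of `F`: elements whose `q`-expansion lies in `gaussO ℓ`. -/
noncomputable def gaussV :
    Subalgebra ↥(GaloisRep.ratLocalizedAt ℓ) ↥(modularFunctionFieldFull N) where
  carrier := {x | (x : LaurentSeries ℚ) ∈ gaussO ℓ}
  mul_mem' := fun ha hb => (gaussO ℓ).mul_mem ha hb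
  one_mem' := (gaussO ℓ).one_mem
  add_mem' := fun ha hb => (gaussO ℓ).add_mem ha hb
  zero_mem' := (gaussO ℓ).zero_mem
  algebraMap_mem' := fun a => by
    show ((algebraMap ↥(GaloisRep.ratLocalizedAt ℓ) ↥(modularFunctionFieldFull N) a :
      ↥(modularFunctionFieldFull N)) : LaurentSeries ℚ) ∈ gaussO ℓ
    rw [GaussVal.coe_algebraMap]
    exact coeffMap_subtype_mem_gaussO ℓ _

theorem mem_gaussV_iff (x : ↥(modularFunctionFieldFull N)) :
    x ∈ gaussV N ℓ ↔ (x : LaurentSeries ℚ) ∈ gaussO ℓ := Iff.rfl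

/-- Reduction mod `ℓ` of `q`-expansions on the Gauss valuation ring. -/
noncomputable def gaussRed : ↥(gaussV N ℓ) →+* LaurentSeries (ZMod ℓ) :=
  (gaussRedO ℓ).comp
    { toFun := fun x => ⟨((x : ↥(modularFunctionFieldFull N)) : LaurentSeries ℚ),
        (mem_gaussV_iff N ℓ _).mp x.2⟩
      map_one' := rfl
      map_mul' := fun _ _ => rfl
      map_zero' := rfl
      map_add' := fun _ _ => rfl }

theorem gaussRed_apply (x : ↥(gaussV N ℓ)) :
    gaussRed N ℓ x =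
      gaussRedO ℓ ⟨((x : ↥(modularFunctionFieldFull N)) : LaurentSeries ℚ),
        (mem_gaussV_iff N ℓ _).mp x.2⟩ := rfl

/-- Computing the reduction from any presentation of the `q`-expansion. -/
theorem GaussVal.gaussRed_mk {x : ↥(modularFunctionFieldFull N)} (hx : x ∈ gaussV N ℓ)
    {y : LaurentSeries ℚ} (hy : y ∈ gaussO ℓ) (h : (x : LaurentSeries ℚ) = y) :
    gaussRed N ℓ ⟨x, hx⟩ = gaussRedO ℓ ⟨y, hy⟩ := by
  rw [gaussRed_apply]
  congr 1
  exact Subtype.ext h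

/-! ### (V1) -/

theorem gaussRed_algebraMap (a : ↥(GaloisRep.ratLocalizedAt ℓ)) :
    gaussRed N ℓ (algebraMap ↥(GaloisRep.ratLocalizedAt ℓ) ↥(gaussV N ℓ) a) =
      HahnSeries.C (resZ ℓ a) := by
  have h := GaussVal.gaussRed_mk N ℓ ((gaussV N ℓ).algebraMap_mem a)
    (coeffMap_subtype_mem_gaussO ℓ (HahnSeries.C a)) (GaussVal.coe_algebraMap N ℓ a)
  rw [gaussRedO_coeffMap_subtype, HahnSeries.C_apply, coeffMap_single] at h
  rw [HahnSeries.C_apply, ← h]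
  rfl

theorem gaussRed_natCast_self : gaussRed N ℓ (ℓ : ↥(gaussV N ℓ)) = 0 := by
  rw [map_natCast]
  exact GaussRing.natCast_series_Fl ℓ

/-- An element of `F` whose `q`-expansion has `ℓ`-integral coefficients lies in `gaussV`, and its
reduction is the coefficientwise reduction. -/
theorem mem_gaussV_of_coeffMap {x : ↥(modularFunctionFieldFull N)}
    (a : LaurentSeries ↥(GaloisRep.ratLocalizedAt ℓ))
    (h : coeffMap (GaloisRep.ratLocalizedAt ℓ).subtype a = (x : LaurentSeries ℚ)) :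
    x ∈ gaussV N ℓ := by
  rw [mem_gaussV_iff, ← h]
  exact coeffMap_subtype_mem_gaussO ℓ a

theorem gaussRed_of_coeffMap {x : ↥(modularFunctionFieldFull N)}
    (a : LaurentSeries ↥(GaloisRep.ratLocalizedAt ℓ))
    (h : coeffMap (GaloisRep.ratLocalizedAt ℓ).subtype a = (x : LaurentSeries ℚ)) :
    gaussRed N ℓ ⟨x, mem_gaussV_of_coeffMap N ℓ a h⟩ = coeffMap (resZ ℓ) a := by
  rw [GaussVal.gaussRed_mk N ℓ _ (coeffMap_subtype_mem_gaussO ℓ a) h.symm,
    gaussRedO_coeffMap_subtype]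

/-- `j(q^d)` as an element of `F`, for `d ∣ N`. -/
noncomputable def jdFull (d : ℕ) [NeZero d] (hd : d ∣ N) : ↥(modularFunctionFieldFull N) :=
  ⟨qExpand ℚ d jq, jqd_mem_full N hd⟩

theorem coe_jdFull (d : ℕ) [NeZero d] (hd : d ∣ N) :
    (jdFull N d hd : LaurentSeries ℚ) = qExpand ℚ d jq := rfl

theorem jdFull_one : jdFull N 1 (one_dvd N) = jFull N :=
  Subtype.ext (qExpand_one_apply jq)

theorem GaussVal.qExpand_jq_eq (d : ℕ) [NeZero d] :
    qExpand ℚ d jq = coeffMap (Int.castRingHom ℚ) (jqNModC ℤ d) := by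
  rw [coeffMap_jqNModC]
  rfl

theorem jdFull_mem_gaussV (d : ℕ) [NeZero d] (hd : d ∣ N) : jdFull N d hd ∈ gaussV N ℓ := by
  rw [mem_gaussV_iff, coe_jdFull, GaussVal.qExpand_jq_eq]
  exact coeffMap_intCast_mem_gaussO ℓ _

theorem gaussRed_jdFull (d : ℕ) [NeZero d] (hd : d ∣ N) :
    gaussRed N ℓ ⟨jdFull N d hd, jdFull_mem_gaussV N ℓ d hd⟩ = jqNModC (ZMod ℓ) d := by
  rw [GaussVal.gaussRed_mk N ℓ _ (coeffMap_intCast_mem_gaussO ℓ (jqNModC ℤ d))
    (GaussVal.qExpand_jq_eq d), gaussRedO_coeffMap_intCast, coeffMap_jqNModC]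

theorem jFull_mem_gaussV : jFull N ∈ gaussV N ℓ := by
  rw [← jdFull_one]
  exact jdFull_mem_gaussV N ℓ 1 (one_dvd N)

theorem gaussRed_jFull : gaussRed N ℓ ⟨jFull N, jFull_mem_gaussV N ℓ⟩ = jqModC (ZMod ℓ) := by
  have h := gaussRed_jdFull N ℓ 1 (one_dvd N)
  rw [jqNModC_one] at h
  rw [← h]
  congr 1
  exact Subtype.ext (jdFull_one N).symm

/-! ### (V2): the kernel of the reduction is `ℓ V` -/

theorem gaussRed_eq_zero_iff (x : ↥(gaussV N ℓ)) :
    gaussRed N ℓ x = 0 ↔ ∃ y : ↥(gaussV N ℓ), x = (ℓ : ↥(gaussV N ℓ)) * y := by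
  constructor
  · intro h
    rw [gaussRed_apply, gaussRedO_eq_zero_iff] at h
    obtain ⟨y, hy⟩ := h
    have hy' : ((x : ↥(modularFunctionFieldFull N)) : LaurentSeries ℚ) =
        (ℓ : LaurentSeries ℚ) * (y : LaurentSeries ℚ) := by
      have := congrArg Subtype.val hy
      simpa using this
    have hℓ : (ℓ : ↥(modularFunctionFieldFull N)) ≠ 0 :=
      Nat.cast_ne_zero.mpr (Fact.out : ℓ.Prime).ne_zero
    have hcoe : (((ℓ : ↥(modularFunctionFieldFull N))⁻¹ * (x : ↥(modularFunctionFieldFull N)) :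
        ↥(modularFunctionFieldFull N)) : LaurentSeries ℚ) = (y : LaurentSeries ℚ) := by
      push_cast
      rw [hy', ← mul_assoc, inv_mul_cancel₀ (GaussRing.natCast_series_Q_ne_zero ℓ), one_mul]
    refine ⟨⟨(ℓ : ↥(modularFunctionFieldFull N))⁻¹ * (x : ↥(modularFunctionFieldFull N)), ?_⟩, ?_⟩
    · rw [mem_gaussV_iff, hcoe]
      exact y.2
    · apply Subtype.ext
      show (x : ↥(modularFunctionFieldFull N)) =
        ((ℓ : ↥(gaussV N ℓ)) : ↥(modularFunctionFieldFull N)) *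
          ((ℓ : ↥(modularFunctionFieldFull N))⁻¹ * (x : ↥(modularFunctionFieldFull N)))
      rw [show ((ℓ : ↥(gaussV N ℓ)) : ↥(modularFunctionFieldFull N)) =
        (ℓ : ↥(modularFunctionFieldFull N)) from rfl, ← mul_assoc, mul_inv_cancel₀ hℓ, one_mul]
  · rintro ⟨y, rfl⟩
    rw [map_mul, gaussRed_natCast_self, zero_mul]

/-! ### units and (V3) -/

theorem inv_mem_gaussV {x : ↥(modularFunctionFieldFull N)} (hx : x ∈ gaussV N ℓ)
    (h : gaussRed N ℓ ⟨x, hx⟩ ≠ 0) : x⁻¹ ∈ gaussV N ℓ := by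
  rw [mem_gaussV_iff]
  push_cast
  exact inv_mem_gaussO ℓ ((mem_gaussV_iff N ℓ x).mp hx) h

theorem jFull_inv_mem_gaussV : (jFull N)⁻¹ ∈ gaussV N ℓ := by
  refine inv_mem_gaussV N ℓ (jFull_mem_gaussV N ℓ) ?_
  rw [gaussRed_jFull]
  exact jqModC_ne_zero_of_nontrivial (ZMod ℓ)

theorem GaussVal.gaussRed_inv {x : ↥(modularFunctionFieldFull N)} (hx : x ∈ gaussV N ℓ)
    (hx' : x⁻¹ ∈ gaussV N ℓ) (hx0 : x ≠ 0) :
    gaussRed N ℓ ⟨x⁻¹, hx'⟩ = (gaussRed N ℓ ⟨x, hx⟩)⁻¹ := by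
  have h1 : gaussRed N ℓ ⟨x, hx⟩ * gaussRed N ℓ ⟨x⁻¹, hx'⟩ = 1 := by
    rw [← map_mul]
    have : (⟨x, hx⟩ : ↥(gaussV N ℓ)) * ⟨x⁻¹, hx'⟩ = 1 :=
      Subtype.ext (mul_inv_cancel₀ hx0)
    rw [this, map_one]
  exact eq_inv_of_mul_eq_one_right h1

theorem gaussRed_jFull_inv :
    gaussRed N ℓ ⟨(jFull N)⁻¹, jFull_inv_mem_gaussV N ℓ⟩ = (jqModC (ZMod ℓ))⁻¹ := by
  rw [GaussVal.gaussRed_inv N ℓ (jFull_mem_gaussV N ℓ) _ (jFull_ne_zero N), gaussRed_jFull]

theorem isUnit_iff_gaussRed_ne_zero (x : ↥(gaussV N ℓ)) :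
    IsUnit x ↔ gaussRed N ℓ x ≠ 0 := by
  constructor
  · intro hu
    exact (hu.map (gaussRed N ℓ)).ne_zero
  · intro h
    have hinv := inv_mem_gaussV N ℓ x.2 h
    have hx0 : (x : ↥(modularFunctionFieldFull N)) ≠ 0 := by
      intro h0
      apply h
      have : x = 0 := Subtype.ext h0
      rw [this, map_zero]
    exact IsUnit.of_mul_eq_one ⟨(x : ↥(modularFunctionFieldFull N))⁻¹, hinv⟩
      (Subtype.ext (mul_inv_cancel₀ hx0))

theorem GaussVal.full_le_gaussK : modularFunctionFieldFull N ≤ gaussK ℓ := by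
  rw [modularFunctionFieldFull, IntermediateField.adjoin_le_iff]
  rintro x ⟨d, hne, -, rfl⟩
  haveI := hne
  apply gaussO_le_gaussK
  rw [GaussVal.qExpand_jq_eq]
  exact coeffMap_intCast_mem_gaussO ℓ _

/-- (V3): every nonzero element of `F` is `ℓ ^ n` times a unit of `gaussV`. -/
theorem exists_zpow_mul_unit {x : ↥(modularFunctionFieldFull N)} (hx : x ≠ 0) :
    ∃ (n : ℤ) (u : ↥(modularFunctionFieldFull N)) (hu : u ∈ gaussV N ℓ),
      gaussRed N ℓ ⟨u, hu⟩ ≠ 0 ∧ u⁻¹ ∈ gaussV N ℓ ∧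
        x = (ℓ : ↥(modularFunctionFieldFull N)) ^ n * u := by
  have hxK : (x : LaurentSeries ℚ) ∈ gaussK ℓ := GaussVal.full_le_gaussK N ℓ x.2
  have hx0 : (x : LaurentSeries ℚ) ≠ 0 := fun h => hx (Subtype.ext h)
  obtain ⟨n, u, hu, hred, hxu⟩ := exists_zpow_mul_of_mem_gaussK ℓ hxK hx0
  have hℓ : (ℓ : ↥(modularFunctionFieldFull N)) ≠ 0 :=
    Nat.cast_ne_zero.mpr (Fact.out : ℓ.Prime).ne_zero
  have hℓQ := GaussRing.natCast_series_Q_ne_zero ℓ
  have hcoe : ((((ℓ : ↥(modularFunctionFieldFull N)) ^ n)⁻¹ * x :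
      ↥(modularFunctionFieldFull N)) : LaurentSeries ℚ) = u := by
    have h1 : ((((ℓ : ↥(modularFunctionFieldFull N)) ^ n : ↥(modularFunctionFieldFull N)) :
        LaurentSeries ℚ)) = (ℓ : LaurentSeries ℚ) ^ n := by
      rw [← IntermediateField.algebraMap_apply, map_zpow₀, map_natCast]
    rw [IntermediateField.coe_mul, IntermediateField.coe_inv, h1, hxu, ← mul_assoc,
      inv_mul_cancel₀ (zpow_ne_zero n hℓQ), one_mul]
  have huV : ((ℓ : ↥(modularFunctionFieldFull N)) ^ n)⁻¹ * x ∈ gaussV N ℓ := by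
    rw [mem_gaussV_iff, hcoe]
    exact hu
  have hredV : gaussRed N ℓ ⟨_, huV⟩ ≠ 0 := by
    rw [GaussVal.gaussRed_mk N ℓ huV hu hcoe]
    exact hred
  refine ⟨n, ((ℓ : ↥(modularFunctionFieldFull N)) ^ n)⁻¹ * x, huV, hredV,
    inv_mem_gaussV N ℓ huV hredV, ?_⟩
  rw [← mul_assoc, mul_inv_cancel₀ (zpow_ne_zero n hℓ), one_mul]

/-- The abstract Gauss-ring structure on `gaussV`. -/
theorem GaussVal.isGaussRing :
    FreeBasisAbs.IsGaussRing (gaussV N ℓ).toSubring (ℓ : ↥(modularFunctionFieldFull N))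
      (gaussRed N ℓ) where
  pi_mem := natCast_mem (gaussV N ℓ) ℓ
  pi_ne_zero := Nat.cast_ne_zero.mpr (Fact.out : ℓ.Prime).ne_zero
  red_pi := fun _ => gaussRed_natCast_self N ℓ
  ker := fun x hx => by
    obtain ⟨y, rfl⟩ := (gaussRed_eq_zero_iff N ℓ x).mp hx
    exact ⟨y, rfl⟩
  unit := fun x hx => by
    obtain ⟨n, u, hu, -, hu', h⟩ := exists_zpow_mul_unit N ℓ hx
    exact ⟨n, u, hu, hu', h⟩

/-- `x ∈ V` iff the exponent of `ℓ` is nonnegative. -/
theorem mem_gaussV_iff_of_eq_zpow_mul {x u : ↥(modularFunctionFieldFull N)} {n : ℤ}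
    (hu : u ∈ gaussV N ℓ) (hu' : gaussRed N ℓ ⟨u, hu⟩ ≠ 0)
    (hx : x = (ℓ : ↥(modularFunctionFieldFull N)) ^ n * u) :
    x ∈ gaussV N ℓ ↔ 0 ≤ n := by
  have hℓ : (ℓ : ↥(modularFunctionFieldFull N)) ≠ 0 :=
    Nat.cast_ne_zero.mpr (Fact.out : ℓ.Prime).ne_zero
  constructor
  · intro hxV
    by_contra hn
    rw [not_le] at hn
    obtain ⟨m, hm⟩ : ∃ m : ℕ, -n = m + 1 := ⟨(-n - 1).toNat, by omega⟩
    have hu2 : u = (ℓ : ↥(modularFunctionFieldFull N)) *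
        ((ℓ : ↥(modularFunctionFieldFull N)) ^ m * x) := by
      rw [hx, ← mul_assoc, ← mul_assoc, ← pow_succ', ← zpow_natCast, ← zpow_add₀ hℓ]
      have : ((m + 1 : ℕ) : ℤ) + n = 0 := by push_cast; omega
      rw [this, zpow_zero, one_mul]
    apply hu'
    have hmem : (ℓ : ↥(modularFunctionFieldFull N)) ^ m * x ∈ gaussV N ℓ :=
      (gaussV N ℓ).mul_mem (pow_mem (natCast_mem (gaussV N ℓ) ℓ) m) hxV
    have : (⟨u, hu⟩ : ↥(gaussV N ℓ)) = (ℓ : ↥(gaussV N ℓ)) * ⟨_, hmem⟩ := Subtype.ext hu2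
    rw [this, map_mul, gaussRed_natCast_self, zero_mul]
  · intro hn
    rw [hx]
    obtain ⟨m, rfl⟩ := Int.eq_ofNat_of_zero_le hn
    rw [zpow_natCast]
    exact (gaussV N ℓ).mul_mem (pow_mem (natCast_mem (gaussV N ℓ) ℓ) m) hu

theorem mem_gaussV_or_inv_mem (x : ↥(modularFunctionFieldFull N)) :
    x ∈ gaussV N ℓ ∨ x⁻¹ ∈ gaussV N ℓ :=
  (GaussVal.isGaussRing N ℓ).mem_or_inv_mem x

/-- `gaussV` is integrally closed in `F`. -/
theorem mem_gaussV_of_isIntegral {x : ↥(modularFunctionFieldFull N)}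
    (hx : IsIntegral ↥(gaussV N ℓ) x) : x ∈ gaussV N ℓ :=
  (GaussVal.isGaussRing N ℓ).mem_of_isIntegral hx

/-- The charts lie in the Gauss valuation ring. -/
theorem chartAlg_le_gaussV {S : Set ↥(modularFunctionFieldFull N)}
    (hS : S ⊆ (gaussV N ℓ : Set ↥(modularFunctionFieldFull N))) :
    chartAlg N ℓ S ≤ gaussV N ℓ := by
  intro x hx
  rw [mem_chartAlg_iff] at hx
  apply mem_gaussV_of_isIntegral
  have hle : Algebra.adjoin ↥(GaloisRep.ratLocalizedAt ℓ) S ≤ gaussV N ℓ :=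
    Algebra.adjoin_le hS
  exact hx.map_of_comp_eq (Subalgebra.inclusion hle).toRingHom
    (RingHom.id ↥(modularFunctionFieldFull N)) (by ext; rfl)

theorem chartAlgFin_le_gaussV : chartAlgFin N ℓ ≤ gaussV N ℓ :=
  chartAlg_le_gaussV N ℓ (Set.singleton_subset_iff.mpr (jFull_mem_gaussV N ℓ))

theorem chartAlgInf_le_gaussV : chartAlgInf N ℓ ≤ gaussV N ℓ :=
  chartAlg_le_gaussV N ℓ (Set.singleton_subset_iff.mpr (jFull_inv_mem_gaussV N ℓ))

theorem chartAlgMid_le_gaussV : chartAlgMid N ℓ ≤ gaussV N ℓ :=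
  chartAlg_le_gaussV N ℓ (by
    rintro x (rfl | rfl)
    · exact jFull_mem_gaussV N ℓ
    · exact jFull_inv_mem_gaussV N ℓ)

end Fermat.Agent.S28
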