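import Fermat.Agent.S28.FreeBasisAbs
import Fermat.Agent.S28.FreeBasisRed
import Fermat.Agent.S28.GaussVal
import Fermat.Agent.S28.TowerKT
import Fermat.Agent.S28.Char0Deg

/-!
P10 / S28, module [G]: the Gauss valuation ring `V = gaussV N ℓ` of the function field
`F = ℚ(j(q^d) : d ∣ N)` is a finite free module over `R = V ∩ ℚ(j)`; in particular every element
of `V` is integral over `R`.
-/

set_option autoImplicit false

namespace Fermat.Agent.S28

open ModularCurve ModularCurve.IgusaScheme IntermediateField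

variable (N : ℕ) [NeZero N] (ℓ : ℕ) [Fact ℓ.Prime]

/-- `R = V ∩ ℚ(j)`, as a subring of `E = ℚ(j)`. -/
noncomputable def gaussR : Subring ↥(ℚ⟮jFull N⟯) :=
  FreeBasisAbs.RE (gaussV N ℓ).toSubring ℚ⟮jFull N⟯

theorem mem_gaussR_iff (x : ↥(ℚ⟮jFull N⟯)) :
    x ∈ gaussR N ℓ ↔ (x : ↥(modularFunctionFieldFull N)) ∈ gaussV N ℓ := Iff.rfl

/-- `V` is an abstract Gauss ring. -/
theorem isGaussRing_gaussV :
    FreeBasisAbs.IsGaussRing (gaussV N ℓ).toSubring (ℓ : ↥(modularFunctionFieldFull N))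
      (gaussRed N ℓ) where
  pi_mem := natCast_mem (gaussV N ℓ) ℓ
  pi_ne_zero := Nat.cast_ne_zero.mpr (Fact.out : ℓ.Prime).ne_zero
  red_pi := by
    intro h
    have h1 := gaussRed_natCast_self N ℓ
    have h2 : (⟨(ℓ : ↥(modularFunctionFieldFull N)), h⟩ : ↥(gaussV N ℓ))
        = (ℓ : ↥(gaussV N ℓ)) := Subtype.ext rfl
    rw [← h2] at h1
    exact h1
  ker := by
    intro x hx
    obtain ⟨y, hy⟩ := (gaussRed_eq_zero_iff N ℓ x).mp hx
    refine ⟨y, ?_⟩
    rw [hy]
    rfl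
  unit := by
    intro x hx
    obtain ⟨n, u, hu, -, hu', he⟩ := exists_zpow_mul_unit N ℓ hx
    exact ⟨n, u, hu, hu', he⟩

theorem natCast_mem_jFull : (ℓ : ↥(modularFunctionFieldFull N)) ∈ ℚ⟮jFull N⟯ :=
  IntermediateField.natCast_mem _ ℓ

instance instIsScalarTowerGaussR :
    IsScalarTower ↥(gaussR N ℓ) ↥(ℚ⟮jFull N⟯) ↥(modularFunctionFieldFull N) :=
  FreeBasisAbs.instIsScalarTowerRE

/-- `ℚ(j)` is the fraction field of `R`. -/
theorem isFractionRing_gaussR : IsFractionRing ↥(gaussR N ℓ) ↥(ℚ⟮jFull N⟯) :=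
  (isGaussRing_gaussV N ℓ).isFractionRing_RE (natCast_mem_jFull N ℓ)

/-- `R` is integrally closed. -/
theorem isIntegrallyClosed_gaussR : IsIntegrallyClosed ↥(gaussR N ℓ) :=
  (isGaussRing_gaussV N ℓ).isIntegrallyClosed_RE (natCast_mem_jFull N ℓ)

/-- Lifting the monomials of [D] to the Gauss valuation ring. -/
theorem exists_lift_of_mem_closure {x : LaurentSeries (ZMod ℓ)}
    (hx : x ∈ Submonoid.closure (divisorExpansionsC (ZMod ℓ) N)) :
    ∃ v : ↥(gaussV N ℓ), gaussRed N ℓ v = x := by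
  induction hx using Submonoid.closure_induction with
  | mem x hx =>
    obtain ⟨d, hne, hd, rfl⟩ := hx
    haveI := hne
    exact ⟨⟨jdFull N d hd, jdFull_mem_gaussV N ℓ d hd⟩, gaussRed_jdFull N ℓ d hd⟩
  | one => exact ⟨1, map_one _⟩
  | mul x y _ _ hx hy =>
    obtain ⟨v, rfl⟩ := hx
    obtain ⟨w, rfl⟩ := hy
    exact ⟨v * w, map_mul _ _ _⟩

/-- The family of [D], lifted to `V`, has reductions independent over the reduction of `R`. -/
theorem exists_redIndep (hℓN : ¬ ℓ ∣ N) :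
    ∃ b : Fin (dedekindPsi N) → ↥(gaussV N ℓ).toSubring,
      FreeBasisAbs.RedIndep (gaussRed N ℓ) ℚ⟮jFull N⟯ b := by
  obtain ⟨m, hm, hli⟩ := exists_linearIndependent_monomials_zmod N ℓ hℓN
  choose v hv using fun i => exists_lift_of_mem_closure N ℓ (hm i)
  refine ⟨v, ?_⟩
  intro c hcE hsum i
  rw [Fintype.linearIndependent_iff] at hli
  have h1 := hli (fun i => ⟨gaussRed N ℓ (c i), gaussRed_mem_Kj N ℓ (c i).2 (hcE i)⟩) (by
    rw [← hsum]
    refine Finset.sum_congr rfl fun i _ => ?_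
    rw [← hv i]
    rfl) i
  exact congrArg Subtype.val h1

/-- (b') **Every element of the Gauss valuation ring is integral over `R = V ∩ ℚ(j)`.** -/
theorem isIntegral_gaussR (hℓN : ¬ ℓ ∣ N) {s : ↥(modularFunctionFieldFull N)}
    (hs : s ∈ gaussV N ℓ) : IsIntegral ↥(gaussR N ℓ) s := by
  haveI := finiteDimensional_jFull N
  obtain ⟨b, hb⟩ := exists_redIndep N ℓ hℓN
  exact (isGaussRing_gaussV N ℓ).isIntegral_RE (natCast_mem_jFull N ℓ) hb
    (by simpa using finrank_jFull_le N) hs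

end Fermat.Agent.S28
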