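import Fermat.Agent.S28.ChartKerCore
import Fermat.Agent.S28.FreeBasis

/-!
P10 (S28, Igusa) module [H]: the reduction maps `redChart` on the three charts of the Igusa
model have kernel generated by `ℓ` (for `ℓ ∤ N`).
-/

set_option autoImplicit false

namespace Fermat.Agent.S28

open ModularCurve ModularCurve.IgusaScheme

variable (N : ℕ) [NeZero N] (ℓ : ℕ) [Fact ℓ.Prime]

/-- module [G] in the form used by the chart argument -/
theorem gaussIntegralOver_jFull (hℓN : ¬ ℓ ∣ N) : ChartKer.GaussIntegralOver N ℓ (jFull N) := by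
  intro s hs
  obtain ⟨q, hq, hqs⟩ := isIntegral_gaussR N ℓ hℓN hs
  refine ⟨q.map (algebraMap ↥(gaussR N ℓ) ↥(modularFunctionFieldFull N)), hq.map _,
    fun i => ?_, ?_⟩
  · rw [Polynomial.coeff_map]
    exact ⟨(q.coeff i).2, (q.coeff i).1.2⟩
  · rw [Polynomial.eval_map]
    exact hqs

theorem ker_redChart_fin (hℓN : ¬ ℓ ∣ N) :
    RingHom.ker (redChart N ℓ {jFull N} (sFin_subset N)) =
      Ideal.span {(ℓ : ↥(chartAlgFin N ℓ))} :=
  ker_redChart_fin_of N ℓ (gaussIntegralOver_jFull N ℓ hℓN)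

theorem ker_redChart_inf (hℓN : ¬ ℓ ∣ N) :
    RingHom.ker (redChart N ℓ {(jFull N)⁻¹} (sInf_subset N)) =
      Ideal.span {(ℓ : ↥(chartAlgInf N ℓ))} :=
  ker_redChart_inf_of N ℓ (gaussIntegralOver_jFull N ℓ hℓN)

theorem ker_redChart_mid (hℓN : ¬ ℓ ∣ N) :
    RingHom.ker (redChart N ℓ {jFull N, (jFull N)⁻¹} subset_rfl) =
      Ideal.span {(ℓ : ↥(chartAlgMid N ℓ))} :=
  ker_redChart_mid_of N ℓ (gaussIntegralOver_jFull N ℓ hℓN)

end Fermat.Agent.S28
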