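import Mathlib
import Fermat.Prelude.Def_ModularCurve_IgusaScheme

/-!
P10 [I]: the scheme-theoretic glue step for Igusa's theorem (S28).

If the three rings `C_S ⊗[ℤℓ] K` (`S = fin, inf, mid`, `C_S = chartAlg N ℓ S`) are domains, then
the base change to `K` of the Igusa model of `X₀(N)` over `ℤ₍ℓ₎` is an integral scheme:
it is covered by the spectra of the three rings (hence reduced), and the two big charts are
irreducible open subsets which meet (in the image of the middle chart), hence it is irreducible.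
-/

set_option autoImplicit false

namespace Fermat.Agent.S28

open AlgebraicGeometry CategoryTheory CategoryTheory.Limits ModularCurve ModularCurve.IgusaScheme
open scoped TensorProduct

namespace Glue

/-- A space covered by two irreducible open subsets with nonempty intersection is irreducible. -/
theorem irreducibleSpace_of_isIrreducible_union {X : Type*} [TopologicalSpace X] {A B : Set X}
    (hA : IsIrreducible A) (hB : IsIrreducible B) (hAo : IsOpen A) (hBo : IsOpen B)
    (hAB : (A ∩ B).Nonempty) (hcov : A ∪ B = Set.univ) : IrreducibleSpace X := by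
  obtain ⟨z, hz⟩ := hAB
  -- every nonempty open set meets `A ∩ B`
  have key : ∀ u : Set X, IsOpen u → u.Nonempty → (A ∩ (u ∩ B)).Nonempty := by
    rintro u hu ⟨x, hx⟩
    have hxAB : x ∈ A ∪ B := by rw [hcov]; trivial
    rcases hxAB with hxA | hxB
    · exact hA.2 u B hu hBo ⟨x, hxA, hx⟩ ⟨z, hz.1, hz.2⟩
    · obtain ⟨y, hyB, hyu, hyA⟩ := hB.2 u A hu hAo ⟨x, hxB, hx⟩ ⟨z, hz.2, hz.1⟩
      exact ⟨y, hyA, hyu, hyB⟩
  have : Nonempty X := ⟨z⟩
  refine { toPreirreducibleSpace := ⟨?_⟩, toNonempty := inferInstance }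
  intro u v hu hv hune hvne
  obtain ⟨x, -, hx⟩ := hune
  obtain ⟨y, -, hy⟩ := hvne
  obtain ⟨a, haA, hau, -⟩ := key u hu ⟨x, hx⟩
  obtain ⟨b, hbA, hbv, -⟩ := key v hv ⟨y, hy⟩
  obtain ⟨c, -, hc⟩ := hA.2 u v hu hv ⟨a, haA, hau⟩ ⟨b, hbA, hbv⟩
  exact ⟨c, Set.mem_univ _, hc⟩


variable (N : ℕ) [NeZero N] (ℓ : ℕ) [Fact ℓ.Prime]

/-- The three-piece open cover of the Igusa scheme by its charts. -/
noncomputable def igusaOpenCover : (ModularCurve.IgusaScheme N ℓ).OpenCover :=
  Scheme.IsLocallyDirected.openCover (span (fFin N ℓ) (fInf N ℓ))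

theorem igusaOpenCover_f_left : (igusaOpenCover N ℓ).f WalkingSpan.left = ιFin N ℓ := rfl

theorem igusaOpenCover_f_right : (igusaOpenCover N ℓ).f WalkingSpan.right = ιInf N ℓ := rfl

theorem igusaOpenCover_f_none :
    (igusaOpenCover N ℓ).f (none : WalkingSpan) = fFin N ℓ ≫ ιFin N ℓ :=
  (colimit.w (span (fFin N ℓ) (fInf N ℓ)) WalkingSpan.Hom.fst).symm

theorem igusaOpenCover_f_none' :
    (igusaOpenCover N ℓ).f (none : WalkingSpan) = fInf N ℓ ≫ ιInf N ℓ :=
  (colimit.w (span (fFin N ℓ) (fInf N ℓ)) WalkingSpan.Hom.snd).symm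

theorem igusaOpenCover_left_comp :
    (igusaOpenCover N ℓ).f WalkingSpan.left ≫ igusaTo N ℓ =
      Spec.map (CommRingCat.ofHom (algebraMap ↥(GaloisRep.ratLocalizedAt ℓ) (chartAlgFin N ℓ))) :=
  ιFin_igusaTo N ℓ

theorem igusaOpenCover_right_comp :
    (igusaOpenCover N ℓ).f WalkingSpan.right ≫ igusaTo N ℓ =
      Spec.map (CommRingCat.ofHom (algebraMap ↥(GaloisRep.ratLocalizedAt ℓ) (chartAlgInf N ℓ))) :=
  ιInf_igusaTo N ℓ

theorem fFin_ιFin_igusaTo :
    (fFin N ℓ ≫ ιFin N ℓ) ≫ igusaTo N ℓ =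
      Spec.map (CommRingCat.ofHom (algebraMap ↥(GaloisRep.ratLocalizedAt ℓ) (chartAlgMid N ℓ))) := by
  rw [Category.assoc, ιFin_igusaTo, ← Spec.map_comp, ← CommRingCat.ofHom_comp]
  rfl

theorem igusaOpenCover_none_comp :
    (igusaOpenCover N ℓ).f (none : WalkingSpan) ≫ igusaTo N ℓ =
      Spec.map (CommRingCat.ofHom (algebraMap ↥(GaloisRep.ratLocalizedAt ℓ) (chartAlgMid N ℓ))) :=
  (congrArg (fun φ : XMid N ℓ ⟶ ModularCurve.IgusaScheme N ℓ => φ ≫ igusaTo N ℓ)
    (igusaOpenCover_f_none N ℓ)).trans (fFin_ιFin_igusaTo N ℓ)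

section Pieces

variable (K : Type) [CommRing K] [Algebra ↥(GaloisRep.ratLocalizedAt ℓ) K]

/-- the base change morphism `Spec K ⟶ Spec ℤℓ` -/
noncomputable abbrev baseK : Spec (CommRingCat.of K) ⟶ Spec (CommRingCat.of ↥(GaloisRep.ratLocalizedAt ℓ)) :=
  Spec.map (CommRingCat.ofHom (algebraMap ↥(GaloisRep.ratLocalizedAt ℓ) K))

/-- The open cover of the base change by the base changes of the three charts. -/
noncomputable def pullbackCover : (pullback (igusaTo N ℓ) (baseK ℓ K)).OpenCover :=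
  Scheme.Pullback.openCoverOfLeft (igusaOpenCover N ℓ) (igusaTo N ℓ) (baseK ℓ K)

noncomputable def pieceIsoFin :
    (pullbackCover N ℓ K).X WalkingSpan.left ≅
      Spec (CommRingCat.of (↥(chartAlgFin N ℓ) ⊗[↥(GaloisRep.ratLocalizedAt ℓ)] K)) :=
  pullback.congrHom (igusaOpenCover_left_comp N ℓ) rfl ≪≫
    pullbackSpecIso ↥(GaloisRep.ratLocalizedAt ℓ) ↥(chartAlgFin N ℓ) K

noncomputable def pieceIsoInf :
    (pullbackCover N ℓ K).X WalkingSpan.right ≅
      Spec (CommRingCat.of (↥(chartAlgInf N ℓ) ⊗[↥(GaloisRep.ratLocalizedAt ℓ)] K)) :=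
  pullback.congrHom (igusaOpenCover_right_comp N ℓ) rfl ≪≫
    pullbackSpecIso ↥(GaloisRep.ratLocalizedAt ℓ) ↥(chartAlgInf N ℓ) K

noncomputable def pieceIsoMid :
    (pullbackCover N ℓ K).X (none : WalkingSpan) ≅
      Spec (CommRingCat.of (↥(chartAlgMid N ℓ) ⊗[↥(GaloisRep.ratLocalizedAt ℓ)] K)) :=
  pullback.congrHom (igusaOpenCover_none_comp N ℓ) rfl ≪≫
    pullbackSpecIso ↥(GaloisRep.ratLocalizedAt ℓ) ↥(chartAlgMid N ℓ) K

end Pieces

/-- The range of a morphism out of a scheme isomorphic to the spectrum of a domain is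
irreducible. -/
theorem isIrreducible_range_of_iso_Spec {X Y : Scheme.{0}} {R : Type} [CommRing R] [IsDomain R]
    (e : X ≅ Spec (CommRingCat.of R)) (f : X ⟶ Y) : IsIrreducible (Set.range f) := by
  have h1 : IsIrreducible (Set.range (e.inv ≫ f)) := by
    have h := (IrreducibleSpace.isIrreducible_univ (Spec (CommRingCat.of R))).image
      (e.inv ≫ f) (e.inv ≫ f).continuous.continuousOn
    rwa [Set.image_univ] at h
  have h2 : Set.range (e.inv ≫ f) = Set.range f := by
    ext y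
    constructor
    · rintro ⟨x, rfl⟩
      exact ⟨e.inv x, (Scheme.Hom.comp_apply _ _ _).symm⟩
    · rintro ⟨x, rfl⟩
      refine ⟨e.hom x, ?_⟩
      rw [Scheme.Hom.comp_apply, ← Scheme.Hom.comp_apply e.hom e.inv, e.hom_inv_id]
      rfl
  rwa [h2] at h1

section Main

variable (K : Type) [CommRing K] [Algebra ↥(GaloisRep.ratLocalizedAt ℓ) K]

theorem range_pullbackCover_f (i : WalkingSpan) :
    Set.range ((pullbackCover N ℓ K).f i) =
      pullback.fst (igusaTo N ℓ) (baseK ℓ K) ⁻¹' Set.range ((igusaOpenCover N ℓ).f i) := by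
  have h := Scheme.Pullback.range_map ((igusaOpenCover N ℓ).f i ≫ igusaTo N ℓ) (baseK ℓ K)
    (igusaTo N ℓ) (baseK ℓ K) ((igusaOpenCover N ℓ).f i) (𝟙 _) (𝟙 _) (by simp) (by simp)
  have h1 : Set.range ⇑(𝟙 (Spec (CommRingCat.of K))) = Set.univ :=
    Set.range_eq_univ.mpr fun x => ⟨x, by simp⟩
  rw [h1, Set.preimage_univ, Set.inter_univ] at h
  exact h

theorem pullbackCover_f_fst (i : WalkingSpan) :
    (pullbackCover N ℓ K).f i ≫ pullback.fst (igusaTo N ℓ) (baseK ℓ K) =
      pullback.fst ((igusaOpenCover N ℓ).f i ≫ igusaTo N ℓ) (baseK ℓ K) ≫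
        (igusaOpenCover N ℓ).f i :=
  pullback.lift_fst _ _ _

theorem range_igusaOpenCover_none_subset_left :
    Set.range ((igusaOpenCover N ℓ).f (none : WalkingSpan)) ⊆ Set.range (ιFin N ℓ) := by
  rintro _ ⟨y, rfl⟩
  refine ⟨fFin N ℓ y, ?_⟩
  have h := congrArg (fun φ : XMid N ℓ ⟶ ModularCurve.IgusaScheme N ℓ => φ y)
    (igusaOpenCover_f_none N ℓ)
  exact h.symm

theorem range_igusaOpenCover_none_subset_right :
    Set.range ((igusaOpenCover N ℓ).f (none : WalkingSpan)) ⊆ Set.range (ιInf N ℓ) := by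
  rintro _ ⟨y, rfl⟩
  refine ⟨fInf N ℓ y, ?_⟩
  have h := congrArg (fun φ : XMid N ℓ ⟶ ModularCurve.IgusaScheme N ℓ => φ y)
    (igusaOpenCover_f_none' N ℓ)
  exact h.symm

end Main

end Glue

section Main

open Glue

variable (N : ℕ) [NeZero N] (ℓ : ℕ) [Fact ℓ.Prime]
  (K : Type) [CommRing K] [Algebra ↥(GaloisRep.ratLocalizedAt ℓ) K]

/-- **Scheme glue step.** If the three base-changed chart rings are domains, the base change of
the Igusa model is an integral scheme. -/
theorem isIntegral_pullback_igusaTo_of_isDomain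
    (hFin : IsDomain (↥(chartAlgFin N ℓ) ⊗[↥(GaloisRep.ratLocalizedAt ℓ)] K))
    (hInf : IsDomain (↥(chartAlgInf N ℓ) ⊗[↥(GaloisRep.ratLocalizedAt ℓ)] K))
    (hMid : IsDomain (↥(chartAlgMid N ℓ) ⊗[↥(GaloisRep.ratLocalizedAt ℓ)] K)) :
    IsIntegral ↑(pullback (igusaTo N ℓ)
      (Spec.map (CommRingCat.ofHom (algebraMap ↥(GaloisRep.ratLocalizedAt ℓ) K)))) := by
  -- reduced
  have hred : IsReduced (pullback (igusaTo N ℓ) (baseK ℓ K)) := by
    have hpieces : ∀ i, IsReduced ((pullbackCover N ℓ K).X i) := by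
      intro i
      rcases i with (_ | _ | _)
      · exact isReduced_of_isOpenImmersion (pieceIsoMid N ℓ K).hom
      · exact isReduced_of_isOpenImmersion (pieceIsoFin N ℓ K).hom
      · exact isReduced_of_isOpenImmersion (pieceIsoInf N ℓ K).hom
    exact IsReduced.of_openCover _ (pullbackCover N ℓ K)
  -- irreducible
  have hirr : IrreducibleSpace ↥(pullback (igusaTo N ℓ) (baseK ℓ K)) := by
    have hoL : IsOpenImmersion ((pullbackCover N ℓ K).f WalkingSpan.left) :=
      (pullbackCover N ℓ K).map_prop WalkingSpan.left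
    have hoR : IsOpenImmersion ((pullbackCover N ℓ K).f WalkingSpan.right) :=
      (pullbackCover N ℓ K).map_prop WalkingSpan.right
    refine irreducibleSpace_of_isIrreducible_union
      (A := Set.range ((pullbackCover N ℓ K).f WalkingSpan.left))
      (B := Set.range ((pullbackCover N ℓ K).f WalkingSpan.right))
      (isIrreducible_range_of_iso_Spec (pieceIsoFin N ℓ K) _)
      (isIrreducible_range_of_iso_Spec (pieceIsoInf N ℓ K) _)
      (Scheme.Hom.isOpenEmbedding _).isOpen_range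
      (Scheme.Hom.isOpenEmbedding _).isOpen_range ?_ ?_
    · -- nonempty intersection: the image of the middle piece
      have hne : Nonempty ↥((pullbackCover N ℓ K).X (none : WalkingSpan)) := by
        have hnt : Nontrivial (↥(chartAlgMid N ℓ) ⊗[↥(GaloisRep.ratLocalizedAt ℓ)] K) :=
          hMid.toNontrivial
        obtain ⟨m, hm⟩ := Ideal.exists_maximal
          (↥(chartAlgMid N ℓ) ⊗[↥(GaloisRep.ratLocalizedAt ℓ)] K)
        have hx : Nonempty ↥(Spec (CommRingCat.of
            (↥(chartAlgMid N ℓ) ⊗[↥(GaloisRep.ratLocalizedAt ℓ)] K))) :=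
          ⟨(⟨m, hm.isPrime⟩ : PrimeSpectrum
            (↥(chartAlgMid N ℓ) ⊗[↥(GaloisRep.ratLocalizedAt ℓ)] K))⟩
        exact hx.map (pieceIsoMid N ℓ K).inv
      obtain ⟨x⟩ := hne
      have hfst : pullback.fst (igusaTo N ℓ) (baseK ℓ K)
          ((pullbackCover N ℓ K).f (none : WalkingSpan) x) ∈
          Set.range ((igusaOpenCover N ℓ).f (none : WalkingSpan)) := by
        refine ⟨pullback.fst ((igusaOpenCover N ℓ).f (none : WalkingSpan) ≫ igusaTo N ℓ)
          (baseK ℓ K) x, ?_⟩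
        have h := congrArg (fun φ : (pullbackCover N ℓ K).X (none : WalkingSpan) ⟶
            ModularCurve.IgusaScheme N ℓ => φ x) (pullbackCover_f_fst N ℓ K (none : WalkingSpan))
        exact h.symm
      refine ⟨(pullbackCover N ℓ K).f (none : WalkingSpan) x, ?_, ?_⟩
      · rw [range_pullbackCover_f]
        exact range_igusaOpenCover_none_subset_left N ℓ hfst
      · rw [range_pullbackCover_f]
        exact range_igusaOpenCover_none_subset_right N ℓ hfst
    · -- cover
      rw [range_pullbackCover_f, range_pullbackCover_f, ← Set.preimage_union]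
      ext y
      simp only [Set.mem_preimage, Set.mem_union, Set.mem_univ, iff_true]
      rcases mem_range_ιFin_or_mem_range_ιInf N ℓ
        (pullback.fst (igusaTo N ℓ) (baseK ℓ K) y) with ⟨z, hz⟩ | ⟨z, hz⟩
      · exact Or.inl ⟨z, hz⟩
      · exact Or.inr ⟨z, hz⟩
  exact isIntegral_of_irreducibleSpace_of_isReduced _

end Main

end Fermat.Agent.S28
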