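import Mathlib
import Fermat.Prelude.Def_GaloisRep_Flat
import Fermat.Prelude.Def_ModularCurve_LaurentCoeff

/-!
P10 / [T] (step (R2) of the Igusa blueprint): a `ℤ_(ℓ)`-algebra `C` with a ring homomorphism
`red : C → 𝔽_ℓ((q))` whose kernel is `ℓ C` has the property that `C ⊗[ℤ_(ℓ)] K` embeds into
`K((q))` for every field `K` of characteristic `ℓ`; in particular it is a domain.
-/

set_option autoImplicit false

namespace Fermat.Agent.S28.Tensor

open scoped TensorProduct

/-- Ring homomorphisms out of `ℤ_(ℓ)` are unique. -/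
theorem ratLocalizedAt_ringHom_ext {ℓ : ℕ} {R : Type*} [Ring R]
    (f g : ↥(GaloisRep.ratLocalizedAt ℓ) →+* R) : f = g := by
  ext x
  have hpos : 0 < (x : ℚ).den := (x : ℚ).den_pos
  let v : ↥(GaloisRep.ratLocalizedAt ℓ) := ⟨((x : ℚ).den : ℚ)⁻¹, by
    show (((x : ℚ).den : ℚ)⁻¹).den.Coprime ℓ
    rw [Rat.inv_natCast_den_of_pos hpos]
    exact x.2⟩
  have huv : (((x : ℚ).den : ℕ) : ↥(GaloisRep.ratLocalizedAt ℓ)) * v = 1 := by
    apply Subtype.ext
    show ((((x : ℚ).den : ℕ) : ↥(GaloisRep.ratLocalizedAt ℓ)) : ℚ) * ((x : ℚ).den : ℚ)⁻¹ = 1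
    rw [Subring.coe_natCast]
    exact mul_inv_cancel₀ (Nat.cast_ne_zero.mpr hpos.ne')
  have hx : x = (((x : ℚ).num : ℤ) : ↥(GaloisRep.ratLocalizedAt ℓ)) * v := by
    apply Subtype.ext
    show (x : ℚ) = ((((x : ℚ).num : ℤ) : ↥(GaloisRep.ratLocalizedAt ℓ)) : ℚ) * ((x : ℚ).den : ℚ)⁻¹
    rw [Subring.coe_intCast, ← div_eq_mul_inv, Rat.num_div_den]
  have hfv : f v = g v := by
    have h2 : (((x : ℚ).den : ℕ) : R) * g v = 1 := by
      rw [← map_natCast g, ← map_mul, huv, map_one]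
    have h1' : f v * (((x : ℚ).den : ℕ) : R) = 1 := by
      rw [← map_natCast f, ← map_mul, mul_comm, huv, map_one]
    calc f v = f v * ((((x : ℚ).den : ℕ) : R) * g v) := by rw [h2, mul_one]
      _ = (f v * (((x : ℚ).den : ℕ) : R)) * g v := (mul_assoc _ _ _).symm
      _ = g v := by rw [h1', one_mul]
  rw [hx, map_mul, map_mul, map_intCast, map_intCast, hfv]

/-- A ring homomorphism out of a tensor product of commutative algebras, from a compatible pair
of ring homomorphisms (no algebra structure on the target is needed). -/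
theorem exists_ringHom_tensor {R A B L : Type*} [CommRing R] [CommRing A] [CommRing B]
    [CommRing L] [Algebra R A] [Algebra R B] (f : A →+* L) (g : B →+* L)
    (h : f.comp (algebraMap R A) = g.comp (algebraMap R B)) :
    ∃ ψ : A ⊗[R] B →+* L, ∀ (a : A) (b : B), ψ (a ⊗ₜ[R] b) = f a * g b := by
  let _ : Algebra R L := (f.comp (algebraMap R A)).toAlgebra
  let f' : A →ₐ[R] L := { toRingHom := f, commutes' := fun _ => rfl }
  let g' : B →ₐ[R] L :=
    { toRingHom := g, commutes' := fun r => (RingHom.congr_fun h r).symm }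
  refine ⟨(Algebra.TensorProduct.lift f' g' (fun _ _ => Commute.all _ _)).toRingHom, fun a b => ?_⟩
  show Algebra.TensorProduct.lift f' g' (fun _ _ => Commute.all _ _) (a ⊗ₜ[R] b) = f a * g b
  rw [Algebra.TensorProduct.lift_tmul]
  rfl

/-- Moving a natural number across a tensor product of algebras. -/
theorem natCast_mul_tmul {R A B : Type*} [CommRing R] [CommRing A] [CommRing B]
    [Algebra R A] [Algebra R B] (n : ℕ) (a : A) (b : B) :
    ((n : A) * a) ⊗ₜ[R] b = a ⊗ₜ[R] ((n : B) * b) := by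
  have h1 : (n : A) * a = (n : R) • a := by
    rw [Algebra.smul_def, map_natCast]
  have h2 : (n : B) * b = (n : R) • b := by
    rw [Algebra.smul_def, map_natCast]
  rw [h1, h2, TensorProduct.smul_tmul]

section

variable {ℓ : ℕ} [Fact ℓ.Prime] {C : Type*} [CommRing C] [Algebra ↥(GaloisRep.ratLocalizedAt ℓ) C]
  (red : C →+* LaurentSeries (ZMod ℓ))
  (K : Type*) [Field K] [CharP K ℓ] [Algebra ↥(GaloisRep.ratLocalizedAt ℓ) K]

/-- The coefficient map `𝔽_ℓ((q)) → K((q))` for a field `K` of characteristic `ℓ`. -/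
noncomputable def mapK (ℓ : ℕ) [Fact ℓ.Prime] (K : Type*) [Field K] [CharP K ℓ] :
    LaurentSeries (ZMod ℓ) →+* LaurentSeries K :=
  ModularCurve.coeffMap (ZMod.castHom (dvd_refl ℓ) K)

omit [Algebra ↥(GaloisRep.ratLocalizedAt ℓ) K] in
theorem mapK_coeff (x : LaurentSeries (ZMod ℓ)) (n : ℤ) :
    (mapK ℓ K x).coeff n = ZMod.castHom (dvd_refl ℓ) K (x.coeff n) := rfl

theorem hahnSeries_coeff_finset_sum {Γ R ι : Type*} [PartialOrder Γ] [AddCommMonoid R]
    (s : Finset ι) (x : ι → HahnSeries Γ R) (n : Γ) :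
    (∑ i ∈ s, x i).coeff n = ∑ i ∈ s, (x i).coeff n := by
  classical
  induction s using Finset.induction_on with
  | empty => simp
  | insert a s ha ih => rw [Finset.sum_insert ha, Finset.sum_insert ha, HahnSeries.coeff_add, ih]

/-- (R2): the comparison map `C ⊗[ℤ_(ℓ)] K → K((q))`, `c ⊗ x ↦ x • (red c)`, is injective as soon
as every element of the kernel of `red` is divisible by `ℓ`. -/
theorem exists_injective_ringHom_tensor
    (hker : ∀ x : C, red x = 0 → ∃ y : C, x = (ℓ : C) * y) :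
    ∃ ψ : C ⊗[↥(GaloisRep.ratLocalizedAt ℓ)] K →+* LaurentSeries K, Function.Injective ψ ∧
      ∀ (c : C) (x : K), ψ (c ⊗ₜ[↥(GaloisRep.ratLocalizedAt ℓ)] x)
        = mapK ℓ K (red c) * HahnSeries.C x := by
  classical
  obtain ⟨ψ, hψ⟩ := exists_ringHom_tensor (R := ↥(GaloisRep.ratLocalizedAt ℓ))
    ((mapK ℓ K).comp red) (HahnSeries.C : K →+* LaurentSeries K)
    (ratLocalizedAt_ringHom_ext _ _)
  refine ⟨ψ, ?_, hψ⟩
  let _ : Algebra (ZMod ℓ) K := (ZMod.castHom (dvd_refl ℓ) K).toAlgebra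
  let 𝒷 := Module.Basis.ofVectorSpace (ZMod ℓ) K
  let Θ : (Module.Basis.ofVectorSpaceIndex (ZMod ℓ) K →₀ C) →+
      C ⊗[↥(GaloisRep.ratLocalizedAt ℓ)] K :=
    Finsupp.liftAddHom (fun i =>
      ((TensorProduct.mk ↥(GaloisRep.ratLocalizedAt ℓ) C K).flip (𝒷 i)).toAddMonoidHom)
  have hΘ : ∀ f, Θ f = ∑ i ∈ f.support, (f i) ⊗ₜ[↥(GaloisRep.ratLocalizedAt ℓ)] 𝒷 i :=
    fun f => rfl
  have hsmul : ∀ (r : ZMod ℓ) (b : K), r • b = ((r.val : ℕ) : K) * b := by
    intro r b
    have hr : r • b = ((r.val : ℕ) : ZMod ℓ) • b := by rw [ZMod.natCast_zmod_val]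
    rw [hr, Nat.cast_smul_eq_nsmul, nsmul_eq_mul]
  -- every tensor is of the form `Θ f`
  have hsurj : ∀ t : C ⊗[↥(GaloisRep.ratLocalizedAt ℓ)] K, ∃ f, Θ f = t := by
    intro t
    induction t using TensorProduct.induction_on with
    | zero => exact ⟨0, map_zero _⟩
    | tmul c x =>
      refine ⟨(𝒷.repr x).mapRange (fun r : ZMod ℓ => ((r.val : ℕ) : C) * c) (by simp), ?_⟩
      have hx : x = ∑ i ∈ (𝒷.repr x).support, ((((𝒷.repr x) i).val : ℕ) : K) * 𝒷 i := by
        conv_lhs => rw [← 𝒷.linearCombination_repr x]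
        rw [Finsupp.linearCombination_apply, Finsupp.sum]
        exact Finset.sum_congr rfl fun i _ => hsmul _ _
      have h1 : Θ ((𝒷.repr x).mapRange (fun r : ZMod ℓ => ((r.val : ℕ) : C) * c) (by simp))
          = ∑ i ∈ (𝒷.repr x).support,
              (((((𝒷.repr x) i).val : ℕ) : C) * c) ⊗ₜ[↥(GaloisRep.ratLocalizedAt ℓ)] 𝒷 i := by
        rw [hΘ]
        refine Finset.sum_subset_zero_on_sdiff Finsupp.support_mapRange ?_ ?_
        · intro i hi
          have h0 := Finsupp.notMem_support_iff.mp (Finset.mem_sdiff.mp hi).2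
          rw [Finsupp.mapRange_apply] at h0
          rw [h0, TensorProduct.zero_tmul]
        · intro i _
          rw [Finsupp.mapRange_apply]
      rw [h1]
      conv_rhs => rw [hx]
      rw [TensorProduct.tmul_sum]
      exact Finset.sum_congr rfl fun i _ => natCast_mul_tmul _ _ _
    | add t₁ t₂ h₁ h₂ =>
      obtain ⟨f₁, rfl⟩ := h₁
      obtain ⟨f₂, rfl⟩ := h₂
      exact ⟨f₁ + f₂, map_add _ _ _⟩
  -- the kernel of `ψ ∘ Θ` is killed by `Θ`
  have hker2 : ∀ f, ψ (Θ f) = 0 → Θ f = 0 := by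
    intro f hf
    have hcoef : ∀ n : ℤ, ∑ i ∈ f.support, ((red (f i)).coeff n) • 𝒷 i = 0 := by
      intro n
      have h2 : (ψ (Θ f)).coeff n = 0 := by rw [hf]; rfl
      rw [hΘ, map_sum, hahnSeries_coeff_finset_sum] at h2
      rw [← h2]
      refine Finset.sum_congr rfl fun i _ => ?_
      rw [hψ, RingHom.comp_apply, mul_comm (mapK ℓ K (red (f i))), HahnSeries.C_mul_eq_smul,
        HahnSeries.coeff_smul, mapK_coeff, Algebra.smul_def, smul_eq_mul, mul_comm]
      rfl
    have hzero : ∀ i ∈ f.support, red (f i) = 0 := by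
      intro i hi
      ext n
      exact linearIndependent_iff'.mp 𝒷.linearIndependent f.support
        (fun i => (red (f i)).coeff n) (hcoef n) i hi
    rw [hΘ]
    refine Finset.sum_eq_zero fun i hi => ?_
    obtain ⟨y, hy⟩ := hker (f i) (hzero i hi)
    rw [hy, natCast_mul_tmul, CharP.cast_eq_zero K ℓ, zero_mul, TensorProduct.tmul_zero]
  rw [injective_iff_map_eq_zero]
  intro t ht
  obtain ⟨f, rfl⟩ := hsurj t
  exact hker2 f ht

/-- (R2): `C ⊗[ℤ_(ℓ)] K` is a domain for every field `K` of characteristic `ℓ`, as soon as every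
element of the kernel of `red : C → 𝔽_ℓ((q))` is divisible by `ℓ`. -/
theorem isDomain_tensor_of_forall
    (hker : ∀ x : C, red x = 0 → ∃ y : C, x = (ℓ : C) * y) :
    IsDomain (C ⊗[↥(GaloisRep.ratLocalizedAt ℓ)] K) := by
  obtain ⟨ψ, hinj, -⟩ := exists_injective_ringHom_tensor red K hker
  exact hinj.isDomain ψ

/-- (R2), kernel form: `C ⊗[ℤ_(ℓ)] K` is a domain if `ker red = (ℓ)`. -/
theorem isDomain_tensor_of_ker_eq_span
    (hker : RingHom.ker red = Ideal.span {(ℓ : C)}) :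
    IsDomain (C ⊗[↥(GaloisRep.ratLocalizedAt ℓ)] K) := by
  refine isDomain_tensor_of_forall red K fun x hx => ?_
  have hx' : x ∈ Ideal.span {(ℓ : C)} := hker ▸ (RingHom.mem_ker.mpr hx)
  obtain ⟨y, hy⟩ := Ideal.mem_span_singleton'.mp hx'
  exact ⟨y, by rw [← hy, mul_comm]⟩

end

end Fermat.Agent.S28.Tensor
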