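import Mathlib

/-!
P10 (S28, Igusa) module [H], abstract core.

Setting: `B` an integrally closed domain with fraction field `E`, `R` a valuation subring of `E`,
`g : E →+* F` a field extension and a ring `A` mapping to `E` whose image contains `B ∩ R`.
If `s ∈ F` is integral over `B` and over `R`, then `s` is integral over `A` (the minimal
polynomial of `s` over `E` has its coefficients in both `B` and `R`).
Everything is phrased with explicit ring homomorphisms (`RingHom.IsIntegralElem`) so that no
`Algebra` instances are needed at the point of use.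
-/

set_option autoImplicit false

namespace Fermat.Agent.S28.ChartKerAbs

open Polynomial

/-- integrality descends along a surjection of the coefficient rings -/
theorem isIntegralElem_comp_of_surjective {R S T : Type*} [CommRing R] [CommRing S] [CommRing T]
    (f : R →+* S) (h : S →+* T) (hf : Function.Surjective f) {x : T} (hx : h.IsIntegralElem x) :
    (h.comp f).IsIntegralElem x := by
  obtain ⟨p, hp, hpx⟩ := hx
  have hlifts : p ∈ lifts f := (lifts_iff_coeff_lifts _).mpr fun i => hf _
  obtain ⟨q, hq, -, hqm⟩ := lifts_and_natDegree_eq_and_monic hlifts hp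
  exact ⟨q, hqm, by rw [← eval₂_map, hq, hpx]⟩

theorem isIntegralElem_of_comp {R S T : Type*} [CommRing R] [CommRing S] [CommRing T]
    (f : R →+* S) (h : S →+* T) {x : T} (hx : (h.comp f).IsIntegralElem x) :
    h.IsIntegralElem x := by
  obtain ⟨p, hp, hpx⟩ := hx
  exact ⟨p.map f, hp.map f, by rw [eval₂_map, hpx]⟩

/-- a monic polynomial all of whose coefficients are in the image of `f` gives integrality
with respect to `f` -/
theorem isIntegralElem_of_coeff_mem_range {R T : Type*} [CommRing R] [CommRing T]
    (f : R →+* T) {x : T} (p : T[X]) (hp : p.Monic) (hc : ∀ i, p.coeff i ∈ f.range)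
    (hx : p.eval x = 0) : f.IsIntegralElem x := by
  have hlifts : p ∈ lifts f := (lifts_iff_coeff_lifts _).mpr fun i => hc i
  obtain ⟨q, hq, -, hqm⟩ := lifts_and_natDegree_eq_and_monic hlifts hp
  exact ⟨q, hqm, by rw [← eval_map, hq, hx]⟩

theorem isIntegralElem_of_two {A B E F : Type*} [CommRing A] [CommRing B] [Field E] [Field F]
    [IsDomain B] [IsIntegrallyClosed B] [Algebra B E] [IsFractionRing B E]
    (R : ValuationSubring E) (fA : A →+* E) (g : E →+* F)
    (hA : ∀ b : B, algebraMap B E b ∈ R → ∃ a : A, fA a = algebraMap B E b)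
    {s : F} (hB : (g.comp (algebraMap B E)).IsIntegralElem s)
    (hR : (g.comp R.subtype).IsIntegralElem s) : (g.comp fA).IsIntegralElem s := by
  letI : Algebra E F := g.toAlgebra
  letI : Algebra B F := (g.comp (algebraMap B E)).toAlgebra
  haveI : IsScalarTower B E F := IsScalarTower.of_algebraMap_eq fun _ => rfl
  letI : Algebra R F := (g.comp R.subtype).toAlgebra
  haveI : IsScalarTower R E F := IsScalarTower.of_algebraMap_eq fun _ => rfl
  have hB' : IsIntegral B s := hB
  have hR' : IsIntegral R s := hR
  have e1 : minpoly E s = (minpoly R s).map (algebraMap R E) :=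
    minpoly.isIntegrallyClosed_eq_field_fractions' E hR'
  have e2 : minpoly E s = (minpoly B s).map (algebraMap B E) :=
    minpoly.isIntegrallyClosed_eq_field_fractions' E hB'
  have hlifts : (minpoly R s).map (algebraMap R E) ∈ lifts fA :=
    (lifts_iff_coeff_lifts _).mpr fun i => by
      have h := congrArg (fun p => p.coeff i) (e2.symm.trans e1)
      simp only [coeff_map] at h
      obtain ⟨a, ha⟩ := hA ((minpoly B s).coeff i) (by rw [h]; exact ((minpoly R s).coeff i).2)
      exact ⟨a, by rw [ha, h, coeff_map]⟩
  obtain ⟨q, hq, -, hqm⟩ := lifts_and_natDegree_eq_and_monic hlifts ((minpoly.monic hR').map _)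
  refine ⟨q, hqm, ?_⟩
  rw [← eval₂_map, hq, eval₂_map]
  exact minpoly.aeval R s

end Fermat.Agent.S28.ChartKerAbs
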