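import Fermat.Agent.S28.GaussVal
import Fermat.Agent.S28.ChartKerAbs

/-!
P10 (S28, Igusa) module [H], core: the kernel of the reduction map on the charts is generated by
`ℓ`, given that every element of the Gauss valuation ring `V` is integral over `V ∩ ℚ(j)`
(this input is provided by module [G]).
-/

set_option autoImplicit false

namespace Fermat.Agent.S28

open ModularCurve ModularCurve.IgusaScheme Polynomial

namespace ChartKer

section Transc

variable (K : Type*) [Field K]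

/-- The coefficient of `q ^ (-deg p)` in `p(j)` is the leading coefficient of `p`. -/
theorem coeff_aeval_jqModC (p : Polynomial K) :
    (Polynomial.aeval (jqModC K) p).coeff (-(p.natDegree : ℤ)) = p.leadingCoeff := by
  rw [Polynomial.aeval_eq_sum_range, HahnSeries.coeff_sum]
  rw [Finset.sum_eq_single p.natDegree]
  · rw [Algebra.smul_def, algebraMap_laurentSeries_eq_single, HahnSeries.coeff_single_mul,
      sub_zero, coeff_jqModC_pow_self, mul_one]
    rfl
  · intro k hk hkn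
    have hk' : k < p.natDegree := by
      have := Finset.mem_range.mp hk
      omega
    rw [Algebra.smul_def, algebraMap_laurentSeries_eq_single, HahnSeries.coeff_single_mul,
      sub_zero, coeff_jqModC_pow_of_lt K (by omega : -(p.natDegree : ℤ) < -(k : ℤ)), mul_zero]
  · intro h
    exact absurd (Finset.mem_range.mpr (Nat.lt_succ_self _)) h

theorem transcendental_jqModC : Transcendental K (jqModC K) := by
  rintro ⟨p, hp, hp0⟩
  have h := coeff_aeval_jqModC K p
  rw [hp0, HahnSeries.coeff_zero] at h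
  exact hp (Polynomial.leadingCoeff_eq_zero.mp h.symm)

theorem transcendental_jqModC_inv : Transcendental K (jqModC K)⁻¹ := fun h =>
  transcendental_jqModC K (by simpa using h.inv)

end Transc

variable {N : ℕ} [NeZero N] {ℓ : ℕ} [Fact ℓ.Prime]

section KLemma

variable (t : ↥(modularFunctionFieldFull N)) (ht : t ∈ gaussV N ℓ)

include ht in
theorem eval₂_mem_gaussV (P : Polynomial ↥(GaloisRep.ratLocalizedAt ℓ)) :
    P.eval₂ (algebraMap ↥(GaloisRep.ratLocalizedAt ℓ) ↥(modularFunctionFieldFull N)) t ∈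
      gaussV N ℓ := by
  rw [← Polynomial.aeval_def]
  exact Algebra.adjoin_le (Set.singleton_subset_iff.mpr ht)
    (Polynomial.aeval_mem_adjoin_singleton _ _)

theorem gaussRed_eval₂ (P : Polynomial ↥(GaloisRep.ratLocalizedAt ℓ)) :
    gaussRed N ℓ ⟨P.eval₂ (algebraMap ↥(GaloisRep.ratLocalizedAt ℓ)
        ↥(modularFunctionFieldFull N)) t, eval₂_mem_gaussV t ht P⟩ =
      Polynomial.aeval (gaussRed N ℓ ⟨t, ht⟩) (P.map (resZ ℓ)) := by
  have h1 : (⟨P.eval₂ (algebraMap ↥(GaloisRep.ratLocalizedAt ℓ)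
        ↥(modularFunctionFieldFull N)) t, eval₂_mem_gaussV t ht P⟩ : ↥(gaussV N ℓ)) =
      P.eval₂ (algebraMap ↥(GaloisRep.ratLocalizedAt ℓ) ↥(gaussV N ℓ)) ⟨t, ht⟩ := by
    apply Subtype.ext
    have h := Polynomial.hom_eval₂ P (algebraMap ↥(GaloisRep.ratLocalizedAt ℓ) ↥(gaussV N ℓ))
      (gaussV N ℓ).val.toRingHom ⟨t, ht⟩
    exact h.symm
  rw [h1, Polynomial.hom_eval₂]
  have h2 : (gaussRed N ℓ).comp (algebraMap ↥(GaloisRep.ratLocalizedAt ℓ) ↥(gaussV N ℓ)) =
      (algebraMap (ZMod ℓ) (LaurentSeries (ZMod ℓ))).comp (resZ ℓ) := by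
    ext a : 1
    rw [RingHom.comp_apply, RingHom.comp_apply, gaussRed_algebraMap,
      algebraMap_laurentSeries_eq_single]
    rfl
  rw [h2, ← Polynomial.eval₂_map, Polynomial.aeval_def]

include ht in
/-- if `P(t) ∈ ℓ ^ m V` for a polynomial `P` with `ℓ`-integral coefficients and `t` has
transcendental reduction, then `ℓ ^ m` divides `P` -/
theorem C_pow_dvd_of_eval₂_eq (htr : Transcendental (ZMod ℓ) (gaussRed N ℓ ⟨t, ht⟩)) :
    ∀ (m : ℕ) (P : Polynomial ↥(GaloisRep.ratLocalizedAt ℓ)) (w : ↥(modularFunctionFieldFull N)),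
      w ∈ gaussV N ℓ →
      P.eval₂ (algebraMap ↥(GaloisRep.ratLocalizedAt ℓ) ↥(modularFunctionFieldFull N)) t =
        (ℓ : ↥(modularFunctionFieldFull N)) ^ m * w →
      Polynomial.C ((ℓ : ↥(GaloisRep.ratLocalizedAt ℓ)) ^ m) ∣ P := by
  have hℓ0 : (ℓ : ↥(modularFunctionFieldFull N)) ≠ 0 :=
    Nat.cast_ne_zero.mpr (Fact.out : ℓ.Prime).ne_zero
  intro m
  induction m with
  | zero =>
    intro P w _ _
    rw [pow_zero, Polynomial.C_1]
    exact one_dvd P
  | succ m ih =>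
    intro P w hw hP
    have hmem : (ℓ : ↥(modularFunctionFieldFull N)) ^ m * w ∈ gaussV N ℓ :=
      mul_mem (pow_mem (natCast_mem _ ℓ) m) hw
    have hred : gaussRed N ℓ ⟨P.eval₂ (algebraMap ↥(GaloisRep.ratLocalizedAt ℓ)
        ↥(modularFunctionFieldFull N)) t, eval₂_mem_gaussV t ht P⟩ = 0 := by
      have h1 : (⟨P.eval₂ (algebraMap ↥(GaloisRep.ratLocalizedAt ℓ)
          ↥(modularFunctionFieldFull N)) t, eval₂_mem_gaussV t ht P⟩ : ↥(gaussV N ℓ)) =
          (ℓ : ↥(gaussV N ℓ)) * ⟨(ℓ : ↥(modularFunctionFieldFull N)) ^ m * w, hmem⟩ := by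
        apply Subtype.ext
        show P.eval₂ _ t = (ℓ : ↥(modularFunctionFieldFull N)) * (_ ^ m * w)
        rw [hP, pow_succ']
        ring
      rw [h1, map_mul, gaussRed_natCast_self, zero_mul]
    rw [gaussRed_eval₂ t ht] at hred
    have hmap : P.map (resZ ℓ) = 0 := (transcendental_iff.mp htr) _ hred
    have hdvd : Polynomial.C (ℓ : ↥(GaloisRep.ratLocalizedAt ℓ)) ∣ P := by
      rw [Polynomial.C_dvd_iff_dvd_coeff]
      intro i
      have h2 : resZ ℓ (P.coeff i) = 0 := by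
        rw [← Polynomial.coeff_map, hmap, Polynomial.coeff_zero]
      obtain ⟨b, hb⟩ := (resZ_eq_zero_iff ℓ _).mp h2
      exact ⟨b, hb⟩
    obtain ⟨P₁, rfl⟩ := hdvd
    have hP₁ : P₁.eval₂ (algebraMap ↥(GaloisRep.ratLocalizedAt ℓ)
        ↥(modularFunctionFieldFull N)) t = (ℓ : ↥(modularFunctionFieldFull N)) ^ m * w := by
      rw [Polynomial.eval₂_mul, Polynomial.eval₂_C, map_natCast, pow_succ', mul_assoc] at hP
      exact mul_left_cancel₀ hℓ0 hP
    obtain ⟨P₂, rfl⟩ := ih P₁ w hw hP₁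
    exact ⟨P₂, by rw [pow_succ', Polynomial.C_mul, mul_assoc]⟩

include ht in
/-- `V ∩ ℚ[t] = ℤ_(ℓ)[t]`: a polynomial in `t` with rational coefficients which lies in the
Gauss valuation ring has `ℓ`-integral coefficients (`t` with transcendental reduction) -/
theorem exists_map_eq_of_aeval_mem (htr : Transcendental (ZMod ℓ) (gaussRed N ℓ ⟨t, ht⟩))
    (P : Polynomial ℚ) (hP : Polynomial.aeval t P ∈ gaussV N ℓ) :
    ∃ P₂ : Polynomial ↥(GaloisRep.ratLocalizedAt ℓ),
      P₂.map (algebraMap ↥(GaloisRep.ratLocalizedAt ℓ) ℚ) = P := by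
  have hprime : ℓ.Prime := Fact.out
  obtain ⟨b, hb, hbP⟩ := IsLocalization.integerNormalization_spec (nonZeroDivisors ℤ) P
  have hb0 : b ≠ 0 := nonZeroDivisors.ne_zero hb
  obtain ⟨m, d', hd', hd⟩ : ∃ (m : ℕ) (d' : ℤ), ¬ (ℓ : ℤ) ∣ d' ∧ b = (ℓ : ℤ) ^ m * d' := by
    have hfin : FiniteMultiplicity (ℓ : ℤ) b :=
      Int.finiteMultiplicity_iff.mpr ⟨by simpa using hprime.ne_one, hb0⟩
    obtain ⟨c, hc, hcd⟩ := hfin.exists_eq_pow_mul_and_not_dvd
    exact ⟨_, c, hcd, hc⟩
  set P' := IsLocalization.integerNormalization (nonZeroDivisors ℤ) P with hP'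
  have hev : (P'.map (Int.castRingHom ↥(GaloisRep.ratLocalizedAt ℓ))).eval₂
      (algebraMap ↥(GaloisRep.ratLocalizedAt ℓ) ↥(modularFunctionFieldFull N)) t =
      (ℓ : ↥(modularFunctionFieldFull N)) ^ m * ((d' : ↥(modularFunctionFieldFull N)) *
        Polynomial.aeval t P) := by
    rw [Polynomial.eval₂_map]
    have h1 : (algebraMap ↥(GaloisRep.ratLocalizedAt ℓ) ↥(modularFunctionFieldFull N)).comp
        (Int.castRingHom ↥(GaloisRep.ratLocalizedAt ℓ)) =
        (algebraMap ℚ ↥(modularFunctionFieldFull N)).comp (algebraMap ℤ ℚ) :=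
      RingHom.ext_int _ _
    rw [h1, ← Polynomial.eval₂_map, hbP, ← Polynomial.aeval_def, map_zsmul, hd, zsmul_eq_mul]
    push_cast
    ring
  obtain ⟨P₁, hP₁⟩ := C_pow_dvd_of_eval₂_eq t ht htr m _ _
    (mul_mem (intCast_mem _ d') hP) hev
  have h2 : Polynomial.C ((ℓ : ℚ) ^ m) * (Polynomial.C (d' : ℚ) * P) =
      Polynomial.C ((ℓ : ℚ) ^ m) * P₁.map (algebraMap ↥(GaloisRep.ratLocalizedAt ℓ) ℚ) := by
    have h3 := congrArg (Polynomial.map (algebraMap ↥(GaloisRep.ratLocalizedAt ℓ) ℚ)) hP₁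
    rw [Polynomial.map_map,
      (RingHom.ext_int _ _ : (algebraMap ↥(GaloisRep.ratLocalizedAt ℓ) ℚ).comp
        (Int.castRingHom ↥(GaloisRep.ratLocalizedAt ℓ)) = algebraMap ℤ ℚ), hbP,
      Polynomial.map_mul, Polynomial.map_C, map_pow, map_natCast] at h3
    have hbC : (b • P : Polynomial ℚ) =
        Polynomial.C ((ℓ : ℚ) ^ m) * (Polynomial.C (d' : ℚ) * P) := by
      rw [← mul_assoc, ← Polynomial.C_mul, ← Polynomial.smul_eq_C_mul, hd,
        ← Int.cast_smul_eq_zsmul ℚ]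
      push_cast
      rfl
    exact hbC.symm.trans h3
  have h4 : Polynomial.C (d' : ℚ) * P = P₁.map (algebraMap ↥(GaloisRep.ratLocalizedAt ℓ) ℚ) :=
    mul_left_cancel₀ (Polynomial.C_ne_zero.mpr
      (pow_ne_zero _ (Nat.cast_ne_zero.mpr hprime.ne_zero))) h2
  have hd'0 : d' ≠ 0 := by
    rintro rfl
    exact hd' (dvd_zero _)
  have hu : ((d' : ℚ)⁻¹) ∈ GaloisRep.ratLocalizedAt ℓ := by
    show ((d' : ℚ)⁻¹).den.Coprime ℓ
    rw [Rat.inv_intCast_den, if_neg hd'0]
    exact ((Nat.Prime.coprime_iff_not_dvd hprime).mpr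
      (fun h => hd' (Int.natCast_dvd.mpr h))).symm
  refine ⟨Polynomial.C ⟨(d' : ℚ)⁻¹, hu⟩ * P₁, ?_⟩
  rw [Polynomial.map_mul, Polynomial.map_C, ← h4, ← mul_assoc, ← Polynomial.C_mul]
  show Polynomial.C ((d' : ℚ)⁻¹ * d') * P = P
  rw [inv_mul_cancel₀ (Int.cast_ne_zero.mpr hd'0), Polynomial.C_1, one_mul]

end KLemma

section Core

variable (N ℓ) in
/-- the valuation subring of `F` underlying `gaussV` -/
noncomputable def gaussVS : ValuationSubring ↥(modularFunctionFieldFull N) :=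
  { (gaussV N ℓ).toSubring with mem_or_inv_mem' := mem_gaussV_or_inv_mem N ℓ }

theorem mem_gaussVS_iff (x : ↥(modularFunctionFieldFull N)) :
    x ∈ gaussVS N ℓ ↔ x ∈ gaussV N ℓ := Iff.rfl

variable (t : ↥(modularFunctionFieldFull N))

/-- the embedding `ℚ(X) → F`, `X ↦ t`, for `t` transcendental -/
noncomputable def ratEmb (htQ : Transcendental ℚ t) :
    RatFunc ℚ →+* ↥(modularFunctionFieldFull N) :=
  IsFractionRing.lift (g := (Polynomial.aeval t : Polynomial ℚ →ₐ[ℚ] _).toRingHom)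
    (transcendental_iff_injective.mp htQ)

theorem ratEmb_algebraMap (htQ : Transcendental ℚ t) (P : Polynomial ℚ) :
    ratEmb t htQ (algebraMap (Polynomial ℚ) (RatFunc ℚ) P) = Polynomial.aeval t P :=
  IsFractionRing.lift_algebraMap _ P

theorem mem_range_ratEmb (htQ : Transcendental ℚ t) {c : ↥(modularFunctionFieldFull N)}
    (hc : c ∈ IntermediateField.adjoin ℚ {t}) : ∃ e : RatFunc ℚ, ratEmb t htQ e = c := by
  obtain ⟨r, s, rfl⟩ := (IntermediateField.mem_adjoin_simple_iff ℚ c).mp hc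
  exact ⟨algebraMap _ _ r / algebraMap _ _ s,
    by rw [map_div₀, ratEmb_algebraMap, ratEmb_algebraMap]⟩

/-- **Descent of integrality.**  Let `t ∈ V` have transcendental reduction.  If `s` is a root of
a monic polynomial with coefficients in `V ∩ ℚ(t)` and `ℓ * s` is integral over `ℤ_(ℓ)[t]`, then
`s` is integral over `ℤ_(ℓ)[t]`. -/
theorem isIntegral_adjoin_of_mul (ht : t ∈ gaussV N ℓ)
    (htr : Transcendental (ZMod ℓ) (gaussRed N ℓ ⟨t, ht⟩)) (htQ : Transcendental ℚ t)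
    {s : ↥(modularFunctionFieldFull N)}
    (hG : ∃ p : Polynomial ↥(modularFunctionFieldFull N), p.Monic ∧
      (∀ i, p.coeff i ∈ gaussV N ℓ ∧ p.coeff i ∈ IntermediateField.adjoin ℚ {t}) ∧
      p.eval s = 0)
    (hx : IsIntegral (Algebra.adjoin ↥(GaloisRep.ratLocalizedAt ℓ) {t})
      ((ℓ : ↥(modularFunctionFieldFull N)) * s)) :
    IsIntegral (Algebra.adjoin ↥(GaloisRep.ratLocalizedAt ℓ) {t}) s := by
  have hprime : ℓ.Prime := Fact.out
  obtain ⟨g, hg⟩ : ∃ g : RatFunc ℚ →+* ↥(modularFunctionFieldFull N), g = ratEmb t htQ :=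
    ⟨_, rfl⟩
  have hgalg : ∀ P : Polynomial ℚ,
      g (algebraMap (Polynomial ℚ) (RatFunc ℚ) P) = Polynomial.aeval t P := by
    intro P
    rw [hg, ratEmb_algebraMap]
  let R : ValuationSubring (RatFunc ℚ) := (gaussVS N ℓ).comap g
  let fA : Polynomial ↥(GaloisRep.ratLocalizedAt ℓ) →+* RatFunc ℚ :=
    (algebraMap (Polynomial ℚ) (RatFunc ℚ)).comp
      (Polynomial.mapRingHom (algebraMap ↥(GaloisRep.ratLocalizedAt ℓ) ℚ))
  have hgB : g.comp (algebraMap (Polynomial ℚ) (RatFunc ℚ)) =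
      (Polynomial.aeval t : Polynomial ℚ →ₐ[ℚ] ↥(modularFunctionFieldFull N)).toRingHom :=
    RingHom.ext fun P => hgalg P
  have hgA : g.comp fA = Polynomial.eval₂RingHom
      (algebraMap ↥(GaloisRep.ratLocalizedAt ℓ) ↥(modularFunctionFieldFull N)) t := by
    refine RingHom.ext fun P => ?_
    show g (algebraMap _ _ (P.map (algebraMap ↥(GaloisRep.ratLocalizedAt ℓ) ℚ))) =
      P.eval₂ (algebraMap ↥(GaloisRep.ratLocalizedAt ℓ) ↥(modularFunctionFieldFull N)) t
    rw [hgalg, Polynomial.aeval_def, Polynomial.eval₂_map, ← IsScalarTower.algebraMap_eq]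
  have hA : ∀ b : Polynomial ℚ, algebraMap (Polynomial ℚ) (RatFunc ℚ) b ∈ R →
      ∃ a : Polynomial ↥(GaloisRep.ratLocalizedAt ℓ),
        fA a = algebraMap (Polynomial ℚ) (RatFunc ℚ) b := by
    intro b hb
    have hb' : Polynomial.aeval t b ∈ gaussV N ℓ := by
      have hb1 : g (algebraMap _ _ b) ∈ gaussVS N ℓ := hb
      rwa [hgalg] at hb1
    obtain ⟨P₂, hP₂⟩ := exists_map_eq_of_aeval_mem t ht htr b hb'
    exact ⟨P₂, by
      show algebraMap _ _ (P₂.map (algebraMap ↥(GaloisRep.ratLocalizedAt ℓ) ℚ)) = _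
      rw [hP₂]⟩
  have hB : (g.comp (algebraMap (Polynomial ℚ) (RatFunc ℚ))).IsIntegralElem s := by
    rw [hgB]
    obtain ⟨p, hp, hpx⟩ := hx
    have h1 : (Polynomial.aeval t : Polynomial ℚ →ₐ[ℚ]
        ↥(modularFunctionFieldFull N)).toRingHom.IsIntegralElem
        ((ℓ : ↥(modularFunctionFieldFull N)) * s) := by
      refine ChartKerAbs.isIntegralElem_of_coeff_mem_range _
        (p.map (algebraMap ↥(Algebra.adjoin ↥(GaloisRep.ratLocalizedAt ℓ) {t})
          ↥(modularFunctionFieldFull N))) (hp.map _) (fun i => ?_) ?_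
      · rw [Polynomial.coeff_map]
        have hmem : ((p.coeff i : ↥(Algebra.adjoin ↥(GaloisRep.ratLocalizedAt ℓ) {t})) :
            ↥(modularFunctionFieldFull N)) ∈
            (Polynomial.aeval t : Polynomial ↥(GaloisRep.ratLocalizedAt ℓ) →ₐ[_] _).range := by
          rw [← Algebra.adjoin_singleton_eq_range_aeval]
          exact (p.coeff i).2
        obtain ⟨P, hP⟩ := hmem
        refine ⟨P.map (algebraMap ↥(GaloisRep.ratLocalizedAt ℓ) ℚ), ?_⟩
        show Polynomial.aeval t (P.map (algebraMap ↥(GaloisRep.ratLocalizedAt ℓ) ℚ)) = _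
        rw [Polynomial.aeval_map_algebraMap]
        exact hP
      · rw [Polynomial.eval_map]
        exact hpx
    have h2 := RingHom.IsIntegralElem.mul _
      (RingHom.isIntegralElem_map (Polynomial.aeval t : Polynomial ℚ →ₐ[ℚ]
        ↥(modularFunctionFieldFull N)).toRingHom (x := Polynomial.C ((ℓ : ℚ)⁻¹))) h1
    have h3 : (Polynomial.aeval t : Polynomial ℚ →ₐ[ℚ]
        ↥(modularFunctionFieldFull N)).toRingHom (Polynomial.C ((ℓ : ℚ)⁻¹)) *
        ((ℓ : ↥(modularFunctionFieldFull N)) * s) = s := by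
      show Polynomial.aeval t (Polynomial.C ((ℓ : ℚ)⁻¹)) * _ = s
      rw [Polynomial.aeval_C, map_inv₀, map_natCast, ← mul_assoc,
        inv_mul_cancel₀ (Nat.cast_ne_zero.mpr hprime.ne_zero), one_mul]
    rwa [h3] at h2
  have hR : (g.comp R.subtype).IsIntegralElem s := by
    obtain ⟨p, hp, hc, hps⟩ := hG
    refine ChartKerAbs.isIntegralElem_of_coeff_mem_range _ p hp (fun i => ?_) hps
    obtain ⟨e, he⟩ := mem_range_ratEmb t htQ (hc i).2
    rw [← hg] at he
    exact ⟨⟨e, by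
      show g e ∈ gaussVS N ℓ
      rw [he]
      exact (hc i).1⟩, he⟩
  have key := ChartKerAbs.isIntegralElem_of_two R fA g hA hB hR
  rw [hgA] at key
  obtain ⟨q, hq, hqs⟩ := key
  let ψ : Polynomial ↥(GaloisRep.ratLocalizedAt ℓ) →+*
      ↥(Algebra.adjoin ↥(GaloisRep.ratLocalizedAt ℓ) {t}) :=
    (Polynomial.aeval (⟨t, Algebra.self_mem_adjoin_singleton _ t⟩ :
      ↥(Algebra.adjoin ↥(GaloisRep.ratLocalizedAt ℓ) {t}))).toRingHom
  have hψ : (algebraMap ↥(Algebra.adjoin ↥(GaloisRep.ratLocalizedAt ℓ) {t})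
      ↥(modularFunctionFieldFull N)).comp ψ = Polynomial.eval₂RingHom
      (algebraMap ↥(GaloisRep.ratLocalizedAt ℓ) ↥(modularFunctionFieldFull N)) t := by
    refine Polynomial.ringHom_ext (fun a => ?_) ?_
    · rw [RingHom.comp_apply, Polynomial.coe_eval₂RingHom, Polynomial.eval₂_C]
      show algebraMap ↥(Algebra.adjoin ↥(GaloisRep.ratLocalizedAt ℓ) {t})
        ↥(modularFunctionFieldFull N) (Polynomial.aeval (⟨t, Algebra.self_mem_adjoin_singleton _ t⟩ :
          ↥(Algebra.adjoin ↥(GaloisRep.ratLocalizedAt ℓ) {t})) (Polynomial.C a)) = _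
      rw [Polynomial.aeval_C]
      rfl
    · rw [RingHom.comp_apply, Polynomial.coe_eval₂RingHom, Polynomial.eval₂_X]
      show algebraMap ↥(Algebra.adjoin ↥(GaloisRep.ratLocalizedAt ℓ) {t})
        ↥(modularFunctionFieldFull N) (Polynomial.aeval (⟨t, Algebra.self_mem_adjoin_singleton _ t⟩ :
          ↥(Algebra.adjoin ↥(GaloisRep.ratLocalizedAt ℓ) {t})) Polynomial.X) = _
      rw [Polynomial.aeval_X]
      rfl
  exact ⟨q.map ψ, hq.map ψ, by rw [Polynomial.eval₂_map, hψ]; exact hqs⟩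

end Core

section TranscQ

variable (N) in
theorem transcendental_jFull : Transcendental ℚ (jFull N) := by
  rintro ⟨p, hp, hp0⟩
  refine transcendental_jqModC ℚ ⟨p, hp, ?_⟩
  have h := congrArg (modularFunctionFieldFull N).toSubfield.subtype hp0
  rw [Polynomial.aeval_def, Polynomial.hom_eval₂, map_zero] at h
  rw [Polynomial.aeval_def, RingHom.ext_rat (algebraMap ℚ (LaurentSeries ℚ))
    ((modularFunctionFieldFull N).toSubfield.subtype.comp
      (algebraMap ℚ ↥(modularFunctionFieldFull N)))]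
  exact h

variable (N) in
theorem transcendental_jFull_inv : Transcendental ℚ (jFull N)⁻¹ := fun h =>
  transcendental_jFull N (by simpa using h.inv)

end TranscQ

/-- the hypothesis provided by module [G] (for `t = j`): every element of the Gauss valuation
ring is a root of a monic polynomial with coefficients in `V ∩ ℚ(t)` -/
def GaussIntegralOver (N : ℕ) [NeZero N] (ℓ : ℕ) [Fact ℓ.Prime]
    (t : ↥(modularFunctionFieldFull N)) : Prop :=
  ∀ s ∈ gaussV N ℓ, ∃ p : Polynomial ↥(modularFunctionFieldFull N), p.Monic ∧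
    (∀ i, p.coeff i ∈ gaussV N ℓ ∧ p.coeff i ∈ IntermediateField.adjoin ℚ {t}) ∧ p.eval s = 0

theorem GaussIntegralOver.inv (h : GaussIntegralOver N ℓ (jFull N)) :
    GaussIntegralOver N ℓ (jFull N)⁻¹ := by
  have hle : IntermediateField.adjoin ℚ {jFull N} ≤ IntermediateField.adjoin ℚ {(jFull N)⁻¹} := by
    rw [IntermediateField.adjoin_le_iff, Set.singleton_subset_iff]
    have h1 : (jFull N)⁻¹ ∈ IntermediateField.adjoin ℚ {(jFull N)⁻¹} :=
      IntermediateField.mem_adjoin_simple_self ℚ _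
    simpa using inv_mem h1
  intro s hs
  obtain ⟨p, hp, hc, hps⟩ := h s hs
  exact ⟨p, hp, fun i => ⟨(hc i).1, hle (hc i).2⟩, hps⟩

end ChartKer

section Charts

variable (N : ℕ) [NeZero N] (ℓ : ℕ) [Fact ℓ.Prime]

theorem subset_gaussV_of_subset_pair {S : Set ↥(modularFunctionFieldFull N)}
    (hS : S ⊆ {jFull N, (jFull N)⁻¹}) :
    S ⊆ (gaussV N ℓ : Set ↥(modularFunctionFieldFull N)) := by
  intro x hx
  rcases hS hx with rfl | rfl
  · exact jFull_mem_gaussV N ℓ
  · exact jFull_inv_mem_gaussV N ℓ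

/-- Reduction of `q`-expansions mod `ℓ` on a chart algebra. -/
noncomputable def redChart (S : Set ↥(modularFunctionFieldFull N))
    (hS : S ⊆ {jFull N, (jFull N)⁻¹}) : ↥(chartAlg N ℓ S) →+* LaurentSeries (ZMod ℓ) :=
  (gaussRed N ℓ).comp (Subalgebra.inclusion
    (chartAlg_le_gaussV N ℓ (subset_gaussV_of_subset_pair N ℓ hS))).toRingHom

theorem redChart_apply (S : Set ↥(modularFunctionFieldFull N))
    (hS : S ⊆ {jFull N, (jFull N)⁻¹}) (x : ↥(chartAlg N ℓ S)) :
    redChart N ℓ S hS x = gaussRed N ℓ ⟨x,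
      chartAlg_le_gaussV N ℓ (subset_gaussV_of_subset_pair N ℓ hS) x.2⟩ := rfl

theorem redChart_algebraMap (S : Set ↥(modularFunctionFieldFull N))
    (hS : S ⊆ {jFull N, (jFull N)⁻¹}) (a : ↥(GaloisRep.ratLocalizedAt ℓ)) :
    redChart N ℓ S hS (algebraMap ↥(GaloisRep.ratLocalizedAt ℓ) ↥(chartAlg N ℓ S) a) =
      HahnSeries.C (resZ ℓ a) := by
  rw [← gaussRed_algebraMap N ℓ a]
  rfl

theorem redChart_natCast_self (S : Set ↥(modularFunctionFieldFull N))
    (hS : S ⊆ {jFull N, (jFull N)⁻¹}) :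
    redChart N ℓ S hS (ℓ : ↥(chartAlg N ℓ S)) = 0 := by
  rw [← gaussRed_natCast_self N ℓ]
  rfl

open ChartKer in
/-- the kernel of the reduction on the chart generated by `t` -/
theorem ker_redChart_singleton (t : ↥(modularFunctionFieldFull N))
    (htS : ({t} : Set ↥(modularFunctionFieldFull N)) ⊆ {jFull N, (jFull N)⁻¹})
    (htr : Transcendental (ZMod ℓ) (gaussRed N ℓ ⟨t,
      subset_gaussV_of_subset_pair N ℓ htS rfl⟩))
    (htQ : Transcendental ℚ t) (hG : GaussIntegralOver N ℓ t) :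
    RingHom.ker (redChart N ℓ {t} htS) = Ideal.span {(ℓ : ↥(chartAlg N ℓ {t}))} := by
  ext x
  rw [RingHom.mem_ker, Ideal.mem_span_singleton]
  constructor
  · intro h
    rw [redChart_apply] at h
    obtain ⟨y, hy⟩ := (gaussRed_eq_zero_iff N ℓ _).mp h
    have hxy : (x : ↥(modularFunctionFieldFull N)) =
        (ℓ : ↥(modularFunctionFieldFull N)) * (y : ↥(modularFunctionFieldFull N)) := by
      have := congrArg Subtype.val hy
      simpa using this
    have hx : IsIntegral (Algebra.adjoin ↥(GaloisRep.ratLocalizedAt ℓ) {t})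
        ((ℓ : ↥(modularFunctionFieldFull N)) * (y : ↥(modularFunctionFieldFull N))) := by
      rw [← hxy]
      exact x.2
    have hyC : (y : ↥(modularFunctionFieldFull N)) ∈ chartAlg N ℓ {t} :=
      isIntegral_adjoin_of_mul t (subset_gaussV_of_subset_pair N ℓ htS rfl) htr htQ
        (hG y.1 y.2) hx
    refine ⟨⟨y.1, hyC⟩, Subtype.ext ?_⟩
    rw [hxy]
    simp
  · rintro ⟨c, rfl⟩
    rw [map_mul, redChart_natCast_self, zero_mul]

theorem ker_redChart_fin_of (hG : ChartKer.GaussIntegralOver N ℓ (jFull N)) :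
    RingHom.ker (redChart N ℓ {jFull N} (sFin_subset N)) =
      Ideal.span {(ℓ : ↥(chartAlgFin N ℓ))} := by
  refine ker_redChart_singleton N ℓ (jFull N) (sFin_subset N) ?_
    (ChartKer.transcendental_jFull N) hG
  rw [gaussRed_jFull]
  exact ChartKer.transcendental_jqModC (ZMod ℓ)

theorem ker_redChart_inf_of (hG : ChartKer.GaussIntegralOver N ℓ (jFull N)) :
    RingHom.ker (redChart N ℓ {(jFull N)⁻¹} (sInf_subset N)) =
      Ideal.span {(ℓ : ↥(chartAlgInf N ℓ))} := by
  refine ker_redChart_singleton N ℓ (jFull N)⁻¹ (sInf_subset N) ?_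
    (ChartKer.transcendental_jFull_inv N) hG.inv
  rw [gaussRed_jFull_inv]
  exact ChartKer.transcendental_jqModC_inv (ZMod ℓ)

theorem ker_redChart_mid_of (hG : ChartKer.GaussIntegralOver N ℓ (jFull N)) :
    RingHom.ker (redChart N ℓ {jFull N, (jFull N)⁻¹} subset_rfl) =
      Ideal.span {(ℓ : ↥(chartAlgMid N ℓ))} := by
  ext x
  rw [RingHom.mem_ker, Ideal.mem_span_singleton]
  constructor
  · intro h
    have hxV : (x : ↥(modularFunctionFieldFull N)) ∈ gaussV N ℓ :=
      chartAlgMid_le_gaussV N ℓ x.2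
    have hz : (x : ↥(modularFunctionFieldFull N)) ∈
        chartAlg N ℓ (insert (jFull N)⁻¹ {jFull N}) := by
      rw [show insert (jFull N)⁻¹ ({jFull N} : Set ↥(modularFunctionFieldFull N)) =
        {jFull N, (jFull N)⁻¹} from Set.pair_comm _ _]
      exact x.2
    obtain ⟨n, hn⟩ := exists_pow_mul_mem_chartAlg (Set.mem_singleton _) (jFull_ne_zero N) hz
    have hker : (⟨jFull N ^ n * x, hn⟩ : ↥(chartAlg N ℓ {jFull N})) ∈
        RingHom.ker (redChart N ℓ {jFull N} (sFin_subset N)) := by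
      rw [RingHom.mem_ker, redChart_apply]
      rw [redChart_apply] at h
      have h1 : (⟨jFull N ^ n * x, chartAlg_le_gaussV N ℓ
          (subset_gaussV_of_subset_pair N ℓ (sFin_subset N)) hn⟩ : ↥(gaussV N ℓ)) =
          ⟨jFull N, jFull_mem_gaussV N ℓ⟩ ^ n * ⟨x, hxV⟩ := Subtype.ext (by simp)
      rw [h1, map_mul, h, mul_zero]
    rw [ker_redChart_fin_of N ℓ hG, Ideal.mem_span_singleton] at hker
    obtain ⟨c, hc⟩ := hker
    have hc' : jFull N ^ n * (x : ↥(modularFunctionFieldFull N)) =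
        (ℓ : ↥(modularFunctionFieldFull N)) * (c : ↥(modularFunctionFieldFull N)) := by
      simpa using congrArg Subtype.val hc
    refine ⟨⟨(jFull N)⁻¹, subset_chartAlg N ℓ _ (by simp)⟩ ^ n *
      chartIncl N ℓ (sFin_subset N) c, Subtype.ext ?_⟩
    have hj := jFull_ne_zero N
    have hx : (x : ↥(modularFunctionFieldFull N)) =
        (ℓ : ↥(modularFunctionFieldFull N)) * ((jFull N)⁻¹ ^ n *
          (c : ↥(modularFunctionFieldFull N))) := by
      rw [mul_left_comm, ← hc', ← mul_assoc, ← mul_pow, inv_mul_cancel₀ hj, one_pow, one_mul]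
    rw [hx]
    simp
  · rintro ⟨c, rfl⟩
    rw [map_mul, redChart_natCast_self, zero_mul]

end Charts

end Fermat.Agent.S28
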