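import Fermat.Agent.S28.FormalDefs

/-!
P10 (S28, Igusa): shared vocabulary (this file only re-exports `FormalDefs.lean`; it declares
nothing, so that there is exactly one definition of every shared object).

* `j` over a commutative ring `k`: the Prelude's `ModularCurve.jqModC k`;
  `j(q^d)`: `ModularCurve.qExpand k d (jqModC k)` (`= jqNModC k d`);
* `t ↦ ζ t`: `Fermat.Agent.S24.laurentRot ζ` (`ζ : kˣ`);
* `Δ`, `E₄`, `E₆`, `θ = q d/dq`: `deltaS k`, `e4S k`, `e6S k`, `theta k` (`FormalDefs.lean`);
* `k(j)`: `Kj k` (`TowerDefs.lean`); `k(j(q^d) : d ∣ M)`: the Prelude's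
  `ModularCurve.modularFunctionFieldFullC k M`.
-/
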