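import Fermat.Agent.S28.FormalDefs
import Fermat.Agent.S24.JqExp
import Fermat.Agent.S24.Ramanujan
import Fermat.Agent.S23.LevelOne

/-!
P10 [A], formal identities for the `q`-series of `j`, `Δ`, `E₄`, `E₆` over an arbitrary
commutative ring `R` (notation of `FormalDefs`):

* `e4S_pow_three_sub` : `E₄³ - E₆² = 1728 Δ`;
* `theta_jqModC_mul_deltaS` : `θj · Δ = -E₄² E₆`;
* `theta_jqModC_pow_six` : `(θj)⁶ = j⁴ (j - 1728)³ Δ`.

Route: Ramanujan's identities for `D E₄`, `D Δ` over the complex numbers give an identity of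
convergent power series on the unit disc, hence of the integral `q`-expansions; the algebra is
done in the domain `ℤ((q))` and the result is transported to `R` by the coefficient map.
All auxiliary declarations live in the namespace `Fermat.Agent.S28.FormalId`.
-/

set_option autoImplicit false

namespace Fermat.Agent.S28

namespace FormalId

open UpperHalfPlane ModularForm EisensteinSeries Derivative Function
open Fermat.Agent.S24 Fermat.Agent.S24.JqExp ModularCurve
open scoped MatrixGroups Manifold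

local notation "𝕢" => Periodic.qParam

/-- `θ = q · d/dq` on power series: multiply the `n`-th coefficient by `n`. -/
noncomputable def thetaPS {R : Type*} [CommRing R] (P : PowerSeries R) : PowerSeries R :=
  PowerSeries.mk fun n => (n : R) * PowerSeries.coeff n P

theorem coeff_thetaPS {R : Type*} [CommRing R] (P : PowerSeries R) (n : ℕ) :
    PowerSeries.coeff n (thetaPS P) = (n : R) * PowerSeries.coeff n P := by
  rw [thetaPS, PowerSeries.coeff_mk]

theorem thetaPS_map {R S : Type*} [CommRing R] [CommRing S] (φ : R →+* S) (P : PowerSeries R) :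
    thetaPS (P.map φ) = (thetaPS P).map φ := by
  ext n
  rw [coeff_thetaPS, PowerSeries.coeff_map, PowerSeries.coeff_map, coeff_thetaPS, map_mul,
    map_natCast]

theorem conv_add {P Q : PowerSeries ℂ} {f g : ℂ → ℂ} (hP : Conv P f) (hQ : Conv Q g) :
    Conv (P + Q) (fun q => f q + g q) := by
  intro q hq
  refine ((hP q hq).add (hQ q hq)).congr_fun fun n => ?_
  rw [map_add, add_mul]

theorem conv_C (c : ℂ) : Conv (PowerSeries.C c) (fun _ => c) := by
  intro q _
  have := hasSum_ite_eq (0 : ℕ) c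
  refine this.congr_fun fun n => ?_
  rw [PowerSeries.coeff_C]
  split_ifs with h
  · subst h; simp
  · simp

/-- The Taylor series of `q f'(q)` is `θ` of the Taylor series of `f`. -/
theorem taylor_theta {f : ℂ → ℂ} (hf : DifferentiableOn ℂ f (Metric.ball 0 1)) :
    taylor (fun q => q * deriv f q) = thetaPS (taylor f) := by
  have han : AnalyticAt ℂ f 0 := hf.analyticAt (Metric.ball_mem_nhds 0 one_pos)
  ext n
  rw [coeff_thetaPS, taylor, taylor, PowerSeries.coeff_mk, PowerSeries.coeff_mk]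
  rcases n with _ | m
  · simp
  · have h1 : ContDiffAt ℂ (m + 1 : ℕ) (fun a : ℂ => a) 0 := contDiffAt_id
    have h2 : ContDiffAt ℂ (m + 1 : ℕ) (deriv f) 0 := han.deriv.contDiffAt
    rw [iteratedDeriv_fun_mul h1 h2]
    simp only [iteratedDeriv_fun_id_zero]
    rw [Finset.sum_eq_single 1]
    · rw [if_pos rfl, Nat.choose_one_right, mul_one, Nat.add_sub_cancel, ← iteratedDeriv_succ']
      push_cast
      ring
    · intro b _ hb
      rw [if_neg hb, mul_zero, zero_mul]
    · intro h
      exact absurd (Finset.mem_range.mpr (by omega)) h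

theorem conv_theta {P : PowerSeries ℂ} {f : ℂ → ℂ} (hP : Conv P f)
    (hf : DifferentiableOn ℂ f (Metric.ball 0 1)) :
    Conv (thetaPS P) (fun q => q * deriv f q) := by
  rw [hP.eq_taylor hf, ← taylor_theta hf]
  exact conv_taylor (differentiableOn_id.mul (hf.deriv Metric.isOpen_ball))


/-! ### Level one forms -/

theorem conv_qExp {k : ℤ} (F : ModularForm 𝒮ℒ k) : Conv (qExpansion 1 F) (cuspFunction 1 F) := by
  intro q hq
  have := UpperHalfPlane.hasSum_qExpansion_of_norm_lt (h := 1) one_pos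
    (Ramanujan.periodic_of_levelOne F) (ModularFormClass.holo F) (Ramanujan.bdd_of_levelOne F) hq
  simpa [smul_eq_mul] using this

theorem diff_cusp {k : ℤ} (F : ModularForm 𝒮ℒ k) :
    DifferentiableOn ℂ (cuspFunction 1 F) (Metric.ball 0 1) :=
  differentiableOn_cuspFunction_ball one_pos (Ramanujan.periodic_of_levelOne F)
    (ModularFormClass.holo F) (Ramanujan.bdd_of_levelOne F)

theorem cusp_at {k : ℤ} (F : ModularForm 𝒮ℒ k) (τ : ℍ) : cuspFunction 1 F (𝕢 1 τ) = F τ :=
  SlashInvariantFormClass.eq_cuspFunction F τ one_mem_strictPeriods_SL one_ne_zero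

theorem thetaCusp_at {k : ℤ} (F : ModularForm 𝒮ℒ k) (τ : ℍ) :
    𝕢 1 τ * deriv (cuspFunction 1 F) (𝕢 1 τ) = D F τ :=
  (Ramanujan.normalizedDeriv_eq_qParam_mul (Ramanujan.periodic_of_levelOne F)
    (ModularFormClass.holo F) (Ramanujan.bdd_of_levelOne F) τ).symm

theorem exists_qParam_eq {q : ℂ} (hq : ‖q‖ < 1) (hq0 : q ≠ 0) : ∃ τ : ℍ, 𝕢 1 (τ : ℂ) = q :=
  ⟨⟨Periodic.invQParam 1 q, Periodic.im_invQParam_pos_of_norm_lt_one one_pos hq hq0⟩,
    Periodic.qParam_right_inv one_ne_zero hq0⟩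

/-- The discriminant as a level one modular form. -/
noncomputable def discM : ModularForm 𝒮ℒ 12 := ModularFormClass.modularForm CuspForm.discriminant

theorem coe_discM : (discM : ℍ → ℂ) = ModularForm.discriminant := rfl

theorem cusp_discM_zero : cuspFunction 1 discM 0 = 0 :=
  CuspFormClass.cuspFunction_apply_zero (f := CuspForm.discriminant) one_pos
    one_mem_strictPeriods_SL

/-- The `q`-expansion of `Δ` is `q ∏ (1 - qⁿ)²⁴`. -/
theorem qExpansion_discM :
    qExpansion 1 discM =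
      PowerSeries.X * PowerSeries.map (Int.castRingHom ℂ) dedekindEtaUnit := by
  ext m
  symm
  refine ModularFormClass.qExpansion_coeff_unique (f := discM)
    (c := fun m => PowerSeries.coeff m
      (PowerSeries.X * PowerSeries.map (Int.castRingHom ℂ) dedekindEtaUnit))
    one_pos one_mem_strictPeriods_SL (fun τ => ?_) m
  have h := (Conv.X.mul conv_dedekindEtaUnit) (𝕢 1 τ) (norm_qParam_lt_one τ)
  rw [coe_discM, discriminant_eq]
  simpa [smul_eq_mul] using h

theorem E₆_coeff (n : ℕ) :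
    (qExpansion 1 E₆).coeff n =
      if n = 0 then 1 else -504 * (ArithmeticFunction.sigma 5 n : ℂ) := by
  rw [E_qExpansion_coeff _ ⟨3, rfl⟩]
  norm_num [show bernoulli 6 = 1 / 42 by decide +kernel]

theorem map_eisenstein6 :
    PowerSeries.map (Int.castRingHom ℂ) eisenstein6 = qExpansion 1 E₆ := by
  ext n
  rw [PowerSeries.coeff_map, E₆_coeff, eisenstein6, PowerSeries.coeff_mk]
  split_ifs with h
  · simp
  · simp [ArithmeticFunction.sigma_apply]

/-- Ramanujan's identities `3 D E₄ = E₂ E₄ - E₆`, `D Δ = E₂ Δ` combine to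
`3 θE₄ · Δ - E₄ · θΔ + E₆ Δ = 0` on `q`-expansions. -/
theorem ramanujan_qExp :
    PowerSeries.C (3 : ℂ) * thetaPS (qExpansion 1 E₄) * qExpansion 1 discM
      - qExpansion 1 E₄ * thetaPS (qExpansion 1 discM)
      + qExpansion 1 E₆ * qExpansion 1 discM = 0 := by
  have c4 := conv_qExp E₄
  have c6 := conv_qExp E₆
  have cΔ := conv_qExp discM
  have t4 := conv_theta c4 (diff_cusp E₄)
  have tΔ := conv_theta cΔ (diff_cusp discM)
  have hL := conv_add ((((conv_C 3).mul t4).mul cΔ).sub (c4.mul tΔ)) (c6.mul cΔ)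
  have h0 : Conv 0 (fun _ => (0 : ℂ)) := by simpa using conv_C 0
  refine hL.unique (h0.congr fun q hq => ?_)
  rcases eq_or_ne q 0 with rfl | hq0
  · simp [cusp_discM_zero]
  · obtain ⟨τ, rfl⟩ := exists_qParam_eq hq hq0
    rw [thetaCusp_at, thetaCusp_at, cusp_at, cusp_at, cusp_at, coe_discM, Ramanujan.D_E₄,
      Ramanujan.D_discriminant]
    ring

/-- `1728 Δ = E₄³ - E₆²` on `q`-expansions. -/
theorem qExp_discM_eq :
    PowerSeries.C (1728 : ℂ) * qExpansion 1 discM = qExpansion 1 E₄ ^ 3 - qExpansion 1 E₆ ^ 2 := by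
  rw [← Fermat.Agent.S23.smul_qExpansion_discriminant_eq, coe_discM]
  ext n
  simp


/-! ### Descent to `ℤ⟦q⟧` and to `ℤ((q))` -/

theorem map_intCast_injective :
    Function.Injective (PowerSeries.map (Int.castRingHom ℂ)) :=
  PowerSeries.map_injective _ (Int.castRingHom ℂ).injective_int

theorem ramanujan_int :
    3 * thetaPS eisenstein4 * (PowerSeries.X * dedekindEtaUnit)
      - eisenstein4 * thetaPS (PowerSeries.X * dedekindEtaUnit)
      + eisenstein6 * (PowerSeries.X * dedekindEtaUnit) = 0 := by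
  apply map_intCast_injective
  have h := ramanujan_qExp
  rw [qExpansion_discM, ← map_eisenstein4, ← map_eisenstein6] at h
  rw [map_zero, ← h]
  simp only [map_add, map_sub, map_mul, PowerSeries.map_X, ← thetaPS_map, map_ofNat]

theorem discriminant_int :
    eisenstein4 ^ 3 - eisenstein6 ^ 2 =
      PowerSeries.C (1728 : ℤ) * (PowerSeries.X * dedekindEtaUnit) := by
  apply map_intCast_injective
  have h := qExp_discM_eq
  rw [qExpansion_discM, ← map_eisenstein4, ← map_eisenstein6] at h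
  rw [map_sub, map_pow, map_pow, ← h]
  simp only [map_mul, PowerSeries.map_X, map_ofNat]

open HahnSeries in
theorem theta_ofPowerSeries {R : Type*} [CommRing R] (P : PowerSeries R) :
    theta R (ofPowerSeries ℤ R P) = ofPowerSeries ℤ R (thetaPS P) := by
  ext n
  rw [theta_coeff]
  rcases lt_or_ge n 0 with hn | hn
  · rw [ofPowerSeries_coeff_of_neg _ hn, ofPowerSeries_coeff_of_neg _ hn, mul_zero]
  · obtain ⟨m, rfl⟩ := Int.eq_ofNat_of_zero_le hn
    rw [ofPowerSeries_apply_coeff, ofPowerSeries_apply_coeff, coeff_thetaPS, Int.cast_natCast]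

open HahnSeries in
theorem e4S_int : e4S ℤ = ofPowerSeries ℤ ℤ eisenstein4 := by
  rw [e4S, Int.castRingHom_int, PowerSeries.map_id, id]

open HahnSeries in
theorem e6S_int : e6S ℤ = ofPowerSeries ℤ ℤ eisenstein6 := by
  rw [e6S, Int.castRingHom_int, PowerSeries.map_id, id]

open HahnSeries in
theorem deltaS_int : deltaS ℤ = ofPowerSeries ℤ ℤ (PowerSeries.X * dedekindEtaUnit) := by
  rw [deltaS, Int.castRingHom_int, PowerSeries.map_id, id, map_mul, ofPowerSeries_X]

open HahnSeries in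
/-- `3 θE₄ · Δ - E₄ · θΔ = -E₆ Δ` in `ℤ((q))`. -/
theorem ramanujan_laurent :
    3 * theta ℤ (e4S ℤ) * deltaS ℤ - e4S ℤ * theta ℤ (deltaS ℤ) = -(e6S ℤ * deltaS ℤ) := by
  have h := congrArg (ofPowerSeries ℤ ℤ) ramanujan_int
  simp only [map_add, map_sub, map_mul, map_zero, map_ofNat] at h
  rw [e4S_int, e6S_int, deltaS_int, theta_ofPowerSeries, theta_ofPowerSeries]
  simp only [map_mul]
  linear_combination h

open HahnSeries in
/-- `E₄³ - E₆² = 1728 Δ` in `ℤ((q))`. -/
theorem discriminant_laurent :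
    e4S ℤ ^ 3 - e6S ℤ ^ 2 = C (1728 : ℤ) * deltaS ℤ := by
  have h := congrArg (ofPowerSeries ℤ ℤ) discriminant_int
  simp only [map_sub, map_mul, map_pow, ofPowerSeries_C] at h
  rw [e4S_int, e6S_int, deltaS_int, map_mul]
  exact h


/-! ### Algebra in `ℤ((q))` -/

open HahnSeries in
/-- `θj · Δ = -E₄² E₆` in `ℤ((q))`. -/
theorem theta_jqModC_mul_deltaS_int :
    theta ℤ (jqModC ℤ) * deltaS ℤ = -(e4S ℤ ^ 2 * e6S ℤ) := by
  have hjΔ := jqModC_mul_deltaS ℤ
  have hθ := congrArg (theta ℤ) hjΔ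
  rw [Derivation.leibniz, Derivation.leibniz_pow, smul_eq_mul, smul_eq_mul, smul_eq_mul,
    nsmul_eq_mul] at hθ
  have hR := ramanujan_laurent
  refine mul_right_cancel₀ (deltaS_ne_zero ℤ) ?_
  push_cast at hθ
  linear_combination deltaS ℤ * hθ - theta ℤ (deltaS ℤ) * hjΔ + e4S ℤ ^ 2 * hR

open HahnSeries in
/-- `(θj)⁶ = j⁴ (j - 1728)³ Δ` in `ℤ((q))`. -/
theorem theta_jqModC_pow_six_int :
    theta ℤ (jqModC ℤ) ^ 6 = jqModC ℤ ^ 4 * (jqModC ℤ - C (1728 : ℤ)) ^ 3 * deltaS ℤ := by
  have hjΔ := jqModC_mul_deltaS ℤ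
  have h1 := discriminant_laurent
  have h2 := theta_jqModC_mul_deltaS_int
  have hb : (jqModC ℤ - C (1728 : ℤ)) * deltaS ℤ = e6S ℤ ^ 2 := by
    linear_combination hjΔ + h1
  refine mul_right_cancel₀ (pow_ne_zero 6 (deltaS_ne_zero ℤ)) ?_
  calc theta ℤ (jqModC ℤ) ^ 6 * deltaS ℤ ^ 6
      = (theta ℤ (jqModC ℤ) * deltaS ℤ) ^ 6 := by ring
    _ = (e4S ℤ ^ 3) ^ 4 * (e6S ℤ ^ 2) ^ 3 := by rw [h2]; ring
    _ = (jqModC ℤ * deltaS ℤ) ^ 4 * ((jqModC ℤ - C (1728 : ℤ)) * deltaS ℤ) ^ 3 := by
        rw [hjΔ, hb]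
    _ = jqModC ℤ ^ 4 * (jqModC ℤ - C (1728 : ℤ)) ^ 3 * deltaS ℤ * deltaS ℤ ^ 6 := by ring

open HahnSeries in
theorem coeffMap_C {R S : Type*} [CommRing R] [CommRing S] (φ : R →+* S) (c : R) :
    coeffMap φ (C c : LaurentSeries R) = C (φ c) :=
  coeffMap_single φ 0 c

end FormalId

open HahnSeries ModularCurve FormalId

/-- `E₄³ - E₆² = 1728 Δ` as formal `q`-series over any commutative ring. -/
theorem e4S_pow_three_sub (R : Type*) [CommRing R] :
    e4S R ^ 3 - e6S R ^ 2 = C (1728 : R) * deltaS R := by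
  have h := congrArg (coeffMap (Int.castRingHom R)) discriminant_laurent
  rw [map_sub, map_pow, map_pow, map_mul, coeffMap_e4S, coeffMap_e6S, coeffMap_deltaS,
    FormalId.coeffMap_C] at h
  simpa using h

/-- `θj · Δ = -E₄² E₆` as formal `q`-series over any commutative ring. -/
theorem theta_jqModC_mul_deltaS (R : Type*) [CommRing R] :
    theta R (jqModC R) * deltaS R = -(e4S R ^ 2 * e6S R) := by
  have h := congrArg (coeffMap (Int.castRingHom R)) theta_jqModC_mul_deltaS_int
  rw [map_mul, map_neg, map_mul, map_pow, coeffMap_theta, coeffMap_jqModC, coeffMap_e4S,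
    coeffMap_e6S, coeffMap_deltaS] at h
  exact h

/-- `(θj)⁶ = j⁴ (j - 1728)³ Δ` as formal `q`-series over any commutative ring. -/
theorem theta_jqModC_pow_six (R : Type*) [CommRing R] :
    theta R (jqModC R) ^ 6 = jqModC R ^ 4 * (jqModC R - C (1728 : R)) ^ 3 * deltaS R := by
  have h := congrArg (coeffMap (Int.castRingHom R)) theta_jqModC_pow_six_int
  rw [map_pow, map_mul, map_mul, map_pow, map_pow, map_sub, coeffMap_theta, coeffMap_jqModC,
    coeffMap_deltaS, FormalId.coeffMap_C] at h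
  simpa using h

end Fermat.Agent.S28
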