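import Fermat.Agent.S28.FormalDefs

/-!
P10 [A], formal algebra: the identity `(θ j)⁶ = j⁴ (j - 1728)³ Δ` over `ℤ` from the two
Ramanujan-type identities (taken as hypotheses), and base change of the identities from `ℤ` to an
arbitrary commutative ring.
-/

set_option autoImplicit false

namespace Fermat.Agent.S28.FormalIdAlg

open HahnSeries ModularCurve

/-- `θ j · Δ = - E₄² E₆` from `3 θE₄ · Δ - E₄ · θΔ = - E₆ Δ`. -/
theorem theta_jqModC_mul_deltaS_int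
    (hR : 3 * theta ℤ (e4S ℤ) * deltaS ℤ - e4S ℤ * theta ℤ (deltaS ℤ) = -(e6S ℤ * deltaS ℤ)) :
    theta ℤ (jqModC ℤ) * deltaS ℤ = -(e4S ℤ ^ 2 * e6S ℤ) := by
  have hj : jqModC ℤ * deltaS ℤ = e4S ℤ ^ 3 := jqModC_mul_deltaS ℤ
  have hθ : theta ℤ (jqModC ℤ) * deltaS ℤ + jqModC ℤ * theta ℤ (deltaS ℤ) =
      3 * e4S ℤ ^ 2 * theta ℤ (e4S ℤ) := by
    have h := congrArg (theta ℤ) hj
    rw [Derivation.leibniz, Derivation.leibniz_pow] at h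
    simp only [smul_eq_mul, nsmul_eq_mul] at h
    push_cast at h
    linear_combination h
  have hmul : theta ℤ (jqModC ℤ) * deltaS ℤ * deltaS ℤ = -(e4S ℤ ^ 2 * e6S ℤ) * deltaS ℤ := by
    linear_combination deltaS ℤ * hθ - theta ℤ (deltaS ℤ) * hj + e4S ℤ ^ 2 * hR
  exact mul_right_cancel₀ (deltaS_ne_zero ℤ) hmul

/-- (I) over `ℤ`: `(θ j)⁶ = j⁴ (j - 1728)³ Δ`. -/
theorem theta_jqModC_pow_six_int
    (h1 : e4S ℤ ^ 3 - e6S ℤ ^ 2 = C (1728 : ℤ) * deltaS ℤ)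
    (h2 : theta ℤ (jqModC ℤ) * deltaS ℤ = -(e4S ℤ ^ 2 * e6S ℤ)) :
    theta ℤ (jqModC ℤ) ^ 6 = jqModC ℤ ^ 4 * (jqModC ℤ - C (1728 : ℤ)) ^ 3 * deltaS ℤ := by
  have hj : jqModC ℤ * deltaS ℤ = e4S ℤ ^ 3 := jqModC_mul_deltaS ℤ
  have e1 : theta ℤ (jqModC ℤ) ^ 6 * deltaS ℤ ^ 6 = (theta ℤ (jqModC ℤ) * deltaS ℤ) ^ 6 := by
    ring
  have e2 : jqModC ℤ ^ 4 * (jqModC ℤ - C (1728 : ℤ)) ^ 3 * deltaS ℤ * deltaS ℤ ^ 6 =
      (jqModC ℤ * deltaS ℤ) ^ 4 * (jqModC ℤ * deltaS ℤ - C (1728 : ℤ) * deltaS ℤ) ^ 3 := by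
    ring
  have hmul : theta ℤ (jqModC ℤ) ^ 6 * deltaS ℤ ^ 6 =
      jqModC ℤ ^ 4 * (jqModC ℤ - C (1728 : ℤ)) ^ 3 * deltaS ℤ * deltaS ℤ ^ 6 := by
    rw [e1, e2, h2, hj, ← h1]
    ring
  exact mul_right_cancel₀ (pow_ne_zero 6 (deltaS_ne_zero ℤ)) hmul

theorem coeffMap_C {R S : Type*} [CommRing R] [CommRing S] (φ : R →+* S) (c : R) :
    coeffMap φ (C c : LaurentSeries R) = C (φ c) := by
  rw [C_apply, C_apply]
  exact coeffMap_single φ 0 c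

/-- base change of the three identities from `ℤ` to an arbitrary commutative ring -/
theorem base_change (R : Type*) [CommRing R]
    (h1 : e4S ℤ ^ 3 - e6S ℤ ^ 2 = C (1728 : ℤ) * deltaS ℤ)
    (h2 : theta ℤ (jqModC ℤ) * deltaS ℤ = -(e4S ℤ ^ 2 * e6S ℤ))
    (h3 : theta ℤ (jqModC ℤ) ^ 6 = jqModC ℤ ^ 4 * (jqModC ℤ - C (1728 : ℤ)) ^ 3 * deltaS ℤ) :
    (e4S R ^ 3 - e6S R ^ 2 = C (1728 : R) * deltaS R) ∧
    (theta R (jqModC R) * deltaS R = -(e4S R ^ 2 * e6S R)) ∧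
    (theta R (jqModC R) ^ 6 = jqModC R ^ 4 * (jqModC R - C (1728 : R)) ^ 3 * deltaS R) := by
  have hC : coeffMap (Int.castRingHom R) (C (1728 : ℤ) : LaurentSeries ℤ) = C (1728 : R) := by
    rw [coeffMap_C]
    simp
  refine ⟨?_, ?_, ?_⟩
  · have h := congrArg (coeffMap (Int.castRingHom R)) h1
    simpa only [map_sub, map_pow, map_mul, coeffMap_e4S, coeffMap_e6S, coeffMap_deltaS, hC]
      using h
  · have h := congrArg (coeffMap (Int.castRingHom R)) h2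
    simpa only [map_neg, map_pow, map_mul, coeffMap_e4S, coeffMap_e6S, coeffMap_deltaS,
      coeffMap_theta, coeffMap_jqModC] using h
  · have h := congrArg (coeffMap (Int.castRingHom R)) h3
    simpa only [map_sub, map_pow, map_mul, coeffMap_deltaS, coeffMap_theta, coeffMap_jqModC, hC]
      using h

end Fermat.Agent.S28.FormalIdAlg
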