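import Fermat.Prelude.Def_ModularCurve_IgusaScheme
import Fermat.Prelude.Def_ModularCurve_X0ModL

/-!
P10 [F] part (A): the `ℓ`-adic Gauss valuation ring `gaussO ℓ ⊂ ℚ((q))` (localisation of the
series with `ℤ_(ℓ)`-coefficients at the series which are nonzero mod `ℓ`) and its reduction map.
-/

set_option autoImplicit false
set_option linter.unusedSectionVars false

namespace Fermat.Agent.S28

open ModularCurve

variable (ℓ : ℕ) [Fact ℓ.Prime]

section Coefficients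

theorem GaussRing.den_ne_zero (a : ↥(GaloisRep.ratLocalizedAt ℓ)) :
    (((a : ℚ).den : ℕ) : ZMod ℓ) ≠ 0 := by
  intro h
  rw [ZMod.natCast_eq_zero_iff] at h
  have hc : (a : ℚ).den.Coprime ℓ := a.2
  exact (Fact.out : ℓ.Prime).one_lt.ne' (Nat.Coprime.eq_one_of_dvd hc.symm h)

/-- Reduction `ℤ_(ℓ) → 𝔽_ℓ`. -/
noncomputable def resZ : ↥(GaloisRep.ratLocalizedAt ℓ) →+* ZMod ℓ where
  toFun a := ((a : ℚ) : ZMod ℓ)
  map_one' := by simp
  map_mul' a b := Rat.cast_mul_of_ne_zero (GaussRing.den_ne_zero ℓ a) (GaussRing.den_ne_zero ℓ b)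
  map_zero' := by simp
  map_add' a b := Rat.cast_add_of_ne_zero (GaussRing.den_ne_zero ℓ a) (GaussRing.den_ne_zero ℓ b)

theorem resZ_apply (a : ↥(GaloisRep.ratLocalizedAt ℓ)) : resZ ℓ a = ((a : ℚ) : ZMod ℓ) := rfl

theorem resZ_surjective : Function.Surjective (resZ ℓ) := by
  intro z
  refine ⟨((z.val : ℕ) : ↥(GaloisRep.ratLocalizedAt ℓ)), ?_⟩
  rw [map_natCast]
  exact ZMod.natCast_zmod_val z

/-- The inverse of a natural number prime to `ℓ`, as an element of `ℤ_(ℓ)`. -/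
noncomputable def GaussRing.invNat (d : ℕ) (hd : d.Coprime ℓ) (hd0 : 0 < d) :
    ↥(GaloisRep.ratLocalizedAt ℓ) :=
  ⟨(d : ℚ)⁻¹, by
    show ((d : ℚ)⁻¹).den.Coprime ℓ
    rw [Rat.inv_natCast_den_of_pos hd0]
    exact hd⟩

theorem GaussRing.natCast_mul_invNat (d : ℕ) (hd : d.Coprime ℓ) (hd0 : 0 < d) :
    (d : ↥(GaloisRep.ratLocalizedAt ℓ)) * GaussRing.invNat ℓ d hd hd0 = 1 := by
  apply Subtype.ext
  show ((d : ↥(GaloisRep.ratLocalizedAt ℓ)) : ℚ) * (d : ℚ)⁻¹ = 1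
  rw [Subring.coe_natCast]
  exact mul_inv_cancel₀ (Nat.cast_ne_zero.mpr hd0.ne')

theorem GaussRing.eq_num_mul_invNat (a : ↥(GaloisRep.ratLocalizedAt ℓ)) :
    a = ((a : ℚ).num : ↥(GaloisRep.ratLocalizedAt ℓ)) *
      GaussRing.invNat ℓ (a : ℚ).den a.2 (a : ℚ).den_pos := by
  apply Subtype.ext
  show (a : ℚ) = (((a : ℚ).num : ↥(GaloisRep.ratLocalizedAt ℓ)) : ℚ) * ((a : ℚ).den : ℚ)⁻¹
  rw [Subring.coe_intCast, ← div_eq_mul_inv, Rat.num_div_den]

theorem resZ_eq_zero_iff (a : ↥(GaloisRep.ratLocalizedAt ℓ)) :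
    resZ ℓ a = 0 ↔ ∃ b : ↥(GaloisRep.ratLocalizedAt ℓ),
      a = (ℓ : ↥(GaloisRep.ratLocalizedAt ℓ)) * b := by
  constructor
  · intro h
    rw [resZ_apply, Rat.cast_def, div_eq_zero_iff] at h
    rcases h with h | h
    · rw [ZMod.intCast_zmod_eq_zero_iff_dvd] at h
      obtain ⟨m, hm⟩ := h
      refine ⟨(m : ↥(GaloisRep.ratLocalizedAt ℓ)) *
        GaussRing.invNat ℓ (a : ℚ).den a.2 (a : ℚ).den_pos, ?_⟩
      conv_lhs => rw [GaussRing.eq_num_mul_invNat ℓ a, hm]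
      push_cast
      ring
    · exact absurd h (GaussRing.den_ne_zero ℓ a)
  · rintro ⟨b, rfl⟩
    rw [map_mul, map_natCast, ZMod.natCast_self, zero_mul]

/-- Ring homomorphisms out of `ℤ_(ℓ)` are unique. -/
theorem ratLocalizedAt_ringHom_ext {S : Type*} [Semiring S]
    (f g : ↥(GaloisRep.ratLocalizedAt ℓ) →+* S) : f = g := by
  have hint : ∀ n : ℤ, f (n : ↥(GaloisRep.ratLocalizedAt ℓ)) = g (n : ↥(GaloisRep.ratLocalizedAt ℓ)) := by
    intro n
    have := RingHom.ext_int (f.comp (Int.castRingHom _)) (g.comp (Int.castRingHom _))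
    exact DFunLike.congr_fun this n
  have hnat : ∀ n : ℕ, f (n : ↥(GaloisRep.ratLocalizedAt ℓ)) = g (n : ↥(GaloisRep.ratLocalizedAt ℓ)) := by
    intro n
    rw [map_natCast, map_natCast]
  ext a
  have hinv : f (GaussRing.invNat ℓ (a : ℚ).den a.2 (a : ℚ).den_pos) =
      g (GaussRing.invNat ℓ (a : ℚ).den a.2 (a : ℚ).den_pos) := by
    set i := GaussRing.invNat ℓ (a : ℚ).den a.2 (a : ℚ).den_pos with hi
    have h1 : ((a : ℚ).den : ↥(GaloisRep.ratLocalizedAt ℓ)) * i = 1 :=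
      GaussRing.natCast_mul_invNat ℓ _ a.2 (a : ℚ).den_pos
    have h2 : i * ((a : ℚ).den : ↥(GaloisRep.ratLocalizedAt ℓ)) = 1 := by rw [mul_comm, h1]
    calc f i = f i * g (((a : ℚ).den : ↥(GaloisRep.ratLocalizedAt ℓ)) * i) := by
          rw [h1, map_one, mul_one]
      _ = f i * f ((a : ℚ).den : ↥(GaloisRep.ratLocalizedAt ℓ)) * g i := by
          rw [map_mul, ← hnat, mul_assoc]
      _ = g i := by rw [← map_mul, h2, map_one, one_mul]
  rw [GaussRing.eq_num_mul_invNat ℓ a, map_mul, map_mul, hint, hinv]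

end Coefficients

section Series

set_option quotPrecheck false in
local notation "ℤℓ" => ↥(GaloisRep.ratLocalizedAt ℓ)
set_option quotPrecheck false in
local notation "ι" => coeffMap (GaloisRep.ratLocalizedAt ℓ).subtype
set_option quotPrecheck false in
local notation "ρ" => coeffMap (resZ ℓ)

theorem GaussRing.incl_injective : Function.Injective (ι) := by
  intro x y h
  ext k
  have := congrArg (fun z => z.coeff k) h
  simpa using this

theorem GaussRing.incl_eq_zero_iff (x : LaurentSeries ℤℓ) : ι x = 0 ↔ x = 0 := by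
  constructor
  · intro h
    exact GaussRing.incl_injective ℓ (by rw [h, map_zero])
  · rintro rfl
    exact map_zero _

theorem GaussRing.natCast_mul_coeff {R : Type*} [Semiring R] (n : ℕ) (x : LaurentSeries R)
    (k : ℤ) : ((n : LaurentSeries R) * x).coeff k = (n : R) * x.coeff k := by
  rw [← map_natCast (HahnSeries.C : R →+* LaurentSeries R), HahnSeries.C_mul_eq_smul,
    HahnSeries.coeff_smul, smul_eq_mul]

theorem GaussRing.natCast_ne_zero_Zl : (ℓ : ℤℓ) ≠ 0 :=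
  Nat.cast_ne_zero.mpr (Fact.out : ℓ.Prime).ne_zero

theorem GaussRing.natCast_series_Fl : (ℓ : LaurentSeries (ZMod ℓ)) = 0 := by
  rw [← map_natCast (HahnSeries.C : ZMod ℓ →+* LaurentSeries (ZMod ℓ)), ZMod.natCast_self,
    map_zero]

theorem GaussRing.natCast_series_Q_ne_zero : (ℓ : LaurentSeries ℚ) ≠ 0 := by
  intro h
  have h1 := GaussRing.natCast_mul_coeff (R := ℚ) ℓ 1 0
  rw [h, zero_mul] at h1
  simp at h1
  exact (Fact.out : ℓ.Prime).ne_zero (by exact_mod_cast h1.symm)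

/-- Coefficientwise division by `ℓ` (junk value off the multiples of `ℓ`). -/
noncomputable def GaussRing.divL : ZeroHom ℤℓ ℤℓ where
  toFun c := if h : resZ ℓ c = 0 then ((resZ_eq_zero_iff ℓ c).mp h).choose else 0
  map_zero' := by
    have h : resZ ℓ (0 : ℤℓ) = 0 := map_zero _
    rw [dif_pos h]
    have hs := ((resZ_eq_zero_iff ℓ 0).mp h).choose_spec
    rcases mul_eq_zero.mp hs.symm with h1 | h1
    · exact absurd h1 (GaussRing.natCast_ne_zero_Zl ℓ)
    · exact h1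

theorem GaussRing.mul_divL (c : ℤℓ) (h : resZ ℓ c = 0) : (ℓ : ℤℓ) * GaussRing.divL ℓ c = c := by
  show (ℓ : ℤℓ) * (if h : resZ ℓ c = 0 then ((resZ_eq_zero_iff ℓ c).mp h).choose else 0) = c
  rw [dif_pos h]
  exact ((resZ_eq_zero_iff ℓ c).mp h).choose_spec.symm

/-- The kernel of the coefficientwise reduction is generated by `ℓ`. -/
theorem GaussRing.red_eq_zero_iff (x : LaurentSeries ℤℓ) :
    ρ x = 0 ↔ ∃ y : LaurentSeries ℤℓ, x = (ℓ : LaurentSeries ℤℓ) * y := by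
  constructor
  · intro h
    refine ⟨x.map (GaussRing.divL ℓ), ?_⟩
    ext k
    rw [GaussRing.natCast_mul_coeff, HahnSeries.map_coeff]
    have hk : resZ ℓ (x.coeff k) = 0 := by
      have := congrArg (fun z => z.coeff k) h
      simpa using this
    rw [GaussRing.mul_divL ℓ _ hk]
  · rintro ⟨y, rfl⟩
    rw [map_mul, map_natCast, GaussRing.natCast_series_Fl, zero_mul]

theorem GaussRing.num_natAbs_lt (c b : ℤℓ) (hc : c ≠ 0) (h : c = (ℓ : ℤℓ) * b) :
    (b : ℚ).num.natAbs < (c : ℚ).num.natAbs := by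
  have hb0 : b ≠ 0 := by
    rintro rfl
    exact hc (by rw [h, mul_zero])
  have hbq : (b : ℚ) ≠ 0 := fun h0 => hb0 (Subtype.ext h0)
  have hcq : (c : ℚ) = (((ℓ : ℤ) * (b : ℚ).num : ℤ) : ℚ) / (((b : ℚ).den : ℤ) : ℚ) := by
    have h1 : (c : ℚ) = (ℓ : ℚ) * (b : ℚ) := by
      rw [h]
      show ((ℓ : ℤℓ) : ℚ) * (b : ℚ) = _
      rw [Subring.coe_natCast]
    rw [h1]
    conv_lhs => rw [← Rat.num_div_den (b : ℚ)]
    push_cast
    ring
  have hcop : ((ℓ : ℤ) * (b : ℚ).num).natAbs.Coprime (((b : ℚ).den : ℤ)).natAbs := by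
    rw [Int.natAbs_mul, Int.natAbs_natCast, Int.natAbs_natCast]
    exact Nat.Coprime.mul_left (Nat.Coprime.symm b.2) (b : ℚ).reduced
  have hnum : (c : ℚ).num = (ℓ : ℤ) * (b : ℚ).num := by
    rw [hcq]
    exact Rat.num_div_eq_of_coprime (by exact_mod_cast (b : ℚ).den_pos) hcop
  rw [hnum, Int.natAbs_mul, Int.natAbs_natCast]
  have hpos : 0 < (b : ℚ).num.natAbs := Int.natAbs_pos.mpr (Rat.num_ne_zero.mpr hbq)
  have h2 : 2 ≤ ℓ := (Fact.out : ℓ.Prime).two_le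
  nlinarith

theorem GaussRing.exists_pow_mul_aux (k : ℤ) : ∀ (M : ℕ) (x : LaurentSeries ℤℓ),
    x.coeff k ≠ 0 → ((x.coeff k : ℤℓ) : ℚ).num.natAbs = M →
    ∃ (n : ℕ) (y : LaurentSeries ℤℓ), ρ y ≠ 0 ∧ x = (ℓ : LaurentSeries ℤℓ) ^ n * y := by
  intro M
  induction M using Nat.strong_induction_on with
  | _ M ih =>
    intro x hk hM
    by_cases hr : ρ x = 0
    · obtain ⟨y₁, rfl⟩ := (GaussRing.red_eq_zero_iff ℓ x).mp hr
      have hcoef : (((ℓ : LaurentSeries ℤℓ) * y₁).coeff k) = (ℓ : ℤℓ) * y₁.coeff k :=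
        GaussRing.natCast_mul_coeff ℓ y₁ k
      have hy₁ : y₁.coeff k ≠ 0 := by
        intro h0
        apply hk
        rw [hcoef, h0, mul_zero]
      have hlt := GaussRing.num_natAbs_lt ℓ _ _ hk hcoef
      rw [hM] at hlt
      obtain ⟨n, y, hy, rfl⟩ := ih _ hlt y₁ hy₁ rfl
      exact ⟨n + 1, y, hy, by ring⟩
    · exact ⟨0, x, hr, by simp⟩

/-- Every nonzero series with `ℤ_(ℓ)`-coefficients is a power of `ℓ` times a series which is
nonzero mod `ℓ`. -/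
theorem GaussRing.exists_pow_mul (x : LaurentSeries ℤℓ) (hx : x ≠ 0) :
    ∃ (n : ℕ) (y : LaurentSeries ℤℓ), ρ y ≠ 0 ∧ x = (ℓ : LaurentSeries ℤℓ) ^ n * y := by
  obtain ⟨k, hk⟩ : ∃ k, x.coeff k ≠ 0 := by
    by_contra hcon
    exact hx (HahnSeries.ext (funext fun k => not_not.mp (not_exists.mp hcon k)))
  exact GaussRing.exists_pow_mul_aux ℓ k _ x hk rfl

theorem GaussRing.ne_zero_of_red_ne_zero {x : LaurentSeries ℤℓ} (h : ρ x ≠ 0) : x ≠ 0 := by
  rintro rfl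
  exact h (map_zero _)

/-- The Gauss valuation ring inside `ℚ((q))`: `x ∈ gaussO ℓ` iff `x * b = a` for series `a, b`
with `ℤ_(ℓ)`-coefficients, `b` nonzero mod `ℓ`. -/
noncomputable def gaussO (ℓ : ℕ) [Fact ℓ.Prime] : Subring (LaurentSeries ℚ) where
  carrier := {x | ∃ a b : LaurentSeries ↥(GaloisRep.ratLocalizedAt ℓ),
    coeffMap (resZ ℓ) b ≠ 0 ∧
    x * coeffMap (GaloisRep.ratLocalizedAt ℓ).subtype b =
      coeffMap (GaloisRep.ratLocalizedAt ℓ).subtype a}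
  mul_mem' := by
    rintro x y ⟨a, b, hb, h⟩ ⟨a', b', hb', h'⟩
    refine ⟨a * a', b * b', ?_, ?_⟩
    · rw [map_mul]
      exact mul_ne_zero hb hb'
    · rw [map_mul, map_mul, ← h, ← h']
      ring
  one_mem' := ⟨1, 1, by rw [map_one]; exact one_ne_zero, by rw [one_mul]⟩
  add_mem' := by
    rintro x y ⟨a, b, hb, h⟩ ⟨a', b', hb', h'⟩
    refine ⟨a * b' + a' * b, b * b', ?_, ?_⟩
    · rw [map_mul]
      exact mul_ne_zero hb hb'
    · rw [map_add, map_mul, map_mul, map_mul, ← h, ← h']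
      ring
  zero_mem' := ⟨0, 1, by rw [map_one]; exact one_ne_zero, by rw [zero_mul, map_zero]⟩
  neg_mem' := by
    rintro x ⟨a, b, hb, h⟩
    exact ⟨-a, b, hb, by rw [map_neg, ← h, neg_mul]⟩

theorem mem_gaussO_iff (x : LaurentSeries ℚ) :
    x ∈ gaussO ℓ ↔ ∃ a b : LaurentSeries ↥(GaloisRep.ratLocalizedAt ℓ),
      coeffMap (resZ ℓ) b ≠ 0 ∧
      x * coeffMap (GaloisRep.ratLocalizedAt ℓ).subtype b =
        coeffMap (GaloisRep.ratLocalizedAt ℓ).subtype a := Iff.rfl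

/-- The underlying function of the reduction map. -/
noncomputable def GaussRing.redFun (x : ↥(gaussO ℓ)) : LaurentSeries (ZMod ℓ) :=
  ρ x.2.choose / ρ x.2.choose_spec.choose

theorem GaussRing.cross_eq {x : LaurentSeries ℚ} {a b a' b' : LaurentSeries ℤℓ}
    (h : x * ι b = ι a) (h' : x * ι b' = ι a') : a * b' = a' * b := by
  apply GaussRing.incl_injective ℓ
  rw [map_mul, map_mul, ← h, ← h']
  ring

theorem GaussRing.redFun_eq (x : ↥(gaussO ℓ)) (a b : LaurentSeries ℤℓ) (hb : ρ b ≠ 0)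
    (h : (x : LaurentSeries ℚ) * ι b = ι a) : GaussRing.redFun ℓ x = ρ a / ρ b := by
  have hb₀ := x.2.choose_spec.choose_spec.1
  have h₀ := x.2.choose_spec.choose_spec.2
  have hc := congrArg (ρ) (GaussRing.cross_eq ℓ h₀ h)
  rw [map_mul, map_mul] at hc
  unfold GaussRing.redFun
  rw [div_eq_div_iff hb₀ hb]
  exact hc

/-- Reduction mod `ℓ` on the Gauss valuation ring. -/
noncomputable def gaussRedO : ↥(gaussO ℓ) →+* LaurentSeries (ZMod ℓ) where
  toFun := GaussRing.redFun ℓ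
  map_one' := by
    rw [GaussRing.redFun_eq ℓ 1 1 1 (by rw [map_one]; exact one_ne_zero)
      (by rw [map_one, mul_one]; rfl), map_one, div_one]
  map_mul' := by
    rintro ⟨x, a, b, hb, h⟩ ⟨y, a', b', hb', h'⟩
    rw [GaussRing.redFun_eq ℓ ⟨x, a, b, hb, h⟩ a b hb h,
      GaussRing.redFun_eq ℓ ⟨y, a', b', hb', h'⟩ a' b' hb' h',
      GaussRing.redFun_eq ℓ _ (a * a') (b * b') (by rw [map_mul]; exact mul_ne_zero hb hb')
        (by
          show x * y * ι (b * b') = ι (a * a')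
          rw [map_mul, map_mul, ← h, ← h']
          ring),
      map_mul, map_mul, mul_div_mul_comm]
  map_zero' := by
    rw [GaussRing.redFun_eq ℓ 0 0 1 (by rw [map_one]; exact one_ne_zero)
      (by rw [map_one, mul_one, map_zero]; rfl), map_zero, zero_div]
  map_add' := by
    rintro ⟨x, a, b, hb, h⟩ ⟨y, a', b', hb', h'⟩
    rw [GaussRing.redFun_eq ℓ ⟨x, a, b, hb, h⟩ a b hb h,
      GaussRing.redFun_eq ℓ ⟨y, a', b', hb', h'⟩ a' b' hb' h',
      GaussRing.redFun_eq ℓ _ (a * b' + a' * b) (b * b')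
        (by rw [map_mul]; exact mul_ne_zero hb hb')
        (by
          show (x + y) * ι (b * b') = ι (a * b' + a' * b)
          rw [map_add, map_mul, map_mul, map_mul, ← h, ← h']
          ring),
      map_add, map_mul, map_mul, map_mul, div_add_div _ _ hb hb', mul_comm (ρ b) (ρ a')]

/-- Characterisation of the reduction. -/
theorem gaussRedO_mul_eq (x : ↥(gaussO ℓ)) (a b : LaurentSeries ↥(GaloisRep.ratLocalizedAt ℓ))
    (h : (x : LaurentSeries ℚ) * coeffMap (GaloisRep.ratLocalizedAt ℓ).subtype b =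
      coeffMap (GaloisRep.ratLocalizedAt ℓ).subtype a) :
    gaussRedO ℓ x * coeffMap (resZ ℓ) b = coeffMap (resZ ℓ) a := by
  obtain ⟨a₀, b₀, hb₀, h₀⟩ := x.2
  have hc := congrArg (ρ) (GaussRing.cross_eq ℓ h₀ h)
  rw [map_mul, map_mul] at hc
  show GaussRing.redFun ℓ x * ρ b = ρ a
  rw [GaussRing.redFun_eq ℓ x a₀ b₀ hb₀ h₀, div_mul_eq_mul_div, div_eq_iff hb₀]
  exact hc

/-- Series with `ℓ`-integral coefficients lie in `gaussO`; reduction is coefficientwise. -/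
theorem coeffMap_subtype_mem_gaussO (a : LaurentSeries ↥(GaloisRep.ratLocalizedAt ℓ)) :
    coeffMap (GaloisRep.ratLocalizedAt ℓ).subtype a ∈ gaussO ℓ :=
  ⟨a, 1, by rw [map_one]; exact one_ne_zero, by rw [map_one, mul_one]⟩

theorem gaussRedO_coeffMap_subtype (a : LaurentSeries ↥(GaloisRep.ratLocalizedAt ℓ)) :
    gaussRedO ℓ ⟨coeffMap (GaloisRep.ratLocalizedAt ℓ).subtype a,
      coeffMap_subtype_mem_gaussO ℓ a⟩ = coeffMap (resZ ℓ) a := by
  have h := gaussRedO_mul_eq ℓ ⟨ι a, coeffMap_subtype_mem_gaussO ℓ a⟩ a 1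
    (by rw [map_one, mul_one])
  rwa [map_one, mul_one] at h

theorem GaussRing.coeffMap_intCast_eq (f : LaurentSeries ℤ) :
    coeffMap (Int.castRingHom ℚ) f = ι (coeffMap (Int.castRingHom ℤℓ) f) := by
  rw [coeffMap_coeffMap]
  exact coeffMap_congr (RingHom.ext_int _ _) f

/-- Series with integer coefficients. -/
theorem coeffMap_intCast_mem_gaussO (f : LaurentSeries ℤ) :
    coeffMap (Int.castRingHom ℚ) f ∈ gaussO ℓ := by
  rw [GaussRing.coeffMap_intCast_eq ℓ f]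
  exact coeffMap_subtype_mem_gaussO ℓ _

theorem gaussRedO_coeffMap_intCast (f : LaurentSeries ℤ) :
    gaussRedO ℓ ⟨coeffMap (Int.castRingHom ℚ) f, coeffMap_intCast_mem_gaussO ℓ f⟩ =
      coeffMap (Int.castRingHom (ZMod ℓ)) f := by
  have h := gaussRedO_mul_eq ℓ ⟨coeffMap (Int.castRingHom ℚ) f, coeffMap_intCast_mem_gaussO ℓ f⟩
    (coeffMap (Int.castRingHom ℤℓ) f) 1
    (by rw [map_one, mul_one]; exact GaussRing.coeffMap_intCast_eq ℓ f)
  rw [map_one, mul_one] at h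
  rw [h, coeffMap_coeffMap]
  exact coeffMap_congr (RingHom.ext_int _ _) f

/-- The kernel of the reduction is generated by `ℓ`. -/
theorem gaussRedO_eq_zero_iff (x : ↥(gaussO ℓ)) :
    gaussRedO ℓ x = 0 ↔ ∃ y : ↥(gaussO ℓ), x = (ℓ : ↥(gaussO ℓ)) * y := by
  constructor
  · intro hx
    obtain ⟨a, b, hb, h⟩ := x.2
    have h1 := gaussRedO_mul_eq ℓ x a b h
    rw [hx, zero_mul] at h1
    obtain ⟨a₁, rfl⟩ := (GaussRing.red_eq_zero_iff ℓ a).mp h1.symm
    have hℓ := GaussRing.natCast_series_Q_ne_zero ℓ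
    refine ⟨⟨(x : LaurentSeries ℚ) * (ℓ : LaurentSeries ℚ)⁻¹, a₁, b, hb, ?_⟩, ?_⟩
    · rw [map_mul, map_natCast] at h
      rw [mul_right_comm, h, mul_comm, ← mul_assoc, inv_mul_cancel₀ hℓ, one_mul]
    · apply Subtype.ext
      show (x : LaurentSeries ℚ) = ((ℓ : ↥(gaussO ℓ)) : LaurentSeries ℚ) *
        ((x : LaurentSeries ℚ) * (ℓ : LaurentSeries ℚ)⁻¹)
      rw [Subring.coe_natCast, mul_comm, mul_assoc, inv_mul_cancel₀ hℓ, mul_one]
  · rintro ⟨y, rfl⟩
    rw [map_mul, map_natCast, GaussRing.natCast_series_Fl, zero_mul]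

/-- Elements with nonzero reduction are units. -/
theorem inv_mem_gaussO {x : LaurentSeries ℚ} (hx : x ∈ gaussO ℓ)
    (h : gaussRedO ℓ ⟨x, hx⟩ ≠ 0) : x⁻¹ ∈ gaussO ℓ := by
  obtain ⟨a, b, hb, hab⟩ := hx
  have h1 := gaussRedO_mul_eq ℓ ⟨x, a, b, hb, hab⟩ a b hab
  have ha : ρ a ≠ 0 := by
    rw [← h1]
    exact mul_ne_zero h hb
  have hx0 : x ≠ 0 := by
    rintro rfl
    rw [zero_mul] at hab
    exact GaussRing.ne_zero_of_red_ne_zero ℓ ha ((GaussRing.incl_eq_zero_iff ℓ a).mp hab.symm)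
  exact ⟨b, a, ha, by rw [← hab, ← mul_assoc, inv_mul_cancel₀ hx0, one_mul]⟩

/-- The fraction field of `gaussO ℓ` inside `ℚ((q))`. -/
noncomputable def gaussK (ℓ : ℕ) [Fact ℓ.Prime] : IntermediateField ℚ (LaurentSeries ℚ) where
  carrier := {x | ∃ a b : LaurentSeries ↥(GaloisRep.ratLocalizedAt ℓ), b ≠ 0 ∧
    x * coeffMap (GaloisRep.ratLocalizedAt ℓ).subtype b =
      coeffMap (GaloisRep.ratLocalizedAt ℓ).subtype a}
  mul_mem' := by
    rintro x y ⟨a, b, hb, h⟩ ⟨a', b', hb', h'⟩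
    refine ⟨a * a', b * b', mul_ne_zero hb hb', ?_⟩
    rw [map_mul, map_mul, ← h, ← h']
    ring
  one_mem' := ⟨1, 1, one_ne_zero, by rw [one_mul]⟩
  add_mem' := by
    rintro x y ⟨a, b, hb, h⟩ ⟨a', b', hb', h'⟩
    refine ⟨a * b' + a' * b, b * b', mul_ne_zero hb hb', ?_⟩
    rw [map_add, map_mul, map_mul, map_mul, ← h, ← h']
    ring
  zero_mem' := ⟨0, 1, one_ne_zero, by rw [zero_mul, map_zero]⟩
  algebraMap_mem' := by
    intro c
    have hden : ((c.den : ℕ) : ↥(GaloisRep.ratLocalizedAt ℓ)) ≠ 0 :=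
      Nat.cast_ne_zero.mpr c.den_ne_zero
    refine ⟨HahnSeries.C ((c.num : ℤ) : ↥(GaloisRep.ratLocalizedAt ℓ)),
      HahnSeries.C ((c.den : ℕ) : ↥(GaloisRep.ratLocalizedAt ℓ)), ?_, ?_⟩
    · intro h0
      apply hden
      have h1 : (HahnSeries.C ((c.den : ℕ) : ↥(GaloisRep.ratLocalizedAt ℓ)) :
          LaurentSeries ↥(GaloisRep.ratLocalizedAt ℓ)).coeff 0 = 0 := by
        rw [h0]; rfl
      rwa [HahnSeries.C_apply, HahnSeries.coeff_single_same] at h1
    · rw [algebraMap_apply_eq_single, HahnSeries.C_apply, HahnSeries.C_apply, coeffMap_single,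
        coeffMap_single, HahnSeries.single_mul_single, add_zero]
      congr 1
      show c * (((c.den : ℕ) : ↥(GaloisRep.ratLocalizedAt ℓ)) : ℚ) =
        (((c.num : ℤ) : ↥(GaloisRep.ratLocalizedAt ℓ)) : ℚ)
      rw [Subring.coe_natCast, Subring.coe_intCast]
      exact Rat.mul_den_eq_num c
  inv_mem' := by
    rintro x ⟨a, b, hb, h⟩
    by_cases hx0 : x = 0
    · subst hx0
      exact ⟨0, 1, one_ne_zero, by rw [inv_zero, zero_mul, map_zero]⟩
    · have ha : a ≠ 0 := by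
        rintro rfl
        rw [map_zero] at h
        rcases mul_eq_zero.mp h with h1 | h1
        · exact hx0 h1
        · exact hb ((GaussRing.incl_eq_zero_iff ℓ b).mp h1)
      exact ⟨b, a, ha, by rw [← h, ← mul_assoc, inv_mul_cancel₀ hx0, one_mul]⟩

theorem mem_gaussK_iff (x : LaurentSeries ℚ) :
    x ∈ gaussK ℓ ↔ ∃ a b : LaurentSeries ↥(GaloisRep.ratLocalizedAt ℓ), b ≠ 0 ∧
      x * coeffMap (GaloisRep.ratLocalizedAt ℓ).subtype b =
        coeffMap (GaloisRep.ratLocalizedAt ℓ).subtype a := Iff.rfl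

theorem gaussO_le_gaussK {x : LaurentSeries ℚ} (hx : x ∈ gaussO ℓ) : x ∈ gaussK ℓ := by
  obtain ⟨a, b, hb, h⟩ := hx
  exact ⟨a, b, GaussRing.ne_zero_of_red_ne_zero ℓ hb, h⟩

/-- Every nonzero element of the fraction field is `ℓ ^ n` times a unit of `gaussO ℓ`. -/
theorem exists_zpow_mul_of_mem_gaussK {x : LaurentSeries ℚ} (hx : x ∈ gaussK ℓ) (hx0 : x ≠ 0) :
    ∃ (n : ℤ) (u : LaurentSeries ℚ) (hu : u ∈ gaussO ℓ),
      gaussRedO ℓ ⟨u, hu⟩ ≠ 0 ∧ x = (ℓ : LaurentSeries ℚ) ^ n * u := by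
  obtain ⟨a, b, hb, h⟩ := hx
  have ha : a ≠ 0 := by
    rintro rfl
    rw [map_zero] at h
    rcases mul_eq_zero.mp h with h1 | h1
    · exact hx0 h1
    · exact hb ((GaussRing.incl_eq_zero_iff ℓ b).mp h1)
  obtain ⟨m, a', ha', rfl⟩ := GaussRing.exists_pow_mul ℓ a ha
  obtain ⟨n, b', hb', rfl⟩ := GaussRing.exists_pow_mul ℓ b hb
  have hℓ := GaussRing.natCast_series_Q_ne_zero ℓ
  have hb'0 : ι b' ≠ 0 := fun h0 =>
    GaussRing.ne_zero_of_red_ne_zero ℓ hb' ((GaussRing.incl_eq_zero_iff ℓ b').mp h0)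
  have hu : ι a' / ι b' ∈ gaussO ℓ := ⟨a', b', hb', div_mul_cancel₀ _ hb'0⟩
  refine ⟨(m : ℤ) - n, ι a' / ι b', hu, ?_, ?_⟩
  · intro h0
    have h1 := gaussRedO_mul_eq ℓ ⟨ι a' / ι b', hu⟩ a' b' (div_mul_cancel₀ _ hb'0)
    rw [h0, zero_mul] at h1
    exact ha' h1.symm
  · simp only [map_mul, map_pow, map_natCast] at h
    rw [zpow_sub₀ hℓ, zpow_natCast, zpow_natCast, div_mul_div_comm, eq_div_iff
      (mul_ne_zero (pow_ne_zero _ hℓ) hb'0)]
    exact h

end Series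

end Fermat.Agent.S28
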