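import Fermat.Agent.S24.CoeffField
import Fermat.Agent.S24.LaurentRot
import Fermat.Prelude.Def_ModularCurve_X0ModL

/-!
P10 / [B] part (1): the modular equation at a prime `p`, analytic form.

The `p + 1` functions `J(pτ)` and `J((τ + b)/p)`, `0 ≤ b < p`, are permuted by `SL(2, ℤ)`; hence
the coefficients of `∏ (X - f)` are polynomials in `J`. Taking `q_p`-expansions gives an identity
in `ℂ((t))[X]`, `t = q^{1/p}`.
-/

set_option autoImplicit false

namespace Fermat.Agent.S28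

open UpperHalfPlane ModularCurve Fermat.Agent.S24 Polynomial
open scoped MatrixGroups Manifold

namespace ModEqAn

/-- The `p + 1` translates of `τ ↦ J(pτ)`. -/
noncomputable def fam (p : ℕ) : Option (Fin p) → ℍ → ℂ
  | none => Jabd p 0 1
  | some b => Jabd 1 b p

theorem Jabd_one_zero_one : Jabd 1 0 1 = Jfun := by
  funext τ
  simp [Jabd]

/-- `J((aτ + b + kd)/d) = J((aτ + b)/d)`. -/
theorem Jabd_add_mul (a b d k : ℕ) (ha : 0 < a) (hd : 0 < d) :
    Jabd a (b + k * d) d = Jabd a b d := by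
  funext τ
  rw [JTranslates.Jabd_apply a _ d ha hd, JTranslates.Jabd_apply a b d ha hd]
  have him := JTranslates.im_pos_aux a b d ha hd τ τ.im_pos
  have hd0 : (d : ℂ) ≠ 0 := Nat.cast_ne_zero.mpr hd.ne'
  have key : ((a : ℂ) * (τ : ℂ) + ((b + k * d : ℕ) : ℂ)) / (d : ℂ) =
      ((a : ℂ) * (τ : ℂ) + (b : ℂ)) / (d : ℂ) + (k : ℂ) := by
    push_cast
    field_simp
    ring
  have him' : 0 < (((a : ℂ) * (τ : ℂ) + (b : ℂ)) / (d : ℂ) + (k : ℂ)).im := by simpa using him
  rw [← JTranslates.Jfun_add_nat k _ him him']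
  congr 1
  exact UpperHalfPlane.ext key

theorem slComp_fam_none (p : ℕ) (hp : p.Prime) (γ : SL(2, ℤ)) :
    ∃ i, slComp γ (Jabd p 0 1) = fam p i := by
  have : NeZero p := ⟨hp.ne_zero⟩
  obtain ⟨a, b, d', had, -, h⟩ := slComp_Jabd p γ
  have hdvd : a ∣ p := Dvd.intro _ had
  rcases (Nat.dvd_prime hp).mp hdvd with ha | ha
  · -- `a = 1`, `d' = p`
    have hd' : d' = p := by rw [← had, ha, one_mul]
    refine ⟨some ⟨b % p, Nat.mod_lt _ hp.pos⟩, ?_⟩
    rw [h, ha, hd']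
    show Jabd 1 b p = Jabd 1 (b % p) p
    have h2 := Jabd_add_mul 1 (b % p) p (b / p) one_pos hp.pos
    have h3 : b % p + b / p * p = b := by rw [mul_comm]; exact Nat.mod_add_div b p
    rw [h3] at h2
    exact h2
  · -- `a = p`, `d' = 1`
    have hd' : d' = 1 := by
      have h1 : p * d' = p * 1 := by rw [← ha, had, mul_one]; exact ha.symm
      exact Nat.eq_of_mul_eq_mul_left hp.pos h1
    refine ⟨none, ?_⟩
    rw [h, ha, hd']
    show Jabd p b 1 = Jabd p 0 1
    have h2 := Jabd_add_mul p 0 1 b hp.pos one_pos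
    simpa using h2

/-- The matrix `(0 -1; 1 b)`. -/
def gam (b : ℕ) : SL(2, ℤ) := ⟨!![0, -1; 1, (b : ℤ)], by simp [Matrix.det_fin_two]⟩

theorem fam_some_eq (p : ℕ) (hp : p.Prime) (b : ℕ) :
    Jabd 1 b p = slComp (gam b) (Jabd p 0 1) := by
  symm
  apply JTranslates.slComp_Jabd_of_identity p 1 b p hp.pos one_pos hp.pos (gam b) ModularGroup.S
  · simp [gam, ModularGroup.S]
  · simp [gam, ModularGroup.S]
  · simp [gam, ModularGroup.S]
  · simp [gam, ModularGroup.S]

theorem slComp_fam (p : ℕ) (hp : p.Prime) (γ : SL(2, ℤ)) (i : Option (Fin p)) :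
    ∃ i', slComp γ (fam p i) = fam p i' := by
  cases i with
  | none => exact slComp_fam_none p hp γ
  | some b =>
    show ∃ i', slComp γ (Jabd 1 b p) = fam p i'
    rw [fam_some_eq p hp b, ← slComp_mul]
    exact slComp_fam_none p hp (gam b * γ)

theorem isMerPer_fam (p : ℕ) (hp : p.Prime) (i : Option (Fin p)) : IsMerPer p (fam p i) := by
  cases i with
  | none => exact isMerPer_Jabd p p 0 1 hp.pos one_pos (one_dvd p) hp.pos
  | some b => exact isMerPer_Jabd p 1 b p one_pos hp.pos dvd_rfl hp.pos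

theorem fam_mem_RN (p : ℕ) (hp : p.Prime) (i : Option (Fin p)) : fam p i ∈ RN p := by
  intro γ
  obtain ⟨i', hi'⟩ := slComp_fam p hp γ i
  rw [hi']
  exact isMerPer_fam p hp i'

theorem jq_coeff_neg_one : ModularCurve.jq.coeff (-1) = 1 := by
  have h := ModularCurve.coeff_jq_pow_self 1
  rw [pow_one] at h
  exact h

theorem qInf_fam_none_coeff (p : ℕ) (hp : p.Prime) : (qInf p (Jabd p 0 1)).coeff (-1) = 0 := by
  rw [qInf_Jabd_coeff p p 0 1 hp.pos one_pos (one_dvd p) hp.pos, if_neg]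
  intro h
  rw [Nat.div_one] at h
  have h1 : ((p * p : ℕ) : ℤ) ∣ 1 := (dvd_neg).mp h
  have h2 : p * p ∣ 1 := Int.natCast_dvd_natCast.mp (by simpa using h1)
  have h3 : p * p = 1 := Nat.dvd_one.mp h2
  have h4 : 2 ≤ p := hp.two_le
  nlinarith

theorem qInf_fam_some_coeff (p : ℕ) (hp : p.Prime) (b : ℕ) :
    (qInf p (Jabd 1 b p)).coeff (-1) =
      (Complex.exp (2 * (Real.pi : ℂ) * Complex.I * (b : ℂ) / (p : ℂ)))⁻¹ := by
  rw [qInf_Jabd_coeff p 1 b p one_pos hp.pos dvd_rfl hp.pos]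
  have h1 : 1 * (p / p) = 1 := by rw [Nat.div_self hp.pos]
  rw [h1, if_pos (by simp)]
  simp

theorem fam_injective (p : ℕ) (hp : p.Prime) : Function.Injective (fam p) := by
  have hp0 : (p : ℂ) ≠ 0 := Nat.cast_ne_zero.mpr hp.ne_zero
  have key : ∀ b : Fin p, (qInf p (fam p (some b))).coeff (-1) ≠ 0 := by
    intro b
    show (qInf p (Jabd 1 b p)).coeff (-1) ≠ 0
    rw [qInf_fam_some_coeff p hp]
    exact inv_ne_zero (Complex.exp_ne_zero _)
  intro i i' h
  cases i with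
  | none =>
    cases i' with
    | none => rfl
    | some b' =>
      exfalso
      apply key b'
      rw [← h]
      exact qInf_fam_none_coeff p hp
  | some b =>
    cases i' with
    | none =>
      exfalso
      apply key b
      rw [h]
      exact qInf_fam_none_coeff p hp
    | some b' =>
      have h1 : (qInf p (Jabd 1 b p)).coeff (-1) = (qInf p (Jabd 1 b' p)).coeff (-1) := by
        have h2 : Jabd 1 b p = Jabd 1 b' p := h
        rw [h2]
      rw [qInf_fam_some_coeff p hp, qInf_fam_some_coeff p hp, inv_inj,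
        Complex.exp_eq_exp_iff_exists_int] at h1
      obtain ⟨n, hn⟩ := h1
      have hpi : (2 * (Real.pi : ℂ) * Complex.I) ≠ 0 := Complex.two_pi_I_ne_zero
      have h3 : ((b : ℕ) : ℂ) = ((b' : ℕ) : ℂ) + (n : ℂ) * (p : ℂ) := by
        field_simp at hn
        linear_combination hn
      have h5 : ((b : ℕ) : ℤ) = ((b' : ℕ) : ℤ) + n * (p : ℤ) := by exact_mod_cast h3
      have h6 : ((b : ℕ) : ℤ) % (p : ℤ) = ((b' : ℕ) : ℤ) % (p : ℤ) := by
        rw [h5, Int.add_mul_emod_self_right]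
      have h7 : (b : ℕ) % p = (b' : ℕ) % p := by exact_mod_cast h6
      rw [Nat.mod_eq_of_lt b.2, Nat.mod_eq_of_lt b'.2] at h7
      exact congrArg some (Fin.ext h7)

/-- The family as elements of `RN p`. -/
noncomputable def famR (p : ℕ) (hp : p.Prime) (i : Option (Fin p)) : ↥(RN p) :=
  ⟨fam p i, fam_mem_RN p hp i⟩

/-- `SL(2, ℤ)` permutes the family. -/
theorem exists_perm (p : ℕ) (hp : p.Prime) (γ : SL(2, ℤ)) :
    ∃ σ : Equiv.Perm (Option (Fin p)), ∀ i, actR p γ (famR p hp i) = famR p hp (σ i) := by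
  choose σ hσ using slComp_fam p hp γ
  have hinj : Function.Injective σ := by
    intro i i' h
    apply fam_injective p hp
    apply slComp_injective γ
    rw [hσ, hσ, h]
  refine ⟨Equiv.ofBijective σ (Finite.injective_iff_bijective.mp hinj), fun i => ?_⟩
  apply Subtype.ext
  rw [coe_actR]
  exact hσ i

/-- The polynomial `∏ (X - f)` over the family. -/
noncomputable def Psi (p : ℕ) (hp : p.Prime) : Polynomial ↥(RN p) :=
  ∏ i : Option (Fin p), (X - C (famR p hp i))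

theorem Psi_map_actR (p : ℕ) (hp : p.Prime) (γ : SL(2, ℤ)) :
    (Psi p hp).map (actR p γ) = Psi p hp := by
  obtain ⟨σ, hσ⟩ := exists_perm p hp γ
  unfold Psi
  rw [Polynomial.map_prod]
  simp only [Polynomial.map_sub, Polynomial.map_X, Polynomial.map_C, hσ]
  exact Equiv.prod_comp σ (fun i => (X - C (famR p hp i) : Polynomial ↥(RN p)))

theorem actR_Psi_coeff (p : ℕ) (hp : p.Prime) (γ : SL(2, ℤ)) (n : ℕ) :
    actR p γ ((Psi p hp).coeff n) = (Psi p hp).coeff n := by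
  rw [← Polynomial.coeff_map, Psi_map_actR]

/-- The coefficients of `Psi` are polynomials in `J`. -/
theorem exists_poly_Psi_coeff (p : ℕ) (hp : p.Prime) (n : ℕ) :
    ∃ P : Polynomial ℂ, ∀ τ : ℍ, (((Psi p hp).coeff n : ↥(RN p)) : ℍ → ℂ) τ = P.eval (Jfun τ) := by
  have : NeZero p := ⟨hp.ne_zero⟩
  have hmem : (Psi p hp).coeff n ∈ RNk p ⊤ := fun _ _ => Subfield.mem_top _
  obtain ⟨P, hP⟩ := exists_poly_of_mem_RNk p ⊤ hmem (fun γ => actR_Psi_coeff p hp γ n)
  exact ⟨P.map (⊤ : Subfield ℂ).subtype, hP⟩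

/-- Constants as a ring homomorphism into `RN p`. -/
noncomputable def constHom (p : ℕ) : ℂ →+* ↥(RN p) where
  toFun := constRN p
  map_one' := rfl
  map_mul' _ _ := rfl
  map_zero' := rfl
  map_add' _ _ := rfl

/-- Evaluation at a point as a ring homomorphism on `RN p`. -/
noncomputable def evalHom (p : ℕ) (τ : ℍ) : ↥(RN p) →+* ℂ :=
  (Pi.evalRingHom (fun _ : ℍ => ℂ) τ).comp (RN p).subtype

theorem evalHom_apply (p : ℕ) (τ : ℍ) (f : ↥(RN p)) : evalHom p τ f = (f : ℍ → ℂ) τ := rfl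

theorem coe_JdRN_one (p : ℕ) [NeZero p] : ((JdRN p 1 (one_dvd p) : ↥(RN p)) : ℍ → ℂ) = Jfun := by
  rw [coe_JdRN, Jabd_one_zero_one]

/-- A polynomial in `J`, as an element of `RN p`. -/
theorem eq_eval₂_of_forall (p : ℕ) [NeZero p] (P : Polynomial ℂ) (f : ↥(RN p))
    (h : ∀ τ : ℍ, (f : ℍ → ℂ) τ = P.eval (Jfun τ)) :
    f = P.eval₂ (constHom p) (JdRN p 1 (one_dvd p)) := by
  apply Subtype.ext
  funext τ
  rw [h τ]
  have h1 := Polynomial.hom_eval₂ P (constHom p) (evalHom p τ) (JdRN p 1 (one_dvd p))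
  have h2 : (evalHom p τ).comp (constHom p) = RingHom.id ℂ := RingHom.ext fun _ => rfl
  rw [h2, evalHom_apply, evalHom_apply, coe_JdRN_one] at h1
  rw [h1, Polynomial.eval₂_id]

theorem qInfR_comp_constHom (p : ℕ) [NeZero p] :
    (qInfR p).comp (constHom p) = (HahnSeries.C : ℂ →+* LaurentSeries ℂ) := by
  ext c : 1
  show qInf p (fun _ : ℍ => c) = HahnSeries.C c
  exact qInf_const (Nat.pos_of_ne_zero (NeZero.ne p)) c

/-- The evaluation `P ↦ P(j(t^p))` of polynomials at the `q_p`-expansion of `J`. -/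
noncomputable def evJ (p : ℕ) : Polynomial ℂ →+* LaurentSeries ℂ :=
  Polynomial.eval₂RingHom (HahnSeries.C : ℂ →+* LaurentSeries ℂ) (qInf p (Jabd 1 0 1))

theorem qInfR_Psi_coeff (p : ℕ) (hp : p.Prime) [NeZero p] (n : ℕ) (P : Polynomial ℂ)
    (h : ∀ τ : ℍ, (((Psi p hp).coeff n : ↥(RN p)) : ℍ → ℂ) τ = P.eval (Jfun τ)) :
    qInfR p ((Psi p hp).coeff n) = evJ p P := by
  rw [eq_eval₂_of_forall p P _ h, Polynomial.hom_eval₂, qInfR_comp_constHom]
  rfl

theorem Psi_map_qInfR (p : ℕ) (hp : p.Prime) [NeZero p] :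
    (Psi p hp).map (qInfR p) = ∏ i : Option (Fin p), (X - C (qInf p (fam p i))) := by
  unfold Psi
  rw [Polynomial.map_prod]
  simp only [Polynomial.map_sub, Polynomial.map_X, Polynomial.map_C]
  rfl

theorem monic_prodQ (p : ℕ) :
    (∏ i : Option (Fin p), (X - C (qInf p (fam p i)) : Polynomial (LaurentSeries ℂ))).Monic :=
  Polynomial.monic_prod_of_monic _ _ fun _ _ => Polynomial.monic_X_sub_C _

theorem natDegree_prodQ (p : ℕ) :
    (∏ i : Option (Fin p),
      (X - C (qInf p (fam p i)) : Polynomial (LaurentSeries ℂ))).natDegree = p + 1 := by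
  rw [Polynomial.natDegree_prod_of_monic _ _ fun i _ => Polynomial.monic_X_sub_C _]
  simp

end ModEqAn

open ModEqAn in
/-- **The modular equation at a prime `p`, analytic form.**  There is a polynomial
`Φ ∈ ℂ[Y][X]`, monic of degree `p + 1` in `X`, with
`Φ(X, j(t^p)) = (X - j(t^{p²})) ∏_{b < p} (X - j(ζ^b t))` in `ℂ((t))[X]`, the series being the
`q_p`-expansions (`t = q_p = exp(2πiτ/p)`) of `J(τ)`, `J(pτ)` and `J((τ + b)/p)`. -/
theorem exists_modEq_complex (p : ℕ) (hp : p.Prime) :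
    ∃ Φ : Polynomial (Polynomial ℂ), Φ.Monic ∧ Φ.natDegree = p + 1 ∧
      Φ.map (Polynomial.eval₂RingHom (HahnSeries.C : ℂ →+* LaurentSeries ℂ)
          (qInf p (Jabd 1 0 1))) =
        (X - C (qInf p (Jabd p 0 1))) *
          ∏ b ∈ Finset.range p, (X - C (qInf p (Jabd 1 b p))) := by
  have : NeZero p := ⟨hp.ne_zero⟩
  choose P hP using exists_poly_Psi_coeff p hp
  set Q : Polynomial (LaurentSeries ℂ) :=
    ∏ i : Option (Fin p), (X - C (qInf p (fam p i))) with hQ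
  have hQcoeff : ∀ n, Q.coeff n = evJ p (P n) := by
    intro n
    rw [hQ, ← Psi_map_qInfR p hp, Polynomial.coeff_map]
    exact qInfR_Psi_coeff p hp n (P n) (hP n)
  have hdeg : (∑ n ∈ Finset.range (p + 1), C (P n) * X ^ n :
      Polynomial (Polynomial ℂ)).degree < ((p + 1 : ℕ) : WithBot ℕ) := by
    refine (Polynomial.degree_sum_le _ _).trans_lt ?_
    rw [Finset.sup_lt_iff (WithBot.bot_lt_coe _)]
    intro n hn
    refine (Polynomial.degree_C_mul_X_pow_le n (P n)).trans_lt ?_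
    exact_mod_cast Finset.mem_range.mp hn
  have hnat : (X ^ (p + 1) + ∑ n ∈ Finset.range (p + 1), C (P n) * X ^ n :
      Polynomial (Polynomial ℂ)).natDegree = p + 1 := by
    rw [Polynomial.natDegree_add_eq_left_of_degree_lt
      (by rw [Polynomial.degree_X_pow]; exact hdeg), Polynomial.natDegree_X_pow]
  refine ⟨X ^ (p + 1) + ∑ n ∈ Finset.range (p + 1), C (P n) * X ^ n,
    Polynomial.monic_X_pow_add hdeg, hnat, ?_⟩
  have hQeq : Q = X ^ (p + 1) + ∑ n ∈ Finset.range (p + 1), C (Q.coeff n) * X ^ n := by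
    have h1 := (monic_prodQ p).as_sum
    rw [natDegree_prodQ p] at h1
    exact h1
  have hprod : Q = (X - C (qInf p (Jabd p 0 1))) *
      ∏ b ∈ Finset.range p, (X - C (qInf p (Jabd 1 b p))) := by
    rw [hQ, Fintype.prod_option]
    congr 1
    exact Fin.prod_univ_eq_prod_range
      (fun b => (X - C (qInf p (Jabd 1 b p)) : Polynomial (LaurentSeries ℂ))) p
  rw [← hprod, hQeq]
  simp only [Polynomial.map_add, Polynomial.map_pow, Polynomial.map_X, Polynomial.map_sum,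
    Polynomial.map_mul, Polynomial.map_C, hQcoeff]
  rfl

namespace ModEqAn

theorem jqModC_complex_coeff (m : ℤ) :
    (jqModC ℂ).coeff m = ((ModularCurve.jq.coeff m : ℚ) : ℂ) := by
  rw [← coeffMap_jqModC (algebraMap ℚ ℂ), jqModC_rat]
  show algebraMap ℚ ℂ (ModularCurve.jq.coeff m) = _
  simp

/-- The `q_p`-expansion of `J(τ)` is `j(t^p)`. -/
theorem qInf_Jabd_one (p : ℕ) [NeZero p] :
    qInf p (Jabd 1 0 1) = qExpand ℂ p (jqModC ℂ) := by
  have hp : 0 < p := Nat.pos_of_ne_zero (NeZero.ne p)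
  ext n
  rw [qInf_Jabd_coeff p 1 0 1 one_pos one_pos (one_dvd p) hp]
  have h1 : 1 * (p / 1) = p := by rw [Nat.div_one, one_mul]
  rw [h1]
  split_ifs with h
  · obtain ⟨m, rfl⟩ := h
    have hp0 : (p : ℤ) ≠ 0 := Int.natCast_ne_zero.mpr hp.ne'
    rw [qExpand_coeff_mul, Int.mul_ediv_cancel_left _ hp0, jqModC_complex_coeff]
    simp
  · rw [qExpand_coeff_of_not_dvd _ _ h]

/-- The `q_p`-expansion of `J(pτ)` is `j(t^{p²})`. -/
theorem qInf_Jabd_p (p : ℕ) [NeZero p] :
    qInf p (Jabd p 0 1) = qExpand ℂ (p * p) (jqModC ℂ) := by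
  have hp : 0 < p := Nat.pos_of_ne_zero (NeZero.ne p)
  ext n
  rw [qInf_Jabd_coeff p p 0 1 hp one_pos (one_dvd p) hp]
  have h1 : p * (p / 1) = p * p := by rw [Nat.div_one]
  rw [h1]
  split_ifs with h
  · obtain ⟨m, rfl⟩ := h
    have hp0 : ((p * p : ℕ) : ℤ) ≠ 0 := Int.natCast_ne_zero.mpr (Nat.mul_pos hp hp).ne'
    rw [qExpand_coeff_mul, Int.mul_ediv_cancel_left _ hp0, jqModC_complex_coeff]
    simp
  · rw [qExpand_coeff_of_not_dvd _ _ h]

/-- The primitive `p`-th root of unity `exp(2πi/p)` as a unit of `ℂ`. -/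
noncomputable def zetaU (p : ℕ) : ℂˣ :=
  Units.mk0 (Complex.exp (2 * (Real.pi : ℂ) * Complex.I / (p : ℂ))) (Complex.exp_ne_zero _)

theorem isPrimitiveRoot_zetaU (p : ℕ) [NeZero p] : IsPrimitiveRoot (zetaU p) p := by
  rw [← IsPrimitiveRoot.coe_units_iff]
  exact Complex.isPrimitiveRoot_exp p (NeZero.ne p)

/-- The `q_p`-expansion of `J((τ + b)/p)` is `j(ζ^b t)`. -/
theorem qInf_Jabd_rot (p : ℕ) [NeZero p] (b : ℕ) :
    qInf p (Jabd 1 b p) = laurentRot (zetaU p ^ b) (jqModC ℂ) := by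
  have hp : 0 < p := Nat.pos_of_ne_zero (NeZero.ne p)
  ext n
  rw [qInf_Jabd_coeff p 1 b p one_pos hp dvd_rfl hp]
  have h1 : 1 * (p / p) = 1 := by rw [Nat.div_self hp]
  rw [h1, if_pos (by simp), laurentRot_coeff, jqModC_complex_coeff, mul_comm]
  congr 1
  · rw [Units.val_zpow_eq_zpow_val, Units.val_pow_eq_pow_val]
    congr 1
    · show _ = Complex.exp (2 * (Real.pi : ℂ) * Complex.I / (p : ℂ)) ^ b
      rw [← Complex.exp_nat_mul]
      congr 1
      ring
    · simp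
  · simp

theorem eval₂RingHom_eq_aeval (x : LaurentSeries ℂ) :
    Polynomial.eval₂RingHom (HahnSeries.C : ℂ →+* LaurentSeries ℂ) x =
      (Polynomial.aeval x : Polynomial ℂ →ₐ[ℂ] LaurentSeries ℂ).toRingHom := by
  refine RingHom.ext fun P => ?_
  show Polynomial.eval₂ HahnSeries.C x P = Polynomial.aeval x P
  rw [Polynomial.aeval_def]
  congr 1
  refine RingHom.ext fun c => ?_
  rw [HahnSeries.algebraMap_apply']
  simp

end ModEqAn

open ModEqAn in
/-- **The modular equation at a prime `p` over `ℂ`, formal form.**  With `ζ = exp(2πi/p)`,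
`Φ(X, j(t^p)) = (X - j(t^{p²})) ∏_{b < p} (X - j(ζ^b t))` in `ℂ((t))[X]`. -/
theorem exists_modEq_complex_formal (p : ℕ) [NeZero p] (hp : p.Prime) :
    ∃ (ζ : ℂˣ) (Φ : Polynomial (Polynomial ℂ)), IsPrimitiveRoot ζ p ∧ Φ.Monic ∧
      Φ.natDegree = p + 1 ∧
      Φ.map (Polynomial.aeval (qExpand ℂ p (jqModC ℂ))).toRingHom =
        (X - C (qExpand ℂ (p * p) (jqModC ℂ))) *
          ∏ b ∈ Finset.range p, (X - C (laurentRot (ζ ^ b) (jqModC ℂ))) := by
  obtain ⟨Φ, hm, hd, hΦ⟩ := exists_modEq_complex p hp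
  refine ⟨zetaU p, Φ, isPrimitiveRoot_zetaU p, hm, hd, ?_⟩
  rw [eval₂RingHom_eq_aeval, qInf_Jabd_one, qInf_Jabd_p] at hΦ
  rw [hΦ]
  congr 1
  exact Finset.prod_congr rfl fun b _ => by rw [qInf_Jabd_rot]

end Fermat.Agent.S28
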