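import Fermat.Agent.S24.JTranslates
import Fermat.Agent.S24.LaurentRot
import Fermat.Prelude.Def_ModularCurve_X0ModL

/-!
P10 / S28, module [B]: bridge between the analytic expansions at `i∞` of the translates
`τ ↦ J((aτ + b)/d)` of the `j`-function and formal Laurent series:

  `qInf N (Jabd a b d) = j(ζ_d^b t^{a N / d})`,

where `j(t) = jqModC ℂ`, `t ↦ t^M` is `qExpand ℂ M` and `t ↦ ζ t` is `laurentRot ζ`.
-/

set_option autoImplicit false

namespace Fermat.Agent.S28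

namespace ModEqBridge

open ModularCurve Fermat.Agent.S24

/-- The root of unity `exp(2πi/d)` as a unit of `ℂ`. -/
noncomputable def zetaC (d : ℕ) : ℂˣ :=
  Units.mk0 (Complex.exp (2 * (Real.pi : ℂ) * Complex.I / (d : ℂ))) (Complex.exp_ne_zero _)

theorem coe_zetaC (d : ℕ) :
    ((zetaC d : ℂˣ) : ℂ) = Complex.exp (2 * (Real.pi : ℂ) * Complex.I / (d : ℂ)) := rfl

theorem isPrimitiveRoot_zetaC (d : ℕ) [NeZero d] : IsPrimitiveRoot (zetaC d) d := by
  rw [← IsPrimitiveRoot.coe_units_iff, coe_zetaC]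
  exact Complex.isPrimitiveRoot_exp d (NeZero.ne d)

theorem coeff_jqModC_complex (m : ℤ) : (jqModC ℂ).coeff m = ((jq.coeff m : ℚ) : ℂ) := by
  rw [← coeffMap_jqModC (algebraMap ℚ ℂ), coeffMap_coeff, jqModC_rat]
  rfl

/-- The expansion at `i∞` (in the parameter `q_N`) of `J((aτ + b)/d)` as a formal series. -/
theorem qInf_Jabd_eq (N a b d : ℕ) (ha : 0 < a) (hd : 0 < d) (hdN : d ∣ N) (hN : 0 < N)
    (M : ℕ) [NeZero M] (hM : M = a * (N / d)) :
    qInf N (Jabd a b d) = qExpand ℂ M (laurentRot (zetaC d ^ b) (jqModC ℂ)) := by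
  subst hM
  have hMz : ((a * (N / d) : ℕ) : ℤ) ≠ 0 := by
    exact_mod_cast NeZero.ne (a * (N / d))
  have hexp : Complex.exp (2 * (Real.pi : ℂ) * Complex.I * (b : ℂ) / (d : ℂ))
      = (((zetaC d ^ b : ℂˣ)) : ℂ) := by
    rw [Units.val_pow_eq_pow_val, coe_zetaC, ← Complex.exp_nat_mul]
    congr 1
    ring
  ext n
  rw [qInf_Jabd_coeff N a b d ha hd hdN hN n]
  split_ifs with h
  · obtain ⟨m, rfl⟩ := h
    rw [Int.mul_ediv_cancel_left _ hMz, qExpand_coeff_mul, laurentRot_coeff,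
      coeff_jqModC_complex, hexp, mul_comm, Units.val_zpow_eq_zpow_val]
  · rw [qExpand_coeff_of_not_dvd _ _ h]

theorem qInf_Jabd_one_zero_one (p : ℕ) [NeZero p] :
    qInf p (Jabd 1 0 1) = qExpand ℂ p (jqModC ℂ) := by
  have hp : 0 < p := Nat.pos_of_ne_zero (NeZero.ne p)
  rw [qInf_Jabd_eq p 1 0 1 one_pos one_pos (one_dvd p) hp p (by simp), pow_zero, laurentRot_one]

theorem qInf_Jabd_p_zero_one (p : ℕ) [NeZero p] :
    qInf p (Jabd p 0 1) = qExpand ℂ (p * p) (jqModC ℂ) := by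
  have hp : 0 < p := Nat.pos_of_ne_zero (NeZero.ne p)
  rw [qInf_Jabd_eq p p 0 1 hp one_pos (one_dvd p) hp (p * p) (by simp), pow_zero,
    laurentRot_one]

theorem qInf_Jabd_one_b_p (p : ℕ) [NeZero p] (b : ℕ) :
    qInf p (Jabd 1 b p) = laurentRot (zetaC p ^ b) (jqModC ℂ) := by
  have hp : 0 < p := Nat.pos_of_ne_zero (NeZero.ne p)
  rw [qInf_Jabd_eq p 1 b p one_pos hp dvd_rfl hp 1 (by simp [Nat.div_self hp]),
    qExpand_one_apply]

end ModEqBridge

end Fermat.Agent.S28
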